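import Mathlib
import Fermat.Agent.DefRing.PowSer

/-! # Power series rings over complete local noetherian rings. -/

set_option autoImplicit false
set_option linter.unusedSectionVars false

open IsLocalRing MvPowerSeries

namespace Fermat.Agent.TAlg

variable {σ A : Type} [Finite σ] [CommRing A]

section Local

variable [IsLocalRing A]

lemma mem_maxIdeal_iff (f : MvPowerSeries σ A) :
    f ∈ maximalIdeal (MvPowerSeries σ A) ↔ constantCoeff f ∈ maximalIdeal A := by
  rw [mem_maximalIdeal, mem_maximalIdeal, mem_nonunits_iff, mem_nonunits_iff,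
    MvPowerSeries.isUnit_iff_constantCoeff]

lemma X_mem_maxIdeal (i : σ) : (X i : MvPowerSeries σ A) ∈ maximalIdeal (MvPowerSeries σ A) := by
  rw [mem_maxIdeal_iff, constantCoeff_X]
  exact zero_mem _

lemma C_mem_maxIdeal {a : A} (ha : a ∈ maximalIdeal A) :
    (C a : MvPowerSeries σ A) ∈ maximalIdeal (MvPowerSeries σ A) := by
  rw [mem_maxIdeal_iff, constantCoeff_C]
  exact ha

lemma XI_le_maxIdeal : H04.XI σ A ≤ maximalIdeal (MvPowerSeries σ A) := by
  rw [Ideal.span_le]
  rintro _ ⟨i, rfl⟩
  exact X_mem_maxIdeal i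

lemma C_mem_pow {a : A} {n : ℕ} (ha : a ∈ maximalIdeal A ^ n) :
    (C a : MvPowerSeries σ A) ∈ maximalIdeal (MvPowerSeries σ A) ^ n := by
  have h1 : (maximalIdeal A).map (C : A →+* MvPowerSeries σ A) ≤
      maximalIdeal (MvPowerSeries σ A) := by
    rw [Ideal.map_le_iff_le_comap]
    intro x hx
    exact C_mem_maxIdeal hx
  have h2 := Ideal.mem_map_of_mem (C : A →+* MvPowerSeries σ A) ha
  rw [Ideal.map_pow] at h2
  exact Ideal.pow_right_mono h1 n h2

/-- coefficients of elements of powers of the maximal ideal -/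
lemma coeff_mem_of_mem_pow (n : ℕ) {f : MvPowerSeries σ A}
    (hf : f ∈ maximalIdeal (MvPowerSeries σ A) ^ n) (m : σ →₀ ℕ) :
    coeff m f ∈ maximalIdeal A ^ (n - m.degree) := by
  classical
  induction n generalizing f m with
  | zero => simp
  | succ n ih =>
    rw [pow_succ] at hf
    refine Submodule.mul_induction_on hf ?_ ?_
    · intro x hx y hy
      rw [coeff_mul]
      refine Ideal.sum_mem _ (fun p hp => ?_)
      rw [Finset.HasAntidiagonal.mem_antidiagonal] at hp
      have h1 := ih hx p.1
      have hdeg : m.degree = p.1.degree + p.2.degree := by rw [← hp, Finsupp.degree.map_add]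
      rcases eq_or_ne p.2 0 with h0 | h0
      · have h2 : coeff p.2 y ∈ maximalIdeal A := by
          rw [h0]
          exact (mem_maxIdeal_iff y).1 hy
        have h3 : m.degree = p.1.degree := by rw [hdeg, h0, map_zero, add_zero]
        rw [h3]
        rcases le_or_gt (n + 1) p.1.degree with h4 | h4
        · rw [Nat.sub_eq_zero_of_le h4, pow_zero, Ideal.one_eq_top]
          trivial
        · have h5 : n + 1 - p.1.degree = (n - p.1.degree) + 1 := by omega
          rw [h5, pow_succ]
          exact Ideal.mul_mem_mul h1 h2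
      · have h6 : 1 ≤ p.2.degree := by
          rw [Nat.one_le_iff_ne_zero]
          intro h7
          exact h0 ((Finsupp.degree_eq_zero_iff _).1 h7)
        apply Ideal.mul_mem_right
        exact Ideal.pow_le_pow_right (by omega) h1
    · intro x y hx hy
      rw [map_add]
      exact add_mem hx hy

lemma monomial_mem_pow (m : σ →₀ ℕ) :
    (monomial m (1 : A)) ∈ maximalIdeal (MvPowerSeries σ A) ^ m.degree := by
  classical
  cases nonempty_fintype σ
  rw [MvPowerSeries.monomial_one_eq, Finsupp.degree_eq_sum, ← Finset.prod_pow_eq_pow_sum]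
  rw [Finsupp.prod_fintype _ _ (by simp)]
  exact Ideal.prod_mem_prod (fun i _ => Ideal.pow_mem_pow (X_mem_maxIdeal i) _)

lemma mem_pow_of_coeff_mem (n : ℕ) {f : MvPowerSeries σ A}
    (hf : ∀ m : σ →₀ ℕ, coeff m f ∈ maximalIdeal A ^ (n - m.degree)) :
    f ∈ maximalIdeal (MvPowerSeries σ A) ^ n := by
  classical
  have h1 := Ideal.pow_right_mono (XI_le_maxIdeal (σ := σ) (A := A)) n (H04.sub_trunc_mem n f)
  have h2 : ((truncTotal n f : MvPolynomial σ A) : MvPowerSeries σ A) ∈
      maximalIdeal (MvPowerSeries σ A) ^ n := by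
    rw [MvPolynomial.as_sum (truncTotal n f)]
    rw [← MvPolynomial.coeToMvPowerSeries.ringHom_apply, map_sum]
    refine Ideal.sum_mem _ (fun m hm => ?_)
    rw [MvPolynomial.coeToMvPowerSeries.ringHom_apply, MvPolynomial.coe_monomial]
    rcases lt_or_ge m.degree n with h3 | h3
    · rw [coeff_truncTotal _ h3]
      have e : (monomial m (coeff m f) : MvPowerSeries σ A) = C (coeff m f) * monomial m 1 := by
        rw [← smul_eq_C_mul, ← map_smul, smul_eq_mul, mul_one]
      rw [e]
      have h4 := Ideal.mul_mem_mul (C_mem_pow (σ := σ) (hf m)) (monomial_mem_pow (A := A) m)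
      rw [← pow_add, Nat.sub_add_cancel h3.le] at h4
      exact h4
    · have e : (monomial m (MvPolynomial.coeff m (truncTotal n f)) : MvPowerSeries σ A) =
          C (MvPolynomial.coeff m (truncTotal n f)) * monomial m 1 := by
        rw [← smul_eq_C_mul, ← map_smul, smul_eq_mul, mul_one]
      rw [e]
      exact Ideal.mul_mem_left _ _ (Ideal.pow_le_pow_right h3 (monomial_mem_pow (A := A) m))
  have h3 := add_mem h1 h2
  rwa [sub_add_cancel] at h3

lemma mem_pow_iff (n : ℕ) {f : MvPowerSeries σ A} :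
    f ∈ maximalIdeal (MvPowerSeries σ A) ^ n ↔
      ∀ m : σ →₀ ℕ, coeff m f ∈ maximalIdeal A ^ (n - m.degree) :=
  ⟨fun h m => coeff_mem_of_mem_pow n h m, mem_pow_of_coeff_mem n⟩

instance instIsAdicCompletePS [IsNoetherianRing A] [IsAdicComplete (maximalIdeal A) A] :
    IsAdicComplete (maximalIdeal (MvPowerSeries σ A)) (MvPowerSeries σ A) where
  haus' := by
    intro f hf
    ext m
    rw [map_zero]
    have h : ∀ k, coeff m f ∈ maximalIdeal A ^ k := by
      intro k
      have h1 := hf (k + m.degree)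
      rw [SModEq.zero, smul_eq_mul, Ideal.mul_top] at h1
      have h2 := coeff_mem_of_mem_pow _ h1 m
      rwa [Nat.add_sub_cancel] at h2
    have h3 : IsHausdorff (maximalIdeal A) A := inferInstance
    apply h3.haus'
    intro k
    rw [SModEq.zero, smul_eq_mul, Ideal.mul_top]
    exact h k
  prec' := by
    intro f hf
    have h0 : ∀ m : σ →₀ ℕ, ∃ c : A, ∀ n, coeff m (f n) - c ∈ maximalIdeal A ^ (n - m.degree) := by
      intro m
      have h1 : IsPrecomplete (maximalIdeal A) A := inferInstance
      obtain ⟨c, hc⟩ := h1.prec' (fun n => coeff m (f (n + m.degree))) (by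
        intro i j hij
        have h2 := hf (show i + m.degree ≤ j + m.degree by omega)
        rw [SModEq.sub_mem, smul_eq_mul, Ideal.mul_top] at h2 ⊢
        have h3 := coeff_mem_of_mem_pow _ h2 m
        rwa [Nat.add_sub_cancel, map_sub] at h3)
      refine ⟨c, fun n => ?_⟩
      rcases le_or_gt m.degree n with h2 | h2
      · have h3 := hc (n - m.degree)
        rw [SModEq.sub_mem, smul_eq_mul, Ideal.mul_top, Nat.sub_add_cancel h2] at h3
        exact h3
      · rw [Nat.sub_eq_zero_of_le h2.le, pow_zero, Ideal.one_eq_top]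
        trivial
    choose c hc using h0
    let c' : MvPowerSeries σ A := c
    refine ⟨c', fun n => ?_⟩
    have h9 : f n - c' ∈ maximalIdeal (MvPowerSeries σ A) ^ n := by
      apply mem_pow_of_coeff_mem
      intro m
      rw [map_sub]
      exact hc m n
    exact SModEq.sub_mem.2 (by rw [smul_eq_mul, Ideal.mul_top]; exact h9)

instance instFiniteResidueFieldPS [Finite (ResidueField A)] :
    Finite (ResidueField (MvPowerSeries σ A)) := by
  refine Finite.of_surjective (α := ResidueField A)
    (Ideal.Quotient.lift (maximalIdeal A) ((residue (MvPowerSeries σ A)).comp C) ?_) ?_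
  · intro a ha
    rw [RingHom.comp_apply, residue_eq_zero_iff]
    exact C_mem_maxIdeal ha
  · intro x
    obtain ⟨f, rfl⟩ := residue_surjective x
    refine ⟨Ideal.Quotient.mk _ (constantCoeff f), ?_⟩
    rw [Ideal.Quotient.lift_mk, RingHom.comp_apply, ← sub_eq_zero, ← map_sub,
      residue_eq_zero_iff, mem_maxIdeal_iff, map_sub, constantCoeff_C, sub_self]
    exact zero_mem _

end Local

section Lift

variable {B : Type} [CommRing B] (I : Ideal B) [IsAdicComplete I B] (g : A →+* B) (b : σ → B)
  (hb : ∀ i, b i ∈ I)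

/-- auxiliary: the lift modulo `I ^ n`. -/
noncomputable def liftAux (n : ℕ) : MvPowerSeries σ A →+* B ⧸ I ^ n :=
  (Ideal.Quotient.lift (MvPolynomial.idealOfVars σ A ^ n)
    ((Ideal.Quotient.mk (I ^ n)).comp (MvPolynomial.eval₂Hom g b)) (by
      intro x hx
      rw [RingHom.comp_apply, Ideal.Quotient.eq_zero_iff_mem]
      have h1 : (MvPolynomial.idealOfVars σ A).map (MvPolynomial.eval₂Hom g b) ≤ I := by
        rw [Ideal.map_span, Ideal.span_le]
        rintro _ ⟨_, ⟨i, rfl⟩, rfl⟩
        simpa using hb i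
      have h2 := Ideal.mem_map_of_mem (MvPolynomial.eval₂Hom g b) hx
      rw [Ideal.map_pow] at h2
      exact Ideal.pow_right_mono h1 n h2)).comp
    (truncTotalAlgHom σ A n : MvPowerSeries σ A →+* _)

lemma liftAux_apply (n : ℕ) (f : MvPowerSeries σ A) :
    liftAux I g b hb n f = Ideal.Quotient.mk (I ^ n)
      (MvPolynomial.eval₂Hom g b (truncTotal n f)) := rfl

lemma liftAux_compat {m n : ℕ} (hle : m ≤ n) :
    (Ideal.Quotient.factorPow I hle).comp (liftAux I g b hb n) = liftAux I g b hb m := by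
  ext f
  rw [RingHom.comp_apply, liftAux_apply, liftAux_apply]
  change Ideal.Quotient.mk (I ^ m) _ = _
  rw [Ideal.Quotient.eq, ← map_sub]
  have h0 := truncTotal_sub_truncTotal_mem_pow_idealOfVars hle (le_refl m) f
  have h1 : (MvPolynomial.idealOfVars σ A).map (MvPolynomial.eval₂Hom g b) ≤ I := by
    rw [Ideal.map_span, Ideal.span_le]
    rintro _ ⟨_, ⟨i, rfl⟩, rfl⟩
    simpa using hb i
  have h2 := Ideal.mem_map_of_mem (MvPolynomial.eval₂Hom g b) h0
  rw [Ideal.map_pow] at h2
  exact Ideal.pow_right_mono h1 m h2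

/-- ring homomorphisms out of power series rings -/
noncomputable def lift : MvPowerSeries σ A →+* B :=
  IsAdicComplete.liftRingHom I (liftAux I g b hb) (liftAux_compat I g b hb)

lemma mk_lift (n : ℕ) (f : MvPowerSeries σ A) : Ideal.Quotient.mk (I ^ n) (lift I g b hb f) =
    Ideal.Quotient.mk (I ^ n) (MvPolynomial.eval₂Hom g b (truncTotal n f)) :=
  IsAdicComplete.mk_liftRingHom _ _ _ _ _

include I in
lemma eq_of_forall_mk_eq {x y : B} (h : ∀ n, Ideal.Quotient.mk (I ^ n) x =
    Ideal.Quotient.mk (I ^ n) y) : x = y := by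
  rw [← sub_eq_zero]
  have h3 : IsHausdorff I B := inferInstance
  apply h3.haus'
  intro k
  rw [SModEq.zero, smul_eq_mul, Ideal.mul_top]
  exact Ideal.Quotient.eq.1 (h k)

lemma lift_coe (p : MvPolynomial σ A) : lift I g b hb (p : MvPowerSeries σ A) =
    MvPolynomial.eval₂Hom g b p := by
  apply eq_of_forall_mk_eq I
  intro n
  rw [mk_lift, Ideal.Quotient.eq, ← map_sub]
  have h0 : truncTotal n (p : MvPowerSeries σ A) - p ∈ MvPolynomial.idealOfVars σ A ^ n := by
    refine (MvPolynomial.mem_pow_idealOfVars_iff' ..).mpr (fun x hx ↦ ?_)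
    rw [MvPolynomial.coeff_sub, sub_eq_zero, coeff_truncTotal _ hx, MvPolynomial.coeff_coe]
  have h1 : (MvPolynomial.idealOfVars σ A).map (MvPolynomial.eval₂Hom g b) ≤ I := by
    rw [Ideal.map_span, Ideal.span_le]
    rintro _ ⟨_, ⟨i, rfl⟩, rfl⟩
    simpa using hb i
  have h2 := Ideal.mem_map_of_mem (MvPolynomial.eval₂Hom g b) h0
  rw [Ideal.map_pow] at h2
  exact Ideal.pow_right_mono h1 n h2

@[simp] lemma lift_X (i : σ) : lift I g b hb (X i) = b i := by
  rw [← MvPolynomial.coe_X, lift_coe]
  simp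

@[simp] lemma lift_C (a : A) : lift I g b hb (C a) = g a := by
  rw [← MvPolynomial.coe_C, lift_coe]
  simp

include I in
/-- uniqueness -/
lemma hom_ext {f f' : MvPowerSeries σ A →+* B} (hC : ∀ a, f (C a) = f' (C a))
    (hX : ∀ i, f (X i) = f' (X i)) (hI : ∀ i, f (X i) ∈ I) : f = f' := by
  have hpol : ∀ p : MvPolynomial σ A, f (p : MvPowerSeries σ A) = f' (p : MvPowerSeries σ A) := by
    intro p
    have : f.comp MvPolynomial.coeToMvPowerSeries.ringHom =
        f'.comp MvPolynomial.coeToMvPowerSeries.ringHom := by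
      apply MvPolynomial.ringHom_ext
      · intro a
        simpa using hC a
      · intro i
        simpa using hX i
    exact congrArg (fun F => F p) this
  have hXI : ∀ (h : MvPowerSeries σ A →+* B) (_ : ∀ i, h (X i) ∈ I) (n : ℕ)
      (p : MvPowerSeries σ A) (_ : p ∈ H04.XI σ A ^ n), h p ∈ I ^ n := by
    intro h hh n p hp
    have h1 : (H04.XI σ A).map h ≤ I := by
      rw [Ideal.map_span, Ideal.span_le]
      rintro _ ⟨_, ⟨i, rfl⟩, rfl⟩
      exact hh i
    have h2 := Ideal.mem_map_of_mem h hp
    rw [Ideal.map_pow] at h2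
    exact Ideal.pow_right_mono h1 n h2
  ext p
  apply eq_of_forall_mk_eq I
  intro n
  rw [Ideal.Quotient.eq]
  have h1 := hXI f hI n _ (H04.sub_trunc_mem n p)
  have h2 := hXI f' (fun i => hX i ▸ hI i) n _ (H04.sub_trunc_mem n p)
  rw [map_sub] at h1 h2
  rw [← hpol] at h2
  have h3 := sub_mem h1 h2
  rwa [sub_sub_sub_cancel_right] at h3

end Lift

end Fermat.Agent.TAlg
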