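import Mathlib

/-! # Ultrafilter limits in complete local noetherian rings with finite residue field. -/

set_option autoImplicit false

open IsLocalRing Filter

namespace Fermat.Agent.TAlg

section Fin

variable {ι A : Type*} [Finite A] (F : Ultrafilter ι)

lemma exists_eventually_eq (a : ι → A) : ∃ c, ∀ᶠ n in (F : Filter ι), a n = c := by
  obtain ⟨c, hc⟩ := Ultrafilter.eq_pure_of_finite (F.map a)
  refine ⟨c, ?_⟩
  have h : ({c} : Set A) ∈ F.map a := by
    rw [hc]
    exact Ultrafilter.mem_pure.2 rfl
  exact Ultrafilter.mem_map.1 h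

/-- the generic value of a function with values in a finite set. -/
noncomputable def flim (a : ι → A) : A := (exists_eventually_eq F a).choose

lemma eventually_eq_flim (a : ι → A) : ∀ᶠ n in (F : Filter ι), a n = flim F a :=
  (exists_eventually_eq F a).choose_spec

lemma flim_eq_of_eventually {a : ι → A} {c : A} (h : ∀ᶠ n in (F : Filter ι), a n = c) :
    flim F a = c := by
  obtain ⟨n, h1, h2⟩ := ((eventually_eq_flim F a).and h).exists
  exact h1.symm.trans h2

lemma flim_eq_iff {a : ι → A} {c : A} :
    flim F a = c ↔ ∀ᶠ n in (F : Filter ι), a n = c :=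
  ⟨fun h => h ▸ eventually_eq_flim F a, flim_eq_of_eventually F⟩

variable (A) in
/-- the generic value, as a ring homomorphism. -/
noncomputable def flimHom [CommRing A] : (ι → A) →+* A where
  toFun := flim F
  map_one' := flim_eq_of_eventually F (Eventually.of_forall fun _ => rfl)
  map_zero' := flim_eq_of_eventually F (Eventually.of_forall fun _ => rfl)
  map_mul' a b := by
    apply flim_eq_of_eventually
    filter_upwards [eventually_eq_flim F a, eventually_eq_flim F b] with n h1 h2
    rw [Pi.mul_apply, h1, h2]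
  map_add' a b := by
    apply flim_eq_of_eventually
    filter_upwards [eventually_eq_flim F a, eventually_eq_flim F b] with n h1 h2
    rw [Pi.add_apply, h1, h2]

end Fin

section Lim

variable {ι : Type*} (F : Ultrafilter ι)

lemma finite_quot (R : Type*) [CommRing R] [IsLocalRing R] [IsNoetherianRing R]
    [Finite (ResidueField R)] (k : ℕ) : Finite (R ⧸ maximalIdeal R ^ k) := by
  have : Finite (R ⧸ maximalIdeal R) := ‹Finite (ResidueField R)›
  exact Ideal.finite_quotient_pow (IsNoetherian.noetherian _) k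

variable (R : Type*) [CommRing R] [IsLocalRing R] [IsNoetherianRing R]
  [IsAdicComplete (maximalIdeal R) R] [Finite (ResidueField R)]

/-- the limit modulo `𝔪 ^ k`. -/
noncomputable def ulimAux (k : ℕ) : (ι → R) →+* R ⧸ maximalIdeal R ^ k :=
  letI := finite_quot R k
  (flimHom (R ⧸ maximalIdeal R ^ k) F).comp ((Ideal.Quotient.mk (maximalIdeal R ^ k)).compLeft ι)

lemma ulimAux_eq_iff (k : ℕ) (a : ι → R) (c : R ⧸ maximalIdeal R ^ k) :
    ulimAux F R k a = c ↔ ∀ᶠ n in (F : Filter ι), Ideal.Quotient.mk (maximalIdeal R ^ k) (a n) = c :=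
  letI := finite_quot R k
  flim_eq_iff F

lemma ulimAux_compat {m n : ℕ} (hle : m ≤ n) :
    (Ideal.Quotient.factorPow (maximalIdeal R) hle).comp (ulimAux F R n) = ulimAux F R m := by
  ext a
  symm
  rw [ulimAux_eq_iff]
  have h := (ulimAux_eq_iff F R n a _).1 rfl
  filter_upwards [h] with i hi
  rw [RingHom.comp_apply, ← hi]
  rfl

/-- the limit of a sequence along an ultrafilter. -/
noncomputable def ulim : (ι → R) →+* R :=
  IsAdicComplete.liftRingHom (maximalIdeal R) (ulimAux F R) (ulimAux_compat F R)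

variable {R}

lemma mk_ulim (k : ℕ) (a : ι → R) :
    Ideal.Quotient.mk (maximalIdeal R ^ k) (ulim F R a) = ulimAux F R k a :=
  IsAdicComplete.mk_liftRingHom _ _ _ _ _

lemma eventually_sub_ulim_mem (k : ℕ) (a : ι → R) :
    ∀ᶠ n in (F : Filter ι), a n - ulim F R a ∈ maximalIdeal R ^ k := by
  have h := (ulimAux_eq_iff F R k a _).1 (mk_ulim F k a).symm
  filter_upwards [h] with i hi
  exact Ideal.Quotient.eq.1 hi

lemma eq_of_forall_sub_mem {a b : R} (h : ∀ k : ℕ, a - b ∈ maximalIdeal R ^ k) : a = b := by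
  have : a - b = 0 := by
    apply IsHausdorff.haus (inferInstance : IsHausdorff (maximalIdeal R) R)
    intro n
    rw [SModEq.zero]
    simpa using h n
  exact sub_eq_zero.1 this

lemma ulim_eq_iff {a : ι → R} {c : R} :
    ulim F R a = c ↔ ∀ k : ℕ, ∀ᶠ n in (F : Filter ι), a n - c ∈ maximalIdeal R ^ k := by
  constructor
  · rintro rfl k
    exact eventually_sub_ulim_mem F k a
  · intro h
    apply eq_of_forall_sub_mem
    intro k
    obtain ⟨n, h1, h2⟩ := ((eventually_sub_ulim_mem F k a).and (h k)).exists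
    have := sub_mem h2 h1
    rwa [sub_sub_sub_cancel_left] at this

lemma ulim_congr {a b : ι → R}
    (h : ∀ k : ℕ, ∀ᶠ n in (F : Filter ι), a n - b n ∈ maximalIdeal R ^ k) :
    ulim F R a = ulim F R b := by
  rw [ulim_eq_iff]
  intro k
  filter_upwards [h k, eventually_sub_ulim_mem F k b] with n h1 h2
  have := add_mem h1 h2
  rwa [sub_add_sub_cancel] at this

@[simp] lemma ulim_const (c : R) : ulim F R (fun _ => c) = c := by
  rw [ulim_eq_iff]
  intro k
  simp

/-- limits commute with local homomorphisms which are uniformly continuous. -/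
lemma ulim_map {R' : Type*} [CommRing R'] [IsLocalRing R'] [IsNoetherianRing R']
    [IsAdicComplete (maximalIdeal R') R'] [Finite (ResidueField R')] (f : R →+* R')
    (hf : ∀ x ∈ maximalIdeal R, f x ∈ maximalIdeal R') (a : ι → R) :
    ulim F R' (fun n => f (a n)) = f (ulim F R a) := by
  rw [ulim_eq_iff]
  intro k
  filter_upwards [eventually_sub_ulim_mem F k a] with n hn
  rw [← map_sub]
  have h1 : (maximalIdeal R ^ k).map f ≤ maximalIdeal R' ^ k := by
    rw [Ideal.map_pow]
    exact Ideal.pow_right_mono (Ideal.map_le_iff_le_comap.2 hf) k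
  exact h1 (Ideal.mem_map_of_mem f hn)

/-- limits of homomorphisms -/
noncomputable def ulimRingHom {S : Type*} [CommRing S] (f : ι → (S →+* R)) : S →+* R :=
  (ulim F R).comp (RingHom.pi f)

lemma ulimRingHom_apply {S : Type*} [CommRing S] (f : ι → (S →+* R)) (s : S) :
    ulimRingHom F f s = ulim F R (fun n => f n s) := rfl

/-- limits of homomorphisms evaluated on convergent sequences -/
lemma ulim_apply {S : Type*} [CommRing S] [IsLocalRing S] [IsNoetherianRing S]
    [IsAdicComplete (maximalIdeal S) S] [Finite (ResidueField S)] (f : ι → (S →+* R))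
    (hf : ∀ n, ∀ x ∈ maximalIdeal S, f n x ∈ maximalIdeal R) (a : ι → S) :
    ulim F R (fun n => f n (a n)) = ulimRingHom F f (ulim F S a) := by
  rw [ulimRingHom_apply]
  apply ulim_congr
  intro k
  filter_upwards [eventually_sub_ulim_mem F k a] with n hn
  rw [← map_sub]
  have h1 : (maximalIdeal S ^ k).map (f n) ≤ maximalIdeal R ^ k := by
    rw [Ideal.map_pow]
    exact Ideal.pow_right_mono (Ideal.map_le_iff_le_comap.2 (hf n)) k
  exact h1 (Ideal.mem_map_of_mem (f n) hn)

/-- limits of sequences in an ideal -/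
lemma ulim_mem (I : Ideal R) {a : ι → R} (h : ∀ᶠ n in (F : Filter ι), a n ∈ I) : ulim F R a ∈ I := by
  -- `I` is closed by Krull's intersection theorem
  have h1 : ∀ k : ℕ, ulim F R a ∈ I ⊔ maximalIdeal R ^ k := by
    intro k
    obtain ⟨n, h1, h2⟩ := ((eventually_sub_ulim_mem F k a).and h).exists
    have : ulim F R a = a n - (a n - ulim F R a) := by ring
    rw [this]
    exact sub_mem (Ideal.mem_sup_left h2) (Ideal.mem_sup_right h1)
  have h2 : (⨅ k : ℕ, (I ⊔ maximalIdeal R ^ k)) ≤ I := by
    intro x hx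
    by_cases hI : I = ⊤
    · rw [hI]; trivial
    have : Nontrivial (R ⧸ I) := Ideal.Quotient.nontrivial_iff.2 hI
    have hlm : IsLocalRing (R ⧸ I) := IsLocalRing.of_surjective' (Ideal.Quotient.mk I)
      Ideal.Quotient.mk_surjective
    have h3 : (Ideal.Quotient.mk I x) ∈ (⨅ k : ℕ, (maximalIdeal (R ⧸ I)) ^ k) := by
      rw [Ideal.mem_iInf]
      intro k
      rw [Ideal.mem_iInf] at hx
      obtain ⟨y, hy, z, hz, hyz⟩ := Submodule.mem_sup.1 (hx k)
      rw [← hyz, map_add, Ideal.Quotient.eq_zero_iff_mem.2 hy, zero_add]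
      have h4 : (maximalIdeal R ^ k).map (Ideal.Quotient.mk I) ≤ maximalIdeal (R ⧸ I) ^ k := by
        rw [Ideal.map_pow]
        apply Ideal.pow_right_mono
        rw [Ideal.map_le_iff_le_comap]
        have hloc : IsLocalHom (Ideal.Quotient.mk I) :=
          IsLocalHom.of_surjective _ Ideal.Quotient.mk_surjective
        exact ((IsLocalRing.local_hom_TFAE (Ideal.Quotient.mk I)).out 0 3).1 hloc
      exact h4 (Ideal.mem_map_of_mem _ hz)
    rw [Ideal.iInf_pow_eq_bot_of_isLocalRing _ (maximalIdeal.isMaximal _).ne_top] at h3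
    exact Ideal.Quotient.eq_zero_iff_mem.1 h3
  exact h2 (by rw [Ideal.mem_iInf]; exact h1)

end Lim

end Fermat.Agent.TAlg
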