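import Mathlib
import Fermat.Agent.TAlg.ULim

/-! # Patching: limits of homomorphisms of finite free `S ⧸ J n`-modules with `J n → 0`. -/

set_option autoImplicit false

open IsLocalRing Filter

namespace Fermat.Agent.TAlg

variable {ι : Type*} (F : Ultrafilter ι)
variable {S : Type*} [CommRing S] [IsLocalRing S] [IsNoetherianRing S]
  [IsAdicComplete (maximalIdeal S) S] [Finite (ResidueField S)]

/-- A sequence of ideals tends to zero. -/
def Small (J : ι → Ideal S) : Prop := ∀ k : ℕ, ∀ᶠ n in (F : Filter ι), J n ≤ maximalIdeal S ^ k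

variable {F} {J : ι → Ideal S} (hJ : Small F J)

include hJ in
lemma ulim_eq_of_mk_eq {a b : ι → S} (h : ∀ n, Ideal.Quotient.mk (J n) (a n) =
    Ideal.Quotient.mk (J n) (b n)) : ulim F S a = ulim F S b := by
  apply ulim_congr
  intro k
  filter_upwards [hJ k] with n hn
  exact hn (Ideal.Quotient.eq.1 (h n))

/-- limits of sequences of classes modulo `J n`. -/
noncomputable def qlim (hJ : Small F J) : (∀ n, S ⧸ J n) →+* S where
  toFun a := ulim F S (fun n => (Ideal.Quotient.mk_surjective (a n)).choose)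
  map_one' := by
    have h := ulim_eq_of_mk_eq hJ (a := fun n => (Ideal.Quotient.mk_surjective
      ((1 : ∀ n, S ⧸ J n) n)).choose) (b := fun _ => 1)
      (fun n => (Ideal.Quotient.mk_surjective ((1 : ∀ n, S ⧸ J n) n)).choose_spec.trans rfl)
    rw [h]
    exact map_one (ulim F S)
  map_zero' := by
    have h := ulim_eq_of_mk_eq hJ (a := fun n => (Ideal.Quotient.mk_surjective
      ((0 : ∀ n, S ⧸ J n) n)).choose) (b := fun _ => 0)
      (fun n => (Ideal.Quotient.mk_surjective ((0 : ∀ n, S ⧸ J n) n)).choose_spec.trans rfl)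
    rw [h]
    exact map_zero (ulim F S)
  map_mul' a b := by
    rw [← map_mul]
    apply ulim_eq_of_mk_eq hJ
    intro n
    rw [(Ideal.Quotient.mk_surjective ((a * b) n)).choose_spec, Pi.mul_apply, Pi.mul_apply, map_mul,
      (Ideal.Quotient.mk_surjective (a n)).choose_spec,
      (Ideal.Quotient.mk_surjective (b n)).choose_spec]
  map_add' a b := by
    rw [← map_add]
    apply ulim_eq_of_mk_eq hJ
    intro n
    rw [(Ideal.Quotient.mk_surjective ((a + b) n)).choose_spec, Pi.add_apply, Pi.add_apply, map_add,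
      (Ideal.Quotient.mk_surjective (a n)).choose_spec,
      (Ideal.Quotient.mk_surjective (b n)).choose_spec]

lemma qlim_mk (a : ι → S) : qlim hJ (fun n => Ideal.Quotient.mk (J n) (a n)) = ulim F S a :=
  ulim_eq_of_mk_eq hJ (fun n => (Ideal.Quotient.mk_surjective
    (Ideal.Quotient.mk (J n) (a n))).choose_spec)

@[simp] lemma qlim_const (s : S) : qlim hJ (fun n => Ideal.Quotient.mk (J n) s) = s := by
  rw [qlim_mk, ulim_const]

lemma qlim_mem (I : Ideal S) {a : ∀ n, S ⧸ J n}
    (h : ∀ᶠ n in (F : Filter ι), a n ∈ I.map (Ideal.Quotient.mk (J n))) : qlim hJ a ∈ I := by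
  classical
  have h1 : ∀ n, ∃ s : S, Ideal.Quotient.mk (J n) s = a n ∧
      (a n ∈ I.map (Ideal.Quotient.mk (J n)) → s ∈ I) := by
    intro n
    by_cases hn : a n ∈ I.map (Ideal.Quotient.mk (J n))
    · obtain ⟨s, hs, hs'⟩ := (Ideal.mem_map_iff_of_surjective _ Ideal.Quotient.mk_surjective).1 hn
      exact ⟨s, hs', fun _ => hs⟩
    · obtain ⟨s, hs⟩ := Ideal.Quotient.mk_surjective (a n)
      exact ⟨s, hs, fun h => absurd h hn⟩
  choose s hs hs' using h1
  have : a = fun n => Ideal.Quotient.mk (J n) (s n) := funext fun n => (hs n).symm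
  rw [this, qlim_mk]
  apply ulim_mem
  filter_upwards [h] with n hn
  exact hs' n hn

/-- two sequences of classes whose difference tends to zero. -/
lemma qlim_congr {a b : ∀ n, S ⧸ J n}
    (h : ∀ k : ℕ, ∀ᶠ n in (F : Filter ι),
      a n - b n ∈ (maximalIdeal S ^ k).map (Ideal.Quotient.mk (J n))) :
    qlim hJ a = qlim hJ b := by
  apply eq_of_forall_sub_mem
  intro k
  rw [← map_sub]
  exact qlim_mem hJ _ (h k)

section Mat

variable {M M' M'' : Type*} [AddCommGroup M] [Module S M] [AddCommGroup M'] [Module S M']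
  [AddCommGroup M''] [Module S M''] {I : Ideal S} {d d' d'' : ℕ}
  (e : M ≃ₗ[S] (Fin d → S ⧸ I)) (e' : M' ≃ₗ[S] (Fin d' → S ⧸ I)) (e'' : M'' ≃ₗ[S] (Fin d'' → S ⧸ I))

/-- the matrix of a linear map. -/
noncomputable def toMat (f : M →ₗ[S] M') : Matrix (Fin d') (Fin d) (S ⧸ I) :=
  Matrix.of fun i j => e' (f (e.symm (Pi.single j 1))) i

omit [IsLocalRing S] [IsNoetherianRing S] [IsAdicComplete (maximalIdeal S) S]
  [Finite (ResidueField S)] in
lemma toMat_mulVec (f : M →ₗ[S] M') (x : M) : e' (f x) = (toMat e e' f).mulVec (e x) := by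
  have h1 : x = e.symm (∑ j, (Pi.single j (e x j) : Fin d → S ⧸ I)) := by
    rw [Finset.univ_sum_single, LinearEquiv.symm_apply_apply]
  funext i
  rw [Matrix.mulVec, dotProduct]
  conv_lhs => rw [h1]
  rw [map_sum, map_sum, map_sum, Finset.sum_apply]
  apply Finset.sum_congr rfl
  intro j _
  obtain ⟨s, hs⟩ := Ideal.Quotient.mk_surjective (e x j)
  have h2 : (Pi.single j (e x j) : Fin d → S ⧸ I) = s • Pi.single j 1 := by
    rw [← Pi.single_smul]
    congr 1
    rw [← hs, ← Ideal.Quotient.algebraMap_eq, Algebra.smul_def, mul_one]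
  rw [h2, map_smul, map_smul, map_smul, Pi.smul_apply, toMat, Matrix.of_apply, ← hs, mul_comm,
    ← Ideal.Quotient.algebraMap_eq, ← Algebra.smul_def]

omit [IsLocalRing S] [IsNoetherianRing S] [IsAdicComplete (maximalIdeal S) S]
  [Finite (ResidueField S)] in
lemma toMat_ext {A B : Matrix (Fin d') (Fin d) (S ⧸ I)}
    (h : ∀ x : M, A.mulVec (e x) = B.mulVec (e x)) : A = B := by
  apply Matrix.ext_of_mulVec_single
  intro j
  have := h (e.symm (Pi.single j 1))
  rwa [LinearEquiv.apply_symm_apply] at this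

omit [IsLocalRing S] [IsNoetherianRing S] [IsAdicComplete (maximalIdeal S) S]
  [Finite (ResidueField S)] in
lemma toMat_comp (f : M →ₗ[S] M') (g : M' →ₗ[S] M'') :
    toMat e e'' (g ∘ₗ f) = toMat e' e'' g * toMat e e' f := by
  apply toMat_ext e
  intro x
  rw [← Matrix.mulVec_mulVec, ← toMat_mulVec, ← toMat_mulVec, ← toMat_mulVec]
  rfl

omit [IsLocalRing S] [IsNoetherianRing S] [IsAdicComplete (maximalIdeal S) S]
  [Finite (ResidueField S)] in
lemma toMat_id : toMat e e LinearMap.id = 1 := by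
  apply toMat_ext e
  intro x
  rw [← toMat_mulVec, Matrix.one_mulVec]
  rfl

omit [IsLocalRing S] [IsNoetherianRing S] [IsAdicComplete (maximalIdeal S) S]
  [Finite (ResidueField S)] in
lemma toMat_add (f g : M →ₗ[S] M') : toMat e e' (f + g) = toMat e e' f + toMat e e' g := by
  ext i j
  simp [toMat]

omit [IsLocalRing S] [IsNoetherianRing S] [IsAdicComplete (maximalIdeal S) S]
  [Finite (ResidueField S)] in
lemma toMat_smul (s : S) (f : M →ₗ[S] M') : toMat e e' (s • f) = s • toMat e e' f := by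
  ext i j
  simp [toMat]

end Mat

section PLim

variable {M M' M'' : ι → Type*} [∀ n, AddCommGroup (M n)] [∀ n, Module S (M n)]
  [∀ n, AddCommGroup (M' n)] [∀ n, Module S (M' n)]
  [∀ n, AddCommGroup (M'' n)] [∀ n, Module S (M'' n)] {d d' d'' : ℕ}
  (e : ∀ n, M n ≃ₗ[S] (Fin d → S ⧸ J n)) (e' : ∀ n, M' n ≃ₗ[S] (Fin d' → S ⧸ J n))
  (e'' : ∀ n, M'' n ≃ₗ[S] (Fin d'' → S ⧸ J n))

/-- the limit of matrices -/
noncomputable def mlim (hJ : Small F J) (A : ∀ n, Matrix (Fin d') (Fin d) (S ⧸ J n)) :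
    Matrix (Fin d') (Fin d) S :=
  Matrix.of fun i j => qlim hJ (fun n => A n i j)

lemma mlim_mul (A : ∀ n, Matrix (Fin d'') (Fin d') (S ⧸ J n))
    (B : ∀ n, Matrix (Fin d') (Fin d) (S ⧸ J n)) :
    mlim hJ (fun n => A n * B n) = mlim hJ A * mlim hJ B := by
  ext i j
  rw [Matrix.mul_apply]
  simp only [mlim, Matrix.of_apply]
  have : (fun n => (A n * B n) i j) = ∑ k, (fun n => A n i k) * (fun n => B n k j) := by
    funext n
    simp [Matrix.mul_apply]
  rw [this, map_sum]
  simp only [map_mul]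

lemma mlim_add (A B : ∀ n, Matrix (Fin d') (Fin d) (S ⧸ J n)) :
    mlim hJ (fun n => A n + B n) = mlim hJ A + mlim hJ B := by
  ext i j
  simp only [mlim, Matrix.of_apply, Matrix.add_apply]
  rw [← map_add]
  rfl

lemma mlim_one : mlim hJ (fun n => (1 : Matrix (Fin d) (Fin d) (S ⧸ J n))) = 1 := by
  ext i j
  simp only [mlim, Matrix.of_apply, Matrix.one_apply]
  by_cases hij : i = j
  · simp only [hij, if_true]
    exact map_one (qlim hJ)
  · simp only [hij, if_false]
    exact map_zero (qlim hJ)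

lemma mlim_smul (s : S) (A : ∀ n, Matrix (Fin d') (Fin d) (S ⧸ J n)) :
    mlim hJ (fun n => s • A n) = s • mlim hJ A := by
  ext i j
  simp only [mlim, Matrix.of_apply, Matrix.smul_apply, smul_eq_mul]
  have : (fun n => s • A n i j) = (fun n => Ideal.Quotient.mk (J n) s) * (fun n => A n i j) := by
    funext n
    rw [Pi.mul_apply, Algebra.smul_def]
    rfl
  rw [this, map_mul, qlim_const]

/-- the patched homomorphism. -/
noncomputable def plim (hJ : Small F J) (f : ∀ n, M n →ₗ[S] M' n) :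
    (Fin d → S) →ₗ[S] (Fin d' → S) :=
  Matrix.toLin' (mlim hJ (fun n => toMat (e n) (e' n) (f n)))

lemma plim_comp (f : ∀ n, M n →ₗ[S] M' n) (g : ∀ n, M' n →ₗ[S] M'' n) :
    plim e e'' hJ (fun n => g n ∘ₗ f n) = plim e' e'' hJ g ∘ₗ plim e e' hJ f := by
  simp only [plim, toMat_comp (e _) (e' _) (e'' _), mlim_mul hJ, Matrix.toLin'_mul]

lemma plim_id : plim e e hJ (fun n => (LinearMap.id : M n →ₗ[S] M n)) = LinearMap.id := by
  simp only [plim, toMat_id, mlim_one hJ, Matrix.toLin'_one]

lemma plim_add (f g : ∀ n, M n →ₗ[S] M' n) :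
    plim e e' hJ (fun n => f n + g n) = plim e e' hJ f + plim e e' hJ g := by
  simp only [plim, toMat_add, mlim_add hJ, map_add]

lemma plim_smul (s : S) (f : ∀ n, M n →ₗ[S] M' n) :
    plim e e' hJ (fun n => s • f n) = s • plim e e' hJ f := by
  simp only [plim, toMat_smul, mlim_smul hJ, map_smul]

lemma plim_zero : plim e e' hJ (fun n => (0 : M n →ₗ[S] M' n)) = 0 := by
  have := plim_smul hJ e e' 0 (fun n => (0 : M n →ₗ[S] M' n))
  simpa using this

lemma plim_sub (f g : ∀ n, M n →ₗ[S] M' n) :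
    plim e e' hJ (fun n => f n - g n) = plim e e' hJ f - plim e e' hJ g := by
  have h := plim_add hJ e e' (fun n => f n - g n) g
  simp only [sub_add_cancel] at h
  rw [h]
  abel

/-- if `f n` takes values in `I • M' n` then so does the limit. -/
lemma plim_range_le (I : Ideal S) (f : ∀ n, M n →ₗ[S] M' n)
    (h : ∀ᶠ n in (F : Filter ι), LinearMap.range (f n) ≤ I • (⊤ : Submodule S (M' n))) :
    LinearMap.range (plim e e' hJ f) ≤ I • (⊤ : Submodule S (Fin d' → S)) := by
  have h1 : ∀ i j, mlim hJ (fun n => toMat (e n) (e' n) (f n)) i j ∈ I := by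
    intro i j
    rw [mlim, Matrix.of_apply]
    apply qlim_mem
    filter_upwards [h] with n hn
    have h2 : f n ((e n).symm (Pi.single j 1)) ∈ I • (⊤ : Submodule S (M' n)) :=
      hn (LinearMap.mem_range_self _ _)
    rw [toMat, Matrix.of_apply]
    generalize f n ((e n).symm (Pi.single j 1)) = y at h2
    refine Submodule.smul_induction_on h2 ?_ ?_
    · intro r hr z _
      rw [map_smul, Pi.smul_apply, Algebra.smul_def]
      exact Ideal.mul_mem_right _ _ (Ideal.mem_map_of_mem _ hr)
    · intro x y hx hy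
      rw [map_add, Pi.add_apply]
      exact add_mem hx hy
  rintro _ ⟨x, rfl⟩
  rw [plim, Matrix.toLin'_apply]
  have h3 : ∀ v : Fin d' → S, (∀ i, v i ∈ I) → v ∈ I • (⊤ : Submodule S (Fin d' → S)) := by
    intro v hv
    rw [← Finset.univ_sum_single v]
    apply Submodule.sum_mem
    intro i _
    have : (Pi.single i (v i) : Fin d' → S) = v i • Pi.single i 1 := by
      rw [← Pi.single_smul, smul_eq_mul, mul_one]
    rw [this]
    exact Submodule.smul_mem_smul (hv i) trivial
  apply h3
  intro i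
  rw [Matrix.mulVec, dotProduct]
  exact Ideal.sum_mem _ (fun j _ => Ideal.mul_mem_right _ _ (h1 i j))

/-- two sequences of homomorphisms whose difference tends to zero. -/
lemma plim_congr {f g : ∀ n, M n →ₗ[S] M' n}
    (h : ∀ k : ℕ, ∀ᶠ n in (F : Filter ι),
      LinearMap.range (f n - g n) ≤ (maximalIdeal S ^ k) • (⊤ : Submodule S (M' n))) :
    plim e e' hJ f = plim e e' hJ g := by
  have h1 : plim e e' hJ (fun n => f n - g n) = 0 := by
    apply LinearMap.ext
    intro x
    funext i
    apply eq_of_forall_sub_mem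
    intro k
    rw [LinearMap.zero_apply, Pi.zero_apply, sub_zero]
    have h2 := plim_range_le hJ e e' _ _ (h k) (LinearMap.mem_range_self _ x)
    have h3 : ∀ v : Fin d' → S, v ∈ (maximalIdeal S ^ k) • (⊤ : Submodule S (Fin d' → S)) →
        v i ∈ maximalIdeal S ^ k := by
      intro v hv
      refine Submodule.smul_induction_on hv ?_ ?_
      · intro r hr z _
        rw [Pi.smul_apply, smul_eq_mul]
        exact Ideal.mul_mem_right _ _ hr
      · intro x y hx hy
        exact add_mem hx hy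
    exact h3 _ h2
  rw [plim_sub, sub_eq_zero] at h1
  exact h1

end PLim

end Fermat.Agent.TAlg
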