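import Mathlib
import Fermat.Agent.TAlg.Patch

/-! # Limits in finite modules, and patching of maps to a fixed finite module. -/

set_option autoImplicit false

open IsLocalRing Filter

namespace Fermat.Agent.TAlg

variable {ι : Type*} (F : Ultrafilter ι)
variable {S : Type*} [CommRing S] [IsLocalRing S] [IsNoetherianRing S]
  [IsAdicComplete (maximalIdeal S) S] [Finite (ResidueField S)]

section NLim

variable {N : Type*} [AddCommGroup N] [Module S N] [Module.Finite S N]

omit [IsAdicComplete (maximalIdeal S) S] [Finite (ResidueField S)] in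
lemma eq_of_forall_sub_mem_smul {a b : N}
    (h : ∀ k : ℕ, a - b ∈ (maximalIdeal S ^ k) • (⊤ : Submodule S N)) : a = b := by
  have h1 : a - b ∈ (⨅ k : ℕ, (maximalIdeal S ^ k) • (⊤ : Submodule S N)) := by
    rw [Submodule.mem_iInf]
    exact h
  rw [Ideal.iInf_pow_smul_eq_bot_of_isLocalRing _ (maximalIdeal.isMaximal S).ne_top] at h1
  exact sub_eq_zero.1 ((Submodule.mem_bot S).1 h1)

omit [IsAdicComplete (maximalIdeal S) S] [Finite (ResidueField S)] in
/-- closedness of submodules -/
lemma mem_of_forall_mem_sup (K : Submodule S N) {x : N}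
    (h : ∀ k : ℕ, x ∈ K ⊔ (maximalIdeal S ^ k) • (⊤ : Submodule S N)) : x ∈ K := by
  have h1 : K.mkQ x = 0 := by
    apply eq_of_forall_sub_mem_smul (S := S)
    intro k
    rw [sub_zero]
    obtain ⟨y, hy, z, hz, hyz⟩ := Submodule.mem_sup.1 (h k)
    rw [← hyz, map_add]
    have h2 : K.mkQ y = 0 := by simpa using hy
    rw [h2, zero_add]
    have h3 : ((maximalIdeal S ^ k) • (⊤ : Submodule S N)).map K.mkQ ≤
        (maximalIdeal S ^ k) • (⊤ : Submodule S (N ⧸ K)) := by
      rw [Submodule.map_smul'']
      exact Submodule.smul_mono le_rfl le_top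
    exact h3 (Submodule.mem_map_of_mem hz)
  simpa using h1

lemma exists_nlim (a : ι → N) : ∃ c : N, ∀ k : ℕ, ∀ᶠ n in (F : Filter ι),
    a n - c ∈ (maximalIdeal S ^ k) • (⊤ : Submodule S N) := by
  obtain ⟨m, p, hp⟩ := Module.Finite.exists_fin' S N
  choose a' ha' using fun n => hp (a n)
  refine ⟨p (fun j => ulim F S (fun n => a' n j)), ?_⟩
  intro k
  have h1 : ∀ j, ∀ᶠ n in (F : Filter ι), a' n j - ulim F S (fun n => a' n j) ∈
      maximalIdeal S ^ k := fun j => eventually_sub_ulim_mem F k _
  have h2 := Filter.eventually_all.2 h1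
  filter_upwards [h2] with n hn
  rw [← ha' n, ← map_sub]
  have h3 : (a' n - fun j => ulim F S (fun n => a' n j)) ∈
      (maximalIdeal S ^ k) • (⊤ : Submodule S (Fin m → S)) := by
    rw [← Finset.univ_sum_single (a' n - fun j => ulim F S (fun n => a' n j))]
    apply Submodule.sum_mem
    intro i _
    have : (Pi.single i ((a' n - fun j => ulim F S (fun n => a' n j)) i) : Fin m → S) =
        ((a' n - fun j => ulim F S (fun n => a' n j)) i) • Pi.single i 1 := by
      rw [← Pi.single_smul, smul_eq_mul, mul_one]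
    rw [this]
    exact Submodule.smul_mem_smul (hn i) trivial
  have h4 : ((maximalIdeal S ^ k) • (⊤ : Submodule S (Fin m → S))).map p ≤
      (maximalIdeal S ^ k) • (⊤ : Submodule S N) := by
    rw [Submodule.map_smul'']
    exact Submodule.smul_mono le_rfl le_top
  exact h4 (Submodule.mem_map_of_mem h3)

/-- limits in finite modules -/
noncomputable def nlimFun (a : ι → N) : N := (exists_nlim (S := S) F a).choose

lemma nlimFun_spec (a : ι → N) (k : ℕ) : ∀ᶠ n in (F : Filter ι),
    a n - nlimFun (S := S) F a ∈ (maximalIdeal S ^ k) • (⊤ : Submodule S N) :=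
  (exists_nlim (S := S) F a).choose_spec k

lemma nlimFun_eq {a : ι → N} {c : N} (h : ∀ k : ℕ, ∀ᶠ n in (F : Filter ι),
    a n - c ∈ (maximalIdeal S ^ k) • (⊤ : Submodule S N)) : nlimFun (S := S) F a = c := by
  apply eq_of_forall_sub_mem_smul (S := S)
  intro k
  obtain ⟨n, h1, h2⟩ := ((nlimFun_spec (S := S) F a k).and (h k)).exists
  have := sub_mem h2 h1
  rwa [sub_sub_sub_cancel_left] at this

variable (S N) in
/-- limits in finite modules -/
noncomputable def nlim : (ι → N) →ₗ[S] N where
  toFun := nlimFun (S := S) F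
  map_add' a b := by
    apply nlimFun_eq
    intro k
    filter_upwards [nlimFun_spec (S := S) F a k, nlimFun_spec (S := S) F b k] with n h1 h2
    have := add_mem h1 h2
    rwa [show a n - nlimFun (S := S) F a + (b n - nlimFun (S := S) F b) =
      (a + b) n - (nlimFun (S := S) F a + nlimFun (S := S) F b) by rw [Pi.add_apply]; abel] at this
  map_smul' s a := by
    apply nlimFun_eq
    intro k
    filter_upwards [nlimFun_spec (S := S) F a k] with n h1
    rw [RingHom.id_apply, Pi.smul_apply, ← smul_sub]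
    exact Submodule.smul_mem _ _ h1

lemma nlim_spec (a : ι → N) (k : ℕ) : ∀ᶠ n in (F : Filter ι),
    a n - nlim F S N a ∈ (maximalIdeal S ^ k) • (⊤ : Submodule S N) := nlimFun_spec F a k

lemma nlim_eq {a : ι → N} {c : N} (h : ∀ k : ℕ, ∀ᶠ n in (F : Filter ι),
    a n - c ∈ (maximalIdeal S ^ k) • (⊤ : Submodule S N)) : nlim F S N a = c := nlimFun_eq F h

lemma nlim_congr {a b : ι → N} (h : ∀ k : ℕ, ∀ᶠ n in (F : Filter ι),
    a n - b n ∈ (maximalIdeal S ^ k) • (⊤ : Submodule S N)) : nlim F S N a = nlim F S N b := by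
  apply nlim_eq
  intro k
  filter_upwards [h k, nlim_spec (S := S) F b k] with n h1 h2
  have := add_mem h1 h2
  rwa [sub_add_sub_cancel] at this

@[simp] lemma nlim_const (c : N) : nlim F S N (fun _ => c) = c :=
  nlim_eq F (fun k => by simp)

omit [IsLocalRing S] [IsNoetherianRing S] [IsAdicComplete (maximalIdeal S) S]
  [Finite (ResidueField S)] [Module.Finite S N] in
lemma map_mem_smul_top {N' : Type*} [AddCommGroup N'] [Module S N'] (f : N →ₗ[S] N')
    (I : Ideal S) {x : N} (hx : x ∈ I • (⊤ : Submodule S N)) :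
    f x ∈ I • (⊤ : Submodule S N') := by
  have h4 : (I • (⊤ : Submodule S N)).map f ≤ I • (⊤ : Submodule S N') := by
    rw [Submodule.map_smul'']
    exact Submodule.smul_mono le_rfl le_top
  exact h4 (Submodule.mem_map_of_mem hx)

lemma nlim_map {N' : Type*} [AddCommGroup N'] [Module S N'] [Module.Finite S N'] (f : N →ₗ[S] N')
    (a : ι → N) : nlim F S N' (fun n => f (a n)) = f (nlim F S N a) := by
  apply nlim_eq
  intro k
  filter_upwards [nlim_spec (S := S) F a k] with n hn
  rw [← map_sub]
  exact map_mem_smul_top f _ hn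

end NLim

section PLimN

variable {F}
variable {J : ι → Ideal S} (hJ : Small F J)
variable {M M' : ι → Type*} [∀ n, AddCommGroup (M n)] [∀ n, Module S (M n)]
  [∀ n, AddCommGroup (M' n)] [∀ n, Module S (M' n)] {d d' : ℕ}
  (e : ∀ n, M n ≃ₗ[S] (Fin d → S ⧸ J n)) (e' : ∀ n, M' n ≃ₗ[S] (Fin d' → S ⧸ J n))
variable {N : Type*} [AddCommGroup N] [Module S N] [Module.Finite S N]

/-- reduction of a vector to `M n`. -/
noncomputable def red (e : ∀ n, M n ≃ₗ[S] (Fin d → S ⧸ J n)) (n : ι) : (Fin d → S) →ₗ[S] M n :=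
  (e n).symm.toLinearMap ∘ₗ (LinearMap.pi fun i => (Ideal.Quotient.mkₐ S (J n)).toLinearMap ∘ₗ
    LinearMap.proj i)

omit [IsLocalRing S] [IsNoetherianRing S] [IsAdicComplete (maximalIdeal S) S]
  [Finite (ResidueField S)] in
lemma e_red (n : ι) (x : Fin d → S) : e n (red e n x) = fun i => Ideal.Quotient.mk (J n) (x i) := by
  simp only [red, LinearMap.comp_apply]
  rw [LinearEquiv.coe_coe, LinearEquiv.apply_symm_apply]
  rfl

omit [IsLocalRing S] [IsNoetherianRing S] [IsAdicComplete (maximalIdeal S) S]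
  [Finite (ResidueField S)] in
lemma red_surjective (n : ι) : Function.Surjective (red e n) := by
  intro y
  choose x hx using fun i => Ideal.Quotient.mk_surjective (I := J n) (e n y i)
  refine ⟨x, ?_⟩
  apply (e n).injective
  rw [e_red]
  exact funext hx

omit [IsLocalRing S] [IsNoetherianRing S] [IsAdicComplete (maximalIdeal S) S]
  [Finite (ResidueField S)] in
lemma mem_smul_top_pi {m : ℕ} (I : Ideal S) {v : Fin m → S} :
    v ∈ I • (⊤ : Submodule S (Fin m → S)) ↔ ∀ i, v i ∈ I := by
  constructor
  · intro hv i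
    refine Submodule.smul_induction_on hv ?_ ?_
    · intro r hr z _
      rw [Pi.smul_apply, smul_eq_mul]
      exact Ideal.mul_mem_right _ _ hr
    · intro x y hx hy
      exact add_mem hx hy
  · intro hv
    rw [← Finset.univ_sum_single v]
    apply Submodule.sum_mem
    intro i _
    have : (Pi.single i (v i) : Fin m → S) = v i • Pi.single i 1 := by
      rw [← Pi.single_smul, smul_eq_mul, mul_one]
    rw [this]
    exact Submodule.smul_mem_smul (hv i) trivial

omit [IsLocalRing S] [IsNoetherianRing S] [IsAdicComplete (maximalIdeal S) S]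
  [Finite (ResidueField S)] in
lemma red_eq_zero_iff (n : ι) (x : Fin d → S) : red e n x = 0 ↔ ∀ i, x i ∈ J n := by
  rw [← (e n).map_eq_zero_iff, e_red, funext_iff]
  simp only [Pi.zero_apply, Ideal.Quotient.eq_zero_iff_mem]

/-- approximating the patched homomorphism. -/
lemma eventually_plim_sub_mem (f : ∀ n, M n →ₗ[S] M' n) (x : Fin d → S) (k : ℕ) :
    ∀ᶠ n in (F : Filter ι), f n (red e n x) - red e' n (plim e e' hJ f x) ∈
      (maximalIdeal S ^ k) • (⊤ : Submodule S (M' n)) := by
  choose A hA using fun n i j => Ideal.Quotient.mk_surjective (I := J n) (toMat (e n) (e' n) (f n) i j)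
  have hAl : ∀ i j, mlim hJ (fun n => toMat (e n) (e' n) (f n)) i j = ulim F S (fun n => A n i j) := by
    intro i j
    rw [mlim, Matrix.of_apply, ← qlim_mk hJ]
    congr 1
    funext n
    exact (hA n i j).symm
  have h1 : ∀ i j, ∀ᶠ n in (F : Filter ι), A n i j - ulim F S (fun n => A n i j) ∈
      maximalIdeal S ^ k := fun i j => eventually_sub_ulim_mem F k _
  have h2 := Filter.eventually_all.2 (fun i => Filter.eventually_all.2 (h1 i))
  filter_upwards [h2] with n hn
  have h3 : f n (red e n x) = red e' n ((Matrix.of (A n)).mulVec x) := by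
    apply (e' n).injective
    rw [toMat_mulVec (e n) (e' n), e_red, e_red]
    funext i
    simp only [Matrix.mulVec, dotProduct, Matrix.of_apply, map_sum, map_mul, hA]
  rw [h3, ← map_sub]
  apply map_mem_smul_top
  rw [mem_smul_top_pi]
  intro i
  rw [Pi.sub_apply, plim, Matrix.toLin'_apply]
  simp only [Matrix.mulVec, dotProduct, Matrix.of_apply]
  rw [← Finset.sum_sub_distrib]
  apply Ideal.sum_mem
  intro j _
  rw [hAl, ← sub_mul]
  exact Ideal.mul_mem_right _ _ (hn i j)

/-- the patched homomorphism to a constant module -/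
noncomputable def plimN (F : Ultrafilter ι) (e : ∀ n, M n ≃ₗ[S] (Fin d → S ⧸ J n))
    (f : ∀ n, M n →ₗ[S] N) : (Fin d → S) →ₗ[S] N :=
  nlim F S N ∘ₗ LinearMap.pi (fun n => f n ∘ₗ red e n)

lemma plimN_apply (f : ∀ n, M n →ₗ[S] N) (x : Fin d → S) :
    plimN F e f x = nlim F S N (fun n => f n (red e n x)) := rfl

lemma plimN_comp (f : ∀ n, M n →ₗ[S] M' n) (g : ∀ n, M' n →ₗ[S] N) :
    plimN F e (fun n => g n ∘ₗ f n) = plimN F e' g ∘ₗ plim e e' hJ f := by
  apply LinearMap.ext
  intro x
  rw [LinearMap.comp_apply, plimN_apply, plimN_apply]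
  apply nlim_congr
  intro k
  filter_upwards [eventually_plim_sub_mem hJ e e' f x k] with n hn
  rw [LinearMap.comp_apply, ← map_sub]
  exact map_mem_smul_top (g n) _ hn

lemma plimN_surjective (f : ∀ n, M n →ₗ[S] N)
    (hf : ∀ᶠ n in (F : Filter ι), Function.Surjective (f n)) :
    Function.Surjective (plimN F e f) := by
  rw [← LinearMap.range_eq_top]
  apply top_le_iff.1
  apply Submodule.le_of_le_smul_of_le_jacobson_bot (I := maximalIdeal S) (Module.Finite.fg_top)
  · exact IsLocalRing.maximalIdeal_le_jacobson _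
  · -- `N = range + 𝔪 N`
    have h1 : ∀ j : Fin d, ∀ᶠ n in (F : Filter ι), f n (red e n (Pi.single j 1)) -
        plimN F e f (Pi.single j 1) ∈ (maximalIdeal S ^ 1) • (⊤ : Submodule S N) :=
      fun j => nlim_spec F _ 1
    obtain ⟨n, h2, h3⟩ := ((Filter.eventually_all.2 h1).and hf).exists
    intro y _
    obtain ⟨z, rfl⟩ := h3 y
    obtain ⟨x, rfl⟩ := red_surjective e n z
    have h4 : f n (red e n x) = ∑ j, x j • f n (red e n (Pi.single j 1)) := by
      conv_lhs => rw [← Finset.univ_sum_single x]
      rw [map_sum, map_sum]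
      apply Finset.sum_congr rfl
      intro j _
      rw [← map_smul, ← map_smul]
      congr 2
      rw [← Pi.single_smul, smul_eq_mul, mul_one]
    rw [h4]
    apply Submodule.sum_mem
    intro j _
    apply Submodule.smul_mem
    have h5 : f n (red e n (Pi.single j 1)) = plimN F e f (Pi.single j 1) +
        (f n (red e n (Pi.single j 1)) - plimN F e f (Pi.single j 1)) := by abel
    rw [h5]
    have h6 := h2 j
    rw [pow_one] at h6
    exact add_mem (Submodule.mem_sup_left (LinearMap.mem_range_self _ _))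
      (Submodule.mem_sup_right h6)

lemma ker_plimN (f : ∀ n, M n →ₗ[S] N) (hf : ∀ᶠ n in (F : Filter ι), Function.Surjective (f n))
    (I : Ideal S) (hker : ∀ᶠ n in (F : Filter ι), LinearMap.ker (f n) = I • ⊤)
    (hJ : Small F J) :
    LinearMap.ker (plimN F e f) = I • ⊤ := by
  apply le_antisymm
  · intro x hx
    apply mem_of_forall_mem_sup (S := S)
    intro k
    have h1 := nlim_spec (S := S) F (fun n => f n (red e n x)) k
    obtain ⟨n, h2, h3, h4, h5⟩ := (h1.and (hf.and (hker.and (hJ k)))).exists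
    rw [LinearMap.mem_ker, plimN_apply] at hx
    rw [hx, sub_zero] at h2
    -- lift to an element of `𝔪 ^ k M n`
    have h6 : (maximalIdeal S ^ k) • (⊤ : Submodule S N) =
        ((maximalIdeal S ^ k) • (⊤ : Submodule S (M n))).map (f n) := by
      rw [Submodule.map_smul'', Submodule.map_top, LinearMap.range_eq_top.2 h3]
    rw [h6] at h2
    obtain ⟨y, hy, hy'⟩ := h2
    have h7 : red e n x - y ∈ LinearMap.ker (f n) := by
      rw [LinearMap.mem_ker, map_sub, hy', sub_self]
    rw [h4] at h7
    have h8 : red e n x ∈ (I ⊔ maximalIdeal S ^ k) • (⊤ : Submodule S (M n)) := by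
      rw [Submodule.sup_smul]
      have : red e n x = (red e n x - y) + y := by abel
      rw [this]
      exact add_mem (Submodule.mem_sup_left h7) (Submodule.mem_sup_right hy)
    have h9 : (I ⊔ maximalIdeal S ^ k) • (⊤ : Submodule S (M n)) =
        ((I ⊔ maximalIdeal S ^ k) • (⊤ : Submodule S (Fin d → S))).map (red e n) := by
      rw [Submodule.map_smul'', Submodule.map_top, LinearMap.range_eq_top.2 (red_surjective e n)]
    rw [h9] at h8
    obtain ⟨z, hz, hz'⟩ := h8
    have h10 : red e n (x - z) = 0 := by rw [map_sub, hz', sub_self]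
    rw [red_eq_zero_iff] at h10
    have h11 : x - z ∈ (maximalIdeal S ^ k) • (⊤ : Submodule S (Fin d → S)) := by
      rw [mem_smul_top_pi]
      exact fun i => h5 (h10 i)
    rw [Submodule.sup_smul] at hz
    have : x = z + (x - z) := by abel
    rw [this]
    exact add_mem hz (Submodule.mem_sup_right h11)
  · intro x hx
    rw [LinearMap.mem_ker, plimN_apply]
    apply nlim_eq
    intro k
    filter_upwards [hker] with n hn
    have h1 : red e n x ∈ LinearMap.ker (f n) := by
      rw [hn]
      exact map_mem_smul_top _ _ hx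
    rw [LinearMap.mem_ker.1 h1, sub_self]
    exact zero_mem _

end PLimN

end Fermat.Agent.TAlg
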