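import Mathlib
import Fermat.Agent.TAlg.NLim

/-! # The patched action of a complete local noetherian ring. -/

set_option autoImplicit false

open IsLocalRing Filter

namespace Fermat.Agent.TAlg

/-- A finite module over a local ring is killed by the power `𝔪 ^ (card N)`. -/
lemma pow_card_smul_top {R N : Type*} [CommRing R] [IsLocalRing R] [AddCommGroup N] [Module R N]
    [Finite N] : (maximalIdeal R) ^ (Nat.card N) • (⊤ : Submodule R N) = ⊥ := by
  have key : ∀ i : ℕ, (maximalIdeal R) ^ i • (⊤ : Submodule R N) = ⊥ ∨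
      Nat.card ((maximalIdeal R) ^ i • (⊤ : Submodule R N) : Submodule R N) + i ≤ Nat.card N := by
    intro i
    induction i with
    | zero =>
      right
      rw [pow_zero, Ideal.one_eq_top, Submodule.top_smul, add_zero]
      exact Nat.card_le_card_of_injective (fun x : (⊤ : Submodule R N) => (x : N))
        Subtype.val_injective
    | succ i ih =>
      rcases ih with ih | ih
      · left
        rw [pow_succ', mul_smul, ih, Submodule.smul_bot]
      · by_cases h : (maximalIdeal R) ^ i • (⊤ : Submodule R N) = ⊥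
        · left
          rw [pow_succ', mul_smul, h, Submodule.smul_bot]
        right
        have hlt : (maximalIdeal R) ^ (i + 1) • (⊤ : Submodule R N) <
            (maximalIdeal R) ^ i • (⊤ : Submodule R N) := by
          apply lt_of_le_of_ne
          · rw [pow_succ', mul_smul]
            exact Submodule.smul_le_right
          · intro heq
            apply h
            rw [pow_succ', mul_smul] at heq
            have hfg : ((maximalIdeal R) ^ i • (⊤ : Submodule R N)).FG :=
              Module.Finite.iff_fg.1 inferInstance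
            exact Submodule.eq_bot_of_le_smul_of_le_jacobson_bot _ _ hfg heq.ge
              (IsLocalRing.maximalIdeal_le_jacobson _)
        have h2 : Nat.card ((maximalIdeal R) ^ (i + 1) • (⊤ : Submodule R N) : Submodule R N) <
            Nat.card ((maximalIdeal R) ^ i • (⊤ : Submodule R N) : Submodule R N) := by
          apply Set.ncard_lt_ncard (t := (((maximalIdeal R) ^ i • (⊤ : Submodule R N) :
            Submodule R N) : Set N)) (s := (((maximalIdeal R) ^ (i + 1) • (⊤ : Submodule R N) :
            Submodule R N) : Set N))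
          exact SetLike.coe_ssubset_coe.2 hlt
        omega
  rcases key (Nat.card N) with h | h
  · exact h
  · exfalso
    have : 0 < Nat.card ((maximalIdeal R) ^ (Nat.card N) • (⊤ : Submodule R N) : Submodule R N) :=
      Nat.card_pos
    omega

variable {ι : Type*} {F : Ultrafilter ι}
variable {S : Type*} [CommRing S] [IsLocalRing S] [IsNoetherianRing S]
  [IsAdicComplete (maximalIdeal S) S] [Finite (ResidueField S)]
variable {J : ι → Ideal S} (hJ : Small F J)
variable {M : ι → Type*} [∀ n, AddCommGroup (M n)] [∀ n, Module S (M n)] {d : ℕ}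
  (e : ∀ n, M n ≃ₗ[S] (Fin d → S ⧸ J n))
variable {R : Type*} [CommRing R] [IsLocalRing R] (ρ : ∀ n, R →+* Module.End S (M n))

/-- the ring homomorphism `End M → End (M ⧸ I M)`. -/
def endQuot {A P : Type*} [CommRing A] [AddCommGroup P] [Module A P] (I : Ideal A) :
    Module.End A P →+* Module.End A (P ⧸ (I • (⊤ : Submodule A P))) where
  toFun f := (I • (⊤ : Submodule A P)).mapQ (I • (⊤ : Submodule A P)) f
    (fun _ hx => map_mem_smul_top f I hx)
  map_one' := by
    apply Submodule.linearMap_qext
    rfl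
  map_zero' := by
    apply Submodule.linearMap_qext
    rfl
  map_mul' f g := by
    apply Submodule.linearMap_qext
    rfl
  map_add' f g := by
    apply Submodule.linearMap_qext
    rfl

omit [IsNoetherianRing S] [IsAdicComplete (maximalIdeal S) S] [Finite (ResidueField S)] in
/-- Uniform continuity: one power of `𝔪_R` moves `M` into `𝔪_S ^ k M`. -/
lemma map_pow_le {P : Type*} [AddCommGroup P] [Module S P] (ρ : R →+* Module.End S P) (k B : ℕ)
    [Finite (P ⧸ ((maximalIdeal S ^ k) • (⊤ : Submodule S P)))]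
    (hB : Nat.card (P ⧸ ((maximalIdeal S ^ k) • (⊤ : Submodule S P))) ≤ B)
    {r : R} (hr : r ∈ maximalIdeal R ^ B) :
    LinearMap.range (ρ r) ≤ (maximalIdeal S ^ k) • (⊤ : Submodule S P) := by
  let φ : R →+* Module.End S (P ⧸ ((maximalIdeal S ^ k) • (⊤ : Submodule S P))) :=
    (endQuot (maximalIdeal S ^ k)).comp ρ
  let _ : Module R (P ⧸ ((maximalIdeal S ^ k) • (⊤ : Submodule S P))) :=
    Module.compHom _ φ
  have h1 := pow_card_smul_top (R := R)
    (N := P ⧸ ((maximalIdeal S ^ k) • (⊤ : Submodule S P)))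
  rintro _ ⟨x, rfl⟩
  have h2 : r • (Submodule.Quotient.mk x : P ⧸ ((maximalIdeal S ^ k) • (⊤ : Submodule S P))) ∈
      (maximalIdeal R) ^ (Nat.card (P ⧸ ((maximalIdeal S ^ k) • (⊤ : Submodule S P)))) •
      (⊤ : Submodule R (P ⧸ ((maximalIdeal S ^ k) • (⊤ : Submodule S P)))) :=
    Submodule.smul_mem_smul (Ideal.pow_le_pow_right hB hr) trivial
  rw [h1, Submodule.mem_bot] at h2
  exact (Submodule.Quotient.mk_eq_zero _).1 h2

omit [IsAdicComplete (maximalIdeal S) S] in
lemma finite_quot_free (I : Ideal S) (P : Type*) [AddCommGroup P] [Module S P]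
    (e : P ≃ₗ[S] (Fin d → S ⧸ I)) (k : ℕ) :
    Finite (P ⧸ ((maximalIdeal S ^ k) • (⊤ : Submodule S P))) ∧
      Nat.card (P ⧸ ((maximalIdeal S ^ k) • (⊤ : Submodule S P))) ≤
        Nat.card (Fin d → S ⧸ maximalIdeal S ^ k) := by
  have hfin := finite_quot S k
  let p : (Fin d → S) →ₗ[S] P := e.symm.toLinearMap ∘ₗ (LinearMap.pi fun i =>
    (Ideal.Quotient.mkₐ S I).toLinearMap ∘ₗ LinearMap.proj i)
  have hp : Function.Surjective p := by
    intro y
    choose x hx using fun i => Ideal.Quotient.mk_surjective (I := I) (e y i)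
    refine ⟨x, ?_⟩
    apply e.injective
    change e (e.symm _) = _
    rw [LinearEquiv.apply_symm_apply]
    exact funext hx
  have hs : ∃ f : (Fin d → S ⧸ maximalIdeal S ^ k) →
      P ⧸ ((maximalIdeal S ^ k) • (⊤ : Submodule S P)), Function.Surjective f := by
    refine ⟨fun v => Submodule.Quotient.mk (p (fun i => (Ideal.Quotient.mk_surjective
      (v i)).choose)), ?_⟩
    intro y
    obtain ⟨z, rfl⟩ := Submodule.Quotient.mk_surjective _ y
    obtain ⟨x, rfl⟩ := hp z
    refine ⟨fun i => Ideal.Quotient.mk _ (x i), ?_⟩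
    rw [Submodule.Quotient.eq, ← map_sub]
    apply map_mem_smul_top
    rw [mem_smul_top_pi]
    intro i
    rw [Pi.sub_apply, ← Ideal.Quotient.eq]
    exact (Ideal.Quotient.mk_surjective (Ideal.Quotient.mk (maximalIdeal S ^ k) (x i))).choose_spec
  obtain ⟨f, hf⟩ := hs
  exact ⟨Finite.of_surjective f hf, Nat.card_le_card_of_surjective f hf⟩

/-- the patched action -/
noncomputable def pact (hJ : Small F J) (e : ∀ n, M n ≃ₗ[S] (Fin d → S ⧸ J n))
    (ρ : ∀ n, R →+* Module.End S (M n)) : R →+* Module.End S (Fin d → S) where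
  toFun r := plim e e hJ (fun n => ρ n r)
  map_one' := by
    simp only [map_one]
    exact plim_id hJ e
  map_zero' := by
    simp only [map_zero]
    exact plim_zero hJ e e
  map_mul' r s := by
    simp only [map_mul]
    exact plim_comp hJ e e e (fun n => ρ n s) (fun n => ρ n r)
  map_add' r s := by
    simp only [map_add]
    exact plim_add hJ e e _ _

variable [IsNoetherianRing R] [IsAdicComplete (maximalIdeal R) R] [Finite (ResidueField R)]

/-- CONTINUITY: the action of a convergent sequence. -/
lemma plim_act_eq (a : ι → R) :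
    plim e e hJ (fun n => ρ n (a n)) = pact hJ e ρ (ulim F R a) := by
  apply plim_congr
  intro k
  filter_upwards [eventually_sub_ulim_mem F (Nat.card (Fin d → S ⧸ maximalIdeal S ^ k)) a]
    with n hn
  rw [← map_sub]
  obtain ⟨h1, h2⟩ := finite_quot_free (J n) (M n) (e n) k
  exact map_pow_le (ρ n) k _ h2 hn

/-- if `S` acts through `θ n` then `S` acts through the limit of the `θ n`. -/
lemma pact_theta (θ : ι → (S →+* R))
    (hθ : ∀ n s, ρ n (θ n s) = algebraMap S (Module.End S (M n)) s) (s : S) :
    pact hJ e ρ (ulimRingHom F θ s) = algebraMap S (Module.End S (Fin d → S)) s := by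
  rw [ulimRingHom_apply, ← plim_act_eq]
  simp only [hθ, Algebra.algebraMap_eq_smul_one]
  rw [plim_smul]
  congr 1
  exact plim_id hJ e

/-- the limit of surjective homomorphisms is surjective. -/
lemma ulimRingHom_surjective {R₀ : Type*} [CommRing R₀] [IsLocalRing R₀] [IsNoetherianRing R₀]
    [IsAdicComplete (maximalIdeal R₀) R₀] [Finite (ResidueField R₀)] (π : ι → (R →+* R₀))
    (hloc : ∀ n, ∀ x ∈ maximalIdeal R, π n x ∈ maximalIdeal R₀)
    (hπ : ∀ n, Function.Surjective (π n)) : Function.Surjective (ulimRingHom F π) := by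
  intro b
  choose r hr using fun n => hπ n b
  refine ⟨ulim F R r, ?_⟩
  rw [← ulim_apply F π hloc]
  simp only [hr]
  exact ulim_const F b

omit [IsLocalRing S] [IsNoetherianRing S] [IsAdicComplete (maximalIdeal S) S]
  [Finite (ResidueField S)] in
/-- the limit of homomorphisms which kill something. -/
lemma ulimRingHom_comp_eq_zero {R₀ : Type*} [CommRing R₀] [IsLocalRing R₀] [IsNoetherianRing R₀]
    [IsAdicComplete (maximalIdeal R₀) R₀] [Finite (ResidueField R₀)] (π : ι → (R →+* R₀))
    (hloc : ∀ n, ∀ x ∈ maximalIdeal R, π n x ∈ maximalIdeal R₀) (θ : ι → (S →+* R)) (s : S)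
    (h : ∀ n, π n (θ n s) = 0) : ulimRingHom F π (ulimRingHom F θ s) = 0 := by
  rw [ulimRingHom_apply F θ, ← ulim_apply F π hloc]
  simp only [h]
  exact map_zero (ulim F R₀)

omit [IsLocalRing R] [IsNoetherianRing R] [IsAdicComplete (maximalIdeal R) R]
  [Finite (ResidueField R)] in
/-- the patched projection to the bottom level is equivariant. -/
lemma plimN_act {R₀ : Type*} [CommRing R₀] [IsLocalRing R₀] [IsNoetherianRing R₀]
    [IsAdicComplete (maximalIdeal R₀) R₀] [Finite (ResidueField R₀)] (π : ι → (R →+* R₀))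
    {N : Type*} [AddCommGroup N] [Module S N] [Module.Finite S N]
    (ρ₀ : R₀ →+* Module.End S N) (f : ∀ n, M n →ₗ[S] N)
    (hf : ∀ n r x, f n (ρ n r x) = ρ₀ (π n r) (f n x)) (r : R) (x : Fin d → S) :
    plimN F e f (pact hJ e ρ r x) = ρ₀ (ulimRingHom F π r) (plimN F e f x) := by
  have h1 : plimN F e f (pact hJ e ρ r x) = (plimN F e f ∘ₗ plim e e hJ (fun n => ρ n r)) x := rfl
  rw [h1, ← plimN_comp hJ e e, plimN_apply, plimN_apply]
  have h2 : ρ₀ (ulimRingHom F π r) (nlim F S N fun n => f n (red e n x)) =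
      nlim F S N (fun n => ρ₀ (ulimRingHom F π r) (f n (red e n x))) :=
    (nlim_map F (ρ₀ (ulimRingHom F π r)) _).symm
  rw [h2]
  apply nlim_congr
  intro k
  have hfin : Finite (N ⧸ ((maximalIdeal S ^ k) • (⊤ : Submodule S N))) := by
    obtain ⟨m, p, hp⟩ := Module.Finite.exists_fin' S N
    have h3 := (finite_quot_free (d := m) (⊥ : Ideal S) (Fin m → S)
      (LinearEquiv.piCongrRight fun _ => ((Submodule.quotEquivOfEqBot _ rfl).symm :
        S ≃ₗ[S] S ⧸ (⊥ : Ideal S))) k).1
    have h4 : Function.Surjective (((maximalIdeal S ^ k) • (⊤ : Submodule S (Fin m → S))).mapQ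
      ((maximalIdeal S ^ k) • (⊤ : Submodule S N)) p (fun _ hx => map_mem_smul_top p _ hx)) := by
      intro y
      obtain ⟨z, rfl⟩ := Submodule.Quotient.mk_surjective _ y
      obtain ⟨x, rfl⟩ := hp z
      exact ⟨Submodule.Quotient.mk x, rfl⟩
    exact Finite.of_surjective _ h4
  filter_upwards [eventually_sub_ulim_mem F
    (Nat.card (N ⧸ ((maximalIdeal S ^ k) • (⊤ : Submodule S N)))) (fun n => π n r)] with n hn
  rw [LinearMap.comp_apply, hf, ← LinearMap.sub_apply, ← map_sub]
  exact map_pow_le ρ₀ k _ le_rfl hn (LinearMap.mem_range_self _ _)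

end Fermat.Agent.TAlg
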