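import Mathlib

/-! # Supports of modules which are finite and torsion free over a subring `S` with
`dim R ≤ dim S`. -/

set_option autoImplicit false

open Polynomial

namespace Fermat.Agent.TAlg

section

variable {S R M : Type*} [CommRing S] [CommRing R] [AddCommGroup M] [Module S M]
  [Module R M] (θ : S →+* R) (hθ : ∀ (s : S) (m : M), θ s • m = s • m)

include hθ in
/-- elements of `R` are integral over `S` modulo the annihilator. -/
lemma exists_monic_eval₂_mem_annihilator [Module.Finite S M] (r : R) :
    ∃ p : S[X], p.Monic ∧ p.eval₂ θ r ∈ Module.annihilator R M := by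
  let f : Module.End S M :=
    { toFun := fun m => r • m
      map_add' := fun x y => smul_add r x y
      map_smul' := fun s m => by
        rw [RingHom.id_apply, ← hθ, ← hθ, smul_smul, smul_smul, mul_comm] }
  obtain ⟨p, hp, hp'⟩ := LinearMap.exists_monic_and_aeval_eq_zero S f
  refine ⟨p, hp, ?_⟩
  rw [Module.mem_annihilator]
  intro m
  have h1 : ∀ q : S[X], (q.eval₂ θ r) • m = (aeval f q) m := by
    intro q
    induction q using Polynomial.induction_on' with
    | add p q hp hq => rw [eval₂_add, add_smul, hp, hq, map_add, LinearMap.add_apply]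
    | monomial n a =>
      rw [eval₂_monomial, aeval_monomial, mul_smul, hθ]
      have : ∀ n : ℕ, (f ^ n) m = r ^ n • m := by
        intro n
        induction n with
        | zero => simp
        | succ n ih =>
          rw [pow_succ', Module.End.mul_apply, ih, pow_succ', mul_smul]
          rfl
      rw [Module.algebraMap_end_eq_smul_id, Module.End.mul_apply, this]
      rfl
  rw [h1, hp', LinearMap.zero_apply]

include hθ in
lemma isIntegral_quotient [Module.Finite S M] (P : Ideal R) (hP : Module.annihilator R M ≤ P) :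
    ((Ideal.Quotient.mk P).comp θ).IsIntegral := by
  intro x
  obtain ⟨r, rfl⟩ := Ideal.Quotient.mk_surjective x
  obtain ⟨p, hp, hp'⟩ := exists_monic_eval₂_mem_annihilator (M := M) θ hθ r
  refine ⟨p, hp, ?_⟩
  rw [← hom_eval₂, Ideal.Quotient.eq_zero_iff_mem]
  exact hP hp'

include hθ in
lemma comap_eq_bot_of_minimal [IsDomain S] [Module.IsTorsionFree S M] (P : Ideal R)
    (hP : P ∈ (Module.annihilator R M).minimalPrimes) : P.comap θ = ⊥ := by
  rw [eq_bot_iff]
  intro s hs
  by_contra hs0
  rw [Ideal.mem_bot] at hs0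
  have hreg : IsSMulRegular M (θ s) := by
    intro x y hxy
    simp only [hθ] at hxy
    exact smul_right_injective M hs0 hxy
  exact hreg.notMem_of_mem_minimalPrimes hP hs

/-- integral injective extensions do not decrease the dimension. -/
lemma ringKrullDim_le_of_isIntegral {A B : Type*} [CommRing A] [CommRing B] (f : A →+* B)
    (hf : f.IsIntegral) (hinj : Function.Injective f) : ringKrullDim A ≤ ringKrullDim B := by
  let _ : Algebra A B := f.toAlgebra
  have : Algebra.IsIntegral A B := ⟨hf⟩
  have : FaithfulSMul A B := (faithfulSMul_iff_algebraMap_injective A B).2 hinj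
  rw [ringKrullDim, Order.krullDim]
  apply iSup_le
  intro l
  obtain ⟨Q, hQ⟩ := Ideal.nonempty_primesOver (S := B) (l.head).asIdeal
  obtain ⟨hQ1, hQ2⟩ := hQ
  have : Algebra.HasGoingUp A B := inferInstance
  obtain ⟨L, hL, -, -⟩ := Ideal.exists_ltSeries_of_hasGoingUp l Q
  rw [← hL]
  exact Order.LTSeries.length_le_krullDim L

include hθ in
/-- the coheight of a minimal prime of the support. -/
lemma ringKrullDim_le_quotient [IsDomain S] [Module.Finite S M] [Module.IsTorsionFree S M]
    (P : Ideal R) (hP : P ∈ (Module.annihilator R M).minimalPrimes) :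
    ringKrullDim S ≤ ringKrullDim (R ⧸ P) := by
  apply ringKrullDim_le_of_isIntegral ((Ideal.Quotient.mk P).comp θ)
    (isIntegral_quotient (M := M) θ hθ P hP.1.2)
  rw [injective_iff_map_eq_zero]
  intro s hs
  have h1 : θ s ∈ P := Ideal.Quotient.eq_zero_iff_mem.1 hs
  rw [← Ideal.mem_comap] at h1
  rw [comap_eq_bot_of_minimal (M := M) θ hθ P hP] at h1
  exact h1

lemma mem_minimalPrimes_of_dim (P : Ideal R) [P.IsPrime] (hfin : ringKrullDim R < ⊤)
    (h : ringKrullDim R ≤ ringKrullDim (R ⧸ P)) : P ∈ minimalPrimes R := by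
  obtain ⟨P', hP', hle⟩ := Ideal.exists_minimalPrimes_le (I := (⊥ : Ideal R)) (J := P) bot_le
  by_cases heq : P' = P
  · rw [← heq]; exact hP'
  exfalso
  have hlt : P' < P := lt_of_le_of_ne hle heq
  obtain ⟨x, hx, hx'⟩ := Set.exists_of_ssubset hlt
  have : P'.IsPrime := hP'.1.1
  have h1 : ringKrullDim (R ⧸ P) + 1 ≤ ringKrullDim (R ⧸ P') := by
    apply ringKrullDim_succ_le_of_surjective (Ideal.Quotient.factor hle)
      (Ideal.Quotient.factor_surjective hle) (r := Ideal.Quotient.mk P' x)
    · rw [mem_nonZeroDivisors_iff_ne_zero]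
      exact fun h => hx' (Ideal.Quotient.eq_zero_iff_mem.1 h)
    · rw [Ideal.Quotient.factor_mk]
      exact Ideal.Quotient.eq_zero_iff_mem.2 hx
  have h2 : ringKrullDim (R ⧸ P') ≤ ringKrullDim R := ringKrullDim_quotient_le P'
  have h3 := h1.trans (h2.trans h)
  have : Nontrivial (R ⧸ P) := Ideal.Quotient.nontrivial_iff.2 (Ideal.IsPrime.ne_top ‹_›)
  have h4 : ringKrullDim (R ⧸ P) < ⊤ := lt_of_le_of_lt (ringKrullDim_quotient_le P) hfin
  have h5 := ringKrullDim_nonneg_of_nontrivial (R := R ⧸ P)
  generalize ringKrullDim (R ⧸ P) = x at *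
  induction x using WithBot.recBotCoe with
  | bot => simp at h5
  | coe x =>
    induction x using ENat.recTopCoe with
    | top => exact absurd h4 (lt_irrefl _)
    | coe n =>
      norm_cast at h3
      omega

include hθ in
/-- (A2) Minimal primes of the support are minimal primes of `R`. -/
theorem minimalPrimes_annihilator_subset [IsDomain S] [Module.Finite S M]
    [Module.IsTorsionFree S M] (hfin : ringKrullDim R < ⊤)
    (hdim : ringKrullDim R ≤ ringKrullDim S) (P : Ideal R)
    (hP : P ∈ (Module.annihilator R M).minimalPrimes) : P ∈ minimalPrimes R := by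
  have : P.IsPrime := hP.1.1
  exact mem_minimalPrimes_of_dim P hfin
    (hdim.trans (ringKrullDim_le_quotient (M := M) θ hθ P hP))

include hθ in
/-- (A2) For a domain of dimension at most `dim S` the action is faithful. -/
theorem annihilator_eq_bot [IsDomain S] [IsDomain R] [Module.Finite S M] [Nontrivial M]
    [Module.IsTorsionFree S M] (hfin : ringKrullDim R < ⊤)
    (hdim : ringKrullDim R ≤ ringKrullDim S) : Module.annihilator R M = ⊥ := by
  have h1 : Module.annihilator R M ≠ ⊤ := by
    rw [Ne, Module.annihilator_eq_top_iff]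
    exact not_subsingleton M
  obtain ⟨P, hP⟩ := Ideal.nonempty_minimalPrimes h1
  have h2 := minimalPrimes_annihilator_subset (M := M) θ hθ hfin hdim P hP
  rw [IsDomain.minimalPrimes_eq_singleton_bot, Set.mem_singleton_iff] at h2
  rw [eq_bot_iff]
  exact h2 ▸ hP.1.2

end

section

variable {R M : Type*} [CommRing R] [AddCommGroup M] [Module R M] [Module.Finite R M]

/-- If `r M ⊆ I M` and `Q` is a prime in the support of `M` which contains `I` then `r ∈ Q`. -/
lemma mem_of_smul_le (I Q : Ideal R) [Q.IsPrime] (hQ : Module.annihilator R M ≤ Q) (hI : I ≤ Q)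
    (r : R) (hr : ∀ m : M, r • m ∈ I • (⊤ : Submodule R M)) : r ∈ Q := by
  let f : Module.End R M := algebraMap R (Module.End R M) r
  have hf : LinearMap.range f ≤ I • ⊤ := by
    rintro _ ⟨m, rfl⟩
    exact hr m
  obtain ⟨p, hp, -, hp2, hp3⟩ :=
    LinearMap.exists_monic_and_natDegree_eq_and_coeff_mem_pow_and_aeval_eq_zero R f I hf
  have h1 : p.eval r ∈ Module.annihilator R M := by
    rw [Module.mem_annihilator]
    intro m
    have h2 : aeval f p = algebraMap R (Module.End R M) (p.eval r) := by
      rw [Polynomial.aeval_algebraMap_apply]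
      rfl
    rw [hp3] at h2
    have h3 := congrArg (fun g : Module.End R M => g m) h2
    simpa using h3.symm
  have h4 : p.eval r ∈ Q := hQ h1
  rw [Polynomial.eval_eq_sum_range, Finset.sum_range_succ, hp.coeff_natDegree, one_mul] at h4
  have h5 : ∑ i ∈ Finset.range p.natDegree, p.coeff i * r ^ i ∈ Q := by
    apply Ideal.sum_mem
    intro i hi
    apply Ideal.mul_mem_right
    have h6 := hp2 i
    have h7 : 1 ≤ p.natDegree - i := by
      have := Finset.mem_range.1 hi
      omega
    exact hI (Ideal.pow_le_self (by omega) h6)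
  have h8 : r ^ p.natDegree ∈ Q := by
    have := Ideal.sub_mem _ h4 h5
    rwa [add_sub_cancel_left] at this
  exact Ideal.IsPrime.mem_of_pow_mem ‹_› _ h8

end

end Fermat.Agent.TAlg
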