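import Mathlib
import Fermat.Agent.TAlg.Support

/-! # Ihara avoidance and level raising, at the level of patched modules. -/

set_option autoImplicit false

open Polynomial

namespace Fermat.Agent.TAlg

section

variable {S : Type*} [CommRing S] [IsDomain S]

/-- (A3) IHARA AVOIDANCE.  `M₁` over `R₁` and `M₂` over `R₂` agree modulo `ϖ`, `R₂` is a domain of
dimension at most `dim S`.  Then every prime of `R₁` containing `ϖ` is in the support of `M₁`, and
contains a minimal prime of `R₁` which is in the support of `M₁`. -/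
theorem annihilator_le_of_congr {R₁ R₂ Rb M₁ M₂ : Type*} [CommRing R₁] [CommRing R₂] [CommRing Rb]
    [AddCommGroup M₁] [Module R₁ M₁]
    [AddCommGroup M₂] [Module S M₂] [Module R₂ M₂]
    (θ₂ : S →+* R₂) (hθ₂ : ∀ (s : S) (m : M₂), θ₂ s • m = s • m)
    [Module.Finite S M₂] [Module.IsTorsionFree S M₂] [Nontrivial M₂]
    (α : R₁ →+* Rb) (β : R₂ →+* Rb) (hα : Function.Surjective α) (hβ : Function.Surjective β)
    (I₁ : Ideal R₁) (I₂ : Ideal R₂) (hI₁ : RingHom.ker α = I₁) (hI₂ : RingHom.ker β = I₂)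
    (g : M₁ →+ M₂ ⧸ (I₂ • (⊤ : Submodule R₂ M₂))) (hg : Function.Surjective g)
    (hequiv : ∀ r₁ r₂, α r₁ = β r₂ → ∀ m : M₁, g (r₁ • m) = r₂ • g m)
    [IsDomain R₂] (hfin : ringKrullDim R₂ < ⊤) (hdim : ringKrullDim R₂ ≤ ringKrullDim S)
    (Q : Ideal R₁) [Q.IsPrime] (hQ : I₁ ≤ Q) : Module.annihilator R₁ M₁ ≤ Q := by
  have hann : Module.annihilator R₂ M₂ = ⊥ := annihilator_eq_bot θ₂ hθ₂ hfin hdim
  have : Module.Finite R₂ M₂ := by
    obtain ⟨s, hs⟩ := (inferInstance : Module.Finite S M₂)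
    refine ⟨s, ?_⟩
    rw [eq_top_iff]
    intro x _
    have hx : x ∈ Submodule.span S (s : Set M₂) := by rw [hs]; trivial
    refine Submodule.span_induction (fun y hy => Submodule.subset_span hy) (zero_mem _)
      (fun y z _ _ hy hz => add_mem hy hz) (fun a y _ hy => ?_) hx
    rw [← hθ₂]
    exact Submodule.smul_mem _ _ hy
  intro r hr
  obtain ⟨r₂, hr₂⟩ := hβ (α r)
  -- the corresponding prime of `R₂`
  have hQα : (Q.map α).comap α = Q := by
    rw [Ideal.comap_map_of_surjective _ hα, ← RingHom.ker_eq_comap_bot, hI₁]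
    exact sup_eq_left.2 hQ
  have hprime : (Q.map α).IsPrime := by
    apply Ideal.map_isPrime_of_surjective hα
    rw [hI₁]
    exact hQ
  have hprime2 : ((Q.map α).comap β).IsPrime := Ideal.comap_isPrime β _
  have hI₂Q : I₂ ≤ (Q.map α).comap β := by
    intro x hx
    rw [← hI₂, RingHom.mem_ker] at hx
    rw [Ideal.mem_comap, hx]
    exact zero_mem _
  have h1 : r₂ ∈ (Q.map α).comap β := by
    apply mem_of_smul_le (M := M₂) I₂ _ (by rw [hann]; exact bot_le) hI₂Q
    intro m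
    obtain ⟨x, hx⟩ := hg (Submodule.Quotient.mk m)
    have h2 := hequiv r r₂ hr₂.symm x
    rw [Module.mem_annihilator.1 hr x, map_zero, hx] at h2
    exact (Submodule.Quotient.mk_eq_zero _).1 h2.symm
  rw [Ideal.mem_comap, hr₂, ← Ideal.mem_comap, hQα] at h1
  exact h1

/-- dimension bound for `R₁` from the one for `R₂`. -/
lemma ringKrullDim_le_of_congr {R₁ R₂ Rb : Type*} [CommRing R₁] [CommRing R₂] [CommRing Rb]
    [IsNoetherianRing R₁] [IsLocalRing R₁]
    (α : R₁ →+* Rb) (β : R₂ →+* Rb) (hα : Function.Surjective α) (hβ : Function.Surjective β)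
    (ϖ₁ : R₁) (ϖ₂ : R₂) (hI₁ : RingHom.ker α = Ideal.span {ϖ₁}) (hI₂ : RingHom.ker β = Ideal.span {ϖ₂})
    (hϖ₁ : ϖ₁ ∈ IsLocalRing.maximalIdeal R₁) (hϖ₂ : ϖ₂ ∈ nonZeroDivisors R₂) :
    ringKrullDim R₁ ≤ ringKrullDim R₂ := by
  have h1 : ringKrullDim R₁ ≤ ringKrullDim (R₁ ⧸ Ideal.span {ϖ₁}) + 1 := by
    have h := Ideal.height_le_ringKrullDim_quotient_add_one hϖ₁
    rwa [IsLocalRing.maximalIdeal_height_eq_ringKrullDim] at h
  have e1 : ringKrullDim (R₁ ⧸ Ideal.span {ϖ₁}) = ringKrullDim Rb := by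
    rw [← hI₁]
    exact ringKrullDim_eq_of_ringEquiv (RingHom.quotientKerEquivOfSurjective hα)
  have e2 : ringKrullDim (R₂ ⧸ Ideal.span {ϖ₂}) = ringKrullDim Rb := by
    rw [← hI₂]
    exact ringKrullDim_eq_of_ringEquiv (RingHom.quotientKerEquivOfSurjective hβ)
  have h2 := ringKrullDim_quotient_succ_le_of_nonZeroDivisor hϖ₂
  rw [e1] at h1
  rw [e2] at h2
  exact h1.trans h2

end

section Raising

variable {S R M M' : Type*} [CommRing S] [IsDomain S] [CommRing R] [AddCommGroup M] [Module S M]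
  [Module R M] [AddCommGroup M'] [Module S M'] [Module R M'] (θ : S →+* R)
  (hθ : ∀ (s : S) (m : M), θ s • m = s • m) (hθ' : ∀ (s : S) (m : M'), θ s • m = s • m)

include hθ hθ' in
/-- (A5) LEVEL RAISING.  `i a : M → M'`, `j a : M' → M` (`a = 1, 2`), with `j a ∘ i b = D a b`
and `det D ∈ Q`, `Q` a prime in the support of `M`; `i` split injective and `j` surjective.
Then the cokernel of `i`, which is killed by `I`, has a component through `Q`. -/
theorem exists_minimalPrime_of_raising [Module.Finite S M] [Module.Finite S M']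
    [Module.IsTorsionFree S M']
    (i₁ i₂ : M →ₗ[R] M') (j₁ j₂ : M' →ₗ[R] M) (s₁ s₂ : M' →+ M)
    (hs₁ : ∀ (s : S) m, s₁ (s • m) = s • s₁ m) (hs₂ : ∀ (s : S) m, s₂ (s • m) = s • s₂ m)
    (h11 : ∀ m, s₁ (i₁ m) = m) (h12 : ∀ m, s₁ (i₂ m) = 0) (h21 : ∀ m, s₂ (i₁ m) = 0)
    (h22 : ∀ m, s₂ (i₂ m) = m)
    (hj : ∀ a b : M, ∃ m' : M', j₁ m' = a ∧ j₂ m' = b)
    (D₁₁ D₁₂ D₂₁ D₂₂ : R)
    (hD11 : ∀ m, j₁ (i₁ m) = D₁₁ • m) (hD12 : ∀ m, j₁ (i₂ m) = D₁₂ • m)
    (hD21 : ∀ m, j₂ (i₁ m) = D₂₁ • m) (hD22 : ∀ m, j₂ (i₂ m) = D₂₂ • m)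
    (I : Ideal R) (hI : ∀ r ∈ I, ∀ m' : M', ∃ a b : M, r • m' = i₁ a + i₂ b)
    (hfin : ringKrullDim R < ⊤) (hdim : ringKrullDim R ≤ ringKrullDim S)
    (Q : Ideal R) [Q.IsPrime] (hQ : Module.annihilator R M ≤ Q)
    (hdet : D₁₁ * D₂₂ - D₁₂ * D₂₁ ∈ Q) :
    ∃ P ∈ minimalPrimes R, I ≤ P ∧ P ≤ Q ∧ Module.annihilator R M' ≤ P := by
  have hfinR : ∀ (N : Type _) [AddCommGroup N] [Module S N] [Module R N]
      (_ : ∀ (s : S) (m : N), θ s • m = s • m) [Module.Finite S N], Module.Finite R N := by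
    intro N _ _ _ hN _
    obtain ⟨s, hs⟩ := (inferInstance : Module.Finite S N)
    refine ⟨s, ?_⟩
    rw [eq_top_iff]
    intro x _
    have hx : x ∈ Submodule.span S (s : Set N) := by rw [hs]; trivial
    refine Submodule.span_induction (fun y hy => Submodule.subset_span hy) (zero_mem _)
      (fun y z _ _ hy hz => add_mem hy hz) (fun a y _ hy => ?_) hx
    rw [← hN]
    exact Submodule.smul_mem _ _ hy
  have hfM : Module.Finite R M := hfinR M hθ
  let K : Submodule R M' := LinearMap.range i₁ ⊔ LinearMap.range i₂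
  -- `C = M' / K` is an `S`-module
  let _ : Module S (M' ⧸ K) := Module.compHom _ θ
  have hθC : ∀ (s : S) (m : M' ⧸ K), θ s • m = s • m := fun _ _ => rfl
  have hmkS : ∀ (s : S) (m : M'), (Submodule.Quotient.mk (s • m) : M' ⧸ K) =
      s • Submodule.Quotient.mk m := by
    intro s m
    rw [← hθ', ← hθC]
    rfl
  have hfC : Module.Finite S (M' ⧸ K) := by
    let f : M' →ₗ[S] (M' ⧸ K) :=
      { toFun := fun m => Submodule.Quotient.mk m
        map_add' := fun _ _ => rfl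
        map_smul' := fun s m => hmkS s m }
    exact Module.Finite.of_surjective f (Submodule.Quotient.mk_surjective _)
  have htfC : Module.IsTorsionFree S (M' ⧸ K) := by
    refine ⟨fun s hs => ?_⟩
    have hs0 : s ≠ 0 := hs.ne_zero
    intro x y hxy
    obtain ⟨x, rfl⟩ := Submodule.Quotient.mk_surjective _ x
    obtain ⟨y, rfl⟩ := Submodule.Quotient.mk_surjective _ y
    change s • (Submodule.Quotient.mk x : M' ⧸ K) = s • (Submodule.Quotient.mk y : M' ⧸ K) at hxy
    rw [← hmkS, ← hmkS, Submodule.Quotient.eq, ← smul_sub] at hxy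
    rw [Submodule.Quotient.eq]
    obtain ⟨u, ⟨a, rfl⟩, v, ⟨b, rfl⟩, huv⟩ := Submodule.mem_sup.1 hxy
    have e1 : s₁ (s • (x - y)) = a := by rw [← huv, map_add, h11, h12, add_zero]
    have e2 : s₂ (s • (x - y)) = b := by rw [← huv, map_add, h21, h22, zero_add]
    rw [hs₁] at e1
    rw [hs₂] at e2
    have hi₁ : ∀ (s : S) (m : M), i₁ (s • m) = s • i₁ m := fun s m => by
      rw [← hθ, map_smul, hθ']
    have hi₂ : ∀ (s : S) (m : M), i₂ (s • m) = s • i₂ m := fun s m => by
      rw [← hθ, map_smul, hθ']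
    have e3 : s • (x - y) = s • (i₁ (s₁ (x - y)) + i₂ (s₂ (x - y))) := by
      rw [smul_add, ← hi₁, ← hi₂, e1, e2, huv]
    have e4 := smul_right_injective M' hs0 e3
    rw [e4]
    exact add_mem (Submodule.mem_sup_left ⟨_, rfl⟩) (Submodule.mem_sup_right ⟨_, rfl⟩)
  -- the annihilator of `C` is contained in `Q`
  have hann : Module.annihilator R (M' ⧸ K) ≤ Q := by
    intro c hc
    by_contra hcQ
    -- `c M' ⊆ i(M²)`
    have hc' : ∀ m' : M', ∃ a b : M, c • m' = i₁ a + i₂ b := by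
      intro m'
      have h1 := Module.mem_annihilator.1 hc (Submodule.Quotient.mk m')
      have h2 : c • m' ∈ K := (Submodule.Quotient.mk_eq_zero _).1 h1
      obtain ⟨u, ⟨a, rfl⟩, v, ⟨b, rfl⟩, huv⟩ := Submodule.mem_sup.1 h2
      exact ⟨a, b, huv.symm⟩
    -- `c M² ⊆ D M²`
    have hcD : ∀ a b : M, ∃ x y : M, c • a = D₁₁ • x + D₁₂ • y ∧ c • b = D₂₁ • x + D₂₂ • y := by
      intro a b
      obtain ⟨m', rfl, rfl⟩ := hj a b
      obtain ⟨x, y, hxy⟩ := hc' m'
      refine ⟨x, y, ?_, ?_⟩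
      · rw [← map_smul, hxy, map_add, hD11, hD12]
      · rw [← map_smul, hxy, map_add, hD21, hD22]
    set δ := D₁₁ * D₂₂ - D₁₂ * D₂₁ with hδ
    have hspan : Ideal.span {δ} ≤ Q := (Ideal.span_singleton_le_iff_mem _).2 hdet
    have key : ∀ t : R, (∀ a : M, ∃ z : M, (c * t) • a = δ • z) → t ∈ Q := by
      intro t ht
      have h1 : c * t ∈ Q := by
        apply mem_of_smul_le (M := M) (Ideal.span {δ}) Q hQ hspan
        intro a
        obtain ⟨z, hz⟩ := ht a
        rw [hz]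
        exact Submodule.smul_mem_smul (Ideal.mem_span_singleton_self δ) trivial
      exact (Ideal.IsPrime.mem_or_mem ‹_› h1).resolve_left hcQ
    have k22 : D₂₂ ∈ Q := by
      apply key
      intro a
      obtain ⟨x, y, h1, h2⟩ := hcD a 0
      refine ⟨x, ?_⟩
      rw [smul_zero] at h2
      calc (c * D₂₂) • a = D₂₂ • (c • a) - D₁₂ • (0 : M) := by
            rw [smul_zero, sub_zero, smul_smul, mul_comm]
        _ = δ • x := by
            rw [h1, h2, hδ]
            simp only [smul_add, smul_smul, sub_smul]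
            rw [mul_comm D₂₂ D₁₁, mul_comm D₂₂ D₁₂]
            abel
    have k21 : D₂₁ ∈ Q := by
      apply key
      intro a
      obtain ⟨x, y, h1, h2⟩ := hcD a 0
      refine ⟨-y, ?_⟩
      rw [smul_zero] at h2
      calc (c * D₂₁) • a = D₂₁ • (c • a) - D₁₁ • (0 : M) := by
            rw [smul_zero, sub_zero, smul_smul, mul_comm]
        _ = δ • (-y) := by
            rw [h1, h2, hδ]
            simp only [smul_add, smul_smul, sub_smul, smul_neg]
            rw [mul_comm D₂₁ D₁₁, mul_comm D₂₁ D₁₂]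
            abel
    have k12 : D₁₂ ∈ Q := by
      apply key
      intro a
      obtain ⟨x, y, h1, h2⟩ := hcD 0 a
      refine ⟨-x, ?_⟩
      rw [smul_zero] at h1
      calc (c * D₁₂) • a = D₁₂ • (c • a) - D₂₂ • (0 : M) := by
            rw [smul_zero, sub_zero, smul_smul, mul_comm]
        _ = δ • (-x) := by
            rw [h1, h2, hδ]
            simp only [smul_add, smul_smul, sub_smul, smul_neg]
            rw [mul_comm D₂₂ D₁₁, mul_comm D₂₂ D₁₂]
            abel
    have k11 : D₁₁ ∈ Q := by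
      apply key
      intro a
      obtain ⟨x, y, h1, h2⟩ := hcD 0 a
      refine ⟨y, ?_⟩
      rw [smul_zero] at h1
      calc (c * D₁₁) • a = D₁₁ • (c • a) - D₂₁ • (0 : M) := by
            rw [smul_zero, sub_zero, smul_smul, mul_comm]
        _ = δ • y := by
            rw [h1, h2, hδ]
            simp only [smul_add, smul_smul, sub_smul]
            rw [mul_comm D₂₁ D₁₁, mul_comm D₂₁ D₁₂]
            abel
    apply hcQ
    apply mem_of_smul_le (M := M) Q Q hQ le_rfl
    intro a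
    obtain ⟨x, y, h1, -⟩ := hcD a 0
    rw [h1]
    exact add_mem (Submodule.smul_mem_smul k11 trivial) (Submodule.smul_mem_smul k12 trivial)
  obtain ⟨P, hP, hPQ⟩ := Ideal.exists_minimalPrimes_le hann
  refine ⟨P, minimalPrimes_annihilator_subset (M := M' ⧸ K) θ hθC hfin hdim P hP, ?_, hPQ, ?_⟩
  · intro r hr
    apply hP.1.2
    rw [Module.mem_annihilator]
    intro x
    obtain ⟨m', rfl⟩ := Submodule.Quotient.mk_surjective _ x
    obtain ⟨a, b, hab⟩ := hI r hr m'
    rw [← Submodule.Quotient.mk_smul, hab, Submodule.Quotient.mk_eq_zero]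
    exact add_mem (Submodule.mem_sup_left ⟨_, rfl⟩) (Submodule.mem_sup_right ⟨_, rfl⟩)
  · intro r hr
    apply hP.1.2
    rw [Module.mem_annihilator]
    intro x
    obtain ⟨m', rfl⟩ := Submodule.Quotient.mk_surjective _ x
    rw [← Submodule.Quotient.mk_smul, Module.mem_annihilator.1 hr m']
    rfl

end Raising

end Fermat.Agent.TAlg
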