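import Mathlib
import Fermat.Agent.TAlg.Act
import Fermat.Agent.TAlg.Ihara

/-! # Patching systems and the main theorems of patching. -/

set_option autoImplicit false
set_option linter.unusedSectionVars false

open IsLocalRing Filter

namespace Fermat.Agent.TAlg

/-- A patching system: modules `M n`, free of rank `d` over `S ⧸ J n`, with an action of `R`
such that `S` acts through `θ n : S → R`. -/
structure PSys {ι : Type} (S : Type) [CommRing S] (J : ι → Ideal S) (R : Type) [CommRing R]
    (θ : ι → (S →+* R)) where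
  M : ι → Type
  [grp : ∀ n, AddCommGroup (M n)]
  [mod : ∀ n, Module S (M n)]
  d : ℕ
  e : ∀ n, M n ≃ₗ[S] (Fin d → S ⧸ J n)
  ρ : ∀ n, R →+* Module.End S (M n)
  hθ : ∀ n s, ρ n (θ n s) = algebraMap S (Module.End S (M n)) s

attribute [instance] PSys.grp PSys.mod

variable {ι : Type} {F : Ultrafilter ι}
variable {S : Type} [CommRing S] [IsLocalRing S] [IsNoetherianRing S]
  [IsAdicComplete (maximalIdeal S) S] [Finite (ResidueField S)]
variable {J : ι → Ideal S}
variable {R : Type} [CommRing R] [IsLocalRing R] {θ : ι → (S →+* R)}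

namespace PSys

/-- The patched module. -/
def Lim (P : PSys S J R θ) (_ : Small F J) : Type := Fin P.d → S

variable (P : PSys S J R θ) (hJ : Small F J)

instance : AddCommGroup (P.Lim hJ) := inferInstanceAs (AddCommGroup (Fin P.d → S))
instance : Module S (P.Lim hJ) := inferInstanceAs (Module S (Fin P.d → S))
instance : Module.Finite S (P.Lim hJ) := inferInstanceAs (Module.Finite S (Fin P.d → S))
instance : Module.Free S (P.Lim hJ) := inferInstanceAs (Module.Free S (Fin P.d → S))
instance [IsDomain S] : Module.IsTorsionFree S (P.Lim hJ) :=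
  inferInstanceAs (Module.IsTorsionFree S (Fin P.d → S))

/-- the patched action. -/
noncomputable def act : R →+* Module.End S (P.Lim hJ) := pact hJ P.e P.ρ

noncomputable instance : Module R (P.Lim hJ) := Module.compHom (P.Lim hJ) (P.act hJ)

lemma smul_def (r : R) (m : P.Lim hJ) : r • m = P.act hJ r m := rfl

lemma mem_annihilator_iff (r : R) : r ∈ Module.annihilator R (P.Lim hJ) ↔ P.act hJ r = 0 := by
  rw [Module.mem_annihilator]
  exact ⟨fun h => LinearMap.ext h, fun h m => by rw [smul_def, h]; rfl⟩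

lemma smul_smul_comm (r : R) (s : S) (m : P.Lim hJ) : r • (s • m) = s • (r • m) :=
  map_smul (P.act hJ r) s m

lemma nontrivial_lim (hd : P.d ≠ 0) : Nontrivial (P.Lim hJ) := by
  have : Nonempty (Fin P.d) := ⟨⟨0, Nat.pos_of_ne_zero hd⟩⟩
  exact inferInstanceAs (Nontrivial (Fin P.d → S))

variable [IsNoetherianRing R] [IsAdicComplete (maximalIdeal R) R] [Finite (ResidueField R)]

lemma theta_smul (s : S) (m : P.Lim hJ) : ulimRingHom F θ s • m = s • m := by
  exact congrArg (fun g : Module.End S (Fin P.d → S) => g m) (pact_theta hJ P.e P.ρ θ P.hθ s)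

lemma finite : Module.Finite R (P.Lim hJ) := by
  obtain ⟨s, hs⟩ := (inferInstance : Module.Finite S (P.Lim hJ))
  refine ⟨s, ?_⟩
  rw [eq_top_iff]
  intro x _
  have hx : x ∈ Submodule.span S (s : Set (P.Lim hJ)) := by rw [hs]; trivial
  refine Submodule.span_induction (fun y hy => Submodule.subset_span hy) (zero_mem _)
    (fun y z _ _ hy hz => add_mem hy hz) (fun a y _ hy => ?_) hx
  rw [← P.theta_smul hJ]
  exact Submodule.smul_mem _ _ hy

omit [IsNoetherianRing R] [IsAdicComplete (maximalIdeal R) R] [Finite (ResidueField R)]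
  [IsLocalRing R] in
/-- convenient constructor for the limit of maps -/
noncomputable def map {R' : Type} [CommRing R'] {θ' : ι → (S →+* R')}
    (P : PSys S J R θ) (P' : PSys S J R' θ') (hJ : Small F J)
    (f : ∀ n, P.M n →ₗ[S] P'.M n) : P.Lim hJ →ₗ[S] P'.Lim hJ := plim P.e P'.e hJ f

omit [IsNoetherianRing R] [IsAdicComplete (maximalIdeal R) R] [Finite (ResidueField R)]
  [IsLocalRing R] in
lemma map_comp {R' R'' : Type} [CommRing R'] [CommRing R''] {θ' : ι → (S →+* R')}
    {θ'' : ι → (S →+* R'')} (P' : PSys S J R' θ') (P'' : PSys S J R'' θ'')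
    (f : ∀ n, P.M n →ₗ[S] P'.M n) (g : ∀ n, P'.M n →ₗ[S] P''.M n) :
    map P P'' hJ (fun n => g n ∘ₗ f n) = map P' P'' hJ g ∘ₗ map P P' hJ f :=
  plim_comp hJ P.e P'.e P''.e f g

omit [IsNoetherianRing R] [IsAdicComplete (maximalIdeal R) R] [Finite (ResidueField R)]
  [IsLocalRing R] in
lemma map_id : map P P hJ (fun _ => LinearMap.id) = LinearMap.id := plim_id hJ P.e

omit [IsNoetherianRing R] [IsAdicComplete (maximalIdeal R) R] [Finite (ResidueField R)]
  [IsLocalRing R] in
lemma map_zero {R' : Type} [CommRing R'] {θ' : ι → (S →+* R')} (P' : PSys S J R' θ') :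
    map P P' hJ (fun _ => 0) = 0 := plim_zero hJ P.e P'.e

omit [IsNoetherianRing R] [IsAdicComplete (maximalIdeal R) R] [Finite (ResidueField R)]
  [IsLocalRing R] in
lemma map_add {R' : Type} [CommRing R'] {θ' : ι → (S →+* R')} (P' : PSys S J R' θ')
    (f g : ∀ n, P.M n →ₗ[S] P'.M n) :
    map P P' hJ (fun n => f n + g n) = map P P' hJ f + map P P' hJ g := plim_add hJ P.e P'.e f g

omit [IsNoetherianRing R] [IsAdicComplete (maximalIdeal R) R] [Finite (ResidueField R)]
  [IsLocalRing R] in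
lemma map_smul' {R' : Type} [CommRing R'] {θ' : ι → (S →+* R')} (P' : PSys S J R' θ') (s : S)
    (f : ∀ n, P.M n →ₗ[S] P'.M n) :
    map P P' hJ (fun n => s • f n) = s • map P P' hJ f := plim_smul hJ P.e P'.e s f

omit [IsNoetherianRing R] [IsAdicComplete (maximalIdeal R) R] [Finite (ResidueField R)] in
/-- the limit of the action of a fixed element is the action -/
lemma map_rho (r : R) : map P P hJ (fun n => P.ρ n r) = P.act hJ r := rfl

/-- the limit of the action of a convergent sequence -/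
lemma map_rho_seq (a : ι → R) : map P P hJ (fun n => P.ρ n (a n)) = P.act hJ (ulim F R a) :=
  plim_act_eq hJ P.e P.ρ a

omit [IsNoetherianRing R] [IsAdicComplete (maximalIdeal R) R] [Finite (ResidueField R)] in
/-- equivariance of the limit, for a pair of rings. -/
lemma map_equivariant {R' : Type} [CommRing R'] [IsLocalRing R'] {θ' : ι → (S →+* R')}
    (P' : PSys S J R' θ')
    (f : ∀ n, P.M n →ₗ[S] P'.M n) (r : R) (r' : R')
    (h : ∀ n x, f n (P.ρ n r x) = P'.ρ n r' (f n x)) (x : P.Lim hJ) :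
    map P P' hJ f (r • x) = r' • map P P' hJ f x := by
  have h1 : map P P' hJ f ∘ₗ P.act hJ r = P'.act hJ r' ∘ₗ map P P' hJ f := by
    rw [← map_rho, ← map_rho, ← map_comp, ← map_comp]
    congr 1
    funext n
    exact LinearMap.ext (h n)
  exact congrArg (fun g : P.Lim hJ →ₗ[S] P'.Lim hJ => g x) h1

omit [IsNoetherianRing R] [IsAdicComplete (maximalIdeal R) R] [Finite (ResidueField R)] in
/-- equivariance of the limit modulo an ideal `I` of `S`. -/
lemma map_equivariant_mod {R' : Type} [CommRing R'] [IsLocalRing R'] {θ' : ι → (S →+* R')}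
    (P' : PSys S J R' θ') (I : Ideal S)
    (f : ∀ n, P.M n →ₗ[S] P'.M n) (r : R) (r' : R')
    (h : ∀ n x, f n (P.ρ n r x) - P'.ρ n r' (f n x) ∈ I • (⊤ : Submodule S (P'.M n)))
    (x : P.Lim hJ) :
    map P P' hJ f (r • x) - r' • map P P' hJ f x ∈ I • (⊤ : Submodule S (P'.Lim hJ)) := by
  have h1 : map P P' hJ f ∘ₗ P.act hJ r - P'.act hJ r' ∘ₗ map P P' hJ f =
      map P P' hJ (fun n => f n ∘ₗ P.ρ n r - P'.ρ n r' ∘ₗ f n) := by
    rw [← map_rho, ← map_rho, ← map_comp, ← map_comp]
    exact (plim_sub hJ P.e P'.e _ _).symm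
  have h2 : map P P' hJ f (r • x) - r' • map P P' hJ f x =
      map P P' hJ (fun n => f n ∘ₗ P.ρ n r - P'.ρ n r' ∘ₗ f n) x := by
    rw [← h1]
    rfl
  rw [h2]
  apply plim_range_le hJ P.e P'.e I _ _ (LinearMap.mem_range_self _ x)
  filter_upwards with n
  rintro _ ⟨y, rfl⟩
  exact h n y

end PSys

/-- The bottom level of a patching system: a module `N` over `R₀` with `M n / 𝔞 M n = N`. -/
structure PBase (P : PSys S J R θ) (𝔞 : Ideal S) (R₀ : Type) [CommRing R₀] [IsLocalRing R₀] where
  π : ι → (R →+* R₀)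
  loc : ∀ n, ∀ x ∈ maximalIdeal R, π n x ∈ maximalIdeal R₀
  surj : ∀ n, Function.Surjective (π n)
  πθ : ∀ n, ∀ s ∈ 𝔞, π n (θ n s) = 0
  N : Type
  [grp : AddCommGroup N]
  [mod : Module S N]
  [fin : Module.Finite S N]
  ρ₀ : R₀ →+* Module.End S N
  f : ∀ n, P.M n →ₗ[S] N
  f_surj : ∀ n, Function.Surjective (f n)
  ker_f : ∀ n, LinearMap.ker (f n) = 𝔞 • ⊤
  equiv : ∀ n r x, f n (P.ρ n r x) = ρ₀ (π n r) (f n x)

attribute [instance] PBase.grp PBase.mod PBase.fin

namespace PBase

variable {P : PSys S J R θ} {𝔞 : Ideal S} {R₀ : Type} [CommRing R₀] [IsLocalRing R₀]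
  (B : PBase P 𝔞 R₀) (hJ : Small F J)

/-- the limit projection -/
noncomputable def fLim (B : PBase P 𝔞 R₀) (hJ : Small F J) : P.Lim hJ →ₗ[S] B.N :=
  plimN F P.e B.f

lemma fLim_surjective : Function.Surjective (B.fLim hJ) :=
  plimN_surjective P.e B.f (Eventually.of_forall B.f_surj)

lemma ker_fLim : LinearMap.ker (B.fLim hJ) = 𝔞 • ⊤ :=
  ker_plimN P.e B.f (Eventually.of_forall B.f_surj) 𝔞 (Eventually.of_forall B.ker_f) hJ

variable [IsNoetherianRing R₀] [IsAdicComplete (maximalIdeal R₀) R₀] [Finite (ResidueField R₀)]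

/-- the limit ring homomorphism -/
noncomputable def πLim (F : Ultrafilter ι) (B : PBase P 𝔞 R₀) : R →+* R₀ := ulimRingHom F B.π

lemma fLim_smul (r : R) (x : P.Lim hJ) : B.fLim hJ (r • x) = B.ρ₀ (B.πLim F r) (B.fLim hJ x) :=
  plimN_act hJ P.e P.ρ B.π B.ρ₀ B.f B.equiv r x

omit [IsNoetherianRing S] [IsAdicComplete (maximalIdeal S) S] [Finite (ResidueField S)] in
lemma πLim_mem (I : Ideal R₀) (r : R) (h : ∀ n, B.π n r ∈ I) : B.πLim F r ∈ I :=
  ulim_mem F I (Eventually.of_forall h)

variable [IsNoetherianRing R] [IsAdicComplete (maximalIdeal R) R] [Finite (ResidueField R)]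

omit [IsNoetherianRing S] [IsAdicComplete (maximalIdeal S) S] [Finite (ResidueField S)] in
lemma πLim_surjective : Function.Surjective (B.πLim F) :=
  ulimRingHom_surjective B.π B.loc B.surj

omit [IsNoetherianRing S] [IsAdicComplete (maximalIdeal S) S] [Finite (ResidueField S)] in
lemma πLim_theta (s : S) (hs : s ∈ 𝔞) : B.πLim F (ulimRingHom F θ s) = 0 :=
  ulimRingHom_comp_eq_zero B.π B.loc θ s (fun n => B.πθ n s hs)

/-- TRANSFER OF SUPPORT.  If a prime `P₀` of `R₀` contracts to a prime of `R` in the support of the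
patched module, then `R₀ → R₀ / P₀` factors through the image of `R₀` in `End N`. -/
theorem ker_le_of_annihilator_le (P₀ : Ideal R₀) [P₀.IsPrime]
    (h : Module.annihilator R (P.Lim hJ) ≤ P₀.comap (B.πLim F)) : RingHom.ker B.ρ₀ ≤ P₀ := by
  intro b hb
  obtain ⟨r, rfl⟩ := B.πLim_surjective (F := F) b
  have hprime : (P₀.comap (B.πLim F)).IsPrime := Ideal.comap_isPrime _ _
  have hfin := P.finite hJ
  have key : r ∈ P₀.comap (B.πLim F) := by
    apply mem_of_smul_le (M := P.Lim hJ) (𝔞.map (ulimRingHom F θ)) _ h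
    · rw [Ideal.map_le_iff_le_comap]
      intro s hs
      rw [Ideal.mem_comap, Ideal.mem_comap, B.πLim_theta s hs]
      exact zero_mem _
    · intro m
      have h1 : r • m ∈ LinearMap.ker (B.fLim hJ) := by
        rw [LinearMap.mem_ker, B.fLim_smul hJ, RingHom.mem_ker.1 hb]
        rfl
      rw [B.ker_fLim hJ] at h1
      refine Submodule.smul_induction_on h1 ?_ ?_
      · intro s hs x _
        rw [← P.theta_smul hJ]
        exact Submodule.smul_mem_smul (Ideal.mem_map_of_mem _ hs) trivial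
      · intro x y hx hy
        exact add_mem hx hy
  exact key

/-- (A1 + A2) PATCHING THEOREM, smooth case: if `R` is a domain of dimension at most `dim S` then
the kernel of `R₀ → End N` is contained in every prime. -/
theorem ker_le_of_isDomain [IsDomain S] [IsDomain R] (hJ : Small F J)
    (hd : P.d ≠ 0) (hdim : ringKrullDim R ≤ ringKrullDim S) (P₀ : Ideal R₀) [P₀.IsPrime] :
    RingHom.ker B.ρ₀ ≤ P₀ := by
  apply B.ker_le_of_annihilator_le hJ P₀
  have := P.nontrivial_lim hJ hd
  rw [annihilator_eq_bot (M := P.Lim hJ) (ulimRingHom F θ) (P.theta_smul hJ)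
    ringKrullDim_lt_top hdim]
  exact bot_le

/-- variant: a minimal prime `Q` of `R` which is in the support of the patched module, and whose
image is killed at all levels. -/
theorem ker_le_of_component (Q : Ideal R) (hQ : Module.annihilator R (P.Lim hJ) ≤ Q)
    (P₀ : Ideal R₀) [P₀.IsPrime] (hQP : ∀ n, ∀ x ∈ Q, B.π n x ∈ P₀) : RingHom.ker B.ρ₀ ≤ P₀ := by
  apply B.ker_le_of_annihilator_le hJ P₀
  intro r hr
  exact B.πLim_mem P₀ r (fun n => hQP n r (hQ hr))

end PBase

end Fermat.Agent.TAlg
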