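import Mathlib
import Fermat.Agent.TAlg.System

/-! # Ihara avoidance and level raising for patching systems. -/

set_option autoImplicit false
set_option linter.unusedSectionVars false

open IsLocalRing Filter

namespace Fermat.Agent.TAlg

variable {ι : Type} {F : Ultrafilter ι}
variable {S : Type} [CommRing S] [IsLocalRing S] [IsNoetherianRing S]
  [IsAdicComplete (maximalIdeal S) S] [Finite (ResidueField S)]
variable {J : ι → Ideal S}

namespace PSys

section General

variable {R R' : Type} [CommRing R] [CommRing R'] {θ : ι → (S →+* R)} {θ' : ι → (S →+* R')}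
  (P : PSys S J R θ) (P' : PSys S J R' θ') (hJ : Small F J)

/-- reduction to level `n`. -/
noncomputable def redn (P : PSys S J R θ) (hJ : Small F J) (n : ι) : P.Lim hJ →ₗ[S] P.M n :=
  red P.e n

lemma redn_surjective (n : ι) : Function.Surjective (P.redn hJ n) := red_surjective P.e n

lemma eventually_map_sub_mem (f : ∀ n, P.M n →ₗ[S] P'.M n) (x : P.Lim hJ) (k : ℕ) :
    ∀ᶠ n in (F : Filter ι), f n (P.redn hJ n x) - P'.redn hJ n (map P P' hJ f x) ∈
      (maximalIdeal S ^ k) • (⊤ : Submodule S (P'.M n)) :=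
  eventually_plim_sub_mem hJ P.e P'.e f x k

omit [IsLocalRing S] [IsNoetherianRing S] [IsAdicComplete (maximalIdeal S) S]
  [Finite (ResidueField S)] in
lemma mem_of_single_mem {d : ℕ} {N : Type} [AddCommGroup N] [Module S N]
    (g : (Fin d → S) →ₗ[S] N) (K : Submodule S N)
    (h : ∀ i, g (Pi.single i 1) ∈ K) (x : Fin d → S) : g x ∈ K := by
  rw [LinearMap.pi_apply_eq_sum_univ g x]
  refine Submodule.sum_mem _ (fun i _ => Submodule.smul_mem _ _ ?_)
  convert h i using 2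
  funext j
  simp [Pi.single_apply, eq_comm]

/-- uniform version -/
lemma eventually_forall_map_sub_mem (f : ∀ n, P.M n →ₗ[S] P'.M n) (k : ℕ) :
    ∀ᶠ n in (F : Filter ι), ∀ x : P.Lim hJ,
      f n (P.redn hJ n x) - P'.redn hJ n (map P P' hJ f x) ∈
        (maximalIdeal S ^ k) • (⊤ : Submodule S (P'.M n)) := by
  have h1 : ∀ i : Fin P.d, ∀ᶠ n in (F : Filter ι),
      f n (P.redn hJ n (Pi.single i (1 : S) : Fin P.d → S)) -
        P'.redn hJ n (map P P' hJ f (Pi.single i (1 : S) : Fin P.d → S)) ∈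
          (maximalIdeal S ^ k) • (⊤ : Submodule S (P'.M n)) :=
    fun i => eventually_map_sub_mem P P' hJ f _ k
  filter_upwards [Filter.eventually_all.2 h1] with n hn
  exact fun x => mem_of_single_mem (f n ∘ₗ P.redn hJ n - P'.redn hJ n ∘ₗ map P P' hJ f) _ hn x

/-- if `red n x` is in `I M n` and `J n ≤ I` then `x ∈ I M`. -/
lemma mem_of_redn_mem (I : Ideal S) (n : ι) (hn : J n ≤ I) (x : P.Lim hJ)
    (h : P.redn hJ n x ∈ I • (⊤ : Submodule S (P.M n))) : x ∈ I • (⊤ : Submodule S (P.Lim hJ)) := by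
  have h9 : I • (⊤ : Submodule S (P.M n)) =
      (I • (⊤ : Submodule S (P.Lim hJ))).map (P.redn hJ n) := by
    rw [Submodule.map_smul'', Submodule.map_top, LinearMap.range_eq_top.2 (P.redn_surjective hJ n)]
  rw [h9] at h
  obtain ⟨z, hz, hz'⟩ := h
  have h10 : P.redn hJ n (x - z) = 0 := by rw [_root_.map_sub, hz', sub_self]
  have h11 : x - z ∈ I • (⊤ : Submodule S (P.Lim hJ)) := by
    have h12 := (red_eq_zero_iff P.e n (x - z)).1 h10
    exact (mem_smul_top_pi (m := P.d) I).2 (fun i => hn (h12 i))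
  have : x = z + (x - z) := by abel
  rw [this]
  exact add_mem hz h11

/-- the limit of jointly surjective maps is surjective. -/
lemma map_surjective (f : ∀ n, P.M n →ₗ[S] P'.M n)
    (hf : ∀ n, Function.Surjective (f n)) : Function.Surjective (map P P' hJ f) := by
  rw [← LinearMap.range_eq_top]
  apply top_le_iff.1
  apply Submodule.le_of_le_smul_of_le_jacobson_bot (I := maximalIdeal S) (Module.Finite.fg_top)
  · exact IsLocalRing.maximalIdeal_le_jacobson _
  · intro y _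
    -- choose the preimages of `red y`
    choose x hx using fun n => hf n (P'.redn hJ n y)
    choose x' hx' using fun n => P.redn_surjective hJ n (x n)
    -- `x' n` modulo the maximal ideal takes finitely many values
    let c : P.Lim hJ := fun i => ulim F S (fun n => x' n i)
    have h1 : ∀ᶠ n in (F : Filter ι), x' n - c ∈ (maximalIdeal S ^ 1) • (⊤ : Submodule S (P.Lim hJ)) := by
      have h2 : ∀ i : Fin P.d, ∀ᶠ n in (F : Filter ι), x' n i - ulim F S (fun n => x' n i) ∈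
        maximalIdeal S ^ 1 := fun i => eventually_sub_ulim_mem F 1 _
      filter_upwards [Filter.eventually_all.2 h2] with n hn
      exact (mem_smul_top_pi (m := P.d) _).2 hn
    obtain ⟨n, h2, h3, h4⟩ := (h1.and ((eventually_map_sub_mem P P' hJ f c 1).and (hJ 1))).exists
    rw [pow_one] at h2 h3 h4
    have h5 : P'.redn hJ n (y - map P P' hJ f c) ∈ maximalIdeal S • (⊤ : Submodule S (P'.M n)) := by
      have e1 : P'.redn hJ n (y - map P P' hJ f c) = f n (P.redn hJ n (x' n - c)) +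
          (f n (P.redn hJ n c) - P'.redn hJ n (map P P' hJ f c)) := by
        rw [_root_.map_sub, _root_.map_sub, _root_.map_sub, hx', hx]
        abel
      rw [e1]
      exact add_mem (map_mem_smul_top _ _ (map_mem_smul_top _ _ h2)) h3
    have h6 := mem_of_redn_mem P' hJ (maximalIdeal S) n h4 _ h5
    have e2 : y = map P P' hJ f c + (y - map P P' hJ f c) := by abel
    rw [e2]
    exact add_mem (Submodule.mem_sup_left (LinearMap.mem_range_self _ _))
      (Submodule.mem_sup_right h6)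

end General

section Ihara

variable {R₁ R₂ Rb : Type} [CommRing R₁] [IsLocalRing R₁] [IsNoetherianRing R₁]
  [IsAdicComplete (maximalIdeal R₁) R₁] [Finite (ResidueField R₁)]
  [CommRing R₂] [IsLocalRing R₂] [IsNoetherianRing R₂]
  [IsAdicComplete (maximalIdeal R₂) R₂] [Finite (ResidueField R₂)] [CommRing Rb]
  {θ₁ : ι → (S →+* R₁)} {θ₂ : ι → (S →+* R₂)}

/-- (A3) IHARA AVOIDANCE for patching systems. `P₁`, `P₂` agree modulo `ϖ`, `R₂` is a domain with
`dim R₂ ≤ dim S`. Then every prime `Q` of `R₁` containing `ϖ` is in the support of the patched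
module of `P₁`, and contains a minimal prime of `R₁` in that support. -/
theorem ihara_avoidance [IsDomain S] (P₁ : PSys S J R₁ θ₁) (P₂ : PSys S J R₂ θ₂) (hJ : Small F J)
    (ϖ : S) (ϖ₁ : R₁) (ϖ₂ : R₂) (hϖ₂ : ∀ n, θ₂ n ϖ = ϖ₂)
    (hm₁ : ϖ₁ ∈ maximalIdeal R₁) (h0 : ϖ₂ ≠ 0)
    (α : R₁ →+* Rb) (β : R₂ →+* Rb) (hα : Function.Surjective α) (hβ : Function.Surjective β)
    (kα : RingHom.ker α = Ideal.span {ϖ₁}) (kβ : RingHom.ker β = Ideal.span {ϖ₂})
    (g : ∀ n, P₁.M n →ₗ[S] P₂.M n) (hg : ∀ n, Function.Surjective (g n))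
    (hequiv : ∀ r₁ r₂, α r₁ = β r₂ → ∀ n x, g n (P₁.ρ n r₁ x) - P₂.ρ n r₂ (g n x) ∈
      Ideal.span {ϖ} • (⊤ : Submodule S (P₂.M n)))
    [IsDomain R₂] (hdim : ringKrullDim R₂ ≤ ringKrullDim S) (hd : P₂.d ≠ 0)
    (Q : Ideal R₁) [Q.IsPrime] (hQ : ϖ₁ ∈ Q) :
    Module.annihilator R₁ (P₁.Lim hJ) ≤ Q ∧
      ∃ P ∈ minimalPrimes R₁, P ≤ Q ∧ Module.annihilator R₁ (P₁.Lim hJ) ≤ P := by
  have := P₂.nontrivial_lim hJ hd
  have hϖ : ∀ m : P₂.Lim hJ, ϖ₂ • m = ϖ • m := by
    intro m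
    rw [← P₂.theta_smul hJ, ulimRingHom_apply]
    simp only [hϖ₂, ulim_const]
  let G : P₁.Lim hJ →+ (P₂.Lim hJ) ⧸ (Ideal.span {ϖ₂} • (⊤ : Submodule R₂ (P₂.Lim hJ))) :=
    (Submodule.mkQ _).toAddMonoidHom.comp (map P₁ P₂ hJ g).toAddMonoidHom
  have hmem : ∀ m : P₂.Lim hJ, m ∈ Ideal.span {ϖ} • (⊤ : Submodule S (P₂.Lim hJ)) →
      m ∈ Ideal.span {ϖ₂} • (⊤ : Submodule R₂ (P₂.Lim hJ)) := by
    intro m hm
    refine Submodule.smul_induction_on hm ?_ ?_
    · intro s hs x _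
      obtain ⟨t, rfl⟩ := Ideal.mem_span_singleton'.1 hs
      rw [mul_comm, mul_smul, ← hϖ]
      exact Submodule.smul_mem_smul (Ideal.mem_span_singleton_self ϖ₂) trivial
    · intro x y hx hy
      exact add_mem hx hy
  have hann : Module.annihilator R₁ (P₁.Lim hJ) ≤ Q := by
    refine annihilator_le_of_congr (M₁ := P₁.Lim hJ) (M₂ := P₂.Lim hJ) (ulimRingHom F θ₂)
      (P₂.theta_smul hJ) α β hα hβ _ _ kα kβ G ?_ ?_ ringKrullDim_lt_top hdim Q
      ((Ideal.span_singleton_le_iff_mem _).2 hQ)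
    · intro y
      obtain ⟨z, rfl⟩ := Submodule.Quotient.mk_surjective _ y
      obtain ⟨x, rfl⟩ := map_surjective P₁ P₂ hJ g hg z
      exact ⟨x, rfl⟩
    · intro r₁ r₂ h m
      have h1 := map_equivariant_mod P₁ hJ P₂ (Ideal.span {ϖ}) g r₁ r₂ (hequiv r₁ r₂ h) m
      have h2 := hmem _ h1
      change Submodule.Quotient.mk _ = r₂ • Submodule.Quotient.mk _
      rw [← Submodule.Quotient.mk_smul, Submodule.Quotient.eq]
      exact h2
  refine ⟨hann, ?_⟩
  obtain ⟨P, hP, hPQ⟩ := Ideal.exists_minimalPrimes_le hann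
  refine ⟨P, ?_, hPQ, hP.1.2⟩
  refine minimalPrimes_annihilator_subset (M := P₁.Lim hJ) (ulimRingHom F θ₁) (P₁.theta_smul hJ)
    ringKrullDim_lt_top ?_ P hP
  exact (ringKrullDim_le_of_congr α β hα hβ ϖ₁ ϖ₂ kα kβ hm₁
    (mem_nonZeroDivisors_of_ne_zero h0)).trans hdim

end Ihara

section Raising

variable {R : Type} [CommRing R] [IsLocalRing R] [IsNoetherianRing R]
  [IsAdicComplete (maximalIdeal R) R] [Finite (ResidueField R)] {θ : ι → (S →+* R)}

lemma exists_retraction (P P' : PSys S J R θ) (hJ : Small F J)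
    (i₁ i₂ : ∀ n, P.M n →ₗ[S] P'.M n)
    (hi : ∀ n a b, i₁ n a + i₂ n b ∈ maximalIdeal S • (⊤ : Submodule S (P'.M n)) →
      a ∈ maximalIdeal S • (⊤ : Submodule S (P.M n)) ∧
      b ∈ maximalIdeal S • (⊤ : Submodule S (P.M n))) :
    ∃ s : P'.Lim hJ →ₗ[S] (P.Lim hJ × P.Lim hJ), ∀ a b,
      s (map P P' hJ i₁ a + map P P' hJ i₂ b) = (a, b) := by
  let l : (P.Lim hJ × P.Lim hJ) →ₗ[S] P'.Lim hJ := (map P P' hJ i₁).coprod (map P P' hJ i₂)
  have hl : ∀ a b, l (a, b) ∈ maximalIdeal S • (⊤ : Submodule S (P'.Lim hJ)) →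
      (a, b) ∈ maximalIdeal S • (⊤ : Submodule S (P.Lim hJ × P.Lim hJ)) := by
    intro a b hab
    obtain ⟨n, h1, h2, h3⟩ := ((eventually_map_sub_mem P P' hJ i₁ a 1).and
      ((eventually_map_sub_mem P P' hJ i₂ b 1).and (hJ 1))).exists
    rw [pow_one] at h1 h2 h3
    have h4 : i₁ n (P.redn hJ n a) + i₂ n (P.redn hJ n b) ∈
        maximalIdeal S • (⊤ : Submodule S (P'.M n)) := by
      have e : i₁ n (P.redn hJ n a) + i₂ n (P.redn hJ n b) =
        (i₁ n (P.redn hJ n a) - P'.redn hJ n (map P P' hJ i₁ a)) +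
        (i₂ n (P.redn hJ n b) - P'.redn hJ n (map P P' hJ i₂ b)) + P'.redn hJ n (l (a, b)) := by
        rw [show l (a, b) = map P P' hJ i₁ a + map P P' hJ i₂ b from rfl, _root_.map_add]
        abel
      rw [e]
      exact add_mem (add_mem h1 h2) (map_mem_smul_top _ _ hab)
    obtain ⟨h5, h6⟩ := hi n _ _ h4
    have h7 := mem_of_redn_mem P hJ _ n h3 a h5
    have h8 := mem_of_redn_mem P hJ _ n h3 b h6
    have e : (a, b) = LinearMap.inl S _ _ a + LinearMap.inr S _ _ b := by simp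
    rw [e]
    exact add_mem (map_mem_smul_top _ _ h7) (map_mem_smul_top _ _ h8)
  obtain ⟨s, hs⟩ : ∃ s, s ∘ₗ l = LinearMap.id := by
    rw [IsLocalRing.split_injective_iff_lTensor_residueField_injective]
    rw [injective_iff_map_eq_zero]
    intro x hx
    let E := TensorProduct.quotTensorEquivQuotSMul (P.Lim hJ × P.Lim hJ) (maximalIdeal S)
    let E' := TensorProduct.quotTensorEquivQuotSMul (P'.Lim hJ) (maximalIdeal S)
    obtain ⟨m, hm⟩ := Submodule.Quotient.mk_surjective _ (E x)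
    have hx1 : x = (1 : S ⧸ maximalIdeal S) ⊗ₜ[S] m := by
      rw [← E.symm_apply_apply x, ← hm]
      exact TensorProduct.quotTensorEquivQuotSMul_symm_mk _ m
    have hx2 : (1 : S ⧸ maximalIdeal S) ⊗ₜ[S] l m = 0 := by
      rw [hx1] at hx
      exact hx
    have hx3 : l m ∈ maximalIdeal S • (⊤ : Submodule S (P'.Lim hJ)) := by
      rw [← Submodule.Quotient.mk_eq_zero]
      have h := TensorProduct.quotTensorEquivQuotSMul_symm_mk (maximalIdeal S) (l m)
      rw [hx2] at h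
      have h2 := congrArg E' h
      rw [_root_.map_zero] at h2
      rw [← h2]
      exact (E'.apply_symm_apply _).symm
    obtain ⟨a, b⟩ := m
    have hx4 := hl a b hx3
    rw [← Submodule.Quotient.mk_eq_zero, hm] at hx4
    exact (map_eq_zero_iff E E.injective).1 hx4
  refine ⟨s, fun a b => ?_⟩
  exact congrArg (fun f : (P.Lim hJ × P.Lim hJ) →ₗ[S] (P.Lim hJ × P.Lim hJ) => f (a, b)) hs

/-- the limit of two jointly surjective maps is jointly surjective. -/
lemma map_surjective₂ (P P' : PSys S J R θ) (hJ : Small F J)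
    (j₁ j₂ : ∀ n, P'.M n →ₗ[S] P.M n)
    (hj : ∀ n a b, ∃ x, j₁ n x = a ∧ j₂ n x = b) (a b : P.Lim hJ) :
    ∃ x : P'.Lim hJ, map P' P hJ j₁ x = a ∧ map P' P hJ j₂ x = b := by
  let l : P'.Lim hJ →ₗ[S] (P.Lim hJ × P.Lim hJ) := (map P' P hJ j₁).prod (map P' P hJ j₂)
  have hsurj : Function.Surjective l := by
    rw [← LinearMap.range_eq_top]
    apply top_le_iff.1
    apply Submodule.le_of_le_smul_of_le_jacobson_bot (I := maximalIdeal S) (Module.Finite.fg_top)
    · exact IsLocalRing.maximalIdeal_le_jacobson _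
    · rintro ⟨y₁, y₂⟩ _
      choose x hx₁ hx₂ using fun n => hj n (P.redn hJ n y₁) (P.redn hJ n y₂)
      choose x' hx' using fun n => P'.redn_surjective hJ n (x n)
      let c : P'.Lim hJ := fun i => ulim F S (fun n => x' n i)
      have h1 : ∀ᶠ n in (F : Filter ι), x' n - c ∈
          (maximalIdeal S ^ 1) • (⊤ : Submodule S (P'.Lim hJ)) := by
        have h2 : ∀ i : Fin P'.d, ∀ᶠ n in (F : Filter ι), x' n i - ulim F S (fun n => x' n i) ∈
          maximalIdeal S ^ 1 := fun i => eventually_sub_ulim_mem F 1 _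
        filter_upwards [Filter.eventually_all.2 h2] with n hn
        exact (mem_smul_top_pi (m := P'.d) _).2 hn
      obtain ⟨n, h2, h3, h3', h4⟩ := (h1.and ((eventually_map_sub_mem P' P hJ j₁ c 1).and
        ((eventually_map_sub_mem P' P hJ j₂ c 1).and (hJ 1)))).exists
      rw [pow_one] at h2 h3 h3' h4
      have key : ∀ (j : ∀ n, P'.M n →ₗ[S] P.M n) (y : P.Lim hJ), j n (x n) = P.redn hJ n y →
          j n (P'.redn hJ n c) - P.redn hJ n (map P' P hJ j c) ∈
            maximalIdeal S • (⊤ : Submodule S (P.M n)) →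
          y - map P' P hJ j c ∈ maximalIdeal S • (⊤ : Submodule S (P.Lim hJ)) := by
        intro j y hjy hjc
        apply mem_of_redn_mem P hJ (maximalIdeal S) n h4
        have e1 : P.redn hJ n (y - map P' P hJ j c) = j n (P'.redn hJ n (x' n - c)) +
            (j n (P'.redn hJ n c) - P.redn hJ n (map P' P hJ j c)) := by
          rw [_root_.map_sub, _root_.map_sub, _root_.map_sub, hx', hjy]
          abel
        rw [e1]
        exact add_mem (map_mem_smul_top _ _ (map_mem_smul_top _ _ h2)) hjc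
      have k₁ := key j₁ y₁ (hx₁ n) h3
      have k₂ := key j₂ y₂ (hx₂ n) h3'
      have e2 : ((y₁, y₂) : P.Lim hJ × P.Lim hJ) = l c +
          (LinearMap.inl S _ _ (y₁ - map P' P hJ j₁ c) +
            LinearMap.inr S _ _ (y₂ - map P' P hJ j₂ c)) := by
        rw [show l c = (map P' P hJ j₁ c, map P' P hJ j₂ c) from rfl]
        simp
      rw [e2]
      exact add_mem (Submodule.mem_sup_left (LinearMap.mem_range_self _ _))
        (Submodule.mem_sup_right (add_mem (map_mem_smul_top _ _ k₁) (map_mem_smul_top _ _ k₂)))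
  obtain ⟨x, hx⟩ := hsurj (a, b)
  exact ⟨x, congrArg Prod.fst hx, congrArg Prod.snd hx⟩

/-- the limit of a family whose members have range in `range i₁ + range i₂`. -/
lemma exists_of_range_le (P P' : PSys S J R θ) (hJ : Small F J)
    (i₁ i₂ : ∀ n, P.M n →ₗ[S] P'.M n) (g : ∀ n, P'.M n →ₗ[S] P'.M n)
    (hg : ∀ n x, ∃ a b, g n x = i₁ n a + i₂ n b) (x : P'.Lim hJ) :
    ∃ a b : P.Lim hJ, map P' P' hJ g x = map P P' hJ i₁ a + map P P' hJ i₂ b := by
  let l : (P.Lim hJ × P.Lim hJ) →ₗ[S] P'.Lim hJ := (map P P' hJ i₁).coprod (map P P' hJ i₂)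
  have hmem : map P' P' hJ g x ∈ LinearMap.range l := by
    apply mem_of_forall_mem_sup
    intro k
    obtain ⟨n, h1, h2, h3, hJk⟩ := ((eventually_map_sub_mem P' P' hJ g x k).and
      ((eventually_forall_map_sub_mem P P' hJ i₁ k).and
        ((eventually_forall_map_sub_mem P P' hJ i₂ k).and (hJ k)))).exists
    obtain ⟨a, b, hab⟩ := hg n (P'.redn hJ n x)
    obtain ⟨a', ha'⟩ := P.redn_surjective hJ n a
    obtain ⟨b', hb'⟩ := P.redn_surjective hJ n b
    have h4 : map P' P' hJ g x - l (a', b') ∈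
        (maximalIdeal S ^ k) • (⊤ : Submodule S (P'.Lim hJ)) := by
      apply mem_of_redn_mem P' hJ (maximalIdeal S ^ k) n hJk
      have e1 : P'.redn hJ n (map P' P' hJ g x - l (a', b')) =
          -(g n (P'.redn hJ n x) - P'.redn hJ n (map P' P' hJ g x)) +
          ((i₁ n (P.redn hJ n a') - P'.redn hJ n (map P P' hJ i₁ a')) +
          (i₂ n (P.redn hJ n b') - P'.redn hJ n (map P P' hJ i₂ b'))) := by
        rw [show l (a', b') = map P P' hJ i₁ a' + map P P' hJ i₂ b' from rfl, _root_.map_sub,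
          _root_.map_add, ha', hb', hab]
        abel
      rw [e1]
      exact add_mem (neg_mem h1) (add_mem (h2 a') (h3 b'))
    have e2 : map P' P' hJ g x = l (a', b') + (map P' P' hJ g x - l (a', b')) := by abel
    rw [e2]
    exact add_mem (Submodule.mem_sup_left (LinearMap.mem_range_self _ _))
      (Submodule.mem_sup_right h4)
  obtain ⟨⟨a, b⟩, hab⟩ := hmem
  exact ⟨a, b, hab.symm⟩

/-- (A5) LEVEL RAISING for patching systems.  `P'` is a system at higher level, `i₁ i₂ : M → M'`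
jointly injective modulo `𝔪_S`, `j₁ j₂ : M' → M` jointly surjective, `j_a i_b = D a b`; `I` kills
the cokernel of `(i₁, i₂)` at each finite level.  If `Q` is a prime in the support of `M_∞`
containing `det D`, then there is a component `P₀` of `R`, contained in `Q`, containing `I`, in the
support of `M'_∞`. -/
theorem raising [IsDomain S] (P P' : PSys S J R θ) (hJ : Small F J)
    (i₁ i₂ : ∀ n, P.M n →ₗ[S] P'.M n) (j₁ j₂ : ∀ n, P'.M n →ₗ[S] P.M n)
    (hi : ∀ n a b, i₁ n a + i₂ n b ∈ maximalIdeal S • (⊤ : Submodule S (P'.M n)) →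
      a ∈ maximalIdeal S • (⊤ : Submodule S (P.M n)) ∧
      b ∈ maximalIdeal S • (⊤ : Submodule S (P.M n)))
    (hj : ∀ n a b, ∃ x, j₁ n x = a ∧ j₂ n x = b)
    (hi₁ : ∀ n r x, i₁ n (P.ρ n r x) = P'.ρ n r (i₁ n x))
    (hi₂ : ∀ n r x, i₂ n (P.ρ n r x) = P'.ρ n r (i₂ n x))
    (hj₁ : ∀ n r x, j₁ n (P'.ρ n r x) = P.ρ n r (j₁ n x))
    (hj₂ : ∀ n r x, j₂ n (P'.ρ n r x) = P.ρ n r (j₂ n x))
    (D₁₁ D₁₂ D₂₁ D₂₂ : R)
    (hD11 : ∀ n x, j₁ n (i₁ n x) = P.ρ n D₁₁ x) (hD12 : ∀ n x, j₁ n (i₂ n x) = P.ρ n D₁₂ x)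
    (hD21 : ∀ n x, j₂ n (i₁ n x) = P.ρ n D₂₁ x) (hD22 : ∀ n x, j₂ n (i₂ n x) = P.ρ n D₂₂ x)
    (I : Ideal R) (hI : ∀ n, ∀ r ∈ I, ∀ x, ∃ a b, P'.ρ n r x = i₁ n a + i₂ n b)
    (hdim : ringKrullDim R ≤ ringKrullDim S)
    (Q : Ideal R) [Q.IsPrime] (hQ : Module.annihilator R (P.Lim hJ) ≤ Q)
    (hdet : D₁₁ * D₂₂ - D₁₂ * D₂₁ ∈ Q) :
    ∃ P₀ ∈ minimalPrimes R, I ≤ P₀ ∧ P₀ ≤ Q ∧ Module.annihilator R (P'.Lim hJ) ≤ P₀ := by
  obtain ⟨s, hs⟩ := exists_retraction P P' hJ i₁ i₂ hi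
  let f₁ : P.Lim hJ →ₗ[R] P'.Lim hJ :=
    { toFun := map P P' hJ i₁
      map_add' := _root_.map_add _
      map_smul' := fun r x => map_equivariant P hJ P' i₁ r r (fun n x => hi₁ n r x) x }
  let f₂ : P.Lim hJ →ₗ[R] P'.Lim hJ :=
    { toFun := map P P' hJ i₂
      map_add' := _root_.map_add _
      map_smul' := fun r x => map_equivariant P hJ P' i₂ r r (fun n x => hi₂ n r x) x }
  let g₁ : P'.Lim hJ →ₗ[R] P.Lim hJ :=
    { toFun := map P' P hJ j₁
      map_add' := _root_.map_add _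
      map_smul' := fun r x => map_equivariant P' hJ P j₁ r r (fun n x => hj₁ n r x) x }
  let g₂ : P'.Lim hJ →ₗ[R] P.Lim hJ :=
    { toFun := map P' P hJ j₂
      map_add' := _root_.map_add _
      map_smul' := fun r x => map_equivariant P' hJ P j₂ r r (fun n x => hj₂ n r x) x }
  have hD : ∀ (j : ∀ n, P'.M n →ₗ[S] P.M n) (i : ∀ n, P.M n →ₗ[S] P'.M n) (D : R)
      (_ : ∀ n x, j n (i n x) = P.ρ n D x) (x : P.Lim hJ),
      map P' P hJ j (map P P' hJ i x) = D • x := by
    intro j i D h x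
    have h1 : map P' P hJ j ∘ₗ map P P' hJ i = P.act hJ D := by
      rw [← map_comp, ← map_rho]
      congr 1
      funext n
      exact LinearMap.ext (h n)
    exact congrArg (fun f : P.Lim hJ →ₗ[S] P.Lim hJ => f x) h1
  refine exists_minimalPrime_of_raising (ulimRingHom F θ) (P.theta_smul hJ) (P'.theta_smul hJ)
    f₁ f₂ g₁ g₂ ((LinearMap.fst S _ _ ∘ₗ s).toAddMonoidHom)
    ((LinearMap.snd S _ _ ∘ₗ s).toAddMonoidHom) (fun t m => map_smul (LinearMap.fst S _ _ ∘ₗ s) t m)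
    (fun t m => map_smul (LinearMap.snd S _ _ ∘ₗ s) t m) ?_ ?_ ?_ ?_ ?_ D₁₁ D₁₂ D₂₁ D₂₂
    (hD j₁ i₁ D₁₁ hD11) (hD j₁ i₂ D₁₂ hD12) (hD j₂ i₁ D₂₁ hD21) (hD j₂ i₂ D₂₂ hD22)
    I ?_ ringKrullDim_lt_top hdim Q hQ hdet
  · intro m
    have h := hs m 0
    rw [_root_.map_zero, add_zero] at h
    exact congrArg Prod.fst h
  · intro m
    have h := hs 0 m
    rw [_root_.map_zero, zero_add] at h
    exact congrArg Prod.fst h
  · intro m
    have h := hs m 0
    rw [_root_.map_zero, add_zero] at h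
    exact congrArg Prod.snd h
  · intro m
    have h := hs 0 m
    rw [_root_.map_zero, zero_add] at h
    exact congrArg Prod.snd h
  · exact map_surjective₂ P P' hJ j₁ j₂ hj
  · intro r hr m'
    exact exists_of_range_le P P' hJ i₁ i₂ (fun n => P'.ρ n r) (fun n x => hI n r hr x) m'

end Raising

end PSys

end Fermat.Agent.TAlg
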