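import Mathlib
import Fermat.Agent.TAlg.PS
import Fermat.Agent.TAlg.SystemIhara

/-! # Quotients of complete local noetherian rings and type ideals. -/

set_option autoImplicit false
set_option linter.unusedSectionVars false

open IsLocalRing Filter

namespace Fermat.Agent.TAlg

section Quot

lemma map_maximalIdeal_of_surjective {R R' : Type} [CommRing R] [IsLocalRing R] [CommRing R']
    [IsLocalRing R'] (f : R →+* R') (hf : Function.Surjective f) :
    (maximalIdeal R).map f = maximalIdeal R' := by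
  apply le_antisymm
  · rw [Ideal.map_le_iff_le_comap]
    intro x hx
    rw [Ideal.mem_comap]
    by_contra h
    have h1 : IsUnit (f x) := by
      by_contra h2
      exact h ((mem_maximalIdeal _).2 h2)
    obtain ⟨y, hy⟩ := h1.exists_right_inv
    obtain ⟨z, rfl⟩ := hf y
    have h3 : f (1 - x * z) = 0 := by rw [map_sub, map_one, map_mul, hy, sub_self]
    have h4 : IsUnit (1 - x * z) := by
      by_contra h5
      have h6 : (1 : R) ∈ maximalIdeal R := by
        have := add_mem ((mem_maximalIdeal _).2 h5) (Ideal.mul_mem_right z _ hx)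
        rwa [sub_add_cancel] at this
      exact (Ideal.ne_top_iff_one _).1 (maximalIdeal.isMaximal R).ne_top h6
    have h7 := h4.map f
    rw [h3] at h7
    exact not_isUnit_zero h7
  · intro y hy
    obtain ⟨x, rfl⟩ := hf y
    apply Ideal.mem_map_of_mem
    rw [mem_maximalIdeal, mem_nonunits_iff]
    intro h
    exact (mem_maximalIdeal _).1 hy (h.map f)

lemma isAdicComplete_of_surjective {R R' : Type} [CommRing R] [IsLocalRing R] [IsNoetherianRing R]
    [IsAdicComplete (maximalIdeal R) R] [CommRing R'] [IsLocalRing R'] (f : R →+* R')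
    (hf : Function.Surjective f) : IsAdicComplete (maximalIdeal R') R' := by
  have : IsNoetherianRing R' := isNoetherianRing_of_surjective R R' f hf
  have hpre : IsPrecomplete (maximalIdeal R') R' := by
    refine ⟨fun x hx => ?_⟩
    have h1 : ∀ n, ∃ d ∈ maximalIdeal R ^ n, f d = x (n + 1) - x n := by
      intro n
      have h2 := hx (Nat.le_succ n)
      rw [SModEq.sub_mem, smul_eq_mul, Ideal.mul_top] at h2
      have h3 : x (n + 1) - x n ∈ maximalIdeal R' ^ n := by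
        rw [← neg_sub]
        exact neg_mem h2
      rw [← map_maximalIdeal_of_surjective f hf, ← Ideal.map_pow] at h3
      obtain ⟨d, hd, hd'⟩ := (Ideal.mem_map_iff_of_surjective f hf).1 h3
      exact ⟨d, hd, hd'⟩
    choose d hd hd' using h1
    obtain ⟨y0, hy0⟩ := hf (x 0)
    let y : ℕ → R := fun n => y0 + ∑ i ∈ Finset.range n, d i
    have hy : ∀ n, f (y n) = x n := by
      intro n
      induction n with
      | zero => simpa [y] using hy0
      | succ n ih =>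
        have : y (n + 1) = y n + d n := by
          simp only [y, Finset.sum_range_succ]
          ring
        rw [this, map_add, ih, hd']
        ring
    have hc : ∀ m k, y (m + k) - y m ∈ maximalIdeal R ^ m := by
      intro m k
      induction k with
      | zero => simp
      | succ k ih =>
        have : y (m + (k + 1)) - y m = (y (m + k) - y m) + d (m + k) := by
          simp only [y, ← add_assoc, Finset.sum_range_succ]
          ring
        rw [this]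
        exact add_mem ih (Ideal.pow_le_pow_right (Nat.le_add_right m k) (hd _))
    have h9 : IsPrecomplete (maximalIdeal R) R := inferInstance
    obtain ⟨z, hz⟩ := h9.prec' y (by
      intro m n hmn
      obtain ⟨k, rfl⟩ := Nat.exists_eq_add_of_le hmn
      rw [SModEq.sub_mem, smul_eq_mul, Ideal.mul_top, ← neg_sub]
      exact neg_mem (hc m k))
    refine ⟨f z, fun n => ?_⟩
    have h10 := hz n
    rw [SModEq.sub_mem, smul_eq_mul, Ideal.mul_top] at h10 ⊢
    rw [← hy n, ← map_sub]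
    have h11 := Ideal.mem_map_of_mem f h10
    rwa [Ideal.map_pow, map_maximalIdeal_of_surjective f hf] at h11
  exact { hpre, (inferInstance : IsHausdorff (maximalIdeal R') R') with }

variable {R : Type} [CommRing R] [IsLocalRing R] (I : Ideal R)

lemma isLocalRing_quot (hI : I ≠ ⊤) : IsLocalRing (R ⧸ I) :=
  have : Nontrivial (R ⧸ I) := Ideal.Quotient.nontrivial_iff.2 hI
  IsLocalRing.of_surjective' (Ideal.Quotient.mk I) Ideal.Quotient.mk_surjective

lemma finite_residueField_of_surjective {R' : Type} [CommRing R'] [IsLocalRing R']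
    [Finite (ResidueField R)] (f : R →+* R') (hf : Function.Surjective f) :
    Finite (ResidueField R') := by
  refine Finite.of_surjective (α := ResidueField R)
    (Ideal.Quotient.lift (maximalIdeal R) ((residue R').comp f) ?_) ?_
  · intro a ha
    rw [RingHom.comp_apply, residue_eq_zero_iff, ← map_maximalIdeal_of_surjective f hf]
    exact Ideal.mem_map_of_mem f ha
  · intro x
    obtain ⟨y, rfl⟩ := residue_surjective x
    obtain ⟨z, rfl⟩ := hf y
    exact ⟨Ideal.Quotient.mk _ z, by rw [Ideal.Quotient.lift_mk]; rfl⟩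

end Quot

section Types

variable {ι : Type} {F : Ultrafilter ι}
variable {S : Type} [CommRing S] [IsLocalRing S] [IsNoetherianRing S]
  [IsAdicComplete (maximalIdeal S) S] [Finite (ResidueField S)]
variable {J : ι → Ideal S}
variable {R : Type} [CommRing R] [IsLocalRing R] {θ θ₁ θ₂ : ι → (S →+* R)}

namespace PSys

/-- a patching system killed by an ideal `I` of `R` -/
def quot (P : PSys S J R θ) (I : Ideal R) (h : ∀ n, ∀ x ∈ I, P.ρ n x = 0) :
    PSys S J (R ⧸ I) (fun n => (Ideal.Quotient.mk I).comp (θ n)) where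
  M := P.M
  d := P.d
  e := P.e
  ρ n := Ideal.Quotient.lift I (P.ρ n) (h n)
  hθ n s := P.hθ n s

omit [IsNoetherianRing S] [IsAdicComplete (maximalIdeal S) S] [Finite (ResidueField S)] in
@[simp] lemma quot_rho_mk (P : PSys S J R θ) (I : Ideal R) (h : ∀ n, ∀ x ∈ I, P.ρ n x = 0) (n : ι)
    (r : R) : (P.quot I h).ρ n (Ideal.Quotient.mk I r) = P.ρ n r := rfl

lemma quot_smul_mk (P : PSys S J R θ) (I : Ideal R) (h : ∀ n, ∀ x ∈ I, P.ρ n x = 0)
    [IsLocalRing (R ⧸ I)] (hJ : Small F J) (r : R) (x : P.Lim hJ) :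
    (Ideal.Quotient.mk I r • (show (P.quot I h).Lim hJ from x) : (P.quot I h).Lim hJ) =
      (r • x : P.Lim hJ) := rfl

lemma comap_annihilator_quot (P : PSys S J R θ) (I : Ideal R) (h : ∀ n, ∀ x ∈ I, P.ρ n x = 0)
    [IsLocalRing (R ⧸ I)] (hJ : Small F J) :
    (Module.annihilator (R ⧸ I) ((P.quot I h).Lim hJ)).comap (Ideal.Quotient.mk I) =
      Module.annihilator R (P.Lim hJ) := by
  ext r
  rw [Ideal.mem_comap, Module.mem_annihilator, Module.mem_annihilator]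
  exact Iff.rfl

variable [IsNoetherianRing R] [IsAdicComplete (maximalIdeal R) R] [Finite (ResidueField R)]

/-- (A3) IHARA AVOIDANCE, version with two type ideals `I₁`, `I₂` in the same ring `R`.
`P₁` is killed by `I₁`, `P₂` is killed by `I₂`, `I₁ + (ϖ) = I₂ + (ϖ)`, `I₂` is a prime with
`dim (R ⧸ I₂) ≤ dim S`, and `P₁ = P₂` modulo `ϖ`.  Then every prime `Q` of `R` containing
`I₁ + (ϖ)` is in the support of the patched module of `P₁`. -/
theorem ihara_avoidance' [IsDomain S] (P₁ : PSys S J R θ₁) (P₂ : PSys S J R θ₂) (hJ : Small F J)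
    (ϖ : S) (ϖR : R) (hm : ϖR ∈ maximalIdeal R) (hϖ₁ : ∀ n, θ₁ n ϖ = ϖR) (hϖ₂ : ∀ n, θ₂ n ϖ = ϖR)
    (I₁ I₂ : Ideal R) (h₁ : ∀ n, ∀ x ∈ I₁, P₁.ρ n x = 0) (h₂ : ∀ n, ∀ x ∈ I₂, P₂.ρ n x = 0)
    [I₂.IsPrime] (hϖI₂ : ϖR ∉ I₂) (hI : I₁ ⊔ Ideal.span {ϖR} = I₂ ⊔ Ideal.span {ϖR})
    (g : ∀ n, P₁.M n →ₗ[S] P₂.M n) (hg : ∀ n, Function.Surjective (g n))
    (hequiv : ∀ r n x, g n (P₁.ρ n r x) - P₂.ρ n r (g n x) ∈
      Ideal.span {ϖ} • (⊤ : Submodule S (P₂.M n)))
    (hdim : ringKrullDim (R ⧸ I₂) ≤ ringKrullDim S) (hd : P₂.d ≠ 0)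
    (Q : Ideal R) [Q.IsPrime] (hQ₁ : I₁ ≤ Q) (hQ : ϖR ∈ Q) :
    Module.annihilator R (P₁.Lim hJ) ≤ Q ∧
      ∃ P ∈ I₁.minimalPrimes, P ≤ Q ∧ Module.annihilator R (P₁.Lim hJ) ≤ P := by
  have hne₁ : I₁ ≠ ⊤ := fun h => (Ideal.IsPrime.ne_top ‹Q.IsPrime›) (top_le_iff.1 (h ▸ hQ₁))
  have hne₂ : I₂ ≠ ⊤ := Ideal.IsPrime.ne_top ‹_›
  have := isLocalRing_quot I₁ hne₁
  have := isLocalRing_quot I₂ hne₂
  have := isAdicComplete_of_surjective (Ideal.Quotient.mk I₁) Ideal.Quotient.mk_surjective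
  have := isAdicComplete_of_surjective (Ideal.Quotient.mk I₂) Ideal.Quotient.mk_surjective
  have := finite_residueField_of_surjective (Ideal.Quotient.mk I₁) Ideal.Quotient.mk_surjective
  have := finite_residueField_of_surjective (Ideal.Quotient.mk I₂) Ideal.Quotient.mk_surjective
  let K : Ideal R := I₁ ⊔ Ideal.span {ϖR}
  have hK₂ : I₂ ≤ K := by
    change I₂ ≤ I₁ ⊔ Ideal.span {ϖR}
    rw [hI]
    exact le_sup_left
  let α : R ⧸ I₁ →+* R ⧸ K := Ideal.Quotient.factor le_sup_left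
  let β : R ⧸ I₂ →+* R ⧸ K := Ideal.Quotient.factor hK₂
  have hα : Function.Surjective α := Ideal.Quotient.factor_surjective _
  have hβ : Function.Surjective β := Ideal.Quotient.factor_surjective _
  have kα : RingHom.ker α = Ideal.span {Ideal.Quotient.mk I₁ ϖR} := by
    ext x
    obtain ⟨x, rfl⟩ := Ideal.Quotient.mk_surjective x
    rw [RingHom.mem_ker]
    change Ideal.Quotient.mk K x = 0 ↔ _
    rw [Ideal.Quotient.eq_zero_iff_mem, ← Set.image_singleton, ← Ideal.map_span,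
      Ideal.mem_quotient_iff_mem_sup, sup_comm]
  have kβ : RingHom.ker β = Ideal.span {Ideal.Quotient.mk I₂ ϖR} := by
    ext x
    obtain ⟨x, rfl⟩ := Ideal.Quotient.mk_surjective x
    rw [RingHom.mem_ker]
    change Ideal.Quotient.mk K x = 0 ↔ _
    rw [Ideal.Quotient.eq_zero_iff_mem, ← Set.image_singleton, ← Ideal.map_span,
      Ideal.mem_quotient_iff_mem_sup, sup_comm]
    change x ∈ I₁ ⊔ _ ↔ _
    rw [hI]
  let Q' : Ideal (R ⧸ I₁) := Q.map (Ideal.Quotient.mk I₁)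
  have hQ' : Q'.comap (Ideal.Quotient.mk I₁) = Q := by
    rw [Ideal.comap_map_of_surjective _ Ideal.Quotient.mk_surjective, ← RingHom.ker_eq_comap_bot,
      Ideal.mk_ker, sup_eq_left]
    exact hQ₁
  have hprime : Q'.IsPrime := Ideal.map_isPrime_of_surjective Ideal.Quotient.mk_surjective
    (by rw [Ideal.mk_ker]; exact hQ₁)
  have key0 : ∀ a b : R, a - b ∈ I₁ ⊔ Ideal.span {ϖR} → ∀ n (x : P₁.M n),
      g n (P₁.ρ n a x) - P₂.ρ n b (g n x) ∈ Ideal.span {ϖ} • (⊤ : Submodule S (P₂.M n)) := by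
    intro a b h' n x
    obtain ⟨i, hi, z, hz, hiz⟩ := Submodule.mem_sup.1 h'
    obtain ⟨t, rfl⟩ := Ideal.mem_span_singleton'.1 hz
    have e1 : a = b + (i + t * ϖR) := by rw [hiz]; ring
    have e2 : P₁.ρ n a x = P₁.ρ n b x + ϖ • P₁.ρ n t x := by
      rw [e1, _root_.map_add, _root_.map_add, h₁ n i hi, zero_add, map_mul, ← hϖ₁ n, P₁.hθ]
      exact congrArg (fun y => P₁.ρ n b x + y) (LinearMap.map_smul (P₁.ρ n t) ϖ x)
    rw [e2, _root_.map_add, _root_.map_smul]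
    have e3 : g n (P₁.ρ n b x) + ϖ • g n (P₁.ρ n t x) - P₂.ρ n b (g n x) =
      (g n (P₁.ρ n b x) - P₂.ρ n b (g n x)) + ϖ • g n (P₁.ρ n t x) := by abel
    rw [e3]
    exact add_mem (hequiv b n x)
      (Submodule.smul_mem_smul (Ideal.mem_span_singleton_self ϖ) trivial)
  have key := ihara_avoidance (P₁.quot I₁ h₁) (P₂.quot I₂ h₂) hJ ϖ (Ideal.Quotient.mk I₁ ϖR)
    (Ideal.Quotient.mk I₂ ϖR) (fun n => congrArg (Ideal.Quotient.mk I₂) (hϖ₂ n))
    (by
      rw [← map_maximalIdeal_of_surjective _ Ideal.Quotient.mk_surjective]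
      exact Ideal.mem_map_of_mem _ hm)
    (by rwa [Ne, Ideal.Quotient.eq_zero_iff_mem]) α β hα hβ kα kβ g hg
    (by
      intro r₁ r₂ h n x
      obtain ⟨a, rfl⟩ := Ideal.Quotient.mk_surjective r₁
      obtain ⟨b, rfl⟩ := Ideal.Quotient.mk_surjective r₂
      exact key0 a b (Ideal.Quotient.eq.1 h) n x)
    hdim hd Q' (Ideal.mem_map_of_mem _ hQ)
  have hcomap := P₁.comap_annihilator_quot I₁ h₁ hJ
  obtain ⟨k1, P', hP', hPQ, hann⟩ := key
  refine ⟨?_, P'.comap (Ideal.Quotient.mk I₁), ?_, ?_, ?_⟩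
  · rw [← hcomap, ← hQ']
    exact Ideal.comap_mono k1
  · rw [Ideal.minimalPrimes_eq_comap]
    exact ⟨P', hP', rfl⟩
  · rw [← hQ']
    exact Ideal.comap_mono hPQ
  · rw [← hcomap]
    exact Ideal.comap_mono hann

/-- (A5) LEVEL RAISING, version with a type ideal `I₀` killing both systems. -/
theorem raising' [IsDomain S] (P P' : PSys S J R θ) (hJ : Small F J)
    (I₀ : Ideal R) (h₀ : ∀ n, ∀ x ∈ I₀, P.ρ n x = 0) (h₀' : ∀ n, ∀ x ∈ I₀, P'.ρ n x = 0)
    (i₁ i₂ : ∀ n, P.M n →ₗ[S] P'.M n) (j₁ j₂ : ∀ n, P'.M n →ₗ[S] P.M n)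
    (hi : ∀ n a b, i₁ n a + i₂ n b ∈ maximalIdeal S • (⊤ : Submodule S (P'.M n)) →
      a ∈ maximalIdeal S • (⊤ : Submodule S (P.M n)) ∧
      b ∈ maximalIdeal S • (⊤ : Submodule S (P.M n)))
    (hj : ∀ n a b, ∃ x, j₁ n x = a ∧ j₂ n x = b)
    (hi₁ : ∀ n r x, i₁ n (P.ρ n r x) = P'.ρ n r (i₁ n x))
    (hi₂ : ∀ n r x, i₂ n (P.ρ n r x) = P'.ρ n r (i₂ n x))
    (hj₁ : ∀ n r x, j₁ n (P'.ρ n r x) = P.ρ n r (j₁ n x))
    (hj₂ : ∀ n r x, j₂ n (P'.ρ n r x) = P.ρ n r (j₂ n x))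
    (D₁₁ D₁₂ D₂₁ D₂₂ : R)
    (hD11 : ∀ n x, j₁ n (i₁ n x) = P.ρ n D₁₁ x) (hD12 : ∀ n x, j₁ n (i₂ n x) = P.ρ n D₁₂ x)
    (hD21 : ∀ n x, j₂ n (i₁ n x) = P.ρ n D₂₁ x) (hD22 : ∀ n x, j₂ n (i₂ n x) = P.ρ n D₂₂ x)
    (I : Ideal R) (hI : ∀ n, ∀ r ∈ I, ∀ x, ∃ a b, P'.ρ n r x = i₁ n a + i₂ n b)
    (hdim : ringKrullDim (R ⧸ I₀) ≤ ringKrullDim S)
    (Q : Ideal R) [Q.IsPrime] (hQ₀ : I₀ ≤ Q) (hQ : Module.annihilator R (P.Lim hJ) ≤ Q)
    (hdet : D₁₁ * D₂₂ - D₁₂ * D₂₁ ∈ Q) :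
    ∃ P₀ ∈ I₀.minimalPrimes, I ≤ P₀ ∧ P₀ ≤ Q ∧ Module.annihilator R (P'.Lim hJ) ≤ P₀ := by
  have hne : I₀ ≠ ⊤ := fun h => (Ideal.IsPrime.ne_top ‹Q.IsPrime›) (top_le_iff.1 (h ▸ hQ₀))
  have := isLocalRing_quot I₀ hne
  have := isAdicComplete_of_surjective (Ideal.Quotient.mk I₀) Ideal.Quotient.mk_surjective
  have := finite_residueField_of_surjective (Ideal.Quotient.mk I₀) Ideal.Quotient.mk_surjective
  let Q' : Ideal (R ⧸ I₀) := Q.map (Ideal.Quotient.mk I₀)
  have hQ' : Q'.comap (Ideal.Quotient.mk I₀) = Q := by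
    rw [Ideal.comap_map_of_surjective _ Ideal.Quotient.mk_surjective, ← RingHom.ker_eq_comap_bot,
      Ideal.mk_ker, sup_eq_left]
    exact hQ₀
  have hprime : Q'.IsPrime := Ideal.map_isPrime_of_surjective Ideal.Quotient.mk_surjective
    (by rw [Ideal.mk_ker]; exact hQ₀)
  have hann : Module.annihilator (R ⧸ I₀) ((P.quot I₀ h₀).Lim hJ) ≤ Q' := by
    intro x hx
    obtain ⟨x, rfl⟩ := Ideal.Quotient.mk_surjective x
    apply Ideal.mem_map_of_mem
    apply hQ
    rw [← P.comap_annihilator_quot I₀ h₀ hJ]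
    exact hx
  obtain ⟨P₀, hP₀, h1, h2, h3⟩ := raising (P.quot I₀ h₀) (P'.quot I₀ h₀') hJ i₁ i₂ j₁ j₂ hi hj
    (by intro n r x; obtain ⟨r, rfl⟩ := Ideal.Quotient.mk_surjective r; exact hi₁ n r x)
    (by intro n r x; obtain ⟨r, rfl⟩ := Ideal.Quotient.mk_surjective r; exact hi₂ n r x)
    (by intro n r x; obtain ⟨r, rfl⟩ := Ideal.Quotient.mk_surjective r; exact hj₁ n r x)
    (by intro n r x; obtain ⟨r, rfl⟩ := Ideal.Quotient.mk_surjective r; exact hj₂ n r x)
    (Ideal.Quotient.mk I₀ D₁₁) (Ideal.Quotient.mk I₀ D₁₂) (Ideal.Quotient.mk I₀ D₂₁)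
    (Ideal.Quotient.mk I₀ D₂₂) hD11 hD12 hD21 hD22 (I.map (Ideal.Quotient.mk I₀))
    (by
      intro n r hr x
      obtain ⟨r', hr', rfl⟩ := (Ideal.mem_map_iff_of_surjective _ Ideal.Quotient.mk_surjective).1 hr
      exact hI n r' hr' x) hdim Q' hann
    (by
      rw [← map_mul, ← map_mul, ← _root_.map_sub]
      exact Ideal.mem_map_of_mem _ hdet)
  refine ⟨P₀.comap (Ideal.Quotient.mk I₀), ?_, ?_, ?_, ?_⟩
  · rw [Ideal.minimalPrimes_eq_comap]
    exact ⟨P₀, hP₀, rfl⟩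
  · rw [← Ideal.map_le_iff_le_comap]
    exact h1
  · rw [← hQ']
    exact Ideal.comap_mono h2
  · rw [← P'.comap_annihilator_quot I₀ h₀' hJ]
    exact Ideal.comap_mono h3

end PSys

end Types

end Fermat.Agent.TAlg
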