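import Mathlib
import Fermat.Agent.TAlg.PS
import Fermat.Agent.TAlg.Types

/-! # Framed patching systems: adding power series variables. -/

set_option autoImplicit false
set_option linter.unusedSectionVars false

open IsLocalRing MvPowerSeries
open Finset.HasAntidiagonal (antidiagonal)

namespace Fermat.Agent.TAlg

/-- power series from coefficients -/
def mkPS {σ A : Type} (c : (σ →₀ ℕ) → A) : MvPowerSeries σ A := c

@[simp] lemma coeff_mkPS {σ A : Type} [Semiring A] (c : (σ →₀ ℕ) → A) (k : σ →₀ ℕ) :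
    coeff k (mkPS c) = c k := rfl

/-- power series with coefficients in a module -/
def PM (σ : Type) (M : Type) : Type := (σ →₀ ℕ) → M

namespace PM

section

variable {σ E M : Type} [AddCommGroup M]

instance : AddCommGroup (PM σ M) := inferInstanceAs (AddCommGroup ((σ →₀ ℕ) → M))

/-- coefficients -/
def coef (k : σ →₀ ℕ) (m : PM σ M) : M := m k

@[ext] lemma ext {m m' : PM σ M} (h : ∀ k, coef k m = coef k m') : m = m' := funext h

@[simp] lemma coef_add (k : σ →₀ ℕ) (m m' : PM σ M) : coef k (m + m') = coef k m + coef k m' := rfl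
@[simp] lemma coef_zero (k : σ →₀ ℕ) : coef k (0 : PM σ M) = 0 := rfl

variable [Semiring E] [Module E M]

open Classical in
noncomputable instance : SMul (MvPowerSeries σ E) (PM σ M) :=
  ⟨fun a m k => ∑ p ∈ antidiagonal k, coeff p.1 a • coef p.2 m⟩

open Classical in
lemma coef_smul (k : σ →₀ ℕ) (a : MvPowerSeries σ E) (m : PM σ M) :
    coef k (a • m) = ∑ p ∈ antidiagonal k, coeff p.1 a • coef p.2 m := rfl

noncomputable instance : Module (MvPowerSeries σ E) (PM σ M) where
  one_smul m := by
    classical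
    ext k
    rw [coef_smul, Finset.sum_eq_single (0, k)]
    · simp
    · rintro ⟨i, j⟩ hij hne
      rw [Finset.HasAntidiagonal.mem_antidiagonal] at hij
      have h0 : i ≠ 0 := by
        rintro rfl
        apply hne
        simp only [zero_add] at hij
        rw [hij]
      rw [coeff_one, if_neg h0, zero_smul]
    · intro h
      exact absurd (Finset.HasAntidiagonal.mem_antidiagonal.2 (zero_add k)) h
  mul_smul a b m := by
    classical
    ext n
    simp only [coef_smul, coeff_mul, Finset.sum_smul, Finset.smul_sum, Finset.sum_sigma']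
    apply Finset.sum_nbij' (fun ⟨⟨_i, j⟩, ⟨k, l⟩⟩ ↦ ⟨(k, l + j), (l, j)⟩)
      (fun ⟨⟨i, _j⟩, ⟨k, l⟩⟩ ↦ ⟨(i + k, l), (i, k)⟩) <;> aesop (add simp [add_assoc, mul_smul])
  smul_zero a := by
    ext k
    simp [coef_smul]
  smul_add a m m' := by
    ext k
    simp [coef_smul, Finset.sum_add_distrib]
  add_smul a b m := by
    ext k
    simp [coef_smul, Finset.sum_add_distrib, add_smul]
  zero_smul m := by
    ext k
    simp [coef_smul]

end

section Act

variable {σ S A M M' : Type} [CommRing S] [CommRing A] [AddCommGroup M] [Module S M]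
  [AddCommGroup M'] [Module S M'] (ρ : A →+* Module.End S M)

lemma smul_eq_map_smul (s : MvPowerSeries σ S) (m : PM σ M) :
    s • m = (MvPowerSeries.map (algebraMap S (Module.End S M)) s) • m := by
  ext k
  simp [coef_smul]

lemma map_comm (a : MvPowerSeries σ A) (s : MvPowerSeries σ S) :
    MvPowerSeries.map ρ a * MvPowerSeries.map (algebraMap S (Module.End S M)) s =
      MvPowerSeries.map (algebraMap S (Module.End S M)) s * MvPowerSeries.map ρ a := by
  classical
  ext1 n
  rw [coeff_mul, coeff_mul]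
  refine (Finset.sum_congr rfl (fun p _ => ?_)).trans
    (Finsupp.sum_antidiagonal_swap n (fun a' b' =>
      coeff a' (MvPowerSeries.map (algebraMap S (Module.End S M)) s) *
        coeff b' (MvPowerSeries.map ρ a))).symm
  simp only [coeff_map]
  exact (Algebra.commutes _ _).symm

/-- the action of power series over `A` -/
noncomputable def act : MvPowerSeries σ A →+* Module.End (MvPowerSeries σ S) (PM σ M) where
  toFun a :=
    { toFun := fun m => MvPowerSeries.map ρ a • m
      map_add' := fun x y => smul_add _ x y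
      map_smul' := fun s m => by
        rw [RingHom.id_apply, smul_eq_map_smul, smul_eq_map_smul, smul_smul, smul_smul, map_comm] }
  map_one' := by
    ext1 m
    simp
  map_mul' a b := by
    ext1 m
    simp [mul_smul]
  map_zero' := by
    ext1 m
    simp
  map_add' a b := by
    ext1 m
    simp [add_smul]

open Classical in
lemma coef_act (a : MvPowerSeries σ A) (m : PM σ M) (k : σ →₀ ℕ) :
    coef k (act ρ a m) = ∑ p ∈ antidiagonal k, ρ (coeff p.1 a) (coef p.2 m) := by
  change coef k (MvPowerSeries.map ρ a • m) = _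
  rw [coef_smul]
  rfl

lemma act_map (θ : S →+* A) (hθ : ∀ s, ρ (θ s) = algebraMap S (Module.End S M) s)
    (s : MvPowerSeries σ S) : act ρ (MvPowerSeries.map θ s) =
      algebraMap (MvPowerSeries σ S) (Module.End (MvPowerSeries σ S) (PM σ M)) s := by
  classical
  ext1 m
  ext k
  rw [coef_act]
  simp only [coeff_map, hθ]
  rw [Module.algebraMap_end_apply, coef_smul]
  rfl

/-- construct from coefficients -/
def mk (c : (σ →₀ ℕ) → M) : PM σ M := c

@[simp] lemma coef_mk (c : (σ →₀ ℕ) → M) (k : σ →₀ ℕ) : coef k (mk c) = c k := rfl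

/-- extension of a linear map to power series -/
noncomputable def ext' (f : M →ₗ[S] M') : PM σ M →ₗ[MvPowerSeries σ S] PM σ M' where
  toFun m := mk (fun k => f (coef k m))
  map_add' x y := by
    ext k
    exact map_add f _ _
  map_smul' s m := by
    classical
    ext k
    rw [coef_mk, RingHom.id_apply, coef_smul, coef_smul, map_sum]
    refine Finset.sum_congr rfl (fun p _ => ?_)
    rw [map_smul]
    rfl

@[simp] lemma coef_ext' (f : M →ₗ[S] M') (m : PM σ M) (k : σ →₀ ℕ) :
    coef k (ext' f m) = f (coef k m) := rfl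

lemma ext'_surjective (f : M →ₗ[S] M') (hf : Function.Surjective f) :
    Function.Surjective (ext' (σ := σ) f) := by
  intro y
  choose g hg using hf
  exact ⟨fun k => g (coef k y), PM.ext (fun k => hg _)⟩

lemma ext'_comp {M'' : Type} [AddCommGroup M''] [Module S M''] (f : M →ₗ[S] M')
    (g : M' →ₗ[S] M'') : ext' (σ := σ) (g ∘ₗ f) = ext' g ∘ₗ ext' f := rfl

/-- equivariance -/
lemma ext'_act {A' : Type} [CommRing A'] (ρ' : A' →+* Module.End S M') (f : M →ₗ[S] M')
    (a : MvPowerSeries σ A) (a' : MvPowerSeries σ A')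
    (h : ∀ k x, f (ρ (coeff k a) x) = ρ' (coeff k a') (f x)) (m : PM σ M) :
    ext' f (act ρ a m) = act ρ' a' (ext' f m) := by
  classical
  ext k
  rw [coef_ext', coef_act, coef_act, map_sum]
  exact Finset.sum_congr rfl (fun p _ => h _ _)

end Act

end PM

section Ideal

variable {σ S : Type} [Finite σ] [CommRing S]

/-- the ideal of power series with coefficients in `J` -/
noncomputable def frameIdeal (σ : Type) (J : Ideal S) : Ideal (MvPowerSeries σ S) :=
  RingHom.ker (MvPowerSeries.map (σ := σ) (Ideal.Quotient.mk J))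

lemma mem_frameIdeal (J : Ideal S) (f : MvPowerSeries σ S) :
    f ∈ frameIdeal σ J ↔ ∀ k, coeff k f ∈ J := by
  rw [frameIdeal, RingHom.mem_ker, MvPowerSeries.ext_iff]
  simp only [coeff_map, map_zero, Ideal.Quotient.eq_zero_iff_mem]

lemma C_mem_frameIdeal (J : Ideal S) {s : S} (hs : s ∈ J) :
    (C s : MvPowerSeries σ S) ∈ frameIdeal σ J := by
  classical
  rw [mem_frameIdeal]
  intro k
  rw [coeff_C]
  split_ifs
  · exact hs
  · exact zero_mem _

/-- `S⟦σ⟧ ⧸ J⟦σ⟧ = (S ⧸ J)⟦σ⟧` -/
noncomputable def frameEquiv (σ : Type) (J : Ideal S) :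
    (MvPowerSeries σ S ⧸ frameIdeal σ J) ≃+* MvPowerSeries σ (S ⧸ J) :=
  RingHom.quotientKerEquivOfSurjective (by
    intro f
    choose g hg using Ideal.Quotient.mk_surjective (I := J)
    let f' : MvPowerSeries σ S := fun k => g (coeff k f)
    refine ⟨f', ?_⟩
    ext k
    rw [coeff_map]
    exact hg _)

lemma frameEquiv_mk (J : Ideal S) (f : MvPowerSeries σ S) :
    frameEquiv σ J (Ideal.Quotient.mk _ f) = MvPowerSeries.map (Ideal.Quotient.mk J) f := rfl

lemma small_frameIdeal [IsLocalRing S] {ι : Type} {F : Ultrafilter ι} {J : ι → Ideal S}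
    (hJ : Small F J) : Small F (fun n => frameIdeal σ (J n)) := by
  intro k
  filter_upwards [hJ k] with n hn
  intro f hf
  apply mem_pow_of_coeff_mem
  intro m
  exact Ideal.pow_le_pow_right (Nat.sub_le _ _) (hn ((mem_frameIdeal _ _).1 hf m))

end Ideal

section FrameE

variable {σ S : Type} [Finite σ] [CommRing S] {J : Ideal S} {d : ℕ} {M : Type} [AddCommGroup M]
  [Module S M] (e : M ≃ₗ[S] (Fin d → S ⧸ J))

/-- the basis of the framed module -/
noncomputable def frameBasis :
    PM σ M ≃ₗ[MvPowerSeries σ S] (Fin d → MvPowerSeries σ S ⧸ frameIdeal σ J) where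
  toFun m i := (frameEquiv σ J).symm (mkPS (fun k => e (PM.coef k m) i))
  invFun v := PM.mk (fun k => e.symm (fun i => coeff k (frameEquiv σ J (v i))))
  left_inv m := by
    ext k
    rw [PM.coef_mk]
    simp only [RingEquiv.apply_symm_apply, coeff_mkPS]
    exact e.symm_apply_apply _
  right_inv v := by
    funext i
    rw [RingEquiv.symm_apply_eq]
    ext k
    rw [coeff_mkPS, PM.coef_mk, LinearEquiv.apply_symm_apply]
  map_add' m m' := by
    funext i
    rw [Pi.add_apply, ← map_add]
    congr 1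
    ext k
    rw [map_add, coeff_mkPS, coeff_mkPS, coeff_mkPS, PM.coef_add, map_add]
    rfl
  map_smul' s m := by
    classical
    funext i
    rw [RingHom.id_apply, Pi.smul_apply, RingEquiv.symm_apply_eq]
    have hsm : ∀ x : MvPowerSeries σ S ⧸ frameIdeal σ J,
        s • x = Ideal.Quotient.mk (frameIdeal σ J) s * x := by
      intro x
      obtain ⟨x, rfl⟩ := Ideal.Quotient.mk_surjective x
      rw [← map_mul]
      rfl
    rw [hsm, map_mul, RingEquiv.apply_symm_apply, frameEquiv_mk]
    ext k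
    rw [coeff_mkPS, PM.coef_smul, map_sum, coeff_mul, Finset.sum_apply]
    refine Finset.sum_congr rfl (fun p _ => ?_)
    rw [map_smul, Pi.smul_apply, Algebra.smul_def, coeff_map, coeff_mkPS]
    rfl

lemma frameBasis_apply (m : PM σ M) (i : Fin d) :
    frameBasis e m i = (frameEquiv σ J).symm (mkPS (fun k => e (PM.coef k m) i)) := rfl

omit [Finite σ] in
lemma exists_mem_of_smul_top {I : Ideal S} {v : Fin d → S ⧸ J}
    (hv : v ∈ I • (⊤ : Submodule S (Fin d → S ⧸ J))) (i : Fin d) :
    ∃ a ∈ I, Ideal.Quotient.mk J a = v i := by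
  refine Submodule.smul_induction_on (p := fun v => ∃ a ∈ I, Ideal.Quotient.mk J a = v i)
    hv ?_ ?_
  · intro r hr n _
    obtain ⟨b, hb⟩ := Ideal.Quotient.mk_surjective (n i)
    exact ⟨r * b, Ideal.mul_mem_right _ _ hr, by rw [map_mul, hb]; rfl⟩
  · rintro u v ⟨a, ha, hau⟩ ⟨b, hb, hbv⟩
    exact ⟨a + b, add_mem ha hb, by rw [map_add, hau, hbv]; rfl⟩

lemma mem_smul_top_of_mk {S' : Type} [CommRing S'] {J' I' : Ideal S'} {v : Fin d → S' ⧸ J'}
    (hv : ∀ i, ∃ a ∈ I', Ideal.Quotient.mk J' a = v i) :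
    v ∈ I' • (⊤ : Submodule S' (Fin d → S' ⧸ J')) := by
  classical
  choose a ha hav using hv
  have h3 : v = ∑ i, (a i) • (Pi.single i 1 : Fin d → S' ⧸ J') := by
    funext i
    rw [Finset.sum_apply, Finset.sum_eq_single i]
    · rw [Pi.smul_apply, Pi.single_eq_same, ← hav]
      rw [← map_one (Ideal.Quotient.mk J')]
      change _ = Ideal.Quotient.mk J' (a i * 1)
      rw [mul_one]
    · intro j _ hj
      rw [Pi.smul_apply, Pi.single_eq_of_ne hj.symm, smul_zero]
    · intro h
      exact absurd (Finset.mem_univ i) h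
  rw [h3]
  exact Submodule.sum_mem _ (fun i _ => Submodule.smul_mem_smul (ha i) trivial)

lemma mem_smul_top_equiv {S' M₁ M₂ : Type} [CommRing S'] [AddCommGroup M₁] [Module S' M₁]
    [AddCommGroup M₂] [Module S' M₂] (E : M₁ ≃ₗ[S'] M₂) (I : Ideal S') {x : M₁}
    (hx : E x ∈ I • (⊤ : Submodule S' M₂)) : x ∈ I • (⊤ : Submodule S' M₁) := by
  have h5 := map_mem_smul_top E.symm.toLinearMap I hx
  have h6 : E.symm.toLinearMap (E x) = x := E.symm_apply_apply x
  rwa [h6] at h5

include e in
lemma mem_frameIdeal_smul_top (I : Ideal S) {x : PM σ M}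
    (hx : ∀ k, PM.coef k x ∈ I • (⊤ : Submodule S M)) :
    x ∈ frameIdeal σ I • (⊤ : Submodule (MvPowerSeries σ S) (PM σ M)) := by
  have h1 : ∀ k i, ∃ a ∈ I, Ideal.Quotient.mk J a = e (PM.coef k x) i := fun k i =>
    exists_mem_of_smul_top (map_mem_smul_top e.toLinearMap I (hx k)) i
  choose a ha ha' using h1
  refine mem_smul_top_equiv (frameBasis (σ := σ) e) _ (mem_smul_top_of_mk (fun i => ?_))
  refine ⟨mkPS (fun k => a k i), ?_, ?_⟩
  · rw [mem_frameIdeal]
    intro k
    rw [coeff_mkPS]
    exact ha k i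
  · rw [frameBasis_apply, ← RingEquiv.symm_apply_eq, RingEquiv.symm_symm, frameEquiv_mk]
    ext k
    rw [coeff_map, coeff_mkPS, coeff_mkPS, ha']

include e in
lemma ker_ext' {N : Type} [AddCommGroup N] [Module S N] (f : M →ₗ[S] N) (I : Ideal S)
    (hf : LinearMap.ker f = I • ⊤) :
    LinearMap.ker (PM.ext' (σ := σ) f) = frameIdeal σ I • ⊤ := by
  classical
  apply le_antisymm
  · intro x hx
    apply mem_frameIdeal_smul_top e
    intro k
    rw [← hf, LinearMap.mem_ker]
    have := congrArg (PM.coef k) (LinearMap.mem_ker.1 hx)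
    simpa using this
  · rw [Submodule.smul_le]
    intro r hr x _
    rw [LinearMap.mem_ker, map_smul]
    ext k
    rw [PM.coef_smul, PM.coef_zero]
    refine Finset.sum_eq_zero (fun p _ => ?_)
    rw [PM.coef_ext', ← map_smul, ← LinearMap.mem_ker, hf]
    exact Submodule.smul_mem_smul ((mem_frameIdeal _ _).1 hr _) trivial

lemma psmap_surjective {A B : Type} [CommRing A] [CommRing B] (f : A →+* B)
    (hf : Function.Surjective f) : Function.Surjective (MvPowerSeries.map (σ := σ) f) := by
  intro y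
  choose g hg using hf
  exact ⟨mkPS (fun k => g (coeff k y)), by ext k; rw [coeff_map, coeff_mkPS, hg]⟩

lemma loc_of_surjective {A B : Type} [CommRing A] [IsLocalRing A] [CommRing B] [IsLocalRing B]
    (f : A →+* B) (hf : Function.Surjective f) (x : A) (hx : x ∈ maximalIdeal A) :
    f x ∈ maximalIdeal B := by
  rw [← map_maximalIdeal_of_surjective _ hf]
  exact Ideal.mem_map_of_mem _ hx

end FrameE

section Frame

variable {ι : Type} {F : Ultrafilter ι}
variable {σ S : Type} [Finite σ] [CommRing S] [IsLocalRing S] [IsNoetherianRing S]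
  [IsAdicComplete (maximalIdeal S) S] [Finite (ResidueField S)]
variable {J : ι → Ideal S} {A : ι → Type} [∀ n, CommRing (A n)]
variable {R : Type} [CommRing R] [IsLocalRing R] 

/-- Unframed data: `M n` is free of rank `d` over `S ⧸ J n`, with an action of the ring `A n`,
such that `S` acts through `θA n : S → A n`. -/
structure UData (S : Type) [CommRing S] (J : ι → Ideal S) (A : ι → Type) [∀ n, CommRing (A n)]
    (θA : ∀ n, S →+* A n) where
  M : ι → Type
  [grp : ∀ n, AddCommGroup (M n)]
  [mod : ∀ n, Module S (M n)]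
  d : ℕ
  e : ∀ n, M n ≃ₗ[S] (Fin d → S ⧸ J n)
  ρ : ∀ n, A n →+* Module.End S (M n)
  hθ : ∀ n s, ρ n (θA n s) = algebraMap S (Module.End S (M n)) s

attribute [instance] UData.grp UData.mod

variable {θA : ∀ n, S →+* A n} {θ : ι → (MvPowerSeries σ S →+* R)}

/-- The framed patching system: `R → A n ⟦σ⟧`. -/
noncomputable def UData.frame (U : UData S J A θA) (φ : ∀ n, R →+* MvPowerSeries σ (A n))
    (hφθ : ∀ n, (φ n).comp (θ n) = MvPowerSeries.map (θA n)) :
    PSys (MvPowerSeries σ S) (fun n => frameIdeal σ (J n)) R θ where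
  M n := PM σ (U.M n)
  d := U.d
  e n := frameBasis (U.e n)
  ρ n := (PM.act (U.ρ n)).comp (φ n)
  hθ n s := by
    rw [RingHom.comp_apply, ← RingHom.comp_apply (φ n), hφθ]
    exact PM.act_map (U.ρ n) (θA n) (U.hθ n) s

/-- Unframed bottom level. -/
structure UBase (U : UData S J A θA) (𝔞 : Ideal S) (A₀ : Type) [CommRing A₀] where
  π : ∀ n, A n →+* A₀
  surj : ∀ n, Function.Surjective (π n)
  πθ : ∀ n, ∀ s ∈ 𝔞, π n (θA n s) = 0
  N : Type
  [grp : AddCommGroup N]
  [mod : Module S N]
  ρ₀ : A₀ →+* Module.End S N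
  f : ∀ n, U.M n →ₗ[S] N
  f_surj : ∀ n, Function.Surjective (f n)
  ker_f : ∀ n, LinearMap.ker (f n) = 𝔞 • ⊤
  equiv : ∀ n r x, f n (U.ρ n r x) = ρ₀ (π n r) (f n x)

attribute [instance] UBase.grp UBase.mod

/-- The framed bottom level -/
noncomputable def UBase.frame [Nonempty ι] {U : UData S J A θA} {𝔞 : Ideal S} {A₀ : Type}
    [CommRing A₀]
    [IsLocalRing A₀] (B : UBase U 𝔞 A₀) (φ : ∀ n, R →+* MvPowerSeries σ (A n))
    (hφθ : ∀ n, (φ n).comp (θ n) = MvPowerSeries.map (θA n))
    (hφ : ∀ n, Function.Surjective (φ n)) :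
    PBase (U.frame φ hφθ) (frameIdeal σ 𝔞) (MvPowerSeries σ A₀) where
  π n := (MvPowerSeries.map (B.π n)).comp (φ n)
  loc n := loc_of_surjective _ ((psmap_surjective (B.π n) (B.surj n)).comp (hφ n))
  surj n := (psmap_surjective (B.π n) (B.surj n)).comp (hφ n)
  πθ n s hs := by
    rw [RingHom.comp_apply, ← RingHom.comp_apply (φ n), hφθ]
    ext k
    rw [coeff_map, coeff_map, map_zero]
    exact B.πθ n _ ((mem_frameIdeal _ _).1 hs k)
  N := PM σ B.N
  fin := by
    obtain ⟨n⟩ := ‹Nonempty ι›
    exact Module.Finite.of_surjective ((PM.ext' (σ := σ) (B.f n)).comp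
      (frameBasis (σ := σ) (U.e n)).symm.toLinearMap)
      ((PM.ext'_surjective (B.f n) (B.f_surj n)).comp (LinearEquiv.surjective _))
  ρ₀ := PM.act B.ρ₀
  f n := PM.ext' (B.f n)
  f_surj n := PM.ext'_surjective (B.f n) (B.f_surj n)
  ker_f n := ker_ext' (U.e n) (B.f n) 𝔞 (B.ker_f n)
  equiv n r x := PM.ext'_act (U.ρ n) B.ρ₀ (B.f n) (φ n r) (MvPowerSeries.map (B.π n) (φ n r))
    (fun k y => by rw [coeff_map]; exact B.equiv n _ _) x

end Frame

end Fermat.Agent.TAlg
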