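import Mathlib
import Fermat.Agent.TAlg.Frame

/-! # Main theorems for framed patching systems. -/

set_option autoImplicit false
set_option linter.unusedSectionVars false

open IsLocalRing MvPowerSeries
open Finset.HasAntidiagonal (antidiagonal)

namespace Fermat.Agent.TAlg

section Theta

variable {σ τ O R A : Type} [Finite σ] [Finite τ] [CommRing O] [CommRing R] [IsLocalRing R]
  [IsAdicComplete (maximalIdeal R) R] [CommRing A] [IsLocalRing A] [IsNoetherianRing A]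
  [IsAdicComplete (maximalIdeal A) A]

lemma mem_maxIdeal_of_map_mem {A B : Type} [CommRing A] [IsLocalRing A] [CommRing B]
    [IsLocalRing B] (f : A →+* B) {x : A} (hx : f x ∈ maximalIdeal B) : x ∈ maximalIdeal A := by
  rw [mem_maximalIdeal, mem_nonunits_iff]
  intro h
  exact (mem_maximalIdeal _).1 hx (h.map f)

/-- existence of the lift `θ` of `S = O⟦τ⟧⟦σ⟧ → A⟦σ⟧` to `R`. -/
theorem exists_theta (cR : O →+* R) (cA : O →+* A) (φ : R →+* MvPowerSeries σ A)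
    (hφ : Function.Surjective φ) (hc : ∀ o, φ (cR o) = C (cA o))
    (θA : MvPowerSeries τ O →+* A) (hθA : ∀ o, θA (C o) = cA o)
    (hX : ∀ i, θA (X i) ∈ maximalIdeal A) :
    ∃ θ : MvPowerSeries σ (MvPowerSeries τ O) →+* R,
      φ.comp θ = MvPowerSeries.map θA ∧ ∀ o, θ (C (C o)) = cR o := by
  choose x hx using fun i : τ => hφ (C (θA (X i)))
  choose y hy using fun j : σ => hφ (X j)
  have hx' : ∀ i, x i ∈ maximalIdeal R := fun i => mem_maxIdeal_of_map_mem φ (by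
    rw [hx]
    exact C_mem_maxIdeal (hX i))
  have hy' : ∀ j, y j ∈ maximalIdeal R := fun j => mem_maxIdeal_of_map_mem φ (by
    rw [hy]
    exact X_mem_maxIdeal j)
  let θ₀ : MvPowerSeries τ O →+* R := lift (maximalIdeal R) cR x hx'
  let θ : MvPowerSeries σ (MvPowerSeries τ O) →+* R := lift (maximalIdeal R) θ₀ y hy'
  have h0 : φ.comp θ₀ = (C : A →+* MvPowerSeries σ A).comp θA := by
    apply hom_ext (maximalIdeal (MvPowerSeries σ A))
    · intro o
      rw [RingHom.comp_apply, RingHom.comp_apply, lift_C, hc, hθA]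
    · intro i
      rw [RingHom.comp_apply, RingHom.comp_apply, lift_X, hx]
    · intro i
      rw [RingHom.comp_apply, lift_X, hx]
      exact C_mem_maxIdeal (hX i)
  refine ⟨θ, ?_, ?_⟩
  · apply hom_ext (maximalIdeal (MvPowerSeries σ A))
    · intro s
      rw [RingHom.comp_apply, lift_C, map_C]
      exact congrArg (fun f => f s) h0
    · intro j
      rw [RingHom.comp_apply, lift_X, hy, map_X]
    · intro j
      rw [RingHom.comp_apply, lift_X, hy]
      exact X_mem_maxIdeal j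
  · intro o
    rw [lift_C, lift_C]

end Theta

section Ideals

variable {σ S : Type} [Finite σ] [CommRing S]

lemma frameIdeal_span (a : S) : frameIdeal σ (Ideal.span {a}) =
    Ideal.span {(C a : MvPowerSeries σ S)} := by
  ext f
  rw [mem_frameIdeal, Ideal.mem_span_singleton']
  constructor
  · intro h
    have h' : ∀ k, ∃ b, b * a = coeff k f := fun k => Ideal.mem_span_singleton'.1 (h k)
    choose b hb using h'
    refine ⟨mkPS b, ?_⟩
    ext k
    rw [mul_comm, coeff_C_mul, coeff_mkPS, mul_comm, hb]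
  · rintro ⟨g, rfl⟩ k
    rw [mul_comm, coeff_C_mul]
    exact Ideal.mul_mem_right _ _ (Ideal.mem_span_singleton_self a)

variable {J : Ideal S} {d : ℕ} {M : Type} [AddCommGroup M]
  [Module S M] (e : M ≃ₗ[S] (Fin d → S ⧸ J))

lemma coef_zero_mem [IsLocalRing S] {x : PM σ M}
    (hx : x ∈ maximalIdeal (MvPowerSeries σ S) • (⊤ : Submodule (MvPowerSeries σ S) (PM σ M))) :
    PM.coef 0 x ∈ maximalIdeal S • (⊤ : Submodule S M) := by
  classical
  refine Submodule.smul_induction_on (p := fun x : PM σ M =>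
    PM.coef 0 x ∈ maximalIdeal S • (⊤ : Submodule S M)) hx ?_ ?_
  · intro r hr m _
    rw [PM.coef_smul]
    refine Submodule.sum_mem _ (fun p hp => ?_)
    rw [Finset.HasAntidiagonal.mem_antidiagonal] at hp
    have h1 : p.1 = 0 := by
      have := congrArg Finsupp.degree hp
      rw [map_add, map_zero] at this
      exact (Finsupp.degree_eq_zero_iff _).1 (by omega)
    rw [h1]
    exact Submodule.smul_mem_smul ((mem_maxIdeal_iff r).1 hr) trivial
  · intro x y hx hy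
    rw [PM.coef_add]
    exact add_mem hx hy

include e in
lemma mem_maxIdeal_smul_top [IsLocalRing S] {x : PM σ M}
    (hx : PM.coef 0 x ∈ maximalIdeal S • (⊤ : Submodule S M)) :
    x ∈ maximalIdeal (MvPowerSeries σ S) • (⊤ : Submodule (MvPowerSeries σ S) (PM σ M)) := by
  classical
  have h1 : ∀ k i, ∃ a, (k = 0 → a ∈ maximalIdeal S) ∧
      Ideal.Quotient.mk J a = e (PM.coef k x) i := by
    intro k i
    rcases eq_or_ne k 0 with rfl | hk
    · obtain ⟨a, ha, ha'⟩ := exists_mem_of_smul_top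
        (map_mem_smul_top e.toLinearMap (maximalIdeal S) hx) i
      exact ⟨a, fun _ => ha, ha'⟩
    · obtain ⟨a, ha⟩ := Ideal.Quotient.mk_surjective (e (PM.coef k x) i)
      exact ⟨a, fun h => absurd h hk, ha⟩
  choose a ha ha' using h1
  refine mem_smul_top_equiv (frameBasis (σ := σ) e) _ (mem_smul_top_of_mk (fun i => ?_))
  refine ⟨mkPS (fun k => a k i), ?_, ?_⟩
  · rw [mem_maxIdeal_iff]
    exact ha 0 i rfl
  · rw [frameBasis_apply, ← RingEquiv.symm_apply_eq, RingEquiv.symm_symm, frameEquiv_mk]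
    ext k
    rw [coeff_map, coeff_mkPS, coeff_mkPS, ha']

end Ideals

instance instIsDomainPS {σ S : Type} [CommRing S] [IsDomain S] : IsDomain (MvPowerSeries σ S) :=
  NoZeroDivisors.to_isDomain _

namespace PM

variable {σ S A M M' : Type} [CommRing S] [CommRing A] [AddCommGroup M] [Module S M]
  [AddCommGroup M'] [Module S M']

lemma act_eq_zero (ρ : A →+* Module.End S M) (a : MvPowerSeries σ A)
    (h : ∀ k, ρ (coeff k a) = 0) : act ρ a = 0 := by
  classical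
  apply LinearMap.ext
  intro m
  apply PM.ext
  intro k
  rw [PM.coef_act, LinearMap.zero_apply, PM.coef_zero]
  refine Finset.sum_eq_zero (fun p _ => ?_)
  rw [h, LinearMap.zero_apply]

@[simp] lemma coef_sub (k : σ →₀ ℕ) (m m' : PM σ M) : coef k (m - m') = coef k m - coef k m' := rfl

lemma coef_sub_mem {ρ : A →+* Module.End S M} {ρ' : A →+* Module.End S M'} (g : M →ₗ[S] M')
    (K : Submodule S M') (h : ∀ a x, g (ρ a x) - ρ' a (g x) ∈ K) (a : MvPowerSeries σ A)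
    (x : PM σ M) (k : σ →₀ ℕ) : coef k (ext' g (act ρ a x) - act ρ' a (ext' g x)) ∈ K := by
  classical
  rw [coef_sub, PM.coef_ext', PM.coef_act, PM.coef_act, map_sum, ← Finset.sum_sub_distrib]
  exact Submodule.sum_mem _ (fun p _ => h _ _)

end PM

section Main

variable {ι : Type} {F : Ultrafilter ι}
variable {σ S : Type} [Finite σ] [CommRing S] [IsLocalRing S] [IsNoetherianRing S]
  [IsAdicComplete (maximalIdeal S) S] [Finite (ResidueField S)]
variable {J : ι → Ideal S} {A : ι → Type} [∀ n, CommRing (A n)]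
variable {R : Type} [CommRing R] [IsLocalRing R] [IsNoetherianRing R]
  [IsAdicComplete (maximalIdeal R) R] [Finite (ResidueField R)]
variable {θA : ∀ n, S →+* A n} {θ : ι → (MvPowerSeries σ S →+* R)}

/-- IHARA AVOIDANCE for framed systems.  -/
theorem UData.ihara_avoidance [IsDomain S] (U₁ U₂ : UData S J A θA)
    (φ : ∀ n, R →+* MvPowerSeries σ (A n))
    (hφθ : ∀ n, (φ n).comp (θ n) = MvPowerSeries.map (θA n)) (hJ : Small F J)
    (ϖ : S) (ϖR : R) (hm : ϖR ∈ maximalIdeal R) (hϖ : ∀ n, θ n (C ϖ) = ϖR)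
    (I₁ I₂ : Ideal R)
    (h₁ : ∀ n, ∀ x ∈ I₁, ∀ k, U₁.ρ n (coeff k (φ n x)) = 0)
    (h₂ : ∀ n, ∀ x ∈ I₂, ∀ k, U₂.ρ n (coeff k (φ n x)) = 0)
    [I₂.IsPrime] (hϖI₂ : ϖR ∉ I₂) (hI : I₁ ⊔ Ideal.span {ϖR} = I₂ ⊔ Ideal.span {ϖR})
    (g : ∀ n, U₁.M n →ₗ[S] U₂.M n) (hg : ∀ n, Function.Surjective (g n))
    (hequiv : ∀ n a x, g n (U₁.ρ n a x) - U₂.ρ n a (g n x) ∈
      Ideal.span {ϖ} • (⊤ : Submodule S (U₂.M n)))
    (hdim : ringKrullDim (R ⧸ I₂) ≤ ringKrullDim (MvPowerSeries σ S)) (hd : U₂.d ≠ 0)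
    (Q : Ideal R) [Q.IsPrime] (hQ₁ : I₁ ≤ Q) (hQ : ϖR ∈ Q) :
    Module.annihilator R ((U₁.frame φ hφθ).Lim (small_frameIdeal (σ := σ) hJ)) ≤ Q ∧
      ∃ P ∈ I₁.minimalPrimes, P ≤ Q ∧
        Module.annihilator R ((U₁.frame φ hφθ).Lim (small_frameIdeal (σ := σ) hJ)) ≤ P := by
  refine PSys.ihara_avoidance' (U₁.frame φ hφθ) (U₂.frame φ hφθ) (small_frameIdeal hJ) (C ϖ) ϖR hm
    hϖ hϖ I₁ I₂ (fun n x hx => PM.act_eq_zero (U₁.ρ n) (φ n x) (h₁ n x hx))
    (fun n x hx => PM.act_eq_zero (U₂.ρ n) (φ n x) (h₂ n x hx))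
    hϖI₂ hI (fun n => PM.ext' (g n)) (fun n => PM.ext'_surjective (g n) (hg n)) ?_ hdim hd Q hQ₁ hQ
  intro r n x
  rw [← frameIdeal_span]
  exact mem_frameIdeal_smul_top (U₂.e n) _
    (fun k => PM.coef_sub_mem (g n) _ (fun a y => hequiv n a y) (φ n r) x k)

/-- if an element acts as zero at `F`-many levels then it kills the patched module. -/
lemma PSys.mem_annihilator_of_rho_eq_zero {S : Type} [CommRing S] [IsLocalRing S]
    [IsNoetherianRing S]
    [IsAdicComplete (maximalIdeal S) S] [Finite (ResidueField S)] {J : ι → Ideal S}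
    {θ : ι → (S →+* R)} (P : PSys S J R θ) (hJ : Small F J) (r : R)
    (h : ∀ᶠ n in (F : Filter ι), P.ρ n r = 0) : r ∈ Module.annihilator R (P.Lim hJ) := by
  rw [PSys.mem_annihilator_iff, ← PSys.map_rho, ← P.map_zero hJ P]
  apply plim_congr
  intro k
  filter_upwards [h] with n hn
  rw [hn, sub_zero]
  rintro _ ⟨x, rfl⟩
  rw [LinearMap.zero_apply]
  exact zero_mem _

/-- LEVEL LOWERING: an element not in a prime `Q` of the support acts nontrivially at some finite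
level. -/
theorem UData.eventually_ne_zero (U : UData S J A θA)
    (φ : ∀ n, R →+* MvPowerSeries σ (A n))
    (hφθ : ∀ n, (φ n).comp (θ n) = MvPowerSeries.map (θA n)) (hJ : Small F J)
    (Q : Ideal R)
    (hQ : Module.annihilator R ((U.frame φ hφθ).Lim (small_frameIdeal (σ := σ) hJ)) ≤ Q)
    (s : R) (hs : s ∉ Q) :
    ∀ᶠ n in (F : Filter ι), ∃ k, U.ρ n (coeff k (φ n s)) ≠ 0 := by
  by_contra h
  rw [← Ultrafilter.eventually_not] at h
  apply hs
  apply hQ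
  apply PSys.mem_annihilator_of_rho_eq_zero
  filter_upwards [h] with n hn
  simp only [not_exists, not_not] at hn
  exact PM.act_eq_zero (U.ρ n) (φ n s) hn

/-- MODULARITY of a point `x : A₀ → O'` lying on a component `Q` of the support. -/
theorem UBase.ker_le [Nonempty ι] {U : UData S J A θA} {𝔞 : Ideal S} {A₀ : Type}
    [CommRing A₀] [IsLocalRing A₀] [IsNoetherianRing A₀] [IsAdicComplete (maximalIdeal A₀) A₀]
    [Finite (ResidueField A₀)]
    (B : UBase U 𝔞 A₀) (φ : ∀ n, R →+* MvPowerSeries σ (A n))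
    (hφθ : ∀ n, (φ n).comp (θ n) = MvPowerSeries.map (θA n))
    (hφ : ∀ n, Function.Surjective (φ n)) (hJ : Small F J) (Q : Ideal R)
    (hQ : Module.annihilator R ((U.frame φ hφθ).Lim (small_frameIdeal (σ := σ) hJ)) ≤ Q)
    {O' : Type} [CommRing O'] [IsDomain O'] (x : A₀ →+* O')
    (hx : ∀ n, ∀ r ∈ Q, x (B.π n (constantCoeff (φ n r))) = 0) :
    RingHom.ker B.ρ₀ ≤ RingHom.ker x := by
  let P₀ : Ideal (MvPowerSeries σ A₀) := RingHom.ker (x.comp constantCoeff)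
  have hP₀ : P₀.IsPrime := RingHom.ker_isPrime _
  have key := (B.frame φ hφθ hφ).ker_le_of_component (small_frameIdeal (σ := σ) hJ) Q hQ P₀ (by
    intro n r hr
    rw [RingHom.mem_ker]
    change x (constantCoeff (MvPowerSeries.map (B.π n) (φ n r))) = 0
    rw [constantCoeff_map]
    exact hx n r hr)
  intro a ha
  have h1 : C a ∈ P₀ := by
    apply key
    rw [RingHom.mem_ker]
    apply PM.act_eq_zero
    intro k
    classical
    rw [coeff_C]
    split_ifs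
    · exact ha
    · exact map_zero _
  have h2 := RingHom.mem_ker.1 h1
  rw [RingHom.comp_apply, constantCoeff_C] at h2
  exact h2

/-- (A5) LEVEL RAISING for framed systems. -/
theorem UData.raising [IsDomain S] (U U' : UData S J A θA)
    (φ : ∀ n, R →+* MvPowerSeries σ (A n))
    (hφθ : ∀ n, (φ n).comp (θ n) = MvPowerSeries.map (θA n)) (hJ : Small F J)
    (I₀ : Ideal R)
    (h₀ : ∀ n, ∀ x ∈ I₀, ∀ k, U.ρ n (coeff k (φ n x)) = 0)
    (h₀' : ∀ n, ∀ x ∈ I₀, ∀ k, U'.ρ n (coeff k (φ n x)) = 0)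
    (i₁ i₂ : ∀ n, U.M n →ₗ[S] U'.M n) (j₁ j₂ : ∀ n, U'.M n →ₗ[S] U.M n)
    (hi : ∀ n a b, i₁ n a + i₂ n b ∈ maximalIdeal S • (⊤ : Submodule S (U'.M n)) →
      a ∈ maximalIdeal S • (⊤ : Submodule S (U.M n)) ∧
      b ∈ maximalIdeal S • (⊤ : Submodule S (U.M n)))
    (hj : ∀ n a b, ∃ x, j₁ n x = a ∧ j₂ n x = b)
    (hi₁ : ∀ n r x, i₁ n (U.ρ n r x) = U'.ρ n r (i₁ n x))
    (hi₂ : ∀ n r x, i₂ n (U.ρ n r x) = U'.ρ n r (i₂ n x))
    (hj₁ : ∀ n r x, j₁ n (U'.ρ n r x) = U.ρ n r (j₁ n x))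
    (hj₂ : ∀ n r x, j₂ n (U'.ρ n r x) = U.ρ n r (j₂ n x))
    (D₁₁ D₁₂ D₂₁ D₂₂ : R) (d₁₁ d₁₂ d₂₁ d₂₂ : ∀ n, A n)
    (hd₁₁ : ∀ n, φ n D₁₁ = C (d₁₁ n)) (hd₁₂ : ∀ n, φ n D₁₂ = C (d₁₂ n))
    (hd₂₁ : ∀ n, φ n D₂₁ = C (d₂₁ n)) (hd₂₂ : ∀ n, φ n D₂₂ = C (d₂₂ n))
    (hD11 : ∀ n x, j₁ n (i₁ n x) = U.ρ n (d₁₁ n) x) (hD12 : ∀ n x, j₁ n (i₂ n x) = U.ρ n (d₁₂ n) x)
    (hD21 : ∀ n x, j₂ n (i₁ n x) = U.ρ n (d₂₁ n) x) (hD22 : ∀ n x, j₂ n (i₂ n x) = U.ρ n (d₂₂ n) x)
    (I : Ideal R) (hI : ∀ n, ∀ r ∈ I, ∀ k x, ∃ a b,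
      U'.ρ n (coeff k (φ n r)) x = i₁ n a + i₂ n b)
    (hdim : ringKrullDim (R ⧸ I₀) ≤ ringKrullDim (MvPowerSeries σ S))
    (Q : Ideal R) [Q.IsPrime] (hQ₀ : I₀ ≤ Q)
    (hQ : Module.annihilator R ((U.frame φ hφθ).Lim (small_frameIdeal (σ := σ) hJ)) ≤ Q)
    (hdet : D₁₁ * D₂₂ - D₁₂ * D₂₁ ∈ Q) :
    ∃ P₀ ∈ I₀.minimalPrimes, I ≤ P₀ ∧ P₀ ≤ Q ∧
      Module.annihilator R ((U'.frame φ hφθ).Lim (small_frameIdeal (σ := σ) hJ)) ≤ P₀ := by
  have hact : ∀ (n : ι) (D : R) (d : A n) (_ : φ n D = C d) (m : PM σ (U.M n)) (k : σ →₀ ℕ),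
      PM.coef k (PM.act (U.ρ n) (φ n D) m) = U.ρ n d (PM.coef k m) := by
    intro n D d hd m k
    classical
    rw [PM.coef_act, hd, Finset.sum_eq_single (0, k)]
    · rw [coeff_zero_C]
    · rintro ⟨i, j⟩ hij hne
      rw [Finset.HasAntidiagonal.mem_antidiagonal] at hij
      have h0 : i ≠ 0 := by
        rintro rfl
        apply hne
        simp only [zero_add] at hij
        rw [hij]
      rw [coeff_C, if_neg h0, map_zero, LinearMap.zero_apply]
    · intro h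
      exact absurd (Finset.HasAntidiagonal.mem_antidiagonal.2 (zero_add k)) h
  have hD : ∀ (n : ι) (j : U'.M n →ₗ[S] U.M n) (i : U.M n →ₗ[S] U'.M n) (D : R) (d : A n)
      (_ : φ n D = C d) (_ : ∀ x, j (i x) = U.ρ n d x) (x : PM σ (U.M n)),
      PM.ext' j (PM.ext' i x) = PM.act (U.ρ n) (φ n D) x := by
    intro n j i D d hd h x
    apply PM.ext
    intro k
    rw [PM.coef_ext', PM.coef_ext', hact n D d hd, h]
  have hI' : ∀ (n : ι) (r : R), r ∈ I → ∀ x : PM σ (U'.M n), ∃ a b : PM σ (U.M n),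
      PM.act (U'.ρ n) (φ n r) x = PM.ext' (i₁ n) a + PM.ext' (i₂ n) b := by
    intro n r hr x
    classical
    choose a b hab using fun (k : σ →₀ ℕ) (y : U'.M n) => hI n r hr k y
    refine ⟨PM.mk (fun k => ∑ p ∈ antidiagonal k, a p.1 (PM.coef p.2 x)),
      PM.mk (fun k => ∑ p ∈ antidiagonal k, b p.1 (PM.coef p.2 x)), ?_⟩
    apply PM.ext
    intro k
    rw [PM.coef_act, PM.coef_add, PM.coef_ext', PM.coef_ext', PM.coef_mk, PM.coef_mk, map_sum,
      map_sum, ← Finset.sum_add_distrib]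
    exact Finset.sum_congr rfl (fun p _ => hab _ _)
  refine PSys.raising' (U.frame φ hφθ) (U'.frame φ hφθ) (small_frameIdeal hJ) I₀
    (fun n x hx => PM.act_eq_zero (U.ρ n) (φ n x) (h₀ n x hx))
    (fun n x hx => PM.act_eq_zero (U'.ρ n) (φ n x) (h₀' n x hx))
    (fun n => PM.ext' (i₁ n)) (fun n => PM.ext' (i₂ n)) (fun n => PM.ext' (j₁ n))
    (fun n => PM.ext' (j₂ n)) ?_ ?_ ?_ ?_ ?_ ?_ D₁₁ D₁₂ D₂₁ D₂₂
    (fun n => hD n _ _ D₁₁ (d₁₁ n) (hd₁₁ n) (hD11 n))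
    (fun n => hD n _ _ D₁₂ (d₁₂ n) (hd₁₂ n) (hD12 n))
    (fun n => hD n _ _ D₂₁ (d₂₁ n) (hd₂₁ n) (hD21 n))
    (fun n => hD n _ _ D₂₂ (d₂₂ n) (hd₂₂ n) (hD22 n)) I ?_ hdim Q hQ₀ hQ hdet
  · intro n a b hab
    have h1 : i₁ n (PM.coef 0 a) + i₂ n (PM.coef 0 b) ∈
        maximalIdeal S • (⊤ : Submodule S (U'.M n)) := coef_zero_mem hab
    obtain ⟨h2, h3⟩ := hi n _ _ h1
    exact ⟨mem_maxIdeal_smul_top (U.e n) h2, mem_maxIdeal_smul_top (U.e n) h3⟩
  · intro n a b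
    choose x hx₁ hx₂ using fun k : σ →₀ ℕ => hj n (PM.coef k a) (PM.coef k b)
    exact ⟨PM.mk x, PM.ext hx₁, PM.ext hx₂⟩
  · exact fun n r x => PM.ext'_act (U.ρ n) (U'.ρ n) (i₁ n) (φ n r) (φ n r) (fun k y => hi₁ n _ y) x
  · exact fun n r x => PM.ext'_act (U.ρ n) (U'.ρ n) (i₂ n) (φ n r) (φ n r) (fun k y => hi₂ n _ y) x
  · exact fun n r x => PM.ext'_act (U'.ρ n) (U.ρ n) (j₁ n) (φ n r) (φ n r) (fun k y => hj₁ n _ y) x
  · exact fun n r x => PM.ext'_act (U'.ρ n) (U.ρ n) (j₂ n) (φ n r) (φ n r) (fun k y => hj₂ n _ y) x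
  · exact hI'

end Main

end Fermat.Agent.TAlg
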