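import Mathlib
import Fermat.Agent.TAlg.FrameThm

/-! # Ihara avoidance, with a finite family of primes on the `χ` side. -/

set_option autoImplicit false
set_option linter.unusedSectionVars false

open IsLocalRing Filter

namespace Fermat.Agent.TAlg

section Dim

variable {R : Type} [CommRing R]

/-- the dimension of `R ⧸ I` when every prime containing `I` contains one of the `K j`. -/
lemma ringKrullDim_quotient_le_of_forall {κ : Type*} (K : κ → Ideal R) (I : Ideal R)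
    (hI : ∀ P : Ideal R, P.IsPrime → I ≤ P → ∃ j, K j ≤ P) (d : WithBot ℕ∞)
    (hd : ∀ j, ringKrullDim (R ⧸ K j) ≤ d) : ringKrullDim (R ⧸ I) ≤ d := by
  rw [ringKrullDim_quotient, Order.krullDim]
  apply iSup_le
  intro l
  obtain ⟨j, hj⟩ := hI l.head.1.asIdeal l.head.1.isPrime
    ((PrimeSpectrum.mem_zeroLocus _ _).1 l.head.2)
  refine le_trans ?_ (hd j)
  rw [ringKrullDim_quotient, Order.krullDim]
  let l' : LTSeries (PrimeSpectrum.zeroLocus (R := R) (K j)) :=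
    { length := l.length
      toFun := fun i => ⟨(l i).1, (PrimeSpectrum.mem_zeroLocus _ _).2
        (hj.trans (l.head_le i))⟩
      step := fun i => l.step i }
  exact le_iSup (fun l : LTSeries (PrimeSpectrum.zeroLocus (R := R) (K j)) =>
    (l.length : WithBot ℕ∞)) l'

end Dim

section Family

variable {ι : Type} {F : Ultrafilter ι}
variable {S : Type} [CommRing S] [IsLocalRing S] [IsNoetherianRing S]
  [IsAdicComplete (maximalIdeal S) S] [Finite (ResidueField S)]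
variable {J : ι → Ideal S}
variable {R : Type} [CommRing R] [IsLocalRing R] {θ θ₁ θ₂ : ι → (S →+* R)}
variable [IsNoetherianRing R] [IsAdicComplete (maximalIdeal R) R] [Finite (ResidueField R)]

namespace PSys

/-- the annihilator of the patched module is contained in one of the primes `K j` of a family
whose product kills the system. -/
lemma exists_annihilator_le [IsDomain S] (P : PSys S J R θ) (hJ : Small F J) {κ : Type} [Fintype κ]
    (K : κ → Ideal R) (hKp : ∀ j, (K j).IsPrime)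
    (hKdim : ∀ j, ringKrullDim (R ⧸ K j) ≤ ringKrullDim S)
    (h : ∀ n, ∀ x ∈ ∏ j, K j, P.ρ n x = 0) (hd : P.d ≠ 0) :
    ∃ j, Module.annihilator R (P.Lim hJ) ≤ K j := by
  have hnt := P.nontrivial_lim hJ hd
  set I₂ : Ideal R := ∏ j, K j with hI₂
  have hann : I₂ ≤ Module.annihilator R (P.Lim hJ) := by
    intro x hx
    exact P.mem_annihilator_of_rho_eq_zero hJ x (Eventually.of_forall fun n => h n x hx)
  have hne : Module.annihilator R (P.Lim hJ) ≠ ⊤ := by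
    intro h1
    obtain ⟨x, hx⟩ := exists_ne (0 : P.Lim hJ)
    apply hx
    have h2 : (1 : R) ∈ Module.annihilator R (P.Lim hJ) := by rw [h1]; trivial
    have h3 := Module.mem_annihilator.1 h2 x
    rwa [one_smul] at h3
  have hI₂ne : I₂ ≠ ⊤ := fun h1 => hne (top_le_iff.1 (h1 ▸ hann))
  have := isLocalRing_quot I₂ hI₂ne
  have := isAdicComplete_of_surjective (Ideal.Quotient.mk I₂) Ideal.Quotient.mk_surjective
  have := finite_residueField_of_surjective (Ideal.Quotient.mk I₂) Ideal.Quotient.mk_surjective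
  have hprod : ∀ P' : Ideal R, P'.IsPrime → I₂ ≤ P' → ∃ j, K j ≤ P' := by
    intro P' hP' h1
    obtain ⟨j, -, hj⟩ := (Ideal.IsPrime.prod_le hP').1 h1
    exact ⟨j, hj⟩
  have hdim : ringKrullDim (R ⧸ I₂) ≤ ringKrullDim S :=
    ringKrullDim_quotient_le_of_forall K I₂ hprod _ hKdim
  have hcomap := P.comap_annihilator_quot I₂ h hJ
  have hne' : Module.annihilator (R ⧸ I₂) ((P.quot I₂ h).Lim hJ) ≠ ⊤ := by
    intro h1
    apply hne
    rw [← hcomap, h1, Ideal.comap_top]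
  obtain ⟨M, hM, hM'⟩ := Ideal.exists_le_maximal _ hne'
  obtain ⟨P', hP', -⟩ := Ideal.exists_minimalPrimes_le (J := M) hM'
  have hfin : Module.Finite (R ⧸ I₂) ((P.quot I₂ h).Lim hJ) := (P.quot I₂ h).finite hJ
  have hmin := minimalPrimes_annihilator_subset (M := (P.quot I₂ h).Lim hJ)
    (ulimRingHom F (fun n => (Ideal.Quotient.mk I₂).comp (θ n))) ((P.quot I₂ h).theta_smul hJ)
    ringKrullDim_lt_top hdim P' hP'
  have h2 : P'.comap (Ideal.Quotient.mk I₂) ∈ I₂.minimalPrimes := by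
    rw [Ideal.minimalPrimes_eq_comap]
    exact ⟨P', hmin, rfl⟩
  obtain ⟨j, hj⟩ := hprod _ h2.1.1 h2.1.2
  have hI₂K : I₂ ≤ K j := Ideal.prod_le_inf.trans (Finset.inf_le (Finset.mem_univ j))
  refine ⟨j, ?_⟩
  have h3 := h2.2 ⟨hKp j, hI₂K⟩ hj
  refine le_trans ?_ h3
  rw [← hcomap]
  exact Ideal.comap_mono hP'.1.2

/-- (A3) IHARA AVOIDANCE, with a finite family of primes `K j` on the `χ` side: the product of the
`K j` kills `P₂`. -/
theorem ihara_avoidance'' [IsDomain S] (P₁ : PSys S J R θ₁) (P₂ : PSys S J R θ₂) (hJ : Small F J)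
    (ϖ : S) (ϖR : R) (hm : ϖR ∈ maximalIdeal R) (hϖ₂ : ∀ n, θ₂ n ϖ = ϖR)
    (I₁ : Ideal R) (h₁ : ∀ n, ∀ x ∈ I₁, P₁.ρ n x = 0)
    {κ : Type} [Fintype κ] (K : κ → Ideal R) (hKp : ∀ j, (K j).IsPrime)
    (hKdim : ∀ j, ringKrullDim (R ⧸ K j) ≤ ringKrullDim S) (hϖK : ∀ j, ϖR ∉ K j)
    (hI : ∀ j, I₁ ⊔ Ideal.span {ϖR} = K j ⊔ Ideal.span {ϖR})
    (h₂ : ∀ n, ∀ x ∈ ∏ j, K j, P₂.ρ n x = 0)
    (g : ∀ n, P₁.M n →ₗ[S] P₂.M n) (hg : ∀ n, Function.Surjective (g n))
    (hequiv : ∀ r n x, g n (P₁.ρ n r x) - P₂.ρ n r (g n x) ∈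
      Ideal.span {ϖ} • (⊤ : Submodule S (P₂.M n))) (hd : P₂.d ≠ 0)
    (Q : Ideal R) [Q.IsPrime] (hQ₁ : I₁ ≤ Q) (hQ : ϖR ∈ Q) :
    Module.annihilator R (P₁.Lim hJ) ≤ Q ∧
      ∃ P ∈ I₁.minimalPrimes, P ≤ Q ∧ Module.annihilator R (P₁.Lim hJ) ≤ P := by
  obtain ⟨j, hj⟩ := P₂.exists_annihilator_le hJ K hKp hKdim h₂ hd
  have hne₁ : I₁ ≠ ⊤ := fun h => (Ideal.IsPrime.ne_top ‹Q.IsPrime›) (top_le_iff.1 (h ▸ hQ₁))
  have hKj := hKp j
  have hne₂ : K j ≠ ⊤ := Ideal.IsPrime.ne_top ‹_›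
  have hfin₂ : Module.Finite R (P₂.Lim hJ) := P₂.finite hJ
  -- `Q` is in the support of `P₂.Lim`
  have hKQ : K j ≤ Q := by
    have h1 : K j ≤ I₁ ⊔ Ideal.span {ϖR} := by
      rw [hI j]
      exact le_sup_left
    refine h1.trans (sup_le hQ₁ ((Ideal.span_singleton_le_iff_mem _).2 hQ))
  have hann : Module.annihilator R (P₁.Lim hJ) ≤ Q := by
    intro r hr
    apply mem_of_smul_le (M := P₂.Lim hJ) (Ideal.span {ϖR}) Q (hj.trans hKQ)
      ((Ideal.span_singleton_le_iff_mem _).2 hQ)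
    intro y
    obtain ⟨x, rfl⟩ := map_surjective P₁ P₂ hJ g hg y
    have h1 := map_equivariant_mod P₁ hJ P₂ (Ideal.span {ϖ}) g r r (fun n x => hequiv r n x) x
    rw [Module.mem_annihilator.1 hr x, _root_.map_zero, zero_sub] at h1
    have h2 := neg_mem h1
    rw [neg_neg] at h2
    refine Submodule.smul_induction_on h2 ?_ ?_
    · intro s hs z _
      obtain ⟨t, rfl⟩ := Ideal.mem_span_singleton'.1 hs
      rw [mul_comm, mul_smul]
      have e1 : ∀ m : P₂.Lim hJ, ϖR • m = ϖ • m := by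
        intro m
        rw [← P₂.theta_smul hJ, ulimRingHom_apply]
        simp only [hϖ₂, ulim_const]
      rw [← e1]
      exact Submodule.smul_mem_smul (Ideal.mem_span_singleton_self ϖR) trivial
    · intro x y hx hy
      exact add_mem hx hy
  refine ⟨hann, ?_⟩
  have := isLocalRing_quot I₁ hne₁
  have := isLocalRing_quot (K j) hne₂
  have := isAdicComplete_of_surjective (Ideal.Quotient.mk I₁) Ideal.Quotient.mk_surjective
  have := finite_residueField_of_surjective (Ideal.Quotient.mk I₁) Ideal.Quotient.mk_surjective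
  let K' : Ideal R := I₁ ⊔ Ideal.span {ϖR}
  have hK₂ : K j ≤ K' := by
    change K j ≤ I₁ ⊔ Ideal.span {ϖR}
    rw [hI j]
    exact le_sup_left
  let α : R ⧸ I₁ →+* R ⧸ K' := Ideal.Quotient.factor le_sup_left
  let β : R ⧸ K j →+* R ⧸ K' := Ideal.Quotient.factor hK₂
  have hα : Function.Surjective α := Ideal.Quotient.factor_surjective _
  have hβ : Function.Surjective β := Ideal.Quotient.factor_surjective _
  have kα : RingHom.ker α = Ideal.span {Ideal.Quotient.mk I₁ ϖR} := by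
    ext x
    obtain ⟨x, rfl⟩ := Ideal.Quotient.mk_surjective x
    rw [RingHom.mem_ker]
    change Ideal.Quotient.mk K' x = 0 ↔ _
    rw [Ideal.Quotient.eq_zero_iff_mem, ← Set.image_singleton, ← Ideal.map_span,
      Ideal.mem_quotient_iff_mem_sup, sup_comm]
  have kβ : RingHom.ker β = Ideal.span {Ideal.Quotient.mk (K j) ϖR} := by
    ext x
    obtain ⟨x, rfl⟩ := Ideal.Quotient.mk_surjective x
    rw [RingHom.mem_ker]
    change Ideal.Quotient.mk K' x = 0 ↔ _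
    rw [Ideal.Quotient.eq_zero_iff_mem, ← Set.image_singleton, ← Ideal.map_span,
      Ideal.mem_quotient_iff_mem_sup, sup_comm]
    change x ∈ I₁ ⊔ _ ↔ _
    rw [hI j]
  have hdim : ringKrullDim (R ⧸ I₁) ≤ ringKrullDim S := by
    have : IsDomain (R ⧸ K j) := Ideal.Quotient.isDomain _
    refine (ringKrullDim_le_of_congr α β hα hβ (Ideal.Quotient.mk I₁ ϖR)
      (Ideal.Quotient.mk (K j) ϖR) kα kβ ?_ ?_).trans (hKdim j)
    · rw [← map_maximalIdeal_of_surjective _ Ideal.Quotient.mk_surjective]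
      exact Ideal.mem_map_of_mem _ hm
    · apply mem_nonZeroDivisors_of_ne_zero
      rw [Ne, Ideal.Quotient.eq_zero_iff_mem]
      exact hϖK j
  have hcomap := P₁.comap_annihilator_quot I₁ h₁ hJ
  have hfin₁ : Module.Finite (R ⧸ I₁) ((P₁.quot I₁ h₁).Lim hJ) := (P₁.quot I₁ h₁).finite hJ
  have hprime : (Q.map (Ideal.Quotient.mk I₁)).IsPrime :=
    Ideal.map_isPrime_of_surjective Ideal.Quotient.mk_surjective (by rw [Ideal.mk_ker]; exact hQ₁)
  have hQ' : (Q.map (Ideal.Quotient.mk I₁)).comap (Ideal.Quotient.mk I₁) = Q := by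
    rw [Ideal.comap_map_of_surjective _ Ideal.Quotient.mk_surjective, ← RingHom.ker_eq_comap_bot,
      Ideal.mk_ker, sup_eq_left]
    exact hQ₁
  have hann' : Module.annihilator (R ⧸ I₁) ((P₁.quot I₁ h₁).Lim hJ) ≤
      Q.map (Ideal.Quotient.mk I₁) := by
    intro x hx
    obtain ⟨x, rfl⟩ := Ideal.Quotient.mk_surjective x
    apply Ideal.mem_map_of_mem
    apply hann
    rw [← hcomap]
    exact hx
  obtain ⟨P', hP', hP'Q⟩ := Ideal.exists_minimalPrimes_le hann'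
  have hmin := minimalPrimes_annihilator_subset (M := (P₁.quot I₁ h₁).Lim hJ)
    (ulimRingHom F (fun n => (Ideal.Quotient.mk I₁).comp (θ₁ n))) ((P₁.quot I₁ h₁).theta_smul hJ)
    ringKrullDim_lt_top hdim P' hP'
  refine ⟨P'.comap (Ideal.Quotient.mk I₁), ?_, ?_, ?_⟩
  · rw [Ideal.minimalPrimes_eq_comap]
    exact ⟨P', hmin, rfl⟩
  · rw [← hQ']
    exact Ideal.comap_mono hP'Q
  · rw [← hcomap]
    exact Ideal.comap_mono hP'.1.2

end PSys

end Family

section Main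

open MvPowerSeries

variable {ι : Type} {F : Ultrafilter ι}
variable {σ S : Type} [Finite σ] [CommRing S] [IsLocalRing S] [IsNoetherianRing S]
  [IsAdicComplete (maximalIdeal S) S] [Finite (ResidueField S)]
variable {J : ι → Ideal S} {A : ι → Type} [∀ n, CommRing (A n)]
variable {R : Type} [CommRing R] [IsLocalRing R] [IsNoetherianRing R]
  [IsAdicComplete (maximalIdeal R) R] [Finite (ResidueField R)]
variable {θA : ∀ n, S →+* A n} {θ : ι → (MvPowerSeries σ S →+* R)}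

/-- IHARA AVOIDANCE for framed systems, family version. -/
theorem UData.ihara_avoidance' [IsDomain S] (U₁ U₂ : UData S J A θA)
    (φ : ∀ n, R →+* MvPowerSeries σ (A n))
    (hφθ : ∀ n, (φ n).comp (θ n) = MvPowerSeries.map (θA n)) (hJ : Small F J)
    (ϖ : S) (ϖR : R) (hm : ϖR ∈ maximalIdeal R) (hϖ : ∀ n, θ n (C ϖ) = ϖR)
    (I₁ : Ideal R) (h₁ : ∀ n, ∀ x ∈ I₁, ∀ k, U₁.ρ n (coeff k (φ n x)) = 0)
    {κ : Type} [Fintype κ] (K : κ → Ideal R) (hKp : ∀ j, (K j).IsPrime)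
    (hKdim : ∀ j, ringKrullDim (R ⧸ K j) ≤ ringKrullDim (MvPowerSeries σ S))
    (hϖK : ∀ j, ϖR ∉ K j)
    (hI : ∀ j, I₁ ⊔ Ideal.span {ϖR} = K j ⊔ Ideal.span {ϖR})
    (h₂ : ∀ n, ∀ x ∈ ∏ j, K j, ∀ k, U₂.ρ n (coeff k (φ n x)) = 0)
    (g : ∀ n, U₁.M n →ₗ[S] U₂.M n) (hg : ∀ n, Function.Surjective (g n))
    (hequiv : ∀ n a x, g n (U₁.ρ n a x) - U₂.ρ n a (g n x) ∈
      Ideal.span {ϖ} • (⊤ : Submodule S (U₂.M n))) (hd : U₂.d ≠ 0)
    (Q : Ideal R) [Q.IsPrime] (hQ₁ : I₁ ≤ Q) (hQ : ϖR ∈ Q) :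
    Module.annihilator R ((U₁.frame φ hφθ).Lim (small_frameIdeal (σ := σ) hJ)) ≤ Q ∧
      ∃ P ∈ I₁.minimalPrimes, P ≤ Q ∧
        Module.annihilator R ((U₁.frame φ hφθ).Lim (small_frameIdeal (σ := σ) hJ)) ≤ P := by
  refine PSys.ihara_avoidance'' (U₁.frame φ hφθ) (U₂.frame φ hφθ) (small_frameIdeal hJ) (C ϖ) ϖR hm
    hϖ I₁ (fun n x hx => PM.act_eq_zero (U₁.ρ n) (φ n x) (h₁ n x hx)) K hKp hKdim hϖK hI
    (fun n x hx => PM.act_eq_zero (U₂.ρ n) (φ n x) (h₂ n x hx))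
    (fun n => PM.ext' (g n)) (fun n => PM.ext'_surjective (g n) (hg n)) ?_ hd Q hQ₁ hQ
  intro r n x
  rw [← frameIdeal_span]
  exact mem_frameIdeal_smul_top (U₂.e n) _
    (fun k => PM.coef_sub_mem (g n) _ (fun a y => hequiv n a y) (φ n r) x k)

end Main

end Fermat.Agent.TAlg
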