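import Mathlib
import Fermat.Agent.TAlg.Frame

/-! # `x y ^ b - c` is prime in `A⟦x, y⟧`, for `A` a complete local noetherian domain. -/

set_option autoImplicit false
set_option linter.unusedSectionVars false

open IsLocalRing MvPowerSeries
open Finset.HasAntidiagonal (antidiagonal)

namespace Fermat.Agent.TAlg

section Val

lemma exists_val (A : Type) [CommRing A] [IsDomain A] (c : A) (hc : ¬ IsUnit c) :
    ∃ (Γ : Type) (_ : LinearOrderedCommGroupWithZero Γ) (v : Valuation A Γ),
      (∀ a, v a ≤ 1) ∧ v c < 1 ∧ (∀ a, v a = 0 → a = 0) := by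
  let K := FractionRing A
  let A' : Subring K := (algebraMap A K).range
  let e : A →+* A' := (algebraMap A K).rangeRestrict
  have he : Function.Surjective e := RingHom.rangeRestrict_surjective _
  have hinj : Function.Injective (algebraMap A K) := IsFractionRing.injective A K
  let I : Ideal A' := Ideal.span {e c}
  have hI : I ≠ ⊤ := by
    intro h
    rw [Ideal.span_singleton_eq_top] at h
    obtain ⟨u, hu⟩ := h.exists_right_inv
    obtain ⟨u, rfl⟩ := he u
    apply hc
    have h1 : e (c * u) = 1 := by rw [map_mul, hu]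
    have h2 : algebraMap A K (c * u) = 1 := congrArg Subtype.val h1
    exact IsUnit.of_mul_eq_one u (hinj (by rw [h2, map_one]))
  obtain ⟨V, hV, hV'⟩ := Ideal.image_subset_nonunits_valuationSubring I hI
  refine ⟨V.ValueGroup, inferInstance, V.valuation.comap (algebraMap A K), ?_, ?_, ?_⟩
  · intro a
    exact (V.valuation_le_one_iff _).2 (hV ⟨a, rfl⟩)
  · have h1 : algebraMap A K c ∈ V.nonunits := hV' ⟨e c, Ideal.subset_span rfl, rfl⟩
    exact (ValuationSubring.mem_nonunits_iff V).1 h1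
  · intro a ha
    have h1 : algebraMap A K a = 0 := (map_eq_zero V.valuation).1 ha
    exact hinj (by rw [h1, map_zero])

lemma exists_max_val {A Γ : Type} [CommRing A] [IsNoetherianRing A]
    [LinearOrderedCommGroupWithZero Γ] (v : Valuation A Γ) (hv : ∀ a, v a ≤ 1) (X : Set A)
    (hX : X.Nonempty) : ∃ a ∈ X, ∀ b ∈ X, v b ≤ v a := by
  let I : A → Ideal A := fun a =>
    { carrier := {x | v x ≤ v a}
      add_mem' := fun {x y} hx hy => (v.map_add x y).trans (max_le hx hy)
      zero_mem' := by simp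
      smul_mem' := fun r x hx => by
        change v (r * x) ≤ v a
        rw [map_mul]
        calc v r * v x ≤ 1 * v x := mul_le_mul_left (hv r) _
          _ = v x := one_mul _
          _ ≤ v a := hx }
  obtain ⟨_, ⟨a, ha, rfl⟩, hmax⟩ := WellFounded.has_min
    (wellFounded_gt : WellFounded ((· > ·) : Ideal A → Ideal A → Prop)) (I '' X) (hX.image I)
  refine ⟨a, ha, fun b hb => ?_⟩
  by_contra h
  rw [not_le] at h
  refine hmax (I b) ⟨b, hb, rfl⟩ ?_
  refine lt_of_le_of_ne ?_ ?_
  · intro x hx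
    exact le_trans hx h.le
  · intro heq
    have h1 : b ∈ I a := by
      rw [heq]
      exact le_refl (v b)
    exact absurd h1 (not_le.2 h)

end Val

section Mono

variable {A : Type} [CommRing A]

/-- the exponent of `x y ^ b`. -/
noncomputable def TT (b : ℕ) : Fin 2 →₀ ℕ := Finsupp.single 0 1 + Finsupp.single 1 b

lemma TT_zero (b : ℕ) : TT b 0 = 1 := by simp [TT]
lemma TT_one (b : ℕ) : TT b 1 = b := by simp [TT]

/-- the index of a monomial -/
def ind (b : ℕ) (m : Fin 2 →₀ ℕ) : ℤ := (m 1 : ℤ) - b * m 0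

lemma ind_add (b : ℕ) (m m' : Fin 2 →₀ ℕ) : ind b (m + m') = ind b m + ind b m' := by
  simp only [ind, Finsupp.add_apply]
  push_cast
  ring

lemma ind_TT (b : ℕ) : ind b (TT b) = 0 := by
  simp [ind, TT_zero, TT_one]

lemma ind_nsmul (b e : ℕ) : ind b (e • TT b) = 0 := by
  simp [ind, TT_zero, TT_one, mul_comm]

lemma deg_fin2 (m : Fin 2 →₀ ℕ) : m.degree = m 0 + m 1 := by
  rw [Finsupp.degree_eq_sum, Fin.sum_univ_two]

lemma deg_TT (b : ℕ) : (TT b).degree = 1 + b := by rw [deg_fin2, TT_zero, TT_one]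

lemma TT_le_iff (b : ℕ) (m : Fin 2 →₀ ℕ) : TT b ≤ m ↔ 1 ≤ m 0 ∧ b ≤ m 1 := by
  constructor
  · intro h
    have h0 := h 0
    have h1 := h 1
    rw [TT_zero] at h0
    rw [TT_one] at h1
    exact ⟨h0, h1⟩
  · rintro ⟨h0, h1⟩ i
    fin_cases i
    · simpa [TT_zero] using h0
    · simpa [TT_one] using h1

/-- normal monomials are determined by their index. -/
lemma eq_of_ind_eq {b : ℕ} {m m' : Fin 2 →₀ ℕ} (hm : ¬ TT b ≤ m) (hm' : ¬ TT b ≤ m')
    (h : ind b m = ind b m') : m = m' := by
  rw [TT_le_iff, not_and_or, not_le, not_le] at hm hm'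
  simp only [ind] at h
  have key : m 0 = m' 0 := by
    by_contra hne
    rcases lt_or_gt_of_ne hne with h1 | h1
    · -- m 0 < m' 0 : then m' 1 ≥ m 1 + b
      have h2 : (m' 1 : ℤ) = m 1 + b * (m' 0 - m 0) := by linarith
      have h3 : (b : ℤ) * 1 ≤ b * (m' 0 - m 0) :=
        mul_le_mul_of_nonneg_left (by omega) (by omega)
      rcases hm' with h4 | h4
      · omega
      · omega
    · have h2 : (m 1 : ℤ) = m' 1 + b * (m 0 - m' 0) := by linarith
      have h3 : (b : ℤ) * 1 ≤ b * (m 0 - m' 0) :=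
        mul_le_mul_of_nonneg_left (by omega) (by omega)
      rcases hm with h4 | h4
      · omega
      · omega
  have key1 : m 1 = m' 1 := by
    rw [key] at h
    omega
  ext i
  fin_cases i
  · exact key
  · exact key1

variable (b : ℕ) (c : A)

/-- power series in normal form. -/
def IsNF (F : MvPowerSeries (Fin 2) A) : Prop := ∀ m, TT b ≤ m → coeff m F = 0

/-- the relation `x y ^ b = c`. -/
noncomputable def relM : MvPowerSeries (Fin 2) A := monomial (TT b) 1 - C c

lemma coeff_relM_mul (H : MvPowerSeries (Fin 2) A) (m : Fin 2 →₀ ℕ) :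
    coeff m (relM b c * H) = (if TT b ≤ m then coeff (m - TT b) H else 0) - c * coeff m H := by
  rw [relM, sub_mul, map_sub, coeff_C_mul]
  congr 1
  rw [coeff_monomial_mul]
  split_ifs <;> simp

section Exists

variable [IsLocalRing A] [IsNoetherianRing A] [IsAdicComplete (maximalIdeal A) A]

/-- evaluation of one-variable power series at `c`. -/
noncomputable def evc (hc : c ∈ maximalIdeal A) : MvPowerSeries Unit A →+* A :=
  lift (maximalIdeal A) (RingHom.id A) (fun _ => c) (fun _ => hc)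

/-- infinite sums `∑ f l c ^ l`. -/
noncomputable def infsum (hc : c ∈ maximalIdeal A) (f : ℕ → A) : A :=
  evc c hc (mkPS (fun k => f (k ())))

lemma infsum_succ (hc : c ∈ maximalIdeal A) (f : ℕ → A) :
    infsum c hc f = f 0 + c * infsum c hc (fun l => f (l + 1)) := by
  have h1 : (mkPS (fun k : Unit →₀ ℕ => f (k ())) : MvPowerSeries Unit A) =
      C (f 0) + X () * mkPS (fun k : Unit →₀ ℕ => f (k () + 1)) := by
    classical
    apply MvPowerSeries.ext
    intro k
    rw [map_add, coeff_mkPS, coeff_C, X_def, coeff_monomial_mul, one_mul]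
    rcases Nat.eq_zero_or_pos (k ()) with h | h
    · have hk : k = 0 := by
        ext i
        exact h
      rw [if_pos hk, if_neg, add_zero, hk]
      · rfl
      · intro h2
        have := h2 ()
        simp only [Finsupp.single_eq_same] at this
        omega
    · have hk : k ≠ 0 := by
        rintro rfl
        simp at h
      rw [if_neg hk, zero_add, if_pos]
      · rw [coeff_mkPS]
        congr 1
        rw [Finsupp.tsub_apply, Finsupp.single_eq_same]
        omega
      · intro i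
        rw [show i = () from rfl, Finsupp.single_eq_same]
        exact h
  rw [infsum, h1, map_add, map_mul, evc, lift_C, lift_X]
  rfl

/-- existence of normal forms -/
lemma exists_NF (hc : c ∈ maximalIdeal A) (F : MvPowerSeries (Fin 2) A) :
    ∃ F', IsNF b F' ∧ F - F' ∈ Ideal.span {relM b c} := by
  classical
  let s : (Fin 2 →₀ ℕ) → A := fun m => infsum c hc (fun l => coeff (m + l • TT b) F)
  have hs : ∀ m, s m = coeff m F + c * s (m + TT b) := by
    intro m
    change infsum c hc _ = _ + c * infsum c hc _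
    rw [infsum_succ]
    congr 2
    · rw [zero_nsmul, add_zero]
    · congr 1
      funext l
      rw [succ_nsmul', add_assoc]
  let H : MvPowerSeries (Fin 2) A := mkPS (fun m => s (m + TT b))
  let F' : MvPowerSeries (Fin 2) A := mkPS (fun m => if TT b ≤ m then 0 else s m)
  refine ⟨F', ?_, ?_⟩
  · intro m hm
    rw [coeff_mkPS, if_pos hm]
  · rw [Ideal.mem_span_singleton']
    refine ⟨H, ?_⟩
    ext m
    have hF' : coeff m F' = if TT b ≤ m then 0 else s m := rfl
    have hH : ∀ m, coeff m H = s (m + TT b) := fun _ => rfl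
    rw [mul_comm, coeff_relM_mul, map_sub, hF', hH, hH]
    split_ifs with h
    · rw [tsub_add_cancel_of_le h, hs m]
      ring
    · rw [hs m]
      ring

end Exists

section Prime

variable [IsDomain A] [IsLocalRing A] [IsNoetherianRing A]

/-- weighted valuation of a monomial -/
noncomputable def ww {Γ : Type} [LinearOrderedCommGroupWithZero Γ] (v : Valuation A Γ)
    (F : MvPowerSeries (Fin 2) A) (m : Fin 2 →₀ ℕ) : Γ :=
  v (coeff m F) ^ (1 + b) * v c ^ m.degree

lemma exists_lead {Γ : Type} [LinearOrderedCommGroupWithZero Γ] (v : Valuation A Γ)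
    (hv1 : ∀ a, v a ≤ 1) (hvc : v c < 1) (hv0 : ∀ a, v a = 0 → a = 0) (hc0 : c ≠ 0)
    {F : MvPowerSeries (Fin 2) A} (hF : F ≠ 0) :
    ∃ m, coeff m F ≠ 0 ∧ (∀ m', ww b c v F m' ≤ ww b c v F m) ∧
      (∀ m', ww b c v F m' = ww b c v F m → ind b m ≤ ind b m') := by
  have hvc0 : v c ≠ 0 := fun h => hc0 (hv0 _ h)
  have hw : ∀ m, ww b c v F m = v (coeff m F ^ (1 + b) * c ^ m.degree) := by
    intro m
    rw [ww, map_mul, map_pow, map_pow]
  obtain ⟨k, hk⟩ : ∃ k, coeff k F ≠ 0 := by
    by_contra h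
    push Not at h
    exact hF (MvPowerSeries.ext (fun k => by rw [h, map_zero]))
  obtain ⟨_, ⟨m₁, rfl⟩, hm₁⟩ := exists_max_val v hv1
    (Set.range (fun m => coeff m F ^ (1 + b) * c ^ m.degree)) ⟨_, k, rfl⟩
  have hmax : ∀ m, ww b c v F m ≤ ww b c v F m₁ := by
    intro m
    rw [hw, hw]
    exact hm₁ _ ⟨m, rfl⟩
  have hk0 : ww b c v F k ≠ 0 := by
    rw [ww]
    exact mul_ne_zero (pow_ne_zero _ (fun h => hk (hv0 _ h))) (pow_ne_zero _ hvc0)
  have hm₁0 : ww b c v F m₁ ≠ 0 := by
    intro h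
    have := hmax k
    rw [h, le_zero_iff] at this
    exact hk0 this
  have hne : ∀ m, ww b c v F m = ww b c v F m₁ → coeff m F ≠ 0 := by
    intro m hm h
    rw [ww, h, map_zero, zero_pow (by omega), zero_mul] at hm
    exact hm₁0 hm.symm
  let Z : Set (Fin 2 →₀ ℕ) := {m | ww b c v F m = ww b c v F m₁}
  obtain ⟨_, ⟨m₂, hm₂, rfl⟩, hmax₂⟩ := exists_max_val v hv1 ((fun m => coeff m F) '' Z)
    ⟨_, m₁, rfl, rfl⟩
  have hdeg : ∀ m ∈ Z, m.degree ≤ m₂.degree := by
    intro m hm
    by_contra hlt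
    rw [not_le] at hlt
    have h1 : v (coeff m F) ≤ v (coeff m₂ F) := hmax₂ _ ⟨m, hm, rfl⟩
    have h2 : ww b c v F m < ww b c v F m₂ := by
      rw [ww, ww]
      have h3 : v c ^ m.degree < v c ^ m₂.degree :=
        pow_lt_pow_right_of_lt_one₀ (zero_lt_iff.2 hvc0) hvc hlt
      have h4 : v (coeff m F) ^ (1 + b) ≤ v (coeff m₂ F) ^ (1 + b) :=
        pow_le_pow_left₀ zero_le h1 _
      have h5 : 0 < v (coeff m₂ F) ^ (1 + b) :=
        zero_lt_iff.2 (pow_ne_zero _ (fun h => hne m₂ hm₂ (hv0 _ h)))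
      calc v (coeff m F) ^ (1 + b) * v c ^ m.degree
          ≤ v (coeff m₂ F) ^ (1 + b) * v c ^ m.degree := mul_le_mul_left h4 _
        _ < v (coeff m₂ F) ^ (1 + b) * v c ^ m₂.degree := by
          exact (mul_lt_mul_iff_right₀ h5).2 h3
    have h6 : ww b c v F m = ww b c v F m₂ := hm.trans (Eq.symm hm₂)
    exact absurd h6 h2.ne
  have hfin : Z.Finite := by
    apply Set.Finite.subset (s := {m : Fin 2 →₀ ℕ | m.degree ≤ m₂.degree})
    · exact Finsupp.finite_of_degree_le _
    · exact hdeg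
  obtain ⟨m, hm, hmin⟩ := Set.exists_min_image Z (ind b) hfin ⟨m₁, rfl⟩
  refine ⟨m, hne m hm, ?_, ?_⟩
  · intro m'
    rw [show ww b c v F m = ww b c v F m₁ from hm]
    exact hmax m'
  · intro m' hm'
    exact hmin m' (hm'.trans hm)

omit [IsDomain A] [IsLocalRing A] [IsNoetherianRing A] in
lemma exists_decomp (M : Fin 2 →₀ ℕ) :
    ∃ (m₀ : Fin 2 →₀ ℕ) (e₀ : ℕ), ¬ TT b ≤ m₀ ∧ M = m₀ + e₀ • TT b := by
  induction h : M 0 using Nat.strong_induction_on generalizing M with
  | _ n ih =>
    by_cases hM : TT b ≤ M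
    · have h1 := ((TT_le_iff b M).1 hM).1
      obtain ⟨m₀, e₀, h2, h3⟩ := ih ((M - TT b) 0) (by
        rw [Finsupp.tsub_apply, TT_zero]
        omega) (M - TT b) rfl
      refine ⟨m₀, e₀ + 1, h2, ?_⟩
      rw [succ_nsmul, ← add_assoc, ← h3, tsub_add_cancel_of_le hM]
    · exact ⟨M, 0, hM, by rw [zero_nsmul, add_zero]⟩

lemma telescope (G H : MvPowerSeries (Fin 2) A) (h : G = relM b c * H) (m₀ : Fin 2 →₀ ℕ)
    (hm₀ : ¬ TT b ≤ m₀) (n : ℕ) :
    ∑ e ∈ Finset.range (n + 1), c ^ e * coeff (m₀ + e • TT b) G =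
      - (c ^ (n + 1) * coeff (m₀ + n • TT b) H) := by
  induction n with
  | zero =>
    rw [Finset.sum_range_one, pow_zero, one_mul, zero_nsmul, add_zero, h, coeff_relM_mul,
      if_neg hm₀]
    ring
  | succ n ih =>
    rw [Finset.sum_range_succ, ih, h, coeff_relM_mul, if_pos]
    · have e1 : m₀ + (n + 1) • TT b - TT b = m₀ + n • TT b := by
        rw [succ_nsmul, ← add_assoc, add_tsub_cancel_right]
      rw [e1]
      ring
    · rw [succ_nsmul, ← add_assoc]
      exact le_add_self

theorem not_mem_of_NF (hc : c ∈ maximalIdeal A) (hc0 : c ≠ 0) {F G : MvPowerSeries (Fin 2) A}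
    (hFn : IsNF b F) (hGn : IsNF b G) (hF : F ≠ 0) (hG : G ≠ 0)
    (hFG : F * G ∈ Ideal.span {relM b c}) : False := by
  classical
  have hcu : ¬ IsUnit c := (mem_maximalIdeal c).1 hc
  obtain ⟨Γ, _, v, hv1, hvc, hv0⟩ := exists_val A c hcu
  have hvc0 : v c ≠ 0 := fun h => hc0 (hv0 _ h)
  obtain ⟨m₁, h1, h1max, h1min⟩ := exists_lead b c v hv1 hvc hv0 hc0 hF
  obtain ⟨m₂, h2, h2max, h2min⟩ := exists_lead b c v hv1 hvc hv0 hc0 hG
  obtain ⟨m₀, e₀, hm₀, hM⟩ := exists_decomp b (m₁ + m₂)
  obtain ⟨H, hH⟩ := Ideal.mem_span_singleton'.1 hFG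
  rw [mul_comm] at hH
  set Ld : A := c ^ e₀ * (coeff m₁ F * coeff m₂ G) with hLd
  have hLd0 : v Ld ≠ 0 := by
    rw [hLd, map_mul, map_mul, map_pow]
    exact mul_ne_zero (pow_ne_zero _ hvc0)
      (mul_ne_zero (fun h => h1 (hv0 _ h)) (fun h => h2 (hv0 _ h)))
  let I : Ideal A :=
    { carrier := {x | v x < v Ld}
      add_mem' := fun {x y} hx hy => lt_of_le_of_lt (v.map_add x y) (max_lt hx hy)
      zero_mem' := by
        change v 0 < v Ld
        rw [map_zero]
        exact zero_lt_iff.2 hLd0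
      smul_mem' := fun r x hx => by
        change v (r * x) < v Ld
        rw [map_mul]
        calc v r * v x ≤ 1 * v x := mul_le_mul_left (hv1 r) _
          _ = v x := one_mul _
          _ < v Ld := hx }
  -- the key estimate
  have hterm : ∀ (e : ℕ) (p q : Fin 2 →₀ ℕ), p + q = m₀ + e • TT b → (p, q) ≠ (m₁, m₂) →
      c ^ e * (coeff p F * coeff q G) ∈ I := by
    intro e p q hpq hne
    change v (c ^ e * (coeff p F * coeff q G)) < v Ld
    rcases eq_or_ne (coeff p F) 0 with hp | hp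
    · rw [hp, zero_mul, mul_zero, map_zero]
      exact zero_lt_iff.2 hLd0
    rcases eq_or_ne (coeff q G) 0 with hq | hq
    · rw [hq, mul_zero, mul_zero, map_zero]
      exact zero_lt_iff.2 hLd0
    have hpn : ¬ TT b ≤ p := fun h => hp (hFn p h)
    have hqn : ¬ TT b ≤ q := fun h => hq (hGn q h)
    have h1n : ¬ TT b ≤ m₁ := fun h => h1 (hFn m₁ h)
    have h2n : ¬ TT b ≤ m₂ := fun h => h2 (hGn m₂ h)
    by_contra hlt
    rw [not_lt] at hlt
    have hgen : ∀ (e : ℕ) (p q : Fin 2 →₀ ℕ), p + q = m₀ + e • TT b →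
        v (c ^ e * (coeff p F * coeff q G)) ^ (1 + b) * v c ^ m₀.degree =
          ww b c v F p * ww b c v G q := by
      intro e p q hpq
      have hd : p.degree + q.degree = m₀.degree + e * (1 + b) := by
        rw [← map_add, hpq, map_add, map_nsmul, deg_TT, smul_eq_mul]
      rw [ww, ww, map_mul, map_mul, map_pow, mul_pow, mul_pow, ← pow_mul]
      generalize v (coeff p F) ^ (1 + b) = f
      generalize v (coeff q G) ^ (1 + b) = g
      calc v c ^ (e * (1 + b)) * (f * g) * v c ^ m₀.degree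
          = f * g * (v c ^ m₀.degree * v c ^ (e * (1 + b))) := by
            rw [mul_comm (v c ^ (e * (1 + b))) (f * g), mul_assoc,
              mul_comm (v c ^ (e * (1 + b))) (v c ^ m₀.degree)]
        _ = f * g * (v c ^ p.degree * v c ^ q.degree) := by
            rw [← pow_add, ← hd, pow_add]
        _ = _ := mul_mul_mul_comm _ _ _ _
    have k1 := hgen e p q hpq
    have k2 := hgen e₀ m₁ m₂ hM
    have k3 : ww b c v F m₁ * ww b c v G m₂ ≤ ww b c v F p * ww b c v G q := by
      rw [← k1, ← k2]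
      exact mul_le_mul_left (pow_le_pow_left₀ zero_le hlt _) _
    have w1 : ∀ (F : MvPowerSeries (Fin 2) A) (m : Fin 2 →₀ ℕ), coeff m F ≠ 0 →
        0 < ww b c v F m := by
      intro F m hm
      rw [ww]
      exact zero_lt_iff.2 (mul_ne_zero (pow_ne_zero _ (fun h => hm (hv0 _ h)))
        (pow_ne_zero _ hvc0))
    have k4 : ww b c v F p = ww b c v F m₁ := by
      refine le_antisymm (h1max p) ?_
      by_contra h
      rw [not_le] at h
      have : ww b c v F p * ww b c v G q < ww b c v F m₁ * ww b c v G m₂ :=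
        calc ww b c v F p * ww b c v G q ≤ ww b c v F p * ww b c v G m₂ :=
              mul_le_mul_right (h2max q) _
          _ < ww b c v F m₁ * ww b c v G m₂ := (mul_lt_mul_iff_left₀ (w1 G m₂ h2)).2 h
      exact absurd k3 (not_le.2 this)
    have k5 : ww b c v G q = ww b c v G m₂ := by
      refine le_antisymm (h2max q) ?_
      by_contra h
      rw [not_le] at h
      have : ww b c v F p * ww b c v G q < ww b c v F m₁ * ww b c v G m₂ :=
        calc ww b c v F p * ww b c v G q = ww b c v F m₁ * ww b c v G q := by rw [k4]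
          _ < ww b c v F m₁ * ww b c v G m₂ := (mul_lt_mul_iff_right₀ (w1 F m₁ h1)).2 h
      exact absurd k3 (not_le.2 this)
    have i1 := h1min p k4
    have i2 := h2min q k5
    have i3 : ind b p + ind b q = ind b m₁ + ind b m₂ := by
      rw [← ind_add, ← ind_add, hpq, hM, ind_add, ind_add, ind_nsmul, ind_nsmul]
    apply hne
    rw [Prod.mk.injEq]
    exact ⟨eq_of_ind_eq hpn h1n (by omega), eq_of_ind_eq hqn h2n (by omega)⟩
  -- sums
  have hN : ∀ e, c ^ e * coeff (m₀ + e • TT b) (F * G) =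
      ∑ p ∈ antidiagonal (m₀ + e • TT b), c ^ e * (coeff p.1 F * coeff p.2 G) := by
    intro e
    rw [coeff_mul, Finset.mul_sum]
  have hne₀ : ∀ e, e ≠ e₀ → c ^ e * coeff (m₀ + e • TT b) (F * G) ∈ I := by
    intro e he
    rw [hN]
    refine Ideal.sum_mem _ (fun p hp => ?_)
    rw [Finset.HasAntidiagonal.mem_antidiagonal] at hp
    refine hterm e p.1 p.2 hp ?_
    intro h
    rw [Prod.mk.injEq] at h
    rw [h.1, h.2, hM, add_right_inj] at hp
    have := congrArg (fun f : Fin 2 →₀ ℕ => f 0) hp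
    simp only [Finsupp.smul_apply, TT_zero, smul_eq_mul, mul_one] at this
    exact he this.symm
  have he₀ : c ^ e₀ * coeff (m₀ + e₀ • TT b) (F * G) - Ld ∈ I := by
    rw [hN, ← Finset.add_sum_erase _ _
      (Finset.HasAntidiagonal.mem_antidiagonal.2 hM : (m₁, m₂) ∈ antidiagonal (m₀ + e₀ • TT b)),
      hLd, add_sub_cancel_left]
    refine Ideal.sum_mem _ (fun p hp => ?_)
    rw [Finset.mem_erase, Finset.HasAntidiagonal.mem_antidiagonal] at hp
    exact hterm e₀ p.1 p.2 hp.2 hp.1
  have hmem : Ld ∈ I := by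
    apply mem_of_forall_mem_sup (S := A) (N := A)
    intro k
    have h3 := telescope b c (F * G) H hH.symm m₀ hm₀ (e₀ + k)
    rw [← Finset.add_sum_erase _ _ (Finset.mem_range.2 (by omega) : e₀ ∈
      Finset.range (e₀ + k + 1))] at h3
    have h4 : ∑ e ∈ (Finset.range (e₀ + k + 1)).erase e₀,
        c ^ e * coeff (m₀ + e • TT b) (F * G) ∈ I :=
      Ideal.sum_mem _ (fun e he => hne₀ e (Finset.mem_erase.1 he).1)
    have h5 : Ld = (-(c ^ e₀ * coeff (m₀ + e₀ • TT b) (F * G) - Ld) -
        ∑ e ∈ (Finset.range (e₀ + k + 1)).erase e₀,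
        c ^ e * coeff (m₀ + e • TT b) (F * G)) +
        (-(c ^ (e₀ + k + 1) * coeff (m₀ + (e₀ + k) • TT b) H)) := by
      rw [← h3]
      ring
    rw [h5]
    refine Submodule.add_mem_sup (sub_mem (neg_mem he₀) h4) ?_
    rw [smul_eq_mul, Ideal.mul_top]
    apply neg_mem
    apply Ideal.mul_mem_right
    exact Ideal.pow_le_pow_right (by omega) (Ideal.pow_mem_pow hc _)
  exact lt_irrefl _ (show v Ld < v Ld from hmem)

variable [IsAdicComplete (maximalIdeal A) A]

/-- `(x y ^ b - c)` is a prime ideal of `A⟦x, y⟧` -/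
theorem isPrime_relM (hc : c ∈ maximalIdeal A) (hc0 : c ≠ 0) :
    (Ideal.span {relM b c}).IsPrime := by
  rw [Ideal.isPrime_iff]
  constructor
  · intro h
    have h1 : relM b c ∈ maximalIdeal (MvPowerSeries (Fin 2) A) := by
      rw [mem_maxIdeal_iff, relM, map_sub, constantCoeff_C]
      refine sub_mem ?_ hc
      rw [← coeff_zero_eq_constantCoeff_apply, coeff_monomial, if_neg]
      · exact zero_mem _
      · intro h2
        have := congrArg (fun f : Fin 2 →₀ ℕ => f 0) h2
        simp [TT_zero] at this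
    have h2 : Ideal.span {relM b c} ≤ maximalIdeal (MvPowerSeries (Fin 2) A) :=
      (Ideal.span_singleton_le_iff_mem _).2 h1
    rw [h] at h2
    exact (maximalIdeal.isMaximal _).ne_top (top_le_iff.1 h2)
  · intro F G hFG
    obtain ⟨F', hF', hFF'⟩ := exists_NF b c hc F
    obtain ⟨G', hG', hGG'⟩ := exists_NF b c hc G
    by_cases h1 : F' = 0
    · left
      rwa [h1, sub_zero] at hFF'
    by_cases h2 : G' = 0
    · right
      rwa [h2, sub_zero] at hGG'
    exfalso
    refine not_mem_of_NF b c hc hc0 hF' hG' h1 h2 ?_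
    have e1 : F' * G' = F * G - ((F - F') * G + F' * (G - G')) := by ring
    rw [e1]
    exact sub_mem hFG (add_mem (Ideal.mul_mem_right _ _ hFF') (Ideal.mul_mem_left _ _ hGG'))

end Prime

end Mono

end Fermat.Agent.TAlg
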