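import Mathlib
import Fermat.Agent.TAlg.Mono
import Fermat.Agent.TAlg.FrameThm

/-! # The ring `A⟦w⟧⟦u⟧ / (u ∧ w, h(w) - c)`. -/

set_option autoImplicit false
set_option linter.unusedSectionVars false

open IsLocalRing MvPowerSeries
open Finset.HasAntidiagonal (antidiagonal)

namespace Fermat.Agent.TAlg

section Cone

variable {σ A : Type} [Finite σ] [CommRing A]

variable (σ A) in
/-- base power series ring, in the variables `w` -/
abbrev DD : Type := MvPowerSeries σ A

variable (σ A) in
/-- power series in `u` over `DD` -/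
abbrev PP : Type := MvPowerSeries σ (MvPowerSeries σ A)

/-- the map `u i ↦ w i t`, general version -/
noncomputable def PsiD {σ D : Type} [Finite σ] [CommRing D] (w : σ → D) :
    MvPowerSeries σ D →+* MvPowerSeries Unit D :=
  (rename (fun _ : σ => ())).toRingHom.comp (rescale w)

/-- the finite set of exponents of degree `n` -/
noncomputable def fib (σ : Type) [Finite σ] (n : ℕ) : Finset (σ →₀ ℕ) :=
  (Finsupp.finite_of_degree_le (σ := σ) n).toFinset.filter (fun α => α.degree = n)

omit [CommRing A] in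
lemma mem_fib (n : ℕ) (α : σ →₀ ℕ) : α ∈ fib σ n ↔ α.degree = n := by
  rw [fib, Finset.mem_filter, Set.Finite.mem_toFinset]
  exact ⟨fun h => h.2, fun h => ⟨h.le, h⟩⟩

lemma mapDomain_unit (α : σ →₀ ℕ) (k : Unit →₀ ℕ) :
    Finsupp.mapDomain (fun _ : σ => ()) α = k ↔ α.degree = k () := by
  have h1 : (Finsupp.mapDomain (fun _ : σ => ()) α) () = α.degree := by
    rw [Finsupp.mapDomain, Finsupp.sum_apply, Finsupp.sum]
    simp only [Finsupp.single_eq_same]
    rfl
  constructor
  · rintro rfl
    exact h1.symm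
  · intro h
    ext
    rw [h1, h]

lemma coeff_PsiD {σ D : Type} [Finite σ] [CommRing D] (w : σ → D) (F : MvPowerSeries σ D)
    (k : Unit →₀ ℕ) :
    coeff k (PsiD w F) = ∑ α ∈ fib σ (k ()), (α.prod fun s m => w s ^ m) * coeff α F := by
  classical
  change coeff k (rename (fun _ : σ => ()) (rescale w F)) = _
  rw [coeff_rename]
  apply Finset.sum_congr
  · ext α
    rw [Set.Finite.mem_toFinset, mem_fib, Set.mem_preimage, Set.mem_singleton_iff, mapDomain_unit]
  · intro α _
    rw [coeff_rescale]

/-- the map `u i ↦ w i t`. -/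
noncomputable def Psi : PP σ A →+* MvPowerSeries Unit (DD σ A) := PsiD (fun i => (X i : DD σ A))

lemma coeff_Psi (F : PP σ A) (k : Unit →₀ ℕ) :
    coeff k (Psi F) = ∑ α ∈ fib σ (k ()), monomial α 1 * coeff α F := by
  rw [Psi, coeff_PsiD]
  refine Finset.sum_congr rfl (fun α _ => ?_)
  rw [MvPowerSeries.monomial_one_eq]

lemma coeff_coeff_Psi (F : PP σ A) (k : Unit →₀ ℕ) (γ : σ →₀ ℕ) [DecidableLE (σ →₀ ℕ)] :
    coeff γ (coeff k (Psi F)) =
      ∑ α ∈ (fib σ (k ())).filter (fun α => α ≤ γ), coeff (γ - α) (coeff α F) := by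
  rw [coeff_Psi, map_sum, Finset.sum_filter]
  refine Finset.sum_congr rfl (fun α _ => ?_)
  rw [coeff_monomial_mul, one_mul]
  split_ifs <;> rfl

lemma Psi_C (d : DD σ A) : Psi (C d) = C d := by
  classical
  apply MvPowerSeries.ext
  intro k
  rw [coeff_Psi, coeff_C]
  split_ifs with h
  · rw [h, Finset.sum_eq_single 0]
    · rw [coeff_zero_C, MvPowerSeries.monomial_zero_eq_C_apply, map_one, one_mul]
    · intro α _ hα
      rw [coeff_C, if_neg hα, mul_zero]
    · intro h0
      exact absurd ((mem_fib _ _).2 (by simp)) h0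
  · refine Finset.sum_eq_zero (fun α hα => ?_)
    rw [coeff_C, if_neg, mul_zero]
    rintro rfl
    apply h
    ext
    rw [mem_fib] at hα
    rw [← hα]
    simp

lemma Psi_X (i : σ) : Psi (X i : PP σ A) = C (X i) * X () := by
  classical
  apply MvPowerSeries.ext
  intro k
  rw [coeff_Psi, coeff_C_mul, coeff_X]
  split_ifs with h
  · rw [h, mul_one, Finset.sum_eq_single (Finsupp.single i 1)]
    · rw [coeff_X, if_pos rfl, mul_one]
      rfl
    · intro α _ hα
      rw [coeff_X, if_neg hα, mul_zero]
    · intro h0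
      exact absurd ((mem_fib _ _).2 (by simp)) h0
  · rw [mul_zero]
    refine Finset.sum_eq_zero (fun α hα => ?_)
    rw [coeff_X, if_neg, mul_zero]
    rintro rfl
    apply h
    ext
    rw [mem_fib] at hα
    rw [← hα]
    simp

variable (σ A) in
/-- the ideal of `u ∧ w`. -/
noncomputable def KI : Ideal (PP σ A) :=
  Ideal.span (Set.range (fun p : σ × σ =>
    (X p.1 * C (X p.2) - X p.2 * C (X p.1) : PP σ A)))

lemma mem_KI (i j : σ) : (X i * C (X j) - X j * C (X i) : PP σ A) ∈ KI σ A :=
  Ideal.subset_span ⟨(i, j), rfl⟩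

lemma KI_le_ker : KI σ A ≤ RingHom.ker (Psi : PP σ A →+* _) := by
  rw [KI, Ideal.span_le]
  rintro _ ⟨⟨i, j⟩, rfl⟩
  rw [SetLike.mem_coe, RingHom.mem_ker, map_sub, map_mul, map_mul, Psi_C, Psi_C, Psi_X, Psi_X]
  ring

/-- monomials `u ^ α w ^ β` -/
noncomputable def mon (α β : σ →₀ ℕ) : PP σ A := monomial α (monomial β 1)

lemma mon_add (α β : σ →₀ ℕ) (i j : σ) :
    (mon (α + Finsupp.single i 1) (β + Finsupp.single j 1) : PP σ A) =
      mon α β * (X i * C (X j)) := by
  have e1 : (X i * C (X j) : PP σ A) = monomial (Finsupp.single i 1) (monomial (Finsupp.single j 1) 1) := by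
    rw [X_def, X_def, ← MvPowerSeries.monomial_zero_eq_C_apply, monomial_mul_monomial, add_zero,
      one_mul]
  rw [e1, mon, mon, monomial_mul_monomial, monomial_mul_monomial, one_mul]

/-- moving indices from `u` to `w` -/
lemma mk_mon_eq (N : ℕ) : ∀ α β α' β' : σ →₀ ℕ, α + β = α' + β' → α.degree = α'.degree →
    (α - α').degree = N → Ideal.Quotient.mk (KI σ A) (mon α β) = Ideal.Quotient.mk (KI σ A) (mon α' β') := by
  classical
  induction N with
  | zero =>
    intro α β α' β' h1 h2 h3
    rw [Finsupp.degree_eq_zero_iff] at h3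
    have h4 : α ≤ α' := tsub_eq_zero_iff_le.1 h3
    obtain ⟨δ, rfl⟩ := exists_add_of_le h4
    rw [map_add] at h2
    have h5 : δ = 0 := (Finsupp.degree_eq_zero_iff _).1 (by omega)
    subst h5
    rw [add_zero] at h1 ⊢
    rw [add_left_cancel h1]
  | succ N ih =>
    intro α β α' β' h1 h2 h3
    -- an index `i` with `α i > α' i`
    obtain ⟨i, hi⟩ : ∃ i, α' i < α i := by
      by_contra h
      push Not at h
      rw [tsub_eq_zero_iff_le.2 h, map_zero] at h3
      omega
    obtain ⟨j, hj⟩ : ∃ j, α j < α' j := by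
      by_contra h
      push Not at h
      have h' : α' ≤ α := h
      obtain ⟨δ, rfl⟩ := exists_add_of_le h'
      rw [map_add] at h2
      have h5 : δ = 0 := (Finsupp.degree_eq_zero_iff _).1 (by omega)
      subst h5
      rw [add_zero, tsub_self, map_zero] at h3
      omega
    have hβ : 1 ≤ β j := by
      have := congrArg (fun f : σ →₀ ℕ => f j) h1
      simp only [Finsupp.add_apply] at this
      omega
    have e1 : α = (α - Finsupp.single i 1) + Finsupp.single i 1 :=
      (tsub_add_cancel_of_le (by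
        intro k
        rw [Finsupp.single_apply]
        split_ifs with h
        · subst h
          omega
        · omega)).symm
    have e2 : β = (β - Finsupp.single j 1) + Finsupp.single j 1 :=
      (tsub_add_cancel_of_le (by
        intro k
        rw [Finsupp.single_apply]
        split_ifs with h
        · subst h
          omega
        · omega)).symm
    set α₀ := α - Finsupp.single i 1 with hα₀
    set β₀ := β - Finsupp.single j 1 with hβ₀
    have e3 : Ideal.Quotient.mk (KI σ A) (mon α β) =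
        Ideal.Quotient.mk (KI σ A) (mon (α₀ + Finsupp.single j 1) (β₀ + Finsupp.single i 1)) := by
      rw [e1, e2, mon_add, mon_add, Ideal.Quotient.eq, ← mul_sub]
      exact Ideal.mul_mem_left _ _ (mem_KI i j)
    rw [e3]
    apply ih
    · rw [← h1, e1, e2]
      abel
    · rw [← h2, e1]
      simp only [map_add, Finsupp.degree_single]
    · have hij : i ≠ j := by
        rintro rfl
        omega
      have h6 : α - α' = (α₀ + Finsupp.single j 1 - α') + Finsupp.single i 1 := by
        ext k
        rw [Finsupp.add_apply, Finsupp.tsub_apply, Finsupp.tsub_apply, Finsupp.add_apply, hα₀,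
          Finsupp.tsub_apply, Finsupp.single_apply, Finsupp.single_apply]
        split_ifs with h7 h8 h8
        · exact absurd (h7.trans h8.symm) hij
        · subst h7
          omega
        · subst h8
          omega
        · omega
      rw [h6, map_add, Finsupp.degree_single] at h3
      omega

/-- exponents of degree at most `k` -/
noncomputable def dle (σ : Type) [Finite σ] (k : ℕ) : Finset (σ →₀ ℕ) :=
  (Finsupp.finite_of_degree_le (σ := σ) k).toFinset

omit [CommRing A] in
lemma mem_dle (k : ℕ) (α : σ →₀ ℕ) : α ∈ dle σ k ↔ α.degree ≤ k := by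
  rw [dle, Set.Finite.mem_toFinset]
  rfl

/-- truncation -/
noncomputable def trk (k : ℕ) (F : PP σ A) : PP σ A :=
  ∑ p ∈ dle σ k ×ˢ dle σ k, C (C (coeff p.2 (coeff p.1 F))) * mon p.1 p.2

lemma coeff_trk [DecidableEq σ] (k : ℕ) (F : PP σ A) (α β : σ →₀ ℕ) :
    coeff β (coeff α (trk k F)) =
      if (α, β) ∈ dle σ k ×ˢ dle σ k then coeff β (coeff α F) else 0 := by
  rw [trk, map_sum, map_sum]
  have h1 : ∀ p : (σ →₀ ℕ) × (σ →₀ ℕ), coeff β (coeff α
      (C (C (coeff p.2 (coeff p.1 F))) * mon p.1 p.2 : PP σ A)) =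
      if (α, β) = p then coeff β (coeff α F) else 0 := by
    intro p
    rw [coeff_C_mul, mon, coeff_monomial]
    by_cases h : α = p.1
    · rw [if_pos h, coeff_C_mul, coeff_monomial]
      by_cases h' : β = p.2
      · rw [if_pos h', if_pos (Prod.ext h h'), mul_one, ← h, ← h']
      · rw [if_neg h', if_neg (fun h2 => h' (congrArg Prod.snd h2)), mul_zero]
    · rw [if_neg h, mul_zero, map_zero, if_neg (fun h2 => h (congrArg Prod.fst h2))]
  rw [Finset.sum_congr rfl (fun p _ => h1 p), Finset.sum_ite_eq]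

lemma mk_trk_eq_zero (k : ℕ) (F : PP σ A) (hF : Psi F = 0) :
    Ideal.Quotient.mk (KI σ A) (trk k F) = 0 := by
  classical
  let key : (σ →₀ ℕ) × (σ →₀ ℕ) → (σ →₀ ℕ) × ℕ := fun p => (p.1 + p.2, p.1.degree)
  let c : (σ →₀ ℕ) × ℕ → PP σ A ⧸ KI σ A := fun j =>
    if h : ∃ p, key p = j then Ideal.Quotient.mk (KI σ A) (mon h.choose.1 h.choose.2) else 0
  have hc : ∀ p, Ideal.Quotient.mk (KI σ A) (mon p.1 p.2) = c (key p) := by
    intro p
    have h : ∃ p', key p' = key p := ⟨p, rfl⟩
    change _ = (if h : ∃ p', key p' = key p then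
      Ideal.Quotient.mk (KI σ A) (mon h.choose.1 h.choose.2) else 0)
    rw [dif_pos h]
    have h1 := h.choose_spec
    exact mk_mon_eq _ _ _ _ _ (congrArg Prod.fst h1).symm (congrArg Prod.snd h1).symm rfl
  rw [trk, map_sum]
  rw [← Finset.sum_fiberwise_of_maps_to (t := (dle σ k ×ˢ dle σ k).image key)
    (g := key) (fun p hp => Finset.mem_image_of_mem key hp)]
  refine Finset.sum_eq_zero (fun j hj => ?_)
  obtain ⟨p₀, hp₀, rfl⟩ := Finset.mem_image.1 hj
  have h2 : ∀ p ∈ (dle σ k ×ˢ dle σ k).filter (fun p => key p = key p₀),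
      Ideal.Quotient.mk (KI σ A) (C (C (coeff p.2 (coeff p.1 F))) * mon p.1 p.2) =
      (((Ideal.Quotient.mk (KI σ A)).comp ((C : DD σ A →+* PP σ A).comp C))
        (coeff p.2 (coeff p.1 F))) * c (key p₀) := by
    intro p hp
    rw [map_mul, hc, (Finset.mem_filter.1 hp).2]
    rfl
  rw [Finset.sum_congr rfl h2, ← Finset.sum_mul, ← map_sum]
  have h3 : ∑ p ∈ (dle σ k ×ˢ dle σ k).filter (fun p => key p = key p₀),
      coeff p.2 (coeff p.1 F) = coeff (key p₀).1
        (coeff (Finsupp.single () (key p₀).2) (Psi F)) := by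
    rw [coeff_coeff_Psi, Finsupp.single_eq_same]
    refine Finset.sum_bij' (fun p _ => p.1) (fun α _ => (α, (key p₀).1 - α)) ?_ ?_ ?_ ?_ ?_
    · intro p hp
      have hk := (Finset.mem_filter.1 hp).2
      rw [Finset.mem_filter, mem_fib]
      refine ⟨congrArg Prod.snd hk, ?_⟩
      rw [← hk]
      exact le_self_add
    · intro α hα
      rw [Finset.mem_filter, mem_fib] at hα
      rw [Finset.mem_product, mem_dle, mem_dle] at hp₀
      have h4 : α + ((key p₀).1 - α) = (key p₀).1 := add_tsub_cancel_of_le hα.2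
      rw [Finset.mem_filter, Finset.mem_product, mem_dle, mem_dle]
      refine ⟨⟨?_, ?_⟩, ?_⟩
      · rw [hα.1]
        exact hp₀.1
      · have h5 := congrArg Finsupp.degree h4
        rw [map_add, hα.1] at h5
        have h6 : (key p₀).1.degree = p₀.1.degree + p₀.2.degree := map_add _ _ _
        rw [h6] at h5
        have h7 : (key p₀).2 = p₀.1.degree := rfl
        have h8 := hp₀.2
        change ((key p₀).1 - α).degree ≤ k
        omega
      · exact Prod.ext h4 hα.1
    · intro p hp
      have hk := (Finset.mem_filter.1 hp).2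
      refine Prod.ext rfl ?_
      change (key p₀).1 - p.1 = p.2
      rw [← hk]
      exact add_tsub_cancel_left _ _
    · intro α hα
      rfl
    · intro p hp
      have hk := (Finset.mem_filter.1 hp).2
      have : (key p₀).1 - p.1 = p.2 := by
        rw [← hk]
        exact add_tsub_cancel_left _ _
      rw [this]
  rw [h3, hF, map_zero, map_zero, map_zero, zero_mul]

/-- (2a) the kernel of `Psi` is generated by `u ∧ w`. -/
theorem ker_Psi [IsLocalRing A] [IsNoetherianRing A] :
    RingHom.ker (Psi : PP σ A →+* _) = KI σ A := by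
  classical
  apply le_antisymm _ KI_le_ker
  intro F hF
  rw [RingHom.mem_ker] at hF
  apply mem_of_forall_mem_sup (S := PP σ A) (N := PP σ A)
  intro k
  have h1 : trk k F ∈ KI σ A := Ideal.Quotient.eq_zero_iff_mem.1 (mk_trk_eq_zero k F hF)
  have h2 : F - trk k F ∈ maximalIdeal (PP σ A) ^ k := by
    rw [mem_pow_iff]
    intro α
    rw [mem_pow_iff]
    intro β
    rw [map_sub, map_sub, coeff_trk]
    split_ifs with h
    · rw [sub_self]
      exact zero_mem _
    · rw [Finset.mem_product, mem_dle, mem_dle, not_and_or, not_le, not_le] at h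
      have h3 : k - α.degree - β.degree = 0 := by
        rcases h with h | h
        · have h' : k < α.degree := h
          omega
        · have h' : k < β.degree := h
          omega
      rw [h3, pow_zero, Ideal.one_eq_top]
      trivial
  have h3 : F = trk k F + (F - trk k F) := by abel
  rw [h3]
  refine Submodule.add_mem_sup h1 ?_
  rw [smul_eq_mul, Ideal.mul_top]
  exact h2

section Rees

variable [IsDomain A] (h : DD σ A) (hh : constantCoeff h = 0) (c : A) (hc : c ≠ 0)

include hh hc in
/-- if `(h - c) g` has order at least `n` then so has `g`. -/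
lemma coeff_eq_zero_of_mul (n : ℕ) (g : DD σ A)
    (hg : ∀ γ : σ →₀ ℕ, γ.degree < n → coeff γ ((h - C c) * g) = 0) :
    ∀ γ : σ →₀ ℕ, γ.degree < n → coeff γ g = 0 := by
  classical
  intro γ
  induction hd : γ.degree using Nat.strong_induction_on generalizing γ with
  | _ d ih =>
    intro hlt
    have h1 := hg γ (by omega)
    rw [sub_mul, map_sub, coeff_C_mul, coeff_mul, Finset.sum_eq_zero] at h1
    · rw [zero_sub, neg_eq_zero, mul_eq_zero] at h1
      exact h1.resolve_left hc
    · rintro ⟨p, q⟩ hpq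
      rw [Finset.HasAntidiagonal.mem_antidiagonal] at hpq
      rcases eq_or_ne p 0 with hp | hp
      · have : coeff (0 : σ →₀ ℕ) h = 0 := hh
        rw [hp, this, zero_mul]
      · have h2 : 0 < p.degree := by
          rw [Nat.pos_iff_ne_zero]
          exact fun h => hp ((Finsupp.degree_eq_zero_iff _).1 h)
        have h3 := congrArg Finsupp.degree hpq
        rw [map_add] at h3
        have h4 : q.degree < d := by
          simp only at h3
          omega
        rw [ih q.degree h4 q rfl (by omega), mul_zero]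

lemma coeff_coeff_Psi_eq_zero (F : PP σ A) (k : Unit →₀ ℕ) (γ : σ →₀ ℕ) (hγ : γ.degree < k ()) :
    coeff γ (coeff k (Psi F)) = 0 := by
  classical
  rw [coeff_coeff_Psi]
  refine Finset.sum_eq_zero (fun α hα => ?_)
  rw [Finset.mem_filter, mem_fib] at hα
  have := Finsupp.degree_mono hα.2
  omega

/-- the image of `Psi` is the Rees algebra -/
lemma exists_Psi_eq (G : MvPowerSeries Unit (DD σ A))
    (hG : ∀ (k : Unit →₀ ℕ) (γ : σ →₀ ℕ), γ.degree < k () → coeff γ (coeff k G) = 0) :
    ∃ F, Psi F = G := by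
  classical
  have hch : ∀ (γ : σ →₀ ℕ) (n : ℕ), ∃ α : σ →₀ ℕ, n ≤ γ.degree → (α ≤ γ ∧ α.degree = n) := by
    intro γ n
    by_cases hn : n ≤ γ.degree
    · obtain ⟨α, h1, h2⟩ := Finsupp.exists_le_degree_eq γ n hn
      exact ⟨α, fun _ => ⟨h1, h2⟩⟩
    · exact ⟨0, fun h => absurd h hn⟩
  choose a ha using hch
  let F : PP σ A := mkPS (fun α => mkPS (fun β =>
    if a (α + β) α.degree = α then coeff (α + β) (coeff (Finsupp.single () α.degree) G) else 0))
  refine ⟨F, ?_⟩
  apply MvPowerSeries.ext
  intro k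
  ext γ
  have hk : Finsupp.single () (k ()) = k := by
    ext
    simp
  rcases lt_or_ge γ.degree (k ()) with h1 | h1
  · rw [coeff_coeff_Psi_eq_zero F k γ h1, hG k γ h1]
  · rw [coeff_coeff_Psi, Finset.sum_eq_single (a γ (k ()))]
    · have h2 := ha γ (k ()) h1
      change coeff (γ - a γ (k ())) (coeff (a γ (k ())) F) = _
      rw [coeff_mkPS, coeff_mkPS, add_tsub_cancel_of_le h2.1, h2.2, if_pos rfl, hk]
    · intro α hα hne
      rw [Finset.mem_filter, mem_fib] at hα
      rw [coeff_mkPS, coeff_mkPS, add_tsub_cancel_of_le hα.2, if_neg]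
      rw [hα.1]
      exact hne.symm
    · intro h2
      exfalso
      apply h2
      rw [Finset.mem_filter, mem_fib]
      exact ⟨(ha γ (k ()) h1).2, (ha γ (k ()) h1).1⟩

include hh hc in
/-- (2b) -/
theorem comap_Psi [IsLocalRing A] [IsNoetherianRing A] :
    (Ideal.span {(C (h - C c) : MvPowerSeries Unit (DD σ A))}).comap Psi =
      KI σ A ⊔ Ideal.span {(C (h - C c) : PP σ A)} := by
  apply le_antisymm
  · intro F hF
    obtain ⟨G, hG⟩ := Ideal.mem_span_singleton'.1 (Ideal.mem_comap.1 hF)
    rw [mul_comm] at hG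
    obtain ⟨F', hF'⟩ := exists_Psi_eq G (by
      intro k
      apply coeff_eq_zero_of_mul h hh c hc
      intro γ hγ
      rw [← coeff_C_mul, hG]
      exact coeff_coeff_Psi_eq_zero F k γ hγ)
    have h1 : F - C (h - C c) * F' ∈ KI σ A := by
      rw [← ker_Psi, RingHom.mem_ker, map_sub, map_mul, Psi_C, hF', hG, sub_self]
    have h2 : F = (F - C (h - C c) * F') + F' * C (h - C c) := by ring
    rw [h2]
    exact Submodule.add_mem_sup h1 (Ideal.mem_span_singleton'.2 ⟨F', rfl⟩)
  · rw [sup_le_iff]
    constructor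
    · intro F hF
      rw [Ideal.mem_comap, RingHom.mem_ker.1 (KI_le_ker hF)]
      exact zero_mem _
    · rw [Ideal.span_singleton_le_iff_mem, Ideal.mem_comap, Psi_C]
      exact Ideal.mem_span_singleton_self _

/-- a principal prime ideal stays prime in the power series ring -/
lemma isPrime_span_C {D τ : Type} [CommRing D] [Finite τ] (d : D) (hd : (Ideal.span {d}).IsPrime) :
    (Ideal.span {(C d : MvPowerSeries τ D)}).IsPrime := by
  rw [← frameIdeal_span, frameIdeal]
  have : IsDomain (D ⧸ Ideal.span {d}) := Ideal.Quotient.isDomain _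
  exact RingHom.ker_isPrime _

include hh hc in
/-- THE CONE: if `h - c` is prime in `A⟦w⟧` then `(u ∧ w, h - c)` is prime in `A⟦w⟧⟦u⟧`. -/
theorem isPrime_cone [IsLocalRing A] [IsNoetherianRing A]
    (hprime : (Ideal.span {h - C c} : Ideal (DD σ A)).IsPrime) :
    (KI σ A ⊔ Ideal.span {(C (h - C c) : PP σ A)}).IsPrime := by
  rw [← comap_Psi h hh c hc]
  have := isPrime_span_C (τ := Unit) (h - C c) hprime
  exact Ideal.comap_isPrime _ _

end Rees

end Cone

end Fermat.Agent.TAlg
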