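import Mathlib
import Fermat.Agent.TAlg.Cone

/-! # `w₁² + w₂ w₃ - c` is prime in `A⟦w₁, w₂, w₃⟧`. -/

set_option autoImplicit false
set_option linter.unusedSectionVars false

open IsLocalRing

namespace Fermat.Agent.TAlg

section Sqrt

variable {D : Type} [CommRing D] [IsLocalRing D] [IsNoetherianRing D]

lemma eq_zero_of_forall_pow {π a : D} (hπ : π ∈ maximalIdeal D)
    (h : ∀ n : ℕ, ∃ b, a = π ^ n * b) : a = 0 := by
  have h1 : a ∈ (⨅ n : ℕ, (maximalIdeal D) ^ n : Ideal D) := by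
    rw [Submodule.mem_iInf]
    intro n
    obtain ⟨b, rfl⟩ := h n
    exact Ideal.mul_mem_right _ _ (Ideal.pow_mem_pow hπ n)
  rw [Ideal.iInf_pow_eq_bot_of_isLocalRing _ (maximalIdeal.isMaximal D).ne_top] at h1
  exact (Submodule.mem_bot D).1 h1

variable [IsDomain D]

/-- a prime element is not a square -/
lemma eq_zero_of_sq_eq {π a b : D} (hp : Prime π) (h : a ^ 2 = π * b ^ 2) : b = 0 := by
  by_contra hb
  have ha : a ≠ 0 := by
    rintro rfl
    rw [zero_pow two_ne_zero] at h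
    rcases mul_eq_zero.1 h.symm with h1 | h1
    · exact hp.ne_zero h1
    · exact hb (pow_eq_zero_iff two_ne_zero |>.1 h1)
  obtain ⟨m, a', ha', rfl⟩ := WfDvdMonoid.max_power_factor ha hp.irreducible
  obtain ⟨n, b', hb', rfl⟩ := WfDvdMonoid.max_power_factor hb hp.irreducible
  rcases lt_or_ge n m with h1 | h1
  · obtain ⟨k, rfl⟩ := Nat.exists_eq_add_of_lt h1
    have h2 : π ^ (2 * n + 1) * (π * (π ^ (2 * k) * a' ^ 2)) = π ^ (2 * n + 1) * b' ^ 2 := by
      calc _ = (π ^ (n + k + 1) * a') ^ 2 := by ring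
        _ = π * (π ^ n * b') ^ 2 := h
        _ = _ := by ring
    have h3 := mul_left_cancel₀ (pow_ne_zero _ hp.ne_zero) h2
    exact hb' (hp.dvd_of_dvd_pow (Dvd.intro _ h3))
  · obtain ⟨k, rfl⟩ := Nat.exists_eq_add_of_le h1
    have h2 : π ^ (2 * m) * a' ^ 2 = π ^ (2 * m) * (π * (π ^ (2 * k) * b' ^ 2)) := by
      calc _ = (π ^ m * a') ^ 2 := by ring
        _ = π * (π ^ (m + k) * b') ^ 2 := h
        _ = _ := by ring
    have h3 := mul_left_cancel₀ (pow_ne_zero _ hp.ne_zero) h2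
    exact ha' (hp.dvd_of_dvd_pow (Dvd.intro _ h3.symm))

open PowerSeries in
lemma exists_lin [IsAdicComplete (maximalIdeal D) D] {π : D} (hπ : π ∈ maximalIdeal D)
    (F : PowerSeries D) : ∃ a b : D, F - (C a + C b * X) ∈ Ideal.span {(X ^ 2 - C π : PowerSeries D)} := by
  let s : ℕ → D := fun n => infsum π hπ (fun l => coeff (n + 2 * l) F)
  have hs : ∀ n, s n = coeff n F + π * s (n + 2) := by
    intro n
    change infsum π hπ _ = _ + π * infsum π hπ _
    rw [infsum_succ]
    congr 2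
    congr 1
    funext l
    congr 2
    ring
  refine ⟨s 0, s 1, ?_⟩
  rw [Ideal.mem_span_singleton']
  refine ⟨PowerSeries.mk (fun n => s (n + 2)), ?_⟩
  rw [mul_comm, sub_mul]
  ext n
  rw [map_sub, map_sub, map_add, coeff_C_mul, coeff_mk, coeff_C_mul, coeff_X, coeff_C,
    coeff_X_pow_mul']
  rcases n with _ | _ | n
  · simp [hs 0]
  · simp [hs 1]
  · have := hs (n + 2)
    simp [this]

open PowerSeries in
lemma lin_eq_zero {π : D} (hπ : π ∈ maximalIdeal D) {a b : D}
    (h : C a + C b * X ∈ Ideal.span {(X ^ 2 - C π : PowerSeries D)}) : a = 0 ∧ b = 0 := by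
  obtain ⟨H, hH⟩ := Ideal.mem_span_singleton'.1 h
  rw [mul_comm, sub_mul] at hH
  have hc : ∀ n, coeff n ((X ^ 2 : PowerSeries D) * H - C π * H) = coeff n (C a + C b * X) :=
    fun n => by rw [hH]
  have h0 : - (π * coeff 0 H) = a := by
    have := hc 0
    rw [map_sub, map_add, coeff_C_mul, coeff_C_mul, coeff_X_pow_mul', coeff_X] at this
    simpa using this
  have h1 : - (π * coeff 1 H) = b := by
    have := hc 1
    rw [map_sub, map_add, coeff_C_mul, coeff_C_mul, coeff_X_pow_mul', coeff_X] at this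
    simpa [coeff_C] using this
  have h2 : ∀ n, coeff n H = π * coeff (n + 2) H := by
    intro n
    have := hc (n + 2)
    rw [map_sub, map_add, coeff_C_mul, coeff_C_mul, coeff_X_pow_mul', coeff_X, coeff_C] at this
    simp at this
    exact sub_eq_zero.1 this
  have h3 : ∀ n, coeff n H = 0 := by
    intro n
    apply eq_zero_of_forall_pow hπ
    intro k
    induction k generalizing n with
    | zero => exact ⟨coeff n H, by rw [pow_zero, one_mul]⟩
    | succ k ih =>
      obtain ⟨b, hb⟩ := ih (n + 2)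
      exact ⟨b, by rw [h2, hb]; ring⟩
  rw [h3, mul_zero, neg_zero] at h0 h1
  exact ⟨h0.symm, h1.symm⟩

open PowerSeries in
/-- if `π` is a prime element then `X² - π` is prime in `D⟦X⟧`. -/
theorem isPrime_sqrt [IsAdicComplete (maximalIdeal D) D] {π : D} (hp : Prime π) :
    (Ideal.span {(X ^ 2 - C π : PowerSeries D)}).IsPrime := by
  have hπ : π ∈ maximalIdeal D := (mem_maximalIdeal π).2 hp.not_isUnit
  rw [Ideal.isPrime_iff]
  constructor
  · intro h
    have h1 : C (1 : D) + C (0 : D) * X ∈ Ideal.span {(X ^ 2 - C π : PowerSeries D)} := by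
      rw [h]
      trivial
    exact one_ne_zero (lin_eq_zero hπ h1).1
  · intro F G hFG
    obtain ⟨a₀, a₁, hF⟩ := exists_lin hπ F
    obtain ⟨b₀, b₁, hG⟩ := exists_lin hπ G
    have key : C (a₀ * b₀ + π * (a₁ * b₁)) + C (a₀ * b₁ + a₁ * b₀) * X ∈
        Ideal.span {(X ^ 2 - C π : PowerSeries D)} := by
      have e1 : (C (a₀ * b₀ + π * (a₁ * b₁)) + C (a₀ * b₁ + a₁ * b₀) * X : PowerSeries D) =
          F * G - ((F - (C a₀ + C a₁ * X)) * G + (C a₀ + C a₁ * X) * (G - (C b₀ + C b₁ * X))) -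
          (C (a₁ * b₁)) * (X ^ 2 - C π) := by
        simp only [map_add, map_mul]
        ring
      rw [e1]
      exact sub_mem (sub_mem hFG (add_mem (Ideal.mul_mem_right _ _ hF)
        (Ideal.mul_mem_left _ _ hG))) (Ideal.mul_mem_left _ _ (Ideal.mem_span_singleton_self _))
    obtain ⟨h1, h2⟩ := lin_eq_zero hπ key
    have h3 : a₀ * (b₀ ^ 2 - π * b₁ ^ 2) = 0 := by
      linear_combination b₀ * h1 - π * b₁ * h2
    have h4 : a₁ * (b₀ ^ 2 - π * b₁ ^ 2) = 0 := by
      linear_combination b₀ * h2 - b₁ * h1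
    by_cases h5 : b₀ ^ 2 - π * b₁ ^ 2 = 0
    · right
      have hb₁ : b₁ = 0 := eq_zero_of_sq_eq hp (sub_eq_zero.1 h5)
      have hb₀ : b₀ = 0 := by
        rw [hb₁] at h5
        simpa using h5
      rw [hb₀, hb₁] at hG
      simpa using hG
    · left
      have ha₀ : a₀ = 0 := (mul_eq_zero.1 h3).resolve_right h5
      have ha₁ : a₁ = 0 := (mul_eq_zero.1 h4).resolve_right h5
      rw [ha₀, ha₁] at hF
      simpa using hF

end Sqrt

section Quadric

open MvPowerSeries

variable {A : Type} [CommRing A] [IsDomain A] [IsLocalRing A] [IsNoetherianRing A]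
  [IsAdicComplete (maximalIdeal A) A]

lemma monomial_TT (b : ℕ) : (monomial (TT b) 1 : MvPowerSeries (Fin 2) A) = X 0 * X 1 ^ b := by
  rw [X_pow_eq, X_def, monomial_mul_monomial, one_mul]
  rfl

lemma relM_ne_zero (b : ℕ) (c : A) : relM b c ≠ 0 := by
  classical
  intro h
  have h1 := congrArg (coeff (TT b)) h
  rw [relM, map_sub, coeff_monomial_same, coeff_C, if_neg, sub_zero, map_zero] at h1
  · exact one_ne_zero h1
  · intro h2
    have := congrArg (fun f : Fin 2 →₀ ℕ => f 0) h2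
    simp [TT_zero] at this

lemma prime_relM (b : ℕ) (c : A) (hc : c ∈ maximalIdeal A) (hc0 : c ≠ 0) :
    Prime (relM b c) :=
  (Ideal.span_singleton_prime (relM_ne_zero b c)).1 (isPrime_relM b c hc hc0)

/-- the quadratic form `w₁² + w₂ w₃`. -/
noncomputable def quad (A : Type) [CommRing A] : MvPowerSeries (Fin 3) A := X 0 ^ 2 + X 1 * X 2

lemma constantCoeff_quad : constantCoeff (quad A) = 0 := by
  simp [quad]

theorem isPrime_quad (c : A) (hc : c ∈ maximalIdeal A) (hc0 : c ≠ 0) :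
    (Ideal.span {quad A - C c}).IsPrime := by
  let e := finSuccEquiv A 2
  have h1 : e (quad A - C c) = PowerSeries.X ^ 2 - PowerSeries.C (-(relM 1 c)) := by
    rw [quad, map_sub, map_add, map_pow, map_mul]
    have e0 : e (X 0) = PowerSeries.X := finSuccEquiv_X_zero
    have e1 : e (X 1) = PowerSeries.C (X 0) := finSuccEquiv_X_succ 0
    have e2 : e (X 2) = PowerSeries.C (X 1) := finSuccEquiv_X_succ 1
    have e3 : e (C c) = PowerSeries.C (C c) := finSuccEquiv_C c
    rw [e0, e1, e2, e3, relM, monomial_TT, pow_one]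
    simp only [map_neg, map_sub, map_mul]
    ring
  have h2 : (Ideal.span {PowerSeries.X ^ 2 - PowerSeries.C (-(relM 1 c))}).IsPrime :=
    isPrime_sqrt (prime_relM 1 c hc hc0).neg
  have h3 : Ideal.span {quad A - C c} =
      (Ideal.span {PowerSeries.X ^ 2 - PowerSeries.C (-(relM 1 c))}).comap (e : _ →+* _) := by
    ext f
    rw [Ideal.mem_comap, Ideal.mem_span_singleton', Ideal.mem_span_singleton', ← h1]
    constructor
    · rintro ⟨g, rfl⟩
      exact ⟨e g, by simp⟩
    · rintro ⟨g, hg⟩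
      refine ⟨e.symm g, e.injective ?_⟩
      rw [map_mul, AlgEquiv.apply_symm_apply]
      exact hg
  rw [h3]
  exact Ideal.comap_isPrime _ _

/-- the scalar case: `(u ∧ v, v₁² + v₂ v₃ - c)` is prime in `A⟦v⟧⟦u⟧`. -/
theorem isPrime_scalar (c : A) (hc : c ∈ maximalIdeal A) (hc0 : c ≠ 0) :
    (KI (Fin 3) A ⊔ Ideal.span {(C (quad A - C c) : PP (Fin 3) A)}).IsPrime :=
  isPrime_cone (quad A) constantCoeff_quad c hc0 (isPrime_quad c hc hc0)

end Quadric

end Fermat.Agent.TAlg
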