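import Mathlib
import Fermat.Agent.TAlg.Family
import Fermat.Agent.TAlg.Quadric

/-! # (A4) local packages: ideals attached to pairs of matrices. -/

set_option autoImplicit false
set_option linter.unusedSectionVars false

open IsLocalRing

namespace Fermat.Agent.TAlg

/-- complete local noetherian rings with finite residue field -/
structure CLR where
  carrier : Type
  [cr : CommRing carrier]
  [lr : IsLocalRing carrier]
  [nr : IsNoetherianRing carrier]
  [ac : IsAdicComplete (maximalIdeal carrier) carrier]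
  [fr : Finite (ResidueField carrier)]

attribute [instance] CLR.cr CLR.lr CLR.nr CLR.ac CLR.fr

instance : CoeSort CLR Type := ⟨CLR.carrier⟩

/-- two by two matrices -/
abbrev M2 (R : Type) : Type := Matrix (Fin 2) (Fin 2) R

section Ent

variable {R S : Type} [CommRing R] [CommRing S]

/-- the ideal generated by the entries of a matrix -/
def ent (M : M2 R) : Ideal R := Ideal.span (Set.range fun p : Fin 2 × Fin 2 => M p.1 p.2)

lemma mem_ent (M : M2 R) (i j : Fin 2) : M i j ∈ ent M := Ideal.subset_span ⟨(i, j), rfl⟩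

lemma ent_le_iff {M : M2 R} {I : Ideal R} : ent M ≤ I ↔ ∀ i j, M i j ∈ I := by
  rw [ent, Ideal.span_le]
  constructor
  · intro h i j
    exact h ⟨(i, j), rfl⟩
  · rintro h _ ⟨⟨i, j⟩, rfl⟩
    exact h i j

lemma ent_le_ker_iff {M : M2 R} {f : R →+* S} : ent M ≤ RingHom.ker f ↔ M.map f = 0 := by
  rw [ent_le_iff]
  constructor
  · intro h
    ext i j
    exact h i j
  · intro h i j
    exact congrFun (congrFun h i) j

lemma ent_eq_bot_iff {M : M2 R} : ent M = ⊥ ↔ M = 0 := by
  rw [eq_bot_iff, ent_le_iff]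
  constructor
  · intro h
    ext i j
    exact h i j
  · rintro rfl i j
    exact zero_mem _

lemma map_ent (f : R →+* S) (M : M2 R) : (ent M).map f = ent (M.map f) := by
  rw [ent, ent, Ideal.map_span, ← Set.range_comp]
  rfl

lemma ent_mul_left (M N : M2 R) : ent (M * N) ≤ ent N := by
  rw [ent_le_iff]
  intro i j
  rw [Matrix.mul_apply]
  exact Ideal.sum_mem _ (fun k _ => Ideal.mul_mem_left _ _ (mem_ent N k j))

lemma ent_mul_right (M N : M2 R) : ent (M * N) ≤ ent M := by
  rw [ent_le_iff]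
  intro i j
  rw [Matrix.mul_apply]
  exact Ideal.sum_mem _ (fun k _ => Ideal.mul_mem_right _ _ (mem_ent M i k))

lemma ent_add_le (M N : M2 R) : ent (M + N) ≤ ent M ⊔ ent N := by
  rw [ent_le_iff]
  intro i j
  rw [Matrix.add_apply]
  exact Ideal.add_mem _ (Ideal.mem_sup_left (mem_ent M i j)) (Ideal.mem_sup_right (mem_ent N i j))

lemma ent_smul_le (r : R) (M : M2 R) : ent (r • M) ≤ ent M := by
  rw [ent_le_iff]
  intro i j
  rw [Matrix.smul_apply, smul_eq_mul]
  exact Ideal.mul_mem_left _ _ (mem_ent M i j)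

/-- conjugation invariance of `ent` -/
lemma ent_conj {g g' : M2 R} (h : g * g' = 1) (h' : g' * g = 1) (M : M2 R) :
    ent (g * M * g') = ent M := by
  apply le_antisymm
  · exact (ent_mul_right _ _).trans (ent_mul_left _ _)
  · have h1 : M = g' * (g * M * g') * g := by
      calc M = (g' * g) * M * (g' * g) := by rw [h', one_mul, mul_one]
        _ = g' * (g * M * g') * g := by simp only [mul_assoc]
    calc ent M = ent (g' * (g * M * g') * g) := by rw [← h1]
      _ ≤ _ := (ent_mul_right _ _).trans (ent_mul_left _ _)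

end Ent

section J

variable {R S : Type} [CommRing R] [CommRing S]

/-- unipotent type: `Φ (Σ - 1) = q (Σ - 1) Φ`, `tr Σ = 2`. -/
def J1 (q : R) (Φ T : M2 R) : Ideal R :=
  ent (Φ * (T - 1) - q • ((T - 1) * Φ)) ⊔ Ideal.span {T.trace - 2}

/-- type `χ`: `Φ Σ = Σ Φ`, `tr Σ = t`. -/
def Jchi (t : R) (Φ T : M2 R) : Ideal R :=
  ent (Φ * T - T * Φ) ⊔ Ideal.span {T.trace - t}

/-- unramified -/
def Junr (T : M2 R) : Ideal R := ent (T - 1)

/-- Steinberg -/
def Jst (ε q : R) (Φ T : M2 R) : Ideal R :=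
  ent ((Φ - (ε * q) • (1 : M2 R)) * (T - 1)) ⊔ ent ((T - 1) * (Φ - ε • (1 : M2 R))) ⊔
    Ideal.span {T.trace - 2} ⊔ Ideal.span {Φ.trace - ε * (q + 1)}

/-- level raising -/
def Jrz (ε q : R) (Φ T : M2 R) : Ideal R :=
  ent (T - 1) ⊔ Ideal.span {Φ.trace - ε * (q + 1)}

lemma map_J1 (f : R →+* S) (q : R) (Φ T : M2 R) :
    (J1 q Φ T).map f = J1 (f q) (Φ.map f) (T.map f) := by
  rw [J1, J1, Ideal.map_sup, map_ent, Ideal.map_span, Set.image_singleton]
  congr 2
  · ext i j
    fin_cases i <;> fin_cases j <;> simp [Matrix.mul_apply]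
  · congr 1
    simp [Matrix.trace, map_ofNat f 2]

lemma map_Jchi (f : R →+* S) (t : R) (Φ T : M2 R) :
    (Jchi t Φ T).map f = Jchi (f t) (Φ.map f) (T.map f) := by
  rw [Jchi, Jchi, Ideal.map_sup, map_ent, Ideal.map_span, Set.image_singleton]
  congr 2
  · ext i j
    fin_cases i <;> fin_cases j <;> simp [Matrix.mul_apply]
  · congr 1
    simp [Matrix.trace]

lemma map_Junr (f : R →+* S) (T : M2 R) : (Junr T).map f = Junr (T.map f) := by
  rw [Junr, Junr, map_ent]
  congr 1
  ext i j
  fin_cases i <;> fin_cases j <;> simp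

lemma map_Jst (f : R →+* S) (ε q : R) (Φ T : M2 R) :
    (Jst ε q Φ T).map f = Jst (f ε) (f q) (Φ.map f) (T.map f) := by
  have e1 : ((Φ - (ε * q) • (1 : M2 R)) * (T - 1)).map f =
      (Φ.map f - (f ε * f q) • (1 : M2 S)) * (T.map f - 1) := by
    ext i j
    fin_cases i <;> fin_cases j <;> simp [Matrix.mul_apply]
  have e2 : ((T - 1) * (Φ - ε • (1 : M2 R))).map f =
      (T.map f - 1) * (Φ.map f - f ε • (1 : M2 S)) := by
    ext i j
    fin_cases i <;> fin_cases j <;> simp [Matrix.mul_apply]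
  have e3 : f (T.trace - 2) = (T.map f).trace - 2 := by simp [Matrix.trace, map_ofNat f 2]
  have e4 : f (Φ.trace - ε * (q + 1)) = (Φ.map f).trace - f ε * (f q + 1) := by
    simp [Matrix.trace]
  rw [Jst, Jst, Ideal.map_sup, Ideal.map_sup, Ideal.map_sup, map_ent, map_ent, Ideal.map_span,
    Set.image_singleton, Ideal.map_span, Set.image_singleton, e1, e2, e3, e4]

lemma map_Jrz (f : R →+* S) (ε q : R) (Φ T : M2 R) :
    (Jrz ε q Φ T).map f = Jrz (f ε) (f q) (Φ.map f) (T.map f) := by
  rw [Jrz, Jrz, Ideal.map_sup, map_ent, Ideal.map_span, Set.image_singleton]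
  congr 2
  · ext i j
    fin_cases i <;> fin_cases j <;> simp
  · simp [Matrix.trace]

section Conj

variable {g g' : M2 R} (h : g * g' = 1) (h' : g' * g = 1)

include h' in
lemma trace_conj (M : M2 R) : (g * M * g').trace = M.trace := by
  rw [Matrix.trace_mul_comm, ← mul_assoc, h', one_mul]

include h h' in
lemma J1_conj (q : R) (Φ T : M2 R) : J1 q (g * Φ * g') (g * T * g') = J1 q Φ T := by
  rw [J1, J1, trace_conj h', ← ent_conj h h' (Φ * (T - 1) - q • ((T - 1) * Φ))]
  congr 2
  have e1 : g * T * g' - 1 = g * (T - 1) * g' := by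
    rw [mul_sub, sub_mul, mul_one, h]
  rw [e1]
  have e2 : g * Φ * g' * (g * (T - 1) * g') = g * (Φ * (T - 1)) * g' := by
    calc g * Φ * g' * (g * (T - 1) * g') = g * Φ * (g' * g) * (T - 1) * g' := by
          simp only [mul_assoc]
      _ = _ := by rw [h', mul_one]; simp only [mul_assoc]
  have e3 : g * (T - 1) * g' * (g * Φ * g') = g * ((T - 1) * Φ) * g' := by
    calc g * (T - 1) * g' * (g * Φ * g') = g * (T - 1) * (g' * g) * Φ * g' := by
          simp only [mul_assoc]
      _ = _ := by rw [h', mul_one]; simp only [mul_assoc]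
  rw [e2, e3, mul_sub g, sub_mul _ _ g', mul_smul_comm q g, smul_mul_assoc q]

include h h' in
lemma Jchi_conj (t : R) (Φ T : M2 R) : Jchi t (g * Φ * g') (g * T * g') = Jchi t Φ T := by
  rw [Jchi, Jchi, trace_conj h', ← ent_conj h h' (Φ * T - T * Φ)]
  congr 2
  have e2 : ∀ A B : M2 R, g * A * g' * (g * B * g') = g * (A * B) * g' := by
    intro A B
    calc g * A * g' * (g * B * g') = g * A * (g' * g) * B * g' := by
          simp only [mul_assoc]
      _ = _ := by rw [h', mul_one]; simp only [mul_assoc]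
  rw [e2, e2, mul_sub, sub_mul]

include h h' in
lemma Junr_conj (T : M2 R) : Junr (g * T * g') = Junr T := by
  rw [Junr, Junr, ← ent_conj h h' (T - 1), mul_sub, sub_mul, mul_one, h]

include h h' in
lemma Jst_conj (ε q : R) (Φ T : M2 R) : Jst ε q (g * Φ * g') (g * T * g') = Jst ε q Φ T := by
  rw [Jst, Jst, trace_conj h', trace_conj h',
    ← ent_conj h h' ((Φ - (ε * q) • (1 : M2 R)) * (T - 1)),
    ← ent_conj h h' ((T - 1) * (Φ - ε • (1 : M2 R)))]
  have e1 : g * T * g' - 1 = g * (T - 1) * g' := by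
    rw [mul_sub, sub_mul, mul_one, h]
  have e0 : ∀ r : R, g * Φ * g' - r • (1 : M2 R) = g * (Φ - r • (1 : M2 R)) * g' := by
    intro r
    rw [mul_sub, sub_mul, mul_smul_comm, mul_one, smul_mul_assoc, h]
  have e2 : ∀ A B : M2 R, g * A * g' * (g * B * g') = g * (A * B) * g' := by
    intro A B
    calc g * A * g' * (g * B * g') = g * A * (g' * g) * B * g' := by
          simp only [mul_assoc]
      _ = _ := by rw [h', mul_one]; simp only [mul_assoc]
  rw [e1, e0, e0, e2, e2]

include h h' in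
lemma Jrz_conj (ε q : R) (Φ T : M2 R) : Jrz ε q (g * Φ * g') (g * T * g') = Jrz ε q Φ T := by
  rw [Jrz, Jrz, trace_conj h', ← ent_conj h h' (T - 1), mul_sub, sub_mul, mul_one, h]

end Conj

end J

end Fermat.Agent.TAlg
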