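import Mathlib
import Fermat.Agent.TAlg.Local

/-! # (A4) tools: square roots, kernels, dimension estimates. -/

set_option autoImplicit false
set_option linter.unusedSectionVars false

open IsLocalRing

namespace Fermat.Agent.TAlg

section Sqrt

variable {R : Type} [CommRing R] [IsLocalRing R]

lemma exists_sqrt [IsAdicComplete (maximalIdeal R) R] (h2 : IsUnit (2 : R)) (a x₀ : R)
    (hx₀ : IsUnit x₀) (h : x₀ ^ 2 - a ∈ maximalIdeal R) :
    ∃ x, x ^ 2 = a ∧ x - x₀ ∈ maximalIdeal R := by
  open Polynomial in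
  obtain ⟨x, hx, hx'⟩ := HenselianRing.is_henselian (I := maximalIdeal R)
    (X ^ 2 - C a : R[X]) (monic_X_pow_sub_C a two_ne_zero) x₀
    (by simpa using h) (by
      have h1 : eval x₀ (derivative (X ^ 2 - C a : R[X])) = 2 * x₀ := by
        simp [one_add_one_eq_two]
      rw [h1]
      exact (h2.mul hx₀).map _)
  refine ⟨x, ?_, hx'⟩
  have h3 : Polynomial.eval x (Polynomial.X ^ 2 - Polynomial.C a : Polynomial R) = 0 := hx
  simp only [Polynomial.eval_sub, Polynomial.eval_pow, Polynomial.eval_X, Polynomial.eval_C] at h3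
  exact sub_eq_zero.1 h3

lemma sqrt_unique (h2 : IsUnit (2 : R)) {x y : R} (hx : IsUnit x) (h : x ^ 2 = y ^ 2)
    (h' : x - y ∈ maximalIdeal R) : x = y := by
  have h1 : IsUnit (x + y) := by
    have h3 : x + y = 2 * x - (x - y) := by ring
    rw [h3]
    by_contra h4
    have h5 : 2 * x ∈ maximalIdeal R := by
      have : 2 * x = (2 * x - (x - y)) + (x - y) := by ring
      rw [this]
      exact Ideal.add_mem _ ((mem_maximalIdeal _).2 h4) h'
    exact (mem_maximalIdeal _).1 h5 (h2.mul hx)
  have h2 : (x + y) * (x - y) = 0 := by linear_combination h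
  have h3 := (h1.mul_right_eq_zero).1 h2
  exact sub_eq_zero.1 h3

end Sqrt

section KerMap

open MvPowerSeries

variable {σ R B : Type} [CommRing R] [IsNoetherianRing R] [CommRing B]

lemma exists_coeffs (I : Ideal R) (f : MvPowerSeries σ R) (hf : ∀ k, coeff k f ∈ I) :
    f ∈ I.map (C : R →+* MvPowerSeries σ R) := by
  obtain ⟨n, a, ha⟩ := Submodule.fg_iff_exists_fin_generating_family.1
    (IsNoetherian.noetherian I)
  have h1 : ∀ k, ∃ c : Fin n → R, ∑ i, c i * a i = coeff k f := by
    intro k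
    have h2 := hf k
    rw [← ha] at h2
    exact Ideal.mem_span_range_iff_exists_fun.1 h2
  choose c hc using h1
  have h2 : f = ∑ i, (mkPS (fun k => c k i) : MvPowerSeries σ R) * C (a i) := by
    apply MvPowerSeries.ext
    intro k
    rw [map_sum, ← hc k]
    refine Finset.sum_congr rfl (fun i _ => ?_)
    rw [mul_comm (mkPS _), coeff_C_mul, coeff_mkPS, mul_comm]
  rw [h2]
  refine Ideal.sum_mem _ (fun i _ => Ideal.mul_mem_left _ _ (Ideal.mem_map_of_mem _ ?_))
  rw [← ha]
  exact Ideal.subset_span ⟨i, rfl⟩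

lemma coeff_mem_of_mem_map_C {I : Ideal R} {f : MvPowerSeries σ R}
    (hf : f ∈ I.map (C : R →+* MvPowerSeries σ R)) (k : σ →₀ ℕ) : coeff k f ∈ I := by
  have h1 : I.map (C : R →+* MvPowerSeries σ R) ≤
      RingHom.ker (MvPowerSeries.map (σ := σ) (Ideal.Quotient.mk I)) := by
    rw [Ideal.map_le_iff_le_comap]
    intro x hx
    rw [Ideal.mem_comap, RingHom.mem_ker, map_C, Ideal.Quotient.eq_zero_iff_mem.2 hx, map_zero]
  have h2 := RingHom.mem_ker.1 (h1 hf)
  have h3 := congrArg (coeff k) h2
  rw [coeff_map, map_zero] at h3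
  exact Ideal.Quotient.eq_zero_iff_mem.1 h3

lemma mem_map_C_iff {I : Ideal R} {f : MvPowerSeries σ R} :
    f ∈ I.map (C : R →+* MvPowerSeries σ R) ↔ ∀ k, coeff k f ∈ I :=
  ⟨fun h k => coeff_mem_of_mem_map_C h k, exists_coeffs I f⟩

lemma ker_psmap (φ : R →+* B) :
    RingHom.ker (MvPowerSeries.map (σ := σ) φ) = (RingHom.ker φ).map C := by
  ext f
  rw [mem_map_C_iff, RingHom.mem_ker]
  constructor
  · intro h k
    rw [RingHom.mem_ker, ← coeff_map, h, map_zero]
  · intro h
    apply MvPowerSeries.ext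
    intro k
    rw [coeff_map, map_zero]
    exact h k

end KerMap

section Dim

variable {R : Type} [CommRing R]

open MvPowerSeries in
lemma ringKrullDim_add_natCard_le_mvPowerSeries (σ : Type) [Finite σ] :
    ringKrullDim R + Nat.card σ ≤ ringKrullDim (MvPowerSeries σ R) := by
  induction σ using Finite.induction_empty_option with
  | of_equiv e H =>
    convert! ← H using 1
    · rw [Nat.card_congr e]
    · exact ringKrullDim_eq_of_ringEquiv (renameEquiv _ e).toRingEquiv
  | h_empty =>
    simp only [Nat.card_eq_fintype_card, Fintype.card_pempty, Nat.cast_zero, add_zero]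
    exact (ringKrullDim_eq_of_ringEquiv (isEmptyEquiv (σ := PEmpty) (R := R)).toRingEquiv).ge
  | h_option IH =>
    simp only [Nat.card_eq_fintype_card, Fintype.card_option, Nat.cast_add, Nat.cast_one,
      ← add_assoc] at IH ⊢
    grw [IH, ringKrullDim_succ_le_ringKrullDim_powerseries]
    exact (ringKrullDim_eq_of_ringEquiv (MvPowerSeries.optionEquivLeft _ _).toRingEquiv).ge

/-- a system of parameters argument -/
lemma ringKrullDim_quotient_le_add_card [IsLocalRing R] [IsNoetherianRing R] (J K : Ideal R)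
    (s : Finset R) (hs : ∀ x ∈ s, x ∈ maximalIdeal R)
    (h : ∀ P : Ideal R, P.IsPrime → J ≤ P → (∀ x ∈ s, x ∈ P) → K ≤ P) :
    ringKrullDim (R ⧸ J) ≤ ringKrullDim (R ⧸ K) + s.card := by
  classical
  by_cases hJ : J = ⊤
  · have : Subsingleton (R ⧸ J) := Ideal.Quotient.subsingleton_iff.2 hJ
    rw [ringKrullDim_eq_bot_of_subsingleton]
    exact bot_le
  have := isLocalRing_quot J hJ
  let s' : Finset (R ⧸ J) := s.image (Ideal.Quotient.mk J)
  have h1 : ringKrullDim (R ⧸ J) ≤ ringKrullDim ((R ⧸ J) ⧸ Ideal.span (s' : Set (R ⧸ J))) +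
      s'.card := by
    apply ringKrullDim_le_ringKrullDim_quotient_add_card
    intro x hx
    rw [Finset.mem_coe, Finset.mem_image] at hx
    obtain ⟨y, hy, rfl⟩ := hx
    rw [IsLocalRing.ringJacobson_eq_maximalIdeal]
    have := hs y hy
    rw [← map_maximalIdeal_of_surjective (Ideal.Quotient.mk J) Ideal.Quotient.mk_surjective]
    exact Ideal.mem_map_of_mem _ this
  refine h1.trans (add_le_add ?_ ?_)
  · have h2 : Ideal.span (s' : Set (R ⧸ J)) = (Ideal.span (s : Set R)).map (Ideal.Quotient.mk J) := by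
      rw [Ideal.map_span, Finset.coe_image]
    rw [h2]
    have e := DoubleQuot.quotQuotEquivQuotSup J (Ideal.span (s : Set R))
    rw [ringKrullDim_eq_of_ringEquiv e]
    refine ringKrullDim_quotient_le_of_forall (fun _ : Unit => K) _ ?_ _ (fun _ => le_rfl)
    intro P hP hP'
    refine ⟨(), h P hP (le_sup_left.trans hP') (fun x hx => hP' (Ideal.mem_sup_right ?_))⟩
    exact Ideal.subset_span hx
  · exact_mod_cast Finset.card_image_le

end Dim

section Contraction

variable {R : Type} [CommRing R] [IsLocalRing R] [IsNoetherianRing R]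

lemma eq_zero_of_forall_pow' {c a : R} (hc : c ∈ maximalIdeal R)
    (h : ∀ n : ℕ, ∃ b, a = c ^ n * b) : a = 0 := by
  have h1 : a ∈ (⨅ n : ℕ, (maximalIdeal R) ^ n : Ideal R) := by
    rw [Submodule.mem_iInf]
    intro n
    obtain ⟨b, rfl⟩ := h n
    exact Ideal.mul_mem_right _ _ (Ideal.pow_mem_pow hc n)
  rw [Ideal.iInf_pow_eq_bot_of_isLocalRing _ (Ideal.IsMaximal.ne_top inferInstance)] at h1
  exact h1

open PowerSeries in
/-- `B → B⟦X⟧ ⧸ (X ^ m - c)` is injective. -/
lemma eq_zero_of_C_mem (m : ℕ) (hm : 0 < m) {c : R} (hc : c ∈ maximalIdeal R) {b : R}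
    (h : (PowerSeries.C b : PowerSeries R) ∈ Ideal.span {(X ^ m - C c : PowerSeries R)}) :
    b = 0 := by
  obtain ⟨g, hg⟩ := Ideal.mem_span_singleton'.1 h
  have h0 : b = - c * coeff 0 g := by
    have := congrArg (coeff 0) hg
    rw [mul_sub, map_sub, mul_comm g (C c), coeff_C_mul, mul_comm g, coeff_X_pow_mul',
      if_neg (by omega), coeff_zero_C] at this
    rw [← this]
    ring
  have h1 : ∀ k, coeff (k * m) g = c * coeff ((k + 1) * m) g := by
    intro k
    have := congrArg (coeff ((k + 1) * m)) hg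
    rw [mul_sub, map_sub, mul_comm g (C c), coeff_C_mul, mul_comm g, coeff_X_pow_mul',
      if_pos (by nlinarith), coeff_C, if_neg (by positivity)] at this
    have e1 : (k + 1) * m - m = k * m := by
      rw [add_mul, one_mul, Nat.add_sub_cancel]
    rw [e1] at this
    exact sub_eq_zero.1 this
  have h2 : ∀ k, coeff 0 g = c ^ k * coeff (k * m) g := by
    intro k
    induction k with
    | zero => simp
    | succ k ih => rw [ih, h1 k, pow_succ, mul_assoc]
  have h3 : coeff 0 g = 0 := eq_zero_of_forall_pow' hc (fun n => ⟨_, h2 n⟩)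
  rw [h0, h3, mul_zero]

end Contraction

end Fermat.Agent.TAlg
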