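import Mathlib
import Fermat.Agent.TAlg.Tools

/-! # (A4) one prime at a time. -/

set_option autoImplicit false
set_option linter.unusedSectionVars false

open IsLocalRing

namespace Fermat.Agent.TAlg

/-- A universal pair of matrices `(Φ, T)` over a base ring `R`. -/
structure Step (R : CLR) (q : R) (Φ₀ : M2 R) where
  R' : CLR
  i : R →+* R'
  loc : IsLocalHom i
  Φ : M2 R'
  T : M2 R'
  detΦ : Φ.det = i q
  detT : T.det = 1
  hΦ : ∀ a b, Φ a b - i (Φ₀ a b) ∈ maximalIdeal R'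
  hT : ∀ a b, T a b - (1 : M2 R') a b ∈ maximalIdeal R'
  univ : ∀ (B : Type) [CommRing B] [IsLocalRing B] [IsAdicComplete (maximalIdeal B) B]
    (f : R →+* B) [IsLocalHom f] (Φ' T' : M2 B), Φ'.det = f q → T'.det = 1 →
    (∀ a b, Φ' a b - f (Φ₀ a b) ∈ maximalIdeal B) →
    (∀ a b, T' a b - (1 : M2 B) a b ∈ maximalIdeal B) →
    ∃ f' : R' →+* B, IsLocalHom f' ∧ f'.comp i = f ∧ Φ.map f' = Φ' ∧ T.map f' = T'
  res : ∀ x : R', ∃ r : R, x - i r ∈ maximalIdeal R'

attribute [instance] Step.loc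

/-- inductive step property of an ideal `J` of `R'` over a prime `I` of `R` -/
def Good {R R' : Type} [CommRing R] [CommRing R'] (i : R →+* R') (I : Ideal R) (J : Ideal R') :
    Prop :=
  (I.map i ⊔ J).IsPrime ∧ (I.map i ⊔ J).comap i = I ∧
    ringKrullDim (R' ⧸ (I.map i ⊔ J)) ≤ ringKrullDim (R ⧸ I) + (3 : ℕ)

section General

variable {R R' B B' : Type} [CommRing R] [CommRing R'] [CommRing B] [CommRing B']

lemma comap_map_eq' (i : R →+* R') (φ : R →+* B) (φ' : R' →+* B')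
    (hφ' : Function.Surjective φ') (hker : RingHom.ker φ' = (RingHom.ker φ).map i)
    (J : Ideal R') : (J.map φ').comap φ' = (RingHom.ker φ).map i ⊔ J := by
  rw [Ideal.comap_map_of_surjective _ hφ', ← RingHom.ker_eq_comap_bot, hker, sup_comm]

lemma prime_of_baseChange (i : R →+* R') (φ : R →+* B) (φ' : R' →+* B')
    (hφ' : Function.Surjective φ') (iB : B →+* B') (comm : φ'.comp i = iB.comp φ)
    (hker : RingHom.ker φ' = (RingHom.ker φ).map i)
    (J : Ideal R') (hJ : (J.map φ').IsPrime) (hinj : (J.map φ').comap iB = ⊥) :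
    ((RingHom.ker φ).map i ⊔ J).IsPrime ∧
      ((RingHom.ker φ).map i ⊔ J).comap i = RingHom.ker φ := by
  rw [← comap_map_eq' i φ φ' hφ' hker J]
  constructor
  · exact Ideal.comap_isPrime φ' _
  · rw [Ideal.comap_comap, comm, ← Ideal.comap_comap, hinj]
    rfl

variable [IsLocalRing R] [IsLocalRing R'] [IsNoetherianRing R']

lemma dim_bound (i : R →+* R') (𝔞 : Ideal R') (h𝔞 : ∀ x, ∃ r, x - i r ∈ 𝔞)
    (I : Ideal R) (P₀ : Ideal R') (hI : I.map i ≤ P₀) (s : Finset R')
    (hs : ∀ x ∈ s, x ∈ maximalIdeal R')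
    (h : ∀ P : Ideal R', P.IsPrime → P₀ ≤ P → (∀ x ∈ s, x ∈ P) → 𝔞 ≤ P) (m : ℕ)
    (hcard : s.card ≤ m) :
    ringKrullDim (R' ⧸ P₀) ≤ ringKrullDim (R ⧸ I) + m := by
  refine (ringKrullDim_quotient_le_add_card P₀ (𝔞 ⊔ I.map i) s hs ?_).trans (add_le_add ?_ ?_)
  · intro P hP h1 h2
    exact sup_le (h P hP h1 h2) (hI.trans h1)
  · let g : R ⧸ I →+* R' ⧸ (𝔞 ⊔ I.map i) := Ideal.Quotient.lift I
      ((Ideal.Quotient.mk (𝔞 ⊔ I.map i)).comp i) (fun a ha => by
        rw [RingHom.comp_apply, Ideal.Quotient.eq_zero_iff_mem]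
        exact Ideal.mem_sup_right (Ideal.mem_map_of_mem _ ha))
    apply ringKrullDim_le_of_surjective g
    intro x
    obtain ⟨x, rfl⟩ := Ideal.Quotient.mk_surjective x
    obtain ⟨r, hr⟩ := h𝔞 x
    refine ⟨Ideal.Quotient.mk _ r, ?_⟩
    change Ideal.Quotient.mk (𝔞 ⊔ I.map i) (i r) = _
    rw [eq_comm, Ideal.Quotient.eq]
    exact Ideal.mem_sup_left hr
  · exact_mod_cast hcard

lemma dim_bound_chi (i : R →+* R') [IsLocalHom i] (𝔞 : Ideal R') (h𝔞 : ∀ x, ∃ r, x - i r ∈ 𝔞)
    (I : Ideal R) [I.IsPrime] (c : R) (hcm : c ∈ maximalIdeal R) (hc : c ∉ I) (P₀ : Ideal R')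
    (hI : I.map i ≤ P₀) (s : Finset R')
    (hs : ∀ x ∈ s, x ∈ maximalIdeal R')
    (h : ∀ P : Ideal R', P.IsPrime → P₀ ≤ P → i c ∈ P → (∀ x ∈ s, x ∈ P) → 𝔞 ≤ P) (m : ℕ)
    (hcard : s.card ≤ m) :
    ringKrullDim (R' ⧸ P₀) ≤ ringKrullDim (R ⧸ I) + m := by
  classical
  let s' : Finset R' := insert (i c) s
  have h1 : ringKrullDim (R' ⧸ P₀) ≤ ringKrullDim (R ⧸ (I ⊔ Ideal.span {c})) + (m + 1 : ℕ) := by
    refine (ringKrullDim_quotient_le_add_card P₀ (𝔞 ⊔ (I ⊔ Ideal.span {c}).map i) s' ?_ ?_).trans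
      (add_le_add ?_ ?_)
    · intro x hx
      rw [Finset.mem_insert] at hx
      rcases hx with rfl | hx
      · exact (mem_maximalIdeal _).2 fun h => (mem_maximalIdeal _).1 hcm (isUnit_of_map_unit i c h)
      · exact hs x hx
    · intro P hP h1 h2
      refine sup_le (h P hP h1 (h2 _ (Finset.mem_insert_self _ _))
        (fun x hx => h2 x (Finset.mem_insert_of_mem hx))) ?_
      rw [Ideal.map_sup, Ideal.map_span, Set.image_singleton]
      refine sup_le (hI.trans h1) ?_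
      rw [Ideal.span_singleton_le_iff_mem]
      exact h2 _ (Finset.mem_insert_self _ _)
    · let g : R ⧸ (I ⊔ Ideal.span {c}) →+* R' ⧸ (𝔞 ⊔ (I ⊔ Ideal.span {c}).map i) :=
        Ideal.Quotient.lift _
        ((Ideal.Quotient.mk (𝔞 ⊔ (I ⊔ Ideal.span {c}).map i)).comp i) (fun a ha => by
          rw [RingHom.comp_apply, Ideal.Quotient.eq_zero_iff_mem]
          exact Ideal.mem_sup_right (Ideal.mem_map_of_mem _ ha))
      apply ringKrullDim_le_of_surjective g
      intro x
      obtain ⟨x, rfl⟩ := Ideal.Quotient.mk_surjective x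
      obtain ⟨r, hr⟩ := h𝔞 x
      refine ⟨Ideal.Quotient.mk _ r, ?_⟩
      change Ideal.Quotient.mk (𝔞 ⊔ (I ⊔ Ideal.span {c}).map i) (i r) = _
      rw [eq_comm, Ideal.Quotient.eq]
      exact Ideal.mem_sup_left hr
    · have : s'.card ≤ m + 1 := (Finset.card_insert_le _ _).trans (by omega)
      exact_mod_cast this
  have h2 : ringKrullDim (R ⧸ (I ⊔ Ideal.span {c})) + 1 ≤ ringKrullDim (R ⧸ I) := by
    have h3 : (Ideal.Quotient.mk I c) ∈ nonZeroDivisors (R ⧸ I) := by
      apply mem_nonZeroDivisors_of_ne_zero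
      rwa [Ne, Ideal.Quotient.eq_zero_iff_mem]
    refine le_trans (le_of_eq ?_) (ringKrullDim_quotient_succ_le_of_nonZeroDivisor h3)
    rw [← Set.image_singleton, ← Ideal.map_span,
      ringKrullDim_eq_of_ringEquiv (DoubleQuot.quotQuotEquivQuotSup I (Ideal.span {c}))]
  refine h1.trans ?_
  refine le_trans (le_of_eq ?_) (add_le_add_left h2 (m : WithBot ℕ∞))
  push_cast
  rw [add_assoc, add_comm (1 : WithBot ℕ∞)]

end General

section PSLocal

open MvPowerSeries

variable {σ A B : Type} [Finite σ] [CommRing A] [IsLocalRing A] [CommRing B] [IsLocalRing B]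

lemma constantCoeff_surj' : Function.Surjective
    (constantCoeff : MvPowerSeries σ A →+* A) := fun a => ⟨C a, constantCoeff_C _⟩

instance isLocalHom_C : IsLocalHom (C : A →+* MvPowerSeries σ A) := by
  constructor
  intro a ha
  have := ha.map (constantCoeff : MvPowerSeries σ A →+* A)
  rwa [constantCoeff_C] at this

lemma mem_XI_iff {A : Type} [CommRing A] (f : MvPowerSeries σ A) :
    f ∈ H04.XI σ A ↔ constantCoeff f = 0 := by
  constructor
  · intro h
    have h1 : H04.XI σ A ≤ RingHom.ker (constantCoeff : MvPowerSeries σ A →+* A) := by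
      rw [Ideal.span_le]
      rintro _ ⟨i, rfl⟩
      exact constantCoeff_X i
    exact h1 h
  · intro h
    have h1 := H04.sub_trunc_mem 1 f
    have h2 : truncTotal 1 f = 0 := by
      apply MvPolynomial.ext
      intro m
      rw [MvPolynomial.coeff_zero]
      by_cases hm : m.degree < 1
      · rw [coeff_truncTotal f hm]
        have : m = 0 := by
          rw [Nat.lt_one_iff] at hm
          exact (Finsupp.degree_eq_zero_iff m).1 hm
        rw [this]
        exact h
      · exact coeff_truncTotal_eq_zero f (not_lt.1 hm)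
    rw [h2] at h1
    simpa using h1

lemma lift_sub_mem [IsAdicComplete (maximalIdeal B) B] (g : A →+* B) (b : σ → B)
    (hb : ∀ i, b i ∈ maximalIdeal B) (f : MvPowerSeries σ A) :
    lift (maximalIdeal B) g b hb f - g (constantCoeff f) ∈ maximalIdeal B := by
  have h1 : f - C (constantCoeff f) ∈ H04.XI σ A := by
    rw [mem_XI_iff]
    simp
  have h2 : (H04.XI σ A).map (lift (maximalIdeal B) g b hb) ≤ maximalIdeal B := by
    rw [H04.XI, Ideal.map_span, Ideal.span_le]
    rintro _ ⟨_, ⟨i, rfl⟩, rfl⟩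
    rw [SetLike.mem_coe, lift_X]
    exact hb i
  have h3 := h2 (Ideal.mem_map_of_mem _ h1)
  rwa [map_sub, lift_C] at h3

lemma isLocalHom_lift [IsAdicComplete (maximalIdeal B) B] (g : A →+* B) [IsLocalHom g] (b : σ → B)
    (hb : ∀ i, b i ∈ maximalIdeal B) : IsLocalHom (lift (maximalIdeal B) g b hb) := by
  constructor
  intro f hf
  by_contra hf'
  have h1 : f ∈ maximalIdeal _ := (mem_maximalIdeal _).2 hf'
  rw [mem_maxIdeal_iff] at h1
  have h2 : g (constantCoeff f) ∈ maximalIdeal B :=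
    (mem_maximalIdeal _).2 fun h => (mem_maximalIdeal _).1 h1 (isUnit_of_map_unit g _ h)
  have h3 := Ideal.add_mem _ (lift_sub_mem g b hb f) h2
  rw [sub_add_cancel] at h3
  exact (mem_maximalIdeal _).1 h3 hf

end PSLocal

end Fermat.Agent.TAlg
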