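import Mathlib
import Fermat.Agent.TAlg.Step

/-! # (A4), scalar case: `Φ ≡ ε`. -/

set_option autoImplicit false
set_option linter.unusedSectionVars false

open IsLocalRing MvPowerSeries

namespace Fermat.Agent.TAlg

section Alg

variable {R : Type} [CommRing R]

/-- the generic matrix `x + U` with `U` of trace zero -/
def genM (x u v w : R) : M2 R := !![x + u, v; w, x - u]

lemma det_genM (x u v w : R) : (genM x u v w).det = x ^ 2 - u ^ 2 - v * w := by
  rw [genM, Matrix.det_fin_two_of]; ring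

lemma trace_genM (x u v w : R) : (genM x u v w).trace = 2 * x := by
  rw [genM, Matrix.trace_fin_two_of]; ring

lemma map_genM {S : Type} [CommRing S] (f : R →+* S) (x u v w : R) :
    (genM x u v w).map f = genM (f x) (f u) (f v) (f w) := by
  ext i j
  fin_cases i <;> fin_cases j <;> simp [genM]

lemma eq_genM (h : R) (h2 : 2 * h = 1) (M : M2 R) :
    M = genM (M.trace * h) ((M 0 0 - M 1 1) * h) (M 0 1) (M 1 0) := by
  ext i j
  fin_cases i <;> fin_cases j
  · simp only [genM, Matrix.trace_fin_two, Fin.zero_eta, Matrix.of_apply, Matrix.cons_val', Matrix.cons_val_zero, Matrix.cons_val_fin_one]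
    linear_combination (-(M 0 0)) * h2
  · simp [genM]
  · simp [genM]
  · simp only [genM, Matrix.trace_fin_two, Fin.mk_one, Matrix.of_apply, Matrix.cons_val', Matrix.cons_val_one, Matrix.cons_val_fin_one]
    linear_combination (-(M 1 1)) * h2

lemma comm_genM (x u v w y a b c : R) :
    genM x u v w * genM y a b c - genM y a b c * genM x u v w =
      !![v * c - b * w, 2 * (u * b - a * v); 2 * (w * a - u * c), w * b - c * v] := by
  ext i j
  fin_cases i <;> fin_cases j <;> simp [genM, Matrix.mul_apply] <;> ring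

/-- the ideal `Jchi` for generic matrices -/
lemma Jchi_genM (t x u v w y a b c : R) (h : R) (h2 : 2 * h = 1) (hu : IsUnit (2 * y + t)) :
    Jchi t (genM x u v w) (genM y a b c) =
      Ideal.span {u * b - v * a, u * c - w * a, v * c - w * b} ⊔
        Ideal.span {y ^ 2 - (t * h) ^ 2} := by
  have hh : IsUnit (2 : R) := IsUnit.of_mul_eq_one _ h2
  rw [Jchi, comm_genM, trace_genM]
  congr 1
  · apply le_antisymm
    · rw [ent_le_iff]
      have m1 : u * b - v * a ∈ Ideal.span {u * b - v * a, u * c - w * a, v * c - w * b} :=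
        Ideal.subset_span (by simp)
      have m2 : u * c - w * a ∈ Ideal.span {u * b - v * a, u * c - w * a, v * c - w * b} :=
        Ideal.subset_span (by simp)
      have m3 : v * c - w * b ∈ Ideal.span {u * b - v * a, u * c - w * a, v * c - w * b} :=
        Ideal.subset_span (by simp)
      intro i j
      fin_cases i <;> fin_cases j
      · have : v * c - b * w = v * c - w * b := by ring
        change v * c - b * w ∈ _
        rw [this]
        exact m3
      · have : 2 * (u * b - a * v) = 2 * (u * b - v * a) := by ring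
        change 2 * (u * b - a * v) ∈ _
        rw [this]
        exact Ideal.mul_mem_left _ _ m1
      · have : 2 * (w * a - u * c) = (-2) * (u * c - w * a) := by ring
        change 2 * (w * a - u * c) ∈ _
        rw [this]
        exact Ideal.mul_mem_left _ _ m2
      · have : w * b - c * v = (-1) * (v * c - w * b) := by ring
        change w * b - c * v ∈ _
        rw [this]
        exact Ideal.mul_mem_left _ _ m3
    · set M : M2 R := !![v * c - b * w, 2 * (u * b - a * v); 2 * (w * a - u * c), w * b - c * v]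
        with hM
      have e1 : u * b - v * a = h * M 0 1 := by
        rw [hM]
        simp only [Matrix.of_apply, Matrix.cons_val', Matrix.cons_val_one, Matrix.cons_val_fin_one,
          Matrix.cons_val_zero]
        linear_combination (-(u * b - v * a)) * h2
      have e2 : u * c - w * a = (-h) * M 1 0 := by
        rw [hM]
        simp only [Matrix.of_apply, Matrix.cons_val', Matrix.cons_val_one, Matrix.cons_val_fin_one,
          Matrix.cons_val_zero]
        linear_combination (-(u * c - w * a)) * h2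
      have e3 : v * c - w * b = M 0 0 := by
        rw [hM]
        simp only [Matrix.of_apply, Matrix.cons_val', Matrix.cons_val_one, Matrix.cons_val_fin_one,
          Matrix.cons_val_zero]
        ring
      rw [Ideal.span_le]
      intro z hz
      rw [Set.mem_insert_iff, Set.mem_insert_iff, Set.mem_singleton_iff] at hz
      rcases hz with rfl | rfl | rfl
      · rw [SetLike.mem_coe, e1]
        exact Ideal.mul_mem_left _ _ (mem_ent _ _ _)
      · rw [SetLike.mem_coe, e2]
        exact Ideal.mul_mem_left _ _ (mem_ent _ _ _)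
      · rw [SetLike.mem_coe, e3]
        exact mem_ent _ _ _
  · have hu' : IsUnit ((2 * y + t) * h ^ 2) := hu.mul ((IsUnit.of_mul_eq_one (2 : R)
      (by rw [mul_comm]; exact h2)).pow 2)
    have e : y ^ 2 - (t * h) ^ 2 = (2 * y - t) * ((2 * y + t) * h ^ 2) := by
      have h4 : 4 * h ^ 2 = 1 := by linear_combination (2 * h + 1) * h2
      linear_combination (-(y ^ 2)) * h4
    rw [e, Ideal.span_singleton_mul_right_unit hu']

end Alg

section Cong

variable {B : Type} [CommRing B] [IsLocalRing B]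

lemma isUnit_of_sub_mem {x y : B} (hy : IsUnit y) (h : x - y ∈ maximalIdeal B) : IsUnit x := by
  by_contra hx
  have h1 : x ∈ maximalIdeal B := (mem_maximalIdeal _).2 hx
  have h2 : y ∈ maximalIdeal B := by
    have := Ideal.sub_mem _ h1 h
    rwa [sub_sub_cancel] at this
  exact (mem_maximalIdeal _).1 h2 hy

lemma map_mem_maxIdeal {A : Type} [CommRing A] [IsLocalRing A] (f : A →+* B) [IsLocalHom f] {a : A}
    (ha : a ∈ maximalIdeal A) : f a ∈ maximalIdeal B :=
  (mem_maximalIdeal _).2 fun h => (mem_maximalIdeal _).1 ha (isUnit_of_map_unit f a h)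

end Cong

section S

lemma two_unit {A : Type} [CommRing A] {h : A} (h2 : 2 * h = 1) : IsUnit (2 : A) :=
  IsUnit.of_mul_eq_one _ h2

lemma two_map {A B : Type} [CommRing A] [CommRing B] (f : A →+* B) {h : A} (h2 : 2 * h = 1) :
    2 * f h = 1 := by
  rw [← map_ofNat f 2, ← map_mul, h2, map_one]

lemma constantCoeff_quad' {A : Type} [CommRing A] : constantCoeff (quad A) = 0 := by
  simp [quad]

/-- comparing square roots -/
lemma eq_half_trace {B : Type} [CommRing B] [IsLocalRing B] {h ε d x : B} (h2 : 2 * h = 1)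
    (hε : IsUnit ε) (M : M2 B) (hM : M.det = d)
    (hx : x ^ 2 = d + ((M 0 0 - M 1 1) * h) ^ 2 + M 0 1 * M 1 0)
    (hx' : x - ε ∈ maximalIdeal B) (ht : M.trace - 2 * ε ∈ maximalIdeal B) :
    x = M.trace * h := by
  refine sqrt_unique (two_unit h2) (isUnit_of_sub_mem hε hx') ?_ ?_
  · rw [hx, ← hM, Matrix.det_fin_two, Matrix.trace_fin_two]
    linear_combination (-(M 0 0 * M 1 1) * (2 * h + 1)) * h2
  · have e : x - M.trace * h = (x - ε) - (M.trace - 2 * ε) * h := by
      linear_combination (-ε) * h2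
    rw [e]
    exact Ideal.sub_mem _ hx' (Ideal.mul_mem_right _ _ ht)

variable {R : Type} [CommRing R] [IsLocalRing R] [IsNoetherianRing R]
  [IsAdicComplete (maximalIdeal R) R]

lemma exists_xS {h q ε : R} (h2 : 2 * h = 1) (hε : IsUnit ε) (hq : ε ^ 2 - q ∈ maximalIdeal R) :
    ∃ x : PP (Fin 3) R, x ^ 2 = C (C q) + quad (MvPowerSeries (Fin 3) R) ∧
      x - C (C ε) ∈ maximalIdeal (PP (Fin 3) R) := by
  refine exists_sqrt (two_unit (two_map C (two_map C h2))) _ _ ((hε.map C).map C) ?_
  rw [mem_maxIdeal_iff, map_sub, map_add, constantCoeff_quad', add_zero, map_pow,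
    constantCoeff_C, constantCoeff_C, mem_maxIdeal_iff, map_sub, map_pow, constantCoeff_C,
    constantCoeff_C]
  exact hq

lemma exists_yS {h : R} (h2 : 2 * h = 1) :
    ∃ y : MvPowerSeries (Fin 3) R, y ^ 2 = 1 + quad R ∧
      y - 1 ∈ maximalIdeal (MvPowerSeries (Fin 3) R) := by
  refine exists_sqrt (two_unit (two_map C h2)) _ _ isUnit_one ?_
  rw [mem_maxIdeal_iff, map_sub, map_add, constantCoeff_quad', add_zero,
    map_one, one_pow, map_one, sub_self]
  exact zero_mem _

lemma genM_sub_mem {B : Type} [CommRing B] [IsLocalRing B] {x u v w x' u' v' w' : B}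
    (hx : x - x' ∈ maximalIdeal B) (hu : u - u' ∈ maximalIdeal B) (hv : v - v' ∈ maximalIdeal B)
    (hw : w - w' ∈ maximalIdeal B) (a b : Fin 2) :
    genM x u v w a b - genM x' u' v' w' a b ∈ maximalIdeal B := by
  fin_cases a <;> fin_cases b
  · have : x + u - (x' + u') = (x - x') + (u - u') := by ring
    change x + u - (x' + u') ∈ _
    rw [this]
    exact Ideal.add_mem _ hx hu
  · exact hv
  · exact hw
  · have : x - u - (x' - u') = (x - x') - (u - u') := by ring
    change x - u - (x' - u') ∈ _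
    rw [this]
    exact Ideal.sub_mem _ hx hu

lemma one_eq_genM {B : Type} [CommRing B] : (1 : M2 B) = genM 1 0 0 0 := by
  ext i j
  fin_cases i <;> fin_cases j <;> simp [genM]

lemma S_univ {h q ε : R} (h2 : 2 * h = 1) (hε : IsUnit ε)
    (x : PP (Fin 3) R) (hx : x ^ 2 = C (C q) + quad (MvPowerSeries (Fin 3) R))
    (hx' : x - C (C ε) ∈ maximalIdeal (PP (Fin 3) R))
    (y : MvPowerSeries (Fin 3) R) (hy : y ^ 2 = 1 + quad R)
    (hy' : y - 1 ∈ maximalIdeal (MvPowerSeries (Fin 3) R))
    (B : Type) [CommRing B] [IsLocalRing B] [IsAdicComplete (maximalIdeal B) B]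
    (f : R →+* B) [IsLocalHom f] (Φ' T' : M2 B) (hΦ' : Φ'.det = f q) (hT' : T'.det = 1)
    (hΦ₀ : ∀ a b, Φ' a b - f (genM ε 0 0 0 a b) ∈ maximalIdeal B)
    (hT₀ : ∀ a b, T' a b - (1 : M2 B) a b ∈ maximalIdeal B) :
    ∃ f' : PP (Fin 3) R →+* B, IsLocalHom f' ∧
      f'.comp ((C : MvPowerSeries (Fin 3) R →+* PP (Fin 3) R).comp C) = f ∧
      (genM x (X 0) (X 1) (X 2) : M2 (PP (Fin 3) R)).map f' = Φ' ∧
      (genM (C y) (C (X 0)) (C (X 1)) (C (X 2)) : M2 (PP (Fin 3) R)).map f' = T' := by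
  have h2B : 2 * f h = 1 := two_map f h2
  have hΦ00 : Φ' 0 0 - f ε ∈ maximalIdeal B := by simpa [genM] using hΦ₀ 0 0
  have hΦ01 : Φ' 0 1 ∈ maximalIdeal B := by simpa [genM] using hΦ₀ 0 1
  have hΦ10 : Φ' 1 0 ∈ maximalIdeal B := by simpa [genM] using hΦ₀ 1 0
  have hΦ11 : Φ' 1 1 - f ε ∈ maximalIdeal B := by simpa [genM] using hΦ₀ 1 1
  have hT00 : T' 0 0 - 1 ∈ maximalIdeal B := by simpa using hT₀ 0 0
  have hT01 : T' 0 1 ∈ maximalIdeal B := by simpa using hT₀ 0 1
  have hT10 : T' 1 0 ∈ maximalIdeal B := by simpa using hT₀ 1 0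
  have hT11 : T' 1 1 - 1 ∈ maximalIdeal B := by simpa using hT₀ 1 1
  let v' : Fin 3 → B := ![(T' 0 0 - T' 1 1) * f h, T' 0 1, T' 1 0]
  let u' : Fin 3 → B := ![(Φ' 0 0 - Φ' 1 1) * f h, Φ' 0 1, Φ' 1 0]
  have hv' : ∀ i, v' i ∈ maximalIdeal B := by
    intro i
    fin_cases i
    · have e : (T' 0 0 - T' 1 1) * f h = ((T' 0 0 - 1) - (T' 1 1 - 1)) * f h := by ring
      change (T' 0 0 - T' 1 1) * f h ∈ _
      rw [e]
      exact Ideal.mul_mem_right _ _ (Ideal.sub_mem _ hT00 hT11)
    · exact hT01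
    · exact hT10
  have hu' : ∀ i, u' i ∈ maximalIdeal B := by
    intro i
    fin_cases i
    · have e : (Φ' 0 0 - Φ' 1 1) * f h = ((Φ' 0 0 - f ε) - (Φ' 1 1 - f ε)) * f h := by ring
      change (Φ' 0 0 - Φ' 1 1) * f h ∈ _
      rw [e]
      exact Ideal.mul_mem_right _ _ (Ideal.sub_mem _ hΦ00 hΦ11)
    · exact hΦ01
    · exact hΦ10
  let g : MvPowerSeries (Fin 3) R →+* B := lift (maximalIdeal B) f v' hv'
  have hg : IsLocalHom g := isLocalHom_lift f v' hv'
  let f' : PP (Fin 3) R →+* B := lift (maximalIdeal B) g u' hu'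
  have hf' : IsLocalHom f' := isLocalHom_lift g u' hu'
  have hfC : ∀ a, f' (C a) = g a := fun a => lift_C _ _ _ _ _
  have hgC : ∀ a, g (C a) = f a := fun a => lift_C _ _ _ _ _
  have hfX : ∀ a, f' (X a) = u' a := fun a => lift_X _ _ _ _ _
  have hgX : ∀ a, g (X a) = v' a := fun a => lift_X _ _ _ _ _
  have ex : f' x = Φ'.trace * f h := by
    refine eq_half_trace h2B (hε.map f) Φ' hΦ' ?_ ?_ ?_
    · rw [← map_pow, hx, quad, map_add, map_add, map_mul, map_pow, hfC, hgC, hfX, hfX, hfX]
      change f q + (((Φ' 0 0 - Φ' 1 1) * f h) ^ 2 + Φ' 0 1 * Φ' 1 0) = _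
      ring
    · have := map_mem_maxIdeal f' hx'
      rwa [map_sub, hfC, hgC] at this
    · rw [Matrix.trace_fin_two]
      have e : Φ' 0 0 + Φ' 1 1 - 2 * f ε = (Φ' 0 0 - f ε) + (Φ' 1 1 - f ε) := by ring
      rw [e]
      exact Ideal.add_mem _ hΦ00 hΦ11
  have ey : g y = T'.trace * f h := by
    refine eq_half_trace h2B isUnit_one T' hT' ?_ ?_ ?_
    · rw [← map_pow, hy, quad, map_add, map_add, map_mul, map_pow, hgX, hgX, hgX, map_one]
      change 1 + (((T' 0 0 - T' 1 1) * f h) ^ 2 + T' 0 1 * T' 1 0) = _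
      ring
    · have := map_mem_maxIdeal g hy'
      rwa [map_sub, map_one] at this
    · rw [Matrix.trace_fin_two]
      have e : T' 0 0 + T' 1 1 - 2 * 1 = (T' 0 0 - 1) + (T' 1 1 - 1) := by ring
      rw [e]
      exact Ideal.add_mem _ hT00 hT11
  refine ⟨f', hf', ?_, ?_, ?_⟩
  · ext a
    rw [RingHom.comp_apply, RingHom.comp_apply, hfC, hgC]
  · rw [map_genM, ex, hfX, hfX, hfX]
    exact (eq_genM (f h) h2B Φ').symm
  · rw [map_genM, hfC, hfC, hfC, hfC, ey, hgX, hgX, hgX]
    exact (eq_genM (f h) h2B T').symm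

end S

lemma res_CC (R : Type) [CommRing R] [IsLocalRing R] (z : PP (Fin 3) R) :
    ∃ r : R, z - C (C r) ∈ maximalIdeal (PP (Fin 3) R) := by
  refine ⟨constantCoeff (constantCoeff z), ?_⟩
  rw [mem_maxIdeal_iff, map_sub, constantCoeff_C, mem_maxIdeal_iff, map_sub, constantCoeff_C,
    sub_self]
  exact zero_mem _

section StepS

variable {R : CLR}

/-- the ring `R⟦v⟧⟦u⟧` -/
noncomputable def ringS (R : CLR) : CLR := ⟨PP (Fin 3) R⟩

/-- the structure map -/
noncomputable def iS (R : Type) [CommRing R] : R →+* PP (Fin 3) R :=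
  (C : MvPowerSeries (Fin 3) R →+* PP (Fin 3) R).comp C

/-- the universal pair in the scalar case -/
noncomputable def stepS (h q ε : R) (h2 : 2 * h = 1) (hε : IsUnit ε)
    (x : PP (Fin 3) R) (hx : x ^ 2 = C (C q) + quad (MvPowerSeries (Fin 3) R))
    (hx' : x - C (C ε) ∈ maximalIdeal (PP (Fin 3) R))
    (y : MvPowerSeries (Fin 3) R) (hy : y ^ 2 = 1 + quad R)
    (hy' : y - 1 ∈ maximalIdeal (MvPowerSeries (Fin 3) R)) : Step R q (genM ε 0 0 0) where
  R' := ringS R
  i := iS R
  loc := inferInstanceAs (IsLocalHom ((C : MvPowerSeries (Fin 3) R →+* PP (Fin 3) R).comp C))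
  Φ := (genM x (X 0) (X 1) (X 2) : M2 (PP (Fin 3) R))
  T := (genM (C y) (C (X 0)) (C (X 1)) (C (X 2)) : M2 (PP (Fin 3) R))
  detΦ := by
    change (genM x (X 0) (X 1) (X 2) : M2 (PP (Fin 3) R)).det = C (C q)
    rw [det_genM, hx, quad]
    ring
  detT := by
    change (genM (C y) (C (X 0)) (C (X 1)) (C (X 2)) : M2 (PP (Fin 3) R)).det = 1
    rw [det_genM, ← map_pow, hy, quad, map_add, map_add, map_mul, map_pow, map_one]
    ring
  hΦ := by
    intro a b
    change (genM x (X 0) (X 1) (X 2) : M2 (PP (Fin 3) R)) a b -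
      ((genM ε 0 0 0).map (iS R) : M2 (PP (Fin 3) R)) a b ∈ maximalIdeal (PP (Fin 3) R)
    rw [map_genM]
    refine genM_sub_mem hx' ?_ ?_ ?_ a b <;>
    · rw [map_zero, sub_zero]
      exact X_mem_maxIdeal _
  hT := by
    intro a b
    change (genM (C y) (C (X 0)) (C (X 1)) (C (X 2)) : M2 (PP (Fin 3) R)) a b -
      (1 : M2 (PP (Fin 3) R)) a b ∈ maximalIdeal (PP (Fin 3) R)
    rw [one_eq_genM]
    refine genM_sub_mem ?_ ?_ ?_ ?_ a b
    · rw [← map_one C, ← map_sub]
      exact C_mem_maxIdeal hy'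
    all_goals
      rw [sub_zero]
      exact C_mem_maxIdeal (X_mem_maxIdeal _)
  univ := S_univ h2 hε x hx hx' y hy hy'
  res := by
    intro z
    exact res_CC R z

end StepS

section GoodS

variable {R : Type} [CommRing R] [IsLocalRing R] [IsNoetherianRing R]
  [IsAdicComplete (maximalIdeal R) R]

lemma KI_eq {A : Type} [CommRing A] : KI (Fin 3) A = Ideal.span
    {X 0 * C (X 1) - X 1 * C (X 0), X 0 * C (X 2) - X 2 * C (X 0),
      (X 1 * C (X 2) - X 2 * C (X 1) : PP (Fin 3) A)} := by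
  apply le_antisymm
  · rw [KI, Ideal.span_le]
    set L : Ideal (PP (Fin 3) A) := Ideal.span
      {X 0 * C (X 1) - X 1 * C (X 0), X 0 * C (X 2) - X 2 * C (X 0),
        (X 1 * C (X 2) - X 2 * C (X 1) : PP (Fin 3) A)} with hL
    have m1 : (X 0 * C (X 1) - X 1 * C (X 0) : PP (Fin 3) A) ∈ L := Ideal.subset_span (by simp)
    have m2 : (X 0 * C (X 2) - X 2 * C (X 0) : PP (Fin 3) A) ∈ L := Ideal.subset_span (by simp)
    have m3 : (X 1 * C (X 2) - X 2 * C (X 1) : PP (Fin 3) A) ∈ L := Ideal.subset_span (by simp)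
    rintro _ ⟨⟨i, j⟩, rfl⟩
    fin_cases i <;> fin_cases j
    · simp
    · exact m1
    · exact m2
    · have := L.neg_mem m1
      rwa [neg_sub] at this
    · simp
    · exact m3
    · have := L.neg_mem m2
      rwa [neg_sub] at this
    · have := L.neg_mem m3
      rwa [neg_sub] at this
    · simp
  · rw [Ideal.span_le]
    intro z hz
    rw [Set.mem_insert_iff, Set.mem_insert_iff, Set.mem_singleton_iff] at hz
    rcases hz with rfl | rfl | rfl <;> exact mem_KI _ _

/-- the explicit form of the ideal of type `χ`. -/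
noncomputable def idS (A : Type) [CommRing A] (c : A) : Ideal (PP (Fin 3) A) :=
  KI (Fin 3) A ⊔ Ideal.span {(C (quad A - C c) : PP (Fin 3) A)}

lemma Jchi_S {h t : R} (h2 : 2 * h = 1) (ht : t - 2 ∈ maximalIdeal R) (x : PP (Fin 3) R)
    (y : MvPowerSeries (Fin 3) R) (hy : y ^ 2 = 1 + quad R)
    (hy' : y - 1 ∈ maximalIdeal (MvPowerSeries (Fin 3) R)) :
    Jchi (iS R t) (genM x (X 0) (X 1) (X 2)) (genM (C y) (C (X 0)) (C (X 1)) (C (X 2))) =
      idS R ((t * h) ^ 2 - 1) := by
  have hh : 2 * iS R h = 1 := two_map (iS R) h2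
  rw [Jchi_genM _ _ _ _ _ _ _ _ _ _ hh, idS, KI_eq]
  · congr 3
    change (C y) ^ 2 - (C (C t) * C (C h)) ^ 2 = _
    rw [← map_mul, ← map_mul, ← map_pow, ← map_pow, ← map_sub, ← map_pow, hy]
    congr 1
    rw [map_sub, map_one]
    ring
  · refine isUnit_of_sub_mem (y := 2 * 2) ?_ ?_
    · exact (two_unit hh).mul (two_unit hh)
    · have e : 2 * (C y : PP (Fin 3) R) + iS R t - 2 * 2 = C (2 * (y - 1) + C (t - 2)) := by
        change 2 * (C y : PP (Fin 3) R) + C (C t) - 2 * 2 = _
        simp only [map_add, map_mul, map_sub, map_one, map_ofNat]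
        ring
      rw [e]
      refine C_mem_maxIdeal (Ideal.add_mem _ (Ideal.mul_mem_left _ _ hy') (C_mem_maxIdeal ht))

lemma map_idS {A B : Type} [CommRing A] [CommRing B] (φ : A →+* B) (c : A) :
    (idS A c).map (MvPowerSeries.map (σ := Fin 3) (MvPowerSeries.map (σ := Fin 3) φ)) =
      idS B (φ c) := by
  rw [idS, idS, Ideal.map_sup, KI_eq, KI_eq, Ideal.map_span, Ideal.map_span, Set.image_singleton,
    Set.image_insert_eq, Set.image_insert_eq, Set.image_singleton]
  simp only [map_sub, map_mul, map_C, map_X, quad, map_add, map_pow]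

lemma ker_mapmap {σ A B : Type} [CommRing A] [Finite σ] [IsNoetherianRing A] [CommRing B]
    (φ : A →+* B) :
    RingHom.ker (MvPowerSeries.map (σ := σ) (MvPowerSeries.map (σ := σ) φ)) =
      (RingHom.ker φ).map ((C : MvPowerSeries σ A →+* PP σ A).comp C) := by
  rw [ker_psmap, ker_psmap, Ideal.map_map]

lemma comap_idS {B : Type} [CommRing B] [IsLocalRing B] [IsNoetherianRing B]
    [IsAdicComplete (maximalIdeal B) B] {c : B} (hc : c ∈ maximalIdeal B) :
    (idS B c).comap (iS B) = ⊥ := by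
  rw [eq_bot_iff]
  intro b hb
  rw [Ideal.mem_comap] at hb
  rw [Ideal.mem_bot]
  have hX : (PowerSeries.X : PowerSeries B) ∈ maximalIdeal (MvPowerSeries Unit B) :=
    X_mem_maxIdeal ()
  let w : Fin 3 → MvPowerSeries Unit B := ![(PowerSeries.X : PowerSeries B), 0, 0]
  have hw : ∀ i, w i ∈ maximalIdeal (MvPowerSeries Unit B) := by
    intro i
    fin_cases i
    · exact hX
    · exact zero_mem _
    · exact zero_mem _
  let g : MvPowerSeries (Fin 3) B →+* MvPowerSeries Unit B :=
    lift (maximalIdeal (MvPowerSeries Unit B)) C w hw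
  have h1 : idS B c ≤ (Ideal.span {(PowerSeries.X ^ 2 - PowerSeries.C c : PowerSeries B)}).comap
      (g.comp constantCoeff) := by
    refine sup_le ?_ ?_
    · rw [KI, Ideal.span_le]
      rintro _ ⟨⟨i, j⟩, rfl⟩
      rw [SetLike.mem_coe, Ideal.mem_comap, RingHom.comp_apply, map_sub, map_mul, map_mul,
        constantCoeff_X, constantCoeff_X, zero_mul, zero_mul, sub_zero, map_zero]
      exact zero_mem _
    · rw [Ideal.span_singleton_le_iff_mem, Ideal.mem_comap, RingHom.comp_apply, constantCoeff_C]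
      apply Ideal.subset_span
      rw [Set.mem_singleton_iff, quad, map_sub, map_add, map_mul, map_pow, lift_X, lift_X, lift_X,
        lift_C]
      change (PowerSeries.X : PowerSeries B) ^ 2 + 0 * 0 - PowerSeries.C c = _
      ring
  have h2 := h1 hb
  rw [Ideal.mem_comap, RingHom.comp_apply] at h2
  change g (constantCoeff (C (C b))) ∈ _ at h2
  rw [constantCoeff_C, lift_C] at h2
  exact eq_zero_of_C_mem 2 (by norm_num) hc h2

/-- the ideal of all the variables of `PP` -/
noncomputable def augPP (σ A : Type) [CommRing A] : Ideal (PP σ A) :=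
  Ideal.span (Set.range (X : σ → PP σ A)) ⊔
    (Ideal.span (Set.range (X : σ → MvPowerSeries σ A))).map C

lemma exists_augPP {σ A : Type} [Finite σ] [CommRing A] (z : PP σ A) :
    ∃ r : A, z - C (C r) ∈ augPP σ A := by
  refine ⟨constantCoeff (constantCoeff z), ?_⟩
  have h1 : z - C (constantCoeff z) ∈ H04.XI σ (MvPowerSeries σ A) := by
    rw [mem_XI_iff]
    simp
  have h2 : constantCoeff z - C (constantCoeff (constantCoeff z)) ∈ H04.XI σ A := by
    rw [mem_XI_iff]
    simp
  have e : z - C (C (constantCoeff (constantCoeff z))) = (z - C (constantCoeff z)) +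
      C (constantCoeff z - C (constantCoeff (constantCoeff z))) := by
    rw [map_sub]; ring
  rw [e]
  exact Ideal.add_mem _ (Ideal.mem_sup_left h1) (Ideal.mem_sup_right (Ideal.mem_map_of_mem _ h2))

lemma augPP_le {σ A : Type} [CommRing A] {P : Ideal (PP σ A)} (h1 : ∀ i, X i ∈ P)
    (h2 : ∀ i, C (X i) ∈ P) : augPP σ A ≤ P := by
  refine sup_le ?_ ?_
  · rw [Ideal.span_le]
    rintro _ ⟨i, rfl⟩
    exact h1 i
  · rw [Ideal.map_span, Ideal.span_le]
    rintro _ ⟨_, ⟨i, rfl⟩, rfl⟩
    exact h2 i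

lemma vars_zero {D : Type} [CommRing D] [IsDomain D] (h2 : (2 : D) ≠ 0) {u0 u1 u2 v0 v1 v2 : D}
    (hq : v0 ^ 2 + v1 * v2 = 0) (h01 : u0 * v1 = u1 * v0) (h02 : u0 * v2 = u2 * v0)
    (h12 : u1 * v2 = u2 * v1) (e0 : u0 = v2) (e1 : u1 = v0) (e2 : u2 = v1) :
    v0 = 0 ∧ v1 = 0 ∧ v2 = 0 := by
  subst e0 e1 e2
  have a0 : u1 = 0 := by
    have : 2 * u1 ^ 2 = 0 := by linear_combination hq - h01
    rcases mul_eq_zero.1 this with h | h
    · exact absurd h h2
    · exact pow_eq_zero_iff two_ne_zero |>.1 h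
  subst a0
  refine ⟨rfl, ?_, ?_⟩
  · have : u2 ^ 2 = 0 := by linear_combination -h12
    exact pow_eq_zero_iff two_ne_zero |>.1 this
  · have : u0 ^ 2 = 0 := by linear_combination h02
    exact pow_eq_zero_iff two_ne_zero |>.1 this

instance : IsLocalHom (iS R) :=
  inferInstanceAs (IsLocalHom ((C : MvPowerSeries (Fin 3) R →+* PP (Fin 3) R).comp C))

theorem good_idS (h2 : IsUnit (2 : R)) (I : Ideal R) [I.IsPrime] {c : R}
    (hc : c ∈ maximalIdeal R) (hcI : c ∉ I) : Good (iS R) I (idS R c) := by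
  classical
  have hI : I ≠ ⊤ := Ideal.IsPrime.ne_top'
  have := isLocalRing_quot I hI
  have := isAdicComplete_of_surjective (Ideal.Quotient.mk I) Ideal.Quotient.mk_surjective
  let φ : R →+* R ⧸ I := Ideal.Quotient.mk I
  let φ' : PP (Fin 3) R →+* PP (Fin 3) (R ⧸ I) :=
    MvPowerSeries.map (σ := Fin 3) (MvPowerSeries.map (σ := Fin 3) φ)
  have hφ : Function.Surjective φ := Ideal.Quotient.mk_surjective
  have hφ' : Function.Surjective φ' := psmap_surjective _ (psmap_surjective _ hφ)
  have comm : φ'.comp (iS R) = (iS (R ⧸ I)).comp φ := by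
    refine RingHom.ext fun a => ?_
    change MvPowerSeries.map (MvPowerSeries.map φ) (C (C a)) = C (C (φ a))
    rw [map_C, map_C]
  have hker : RingHom.ker φ' = (RingHom.ker φ).map (iS R) := ker_mapmap φ
  have hcB : φ c ∈ maximalIdeal (R ⧸ I) := by
    rw [← map_maximalIdeal_of_surjective φ hφ]
    exact Ideal.mem_map_of_mem _ hc
  have hcB0 : φ c ≠ 0 := by
    rwa [Ne, Ideal.Quotient.eq_zero_iff_mem]
  have hJ : ((idS R c).map φ').IsPrime := by
    rw [map_idS]
    exact isPrime_scalar (φ c) hcB hcB0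
  have hinj : ((idS R c).map φ').comap (iS (R ⧸ I)) = ⊥ := by
    rw [map_idS]
    exact comap_idS hcB
  have key := prime_of_baseChange (iS R) φ φ' hφ' (iS (R ⧸ I)) comm hker (idS R c) hJ hinj
  rw [Ideal.mk_ker] at key
  obtain ⟨k1, k2⟩ := key
  refine ⟨k1, k2, ?_⟩
  refine dim_bound_chi (iS R) (augPP (Fin 3) R) exists_augPP I c hc hcI _ le_sup_left
    {X 0 - C (X 2), X 1 - C (X 0), X 2 - C (X 1)} ?_ ?_ 3 Finset.card_le_three
  · intro z hz
    rw [Finset.mem_insert, Finset.mem_insert, Finset.mem_singleton] at hz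
    rcases hz with rfl | rfl | rfl <;>
    exact Ideal.sub_mem _ (X_mem_maxIdeal _) (C_mem_maxIdeal (X_mem_maxIdeal _))
  · intro P hP h1 h3 h4
    have m1 : X 0 - C (X 2) ∈ P := h4 _ (by simp)
    have m2 : X 1 - C (X 0) ∈ P := h4 _ (by simp)
    have m3 : X 2 - C (X 1) ∈ P := h4 _ (by simp)
    have h5 : idS R c ≤ P := le_sup_right.trans h1
    have n1 : (X 0 * C (X 1) - X 1 * C (X 0) : PP (Fin 3) R) ∈ P :=
      h5 (Ideal.mem_sup_left (mem_KI 0 1))
    have n2 : (X 0 * C (X 2) - X 2 * C (X 0) : PP (Fin 3) R) ∈ P :=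
      h5 (Ideal.mem_sup_left (mem_KI 0 2))
    have n3 : (X 1 * C (X 2) - X 2 * C (X 1) : PP (Fin 3) R) ∈ P :=
      h5 (Ideal.mem_sup_left (mem_KI 1 2))
    have n4 : (C (quad R) : PP (Fin 3) R) ∈ P := by
      have := h5 (Ideal.mem_sup_right (Ideal.subset_span (Set.mem_singleton _)))
      rw [map_sub] at this
      have h6 := Ideal.add_mem _ this h3
      change C (quad R) - C (C c) + C (C c) ∈ P at h6
      rwa [sub_add_cancel] at h6
    let π := Ideal.Quotient.mk P
    have hD : (2 : PP (Fin 3) R ⧸ P) ≠ 0 := by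
      have h7 : IsUnit (2 : PP (Fin 3) R ⧸ P) := by
        have := h2.map (π.comp (iS R))
        rwa [map_ofNat] at this
      exact h7.ne_zero
    have key := vars_zero (D := PP (Fin 3) R ⧸ P) hD (u0 := π (X 0)) (u1 := π (X 1))
      (u2 := π (X 2)) (v0 := π (C (X 0))) (v1 := π (C (X 1))) (v2 := π (C (X 2)))
      (by
        rw [← map_pow, ← map_mul, ← map_add, Ideal.Quotient.eq_zero_iff_mem]
        rwa [quad, map_add, map_mul, map_pow] at n4)
      (by rw [← map_mul, ← map_mul]; exact Ideal.Quotient.eq.2 n1)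
      (by rw [← map_mul, ← map_mul]; exact Ideal.Quotient.eq.2 n2)
      (by rw [← map_mul, ← map_mul]; exact Ideal.Quotient.eq.2 n3)
      (Ideal.Quotient.eq.2 m1) (Ideal.Quotient.eq.2 m2) (Ideal.Quotient.eq.2 m3)
    obtain ⟨k0, k1, k2⟩ := key
    have v0 := Ideal.Quotient.eq_zero_iff_mem.1 k0
    have v1 := Ideal.Quotient.eq_zero_iff_mem.1 k1
    have v2 := Ideal.Quotient.eq_zero_iff_mem.1 k2
    refine augPP_le ?_ ?_
    · intro i
      fin_cases i
      · have := Ideal.add_mem _ m1 v2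
        rwa [sub_add_cancel] at this
      · have := Ideal.add_mem _ m2 v0
        rwa [sub_add_cancel] at this
      · have := Ideal.add_mem _ m3 v1
        rwa [sub_add_cancel] at this
    · intro i
      fin_cases i
      · exact v0
      · exact v1
      · exact v2

/-- the ideal of the inner variables -/
noncomputable def innS (A : Type) [CommRing A] : Ideal (PP (Fin 3) A) :=
  (H04.XI (Fin 3) A).map C

lemma Junr_S {A : Type} [CommRing A] [IsLocalRing A] {h : A} (h2 : 2 * h = 1)
    (y : MvPowerSeries (Fin 3) A) (hy : y ^ 2 = 1 + quad A)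
    (hy' : y - 1 ∈ maximalIdeal (MvPowerSeries (Fin 3) A)) :
    Junr (genM (C y) (C (X 0)) (C (X 1)) (C (X 2)) : M2 (PP (Fin 3) A)) = innS A := by
  have hy1 : y - 1 ∈ H04.XI (Fin 3) A := by
    have h3 : IsUnit (y + 1) := by
      refine isUnit_of_sub_mem (two_unit (two_map C h2)) ?_
      have e : y + 1 - 2 = y - 1 := by ring
      rw [e]
      exact hy'
    have h4 : (y - 1) * (y + 1) ∈ H04.XI (Fin 3) A := by
      have e : (y - 1) * (y + 1) = quad A := by linear_combination hy
      rw [e, mem_XI_iff, constantCoeff_quad']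
    exact (Ideal.mul_unit_mem_iff_mem _ h3).1 h4
  have hx : ∀ i, C (X i) ∈ innS A := fun i =>
    Ideal.mem_map_of_mem _ (Ideal.subset_span ⟨i, rfl⟩)
  apply le_antisymm
  · rw [Junr, one_eq_genM, ent_le_iff]
    intro i j
    fin_cases i <;> fin_cases j
    · have e : (C y + C (X 0) - (1 + 0) : PP (Fin 3) A) = C (y - 1) + C (X 0) := by
        rw [map_sub, map_one]; ring
      change (C y + C (X 0) - (1 + 0) : PP (Fin 3) A) ∈ _
      rw [e]
      exact Ideal.add_mem _ (Ideal.mem_map_of_mem _ hy1) (hx 0)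
    · change (C (X 1) - 0 : PP (Fin 3) A) ∈ _
      rw [sub_zero]
      exact hx 1
    · change (C (X 2) - 0 : PP (Fin 3) A) ∈ _
      rw [sub_zero]
      exact hx 2
    · have e : (C y - C (X 0) - (1 - 0) : PP (Fin 3) A) = C (y - 1) - C (X 0) := by
        rw [map_sub, map_one]; ring
      change (C y - C (X 0) - (1 - 0) : PP (Fin 3) A) ∈ _
      rw [e]
      exact Ideal.sub_mem _ (Ideal.mem_map_of_mem _ hy1) (hx 0)
  · rw [innS, H04.XI, Ideal.map_span, Ideal.span_le]
    rintro _ ⟨_, ⟨i, rfl⟩, rfl⟩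
    have hh : 2 * iS A h = 1 := two_map (iS A) h2
    set T : M2 (PP (Fin 3) A) := genM (C y) (C (X 0)) (C (X 1)) (C (X 2)) with hT
    fin_cases i
    · have m1 := mem_ent (T - 1) 0 0
      have m2 := mem_ent (T - 1) 1 1
      rw [one_eq_genM] at m1 m2
      change (C y + C (X 0) - (1 + 0) : PP (Fin 3) A) ∈ _ at m1
      change (C y - C (X 0) - (1 - 0) : PP (Fin 3) A) ∈ _ at m2
      have e : (C (X 0) : PP (Fin 3) A) = iS A h * ((C y + C (X 0) - (1 + 0)) -
          (C y - C (X 0) - (1 - 0))) := by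
        linear_combination (-C (X 0) : PP (Fin 3) A) * hh
      change (C (X 0) : PP (Fin 3) A) ∈ _
      rw [e, Junr, one_eq_genM]
      exact Ideal.mul_mem_left _ _ (Ideal.sub_mem _ m1 m2)
    · have m1 := mem_ent (T - 1) 0 1
      rw [one_eq_genM] at m1
      change (C (X 1) - 0 : PP (Fin 3) A) ∈ _ at m1
      rw [sub_zero] at m1
      rw [Junr, one_eq_genM]
      exact m1
    · have m1 := mem_ent (T - 1) 1 0
      rw [one_eq_genM] at m1
      change (C (X 2) - 0 : PP (Fin 3) A) ∈ _ at m1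
      rw [sub_zero] at m1
      rw [Junr, one_eq_genM]
      exact m1

lemma map_innS {A B : Type} [CommRing A] [CommRing B] (φ : A →+* B) :
    (innS A).map (MvPowerSeries.map (σ := Fin 3) (MvPowerSeries.map (σ := Fin 3) φ)) =
      innS B := by
  rw [innS, innS, Ideal.map_map, H04.XI, H04.XI, Ideal.map_span, Ideal.map_span,
    ← Set.range_comp, ← Set.range_comp]
  congr 2
  funext i
  simp only [Function.comp_apply, RingHom.comp_apply, map_C, map_X]

lemma innS_eq_ker {A : Type} [CommRing A] [IsNoetherianRing A] :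
    innS A = RingHom.ker (MvPowerSeries.map (σ := Fin 3)
      (constantCoeff : MvPowerSeries (Fin 3) A →+* A)) := by
  rw [ker_psmap, innS]
  congr 1
  ext f
  rw [mem_XI_iff, RingHom.mem_ker]

/-- the prime ideals of unramified type -/
theorem good_innS (I : Ideal R) [I.IsPrime] : Good (iS R) I (innS R) := by
  classical
  have hI : I ≠ ⊤ := Ideal.IsPrime.ne_top'
  have := isLocalRing_quot I hI
  have := isAdicComplete_of_surjective (Ideal.Quotient.mk I) Ideal.Quotient.mk_surjective
  let φ : R →+* R ⧸ I := Ideal.Quotient.mk I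
  let φ' : PP (Fin 3) R →+* PP (Fin 3) (R ⧸ I) :=
    MvPowerSeries.map (σ := Fin 3) (MvPowerSeries.map (σ := Fin 3) φ)
  have hφ : Function.Surjective φ := Ideal.Quotient.mk_surjective
  have hφ' : Function.Surjective φ' := psmap_surjective _ (psmap_surjective _ hφ)
  have comm : φ'.comp (iS R) = (iS (R ⧸ I)).comp φ := by
    refine RingHom.ext fun a => ?_
    change MvPowerSeries.map (MvPowerSeries.map φ) (C (C a)) = C (C (φ a))
    rw [map_C, map_C]
  have hker : RingHom.ker φ' = (RingHom.ker φ).map (iS R) := ker_mapmap φ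
  have hJ : ((innS R).map φ').IsPrime := by
    rw [map_innS, innS_eq_ker]
    exact RingHom.ker_isPrime _
  have hinj : ((innS R).map φ').comap (iS (R ⧸ I)) = ⊥ := by
    rw [map_innS, innS_eq_ker, eq_bot_iff]
    intro b hb
    rw [Ideal.mem_comap, RingHom.mem_ker] at hb
    change MvPowerSeries.map constantCoeff (C (C b)) = 0 at hb
    rw [map_C, constantCoeff_C] at hb
    have := congrArg constantCoeff hb
    rwa [constantCoeff_C, map_zero] at this
  have key := prime_of_baseChange (iS R) φ φ' hφ' (iS (R ⧸ I)) comm hker (innS R) hJ hinj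
  rw [Ideal.mk_ker] at key
  obtain ⟨k1, k2⟩ := key
  refine ⟨k1, k2, ?_⟩
  · refine dim_bound (iS R) (augPP (Fin 3) R) exists_augPP I _ le_sup_left
      {X 0, X 1, X 2} ?_ ?_ 3 Finset.card_le_three
    · intro z hz
      rw [Finset.mem_insert, Finset.mem_insert, Finset.mem_singleton] at hz
      rcases hz with rfl | rfl | rfl <;>
      exact X_mem_maxIdeal _
    · intro P hP h1 h4
      have h5 : innS R ≤ P := le_sup_right.trans h1
      refine augPP_le ?_ ?_
      · intro i
        fin_cases i <;> exact h4 _ (by simp)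
      · intro i
        exact h5 (Ideal.mem_map_of_mem _ (Ideal.subset_span ⟨i, rfl⟩))

/-- the trace of Frobenius on the unramified component, scalar case -/
lemma ns_S {h : R} (h2 : 2 * h = 1) (I : Ideal R) [I.IsPrime] (q : R) (x : PP (Fin 3) R)
    (hx : x ^ 2 = C (C q) + quad (MvPowerSeries (Fin 3) R)) :
    (2 * x) ^ 2 - (iS R q + 1) ^ 2 ∉ I.map (iS R) ⊔ innS R := by
  intro hmem
  have hI : I ≠ ⊤ := Ideal.IsPrime.ne_top'
  have := isLocalRing_quot I hI
  have := isAdicComplete_of_surjective (Ideal.Quotient.mk I) Ideal.Quotient.mk_surjective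
  let B := R ⧸ I
  let w : Fin 3 → MvPowerSeries Unit B := ![(PowerSeries.X : PowerSeries B), 0, 0]
  have hw : ∀ i, w i ∈ maximalIdeal (MvPowerSeries Unit B) := by
    intro i
    fin_cases i
    · exact X_mem_maxIdeal ()
    · exact zero_mem _
    · exact zero_mem _
  let g₀ : MvPowerSeries (Fin 3) R →+* MvPowerSeries Unit B :=
    (C : B →+* MvPowerSeries Unit B).comp ((Ideal.Quotient.mk I).comp constantCoeff)
  let g : PP (Fin 3) R →+* MvPowerSeries Unit B :=
    lift (maximalIdeal (MvPowerSeries Unit B)) g₀ w hw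
  have hg : I.map (iS R) ⊔ innS R ≤ RingHom.ker g := by
    refine sup_le ?_ ?_
    · rw [Ideal.map_le_iff_le_comap]
      intro a ha
      rw [Ideal.mem_comap, RingHom.mem_ker]
      change g (C (C a)) = 0
      rw [lift_C]
      change C (Ideal.Quotient.mk I (constantCoeff (C a))) = 0
      rw [constantCoeff_C, Ideal.Quotient.eq_zero_iff_mem.2 ha, map_zero]
    · rw [innS, Ideal.map_le_iff_le_comap, Ideal.span_le]
      rintro _ ⟨i, rfl⟩
      rw [SetLike.mem_coe, Ideal.mem_comap, RingHom.mem_ker, lift_C]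
      change C (Ideal.Quotient.mk I (constantCoeff (X i))) = 0
      rw [constantCoeff_X, map_zero, map_zero]
  have h1 := RingHom.mem_ker.1 (hg hmem)
  have e1 : (2 * x) ^ 2 - (iS R q + 1) ^ 2 = 4 * quad (MvPowerSeries (Fin 3) R) -
      iS R ((q - 1) ^ 2) := by
    rw [map_pow, map_sub, map_one]
    change _ = 4 * quad (MvPowerSeries (Fin 3) R) - (C (C q) - 1) ^ 2
    change (2 * x) ^ 2 - (C (C q) + 1) ^ 2 = _
    linear_combination 4 * hx
  rw [e1, map_sub, map_mul, map_ofNat, quad, map_add, map_pow, map_mul, lift_X, lift_X, lift_X] at h1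
  change (4 : PowerSeries B) * ((PowerSeries.X : PowerSeries B) ^ 2 + 0 * 0) - g (C (C _)) = 0 at h1
  rw [lift_C] at h1
  change (4 : PowerSeries B) * ((PowerSeries.X : PowerSeries B) ^ 2 + 0 * 0) -
    PowerSeries.C (Ideal.Quotient.mk I (constantCoeff (C ((q - 1) ^ 2)))) = 0 at h1
  have h3 := congrArg (PowerSeries.coeff 2) h1
  have h4 : (4 : PowerSeries B) = PowerSeries.C 4 := by rw [map_ofNat]
  rw [zero_mul, add_zero, map_sub, PowerSeries.coeff_C, if_neg two_ne_zero, sub_zero, map_zero,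
    h4, PowerSeries.coeff_C_mul, PowerSeries.coeff_X_pow_self, mul_one] at h3
  have h5 : IsUnit (4 : B) := by
    have h6 := two_map (Ideal.Quotient.mk I) h2
    have h7 : (4 : B) = 2 * 2 := by norm_num
    rw [h7]
    exact (two_unit h6).mul (two_unit h6)
  exact h5.ne_zero h3

end GoodS

section StepSLL

/-- the properties of a step needed for level lowering -/
structure StepLL {R : CLR} {q : R} {Φ₀ : M2 R} (s : Step R q Φ₀) : Prop where
  chi : ∀ (I : Ideal R) [I.IsPrime] (t : R), t - 2 ∈ maximalIdeal R → t ^ 2 - 4 ∉ I →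
    Good s.i I (Jchi (s.i t) s.Φ s.T)
  unr : ∀ (I : Ideal R) [I.IsPrime], Good s.i I (Junr s.T)
  ns : ∀ (I : Ideal R) [I.IsPrime], s.Φ.trace ^ 2 - (s.i q + 1) ^ 2 ∉ I.map s.i ⊔ Junr s.T

theorem exists_stepS (R : CLR) {h q ε : R} (h2 : 2 * h = 1) (hε : IsUnit ε)
    (hq : ε ^ 2 - q ∈ maximalIdeal R) : ∃ s : Step R q (genM ε 0 0 0), StepLL s := by
  obtain ⟨x, hx, hx'⟩ := exists_xS h2 hε hq
  obtain ⟨y, hy, hy'⟩ := exists_yS h2
  refine ⟨stepS h q ε h2 hε x hx hx' y hy hy', ?_, ?_, ?_⟩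
  · intro I _ t ht htI
    change Good (iS R) I (Jchi (iS R t) (genM x (X 0) (X 1) (X 2))
      (genM (C y) (C (X 0)) (C (X 1)) (C (X 2))))
    rw [Jchi_S h2 ht x y hy hy']
    have e : t ^ 2 - 4 = 4 * ((t * h) ^ 2 - 1) := by
      linear_combination (-(t ^ 2)) * (2 * h + 1) * h2
    refine good_idS (two_unit h2) I ?_ ?_
    · have e2 : (t * h) ^ 2 - 1 = (t - 2) * ((t + 2) * h ^ 2) := by
        linear_combination (2 * h + 1) * h2
      rw [e2]
      exact Ideal.mul_mem_right _ _ ht
    · intro hmem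
      apply htI
      rw [e]
      exact Ideal.mul_mem_left _ _ hmem
  · intro I _
    change Good (iS R) I (Junr (genM (C y) (C (X 0)) (C (X 1)) (C (X 2))))
    rw [Junr_S h2 y hy hy']
    exact good_innS I
  · intro I _
    change (genM x (X 0) (X 1) (X 2) : M2 (PP (Fin 3) R)).trace ^ 2 - (iS R q + 1) ^ 2 ∉
      I.map (iS R) ⊔ (Junr (genM (C y) (C (X 0)) (C (X 1)) (C (X 2))))
    rw [Junr_S h2 y hy hy', trace_genM]
    exact ns_S h2 I q x hx

end StepSLL

end Fermat.Agent.TAlg
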