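import Mathlib
import Fermat.Agent.TAlg.CaseS

/-! # (A4), unipotent non-scalar case: `Φ ≡ ε + (0 1; 0 0)`. -/

set_option autoImplicit false
set_option linter.unusedSectionVars false

open IsLocalRing MvPowerSeries

namespace Fermat.Agent.TAlg

/-- variables `u₁, u₂` -/
abbrev R1 (A : Type) : Type := MvPowerSeries (Fin 2) A
/-- variables `δ, y` -/
abbrev R2 (A : Type) : Type := MvPowerSeries (Fin 2) (R1 A)
/-- variables `a, b` -/
abbrev R3 (A : Type) : Type := MvPowerSeries (Fin 2) (R2 A)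

/-- the structure map -/
noncomputable def iU (A : Type) [CommRing A] : A →+* R3 A :=
  (C : R2 A →+* R3 A).comp ((C : R1 A →+* R2 A).comp C)

/-- `u₁` -/
noncomputable def uu1 (A : Type) [CommRing A] : R3 A := C (C (X 0))
/-- `u₂` -/
noncomputable def uu2 (A : Type) [CommRing A] : R3 A := C (C (X 1))
/-- `δ` -/
noncomputable def dd (A : Type) [CommRing A] : R3 A := C (X 0)
/-- `y` -/
noncomputable def yy (A : Type) [CommRing A] : R3 A := C (X 1)
/-- `a` -/
noncomputable def aa (A : Type) [CommRing A] : R3 A := X 0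
/-- `b` -/
noncomputable def bb (A : Type) [CommRing A] : R3 A := X 1

section U

variable {R : Type} [CommRing R] [IsLocalRing R] [IsNoetherianRing R]
  [IsAdicComplete (maximalIdeal R) R]

instance : IsLocalHom (iU R) :=
  inferInstanceAs (IsLocalHom ((C : R2 R →+* R3 R).comp ((C : R1 R →+* R2 R).comp C)))

lemma uu1_mem : uu1 R ∈ maximalIdeal (R3 R) := C_mem_maxIdeal (C_mem_maxIdeal (X_mem_maxIdeal _))
lemma uu2_mem : uu2 R ∈ maximalIdeal (R3 R) := C_mem_maxIdeal (C_mem_maxIdeal (X_mem_maxIdeal _))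
lemma dd_mem : dd R ∈ maximalIdeal (R3 R) := C_mem_maxIdeal (X_mem_maxIdeal _)
lemma yy_mem : yy R ∈ maximalIdeal (R3 R) := C_mem_maxIdeal (X_mem_maxIdeal _)
lemma aa_mem : aa R ∈ maximalIdeal (R3 R) := X_mem_maxIdeal _
lemma bb_mem : bb R ∈ maximalIdeal (R3 R) := X_mem_maxIdeal _

/-- universal maps out of `R3` -/
theorem R3_univ {B : Type} [CommRing B] [IsLocalRing B] [IsAdicComplete (maximalIdeal B) B]
    (f : R →+* B) [IsLocalHom f] (u1 u2 d y a b : B) (h1 : u1 ∈ maximalIdeal B)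
    (h2 : u2 ∈ maximalIdeal B) (hd : d ∈ maximalIdeal B) (hy : y ∈ maximalIdeal B)
    (ha : a ∈ maximalIdeal B) (hb : b ∈ maximalIdeal B) :
    ∃ f' : R3 R →+* B, IsLocalHom f' ∧ f'.comp (iU R) = f ∧ f' (uu1 R) = u1 ∧ f' (uu2 R) = u2 ∧
      f' (dd R) = d ∧ f' (yy R) = y ∧ f' (aa R) = a ∧ f' (bb R) = b := by
  have e1 : ∀ i, (![u1, u2] : Fin 2 → B) i ∈ maximalIdeal B := by
    intro i; fin_cases i
    · exact h1
    · exact h2
  have e2 : ∀ i, (![d, y] : Fin 2 → B) i ∈ maximalIdeal B := by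
    intro i; fin_cases i
    · exact hd
    · exact hy
  have e3 : ∀ i, (![a, b] : Fin 2 → B) i ∈ maximalIdeal B := by
    intro i; fin_cases i
    · exact ha
    · exact hb
  let g1 : R1 R →+* B := lift (maximalIdeal B) f _ e1
  have hg1 : IsLocalHom g1 := isLocalHom_lift f _ e1
  let g2 : R2 R →+* B := lift (maximalIdeal B) g1 _ e2
  have hg2 : IsLocalHom g2 := isLocalHom_lift g1 _ e2
  let g3 : R3 R →+* B := lift (maximalIdeal B) g2 _ e3
  have hg3 : IsLocalHom g3 := isLocalHom_lift g2 _ e3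
  refine ⟨g3, hg3, ?_, ?_, ?_, ?_, ?_, ?_, ?_⟩
  · refine RingHom.ext fun r => ?_
    change g3 (C (C (C r))) = f r
    rw [lift_C, lift_C, lift_C]
  · change g3 (C (C (X 0))) = _
    rw [lift_C, lift_C, lift_X]
    rfl
  · change g3 (C (C (X 1))) = _
    rw [lift_C, lift_C, lift_X]
    rfl
  · change g3 (C (X 0)) = _
    rw [lift_C, lift_X]
    rfl
  · change g3 (C (X 1)) = _
    rw [lift_C, lift_X]
    rfl
  · change g3 (X 0) = _
    rw [lift_X]
    rfl
  · change g3 (X 1) = _
    rw [lift_X]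
    rfl

lemma res_R3 (z : R3 R) : ∃ r : R, z - iU R r ∈ maximalIdeal (R3 R) := by
  refine ⟨constantCoeff (constantCoeff (constantCoeff z)), ?_⟩
  change z - C (C (C _)) ∈ _
  rw [mem_maxIdeal_iff, map_sub, constantCoeff_C, mem_maxIdeal_iff, map_sub, constantCoeff_C,
    mem_maxIdeal_iff, map_sub, constantCoeff_C, sub_self]
  exact zero_mem _

lemma const_iU (r : R) : constantCoeff (constantCoeff (constantCoeff (iU R r))) = r := by
  change constantCoeff (constantCoeff (constantCoeff (C (C (C r))))) = r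
  rw [constantCoeff_C, constantCoeff_C, constantCoeff_C]

/-- the inverse of `1 + u₂` -/
lemma exists_wU : ∃ w : R3 R, (1 + uu2 R) * w = 1 := by
  have : IsUnit (1 + uu2 R) := isUnit_of_sub_mem isUnit_one (by
    rw [add_sub_cancel_left]; exact uu2_mem)
  obtain ⟨w, hw⟩ := this.exists_right_inv
  exact ⟨w, hw⟩

lemma exists_xU {h q ε : R} (h2 : 2 * h = 1) (hε : IsUnit ε) (hq : ε ^ 2 - q ∈ maximalIdeal R) :
    ∃ x : R3 R, x ^ 2 = iU R q + dd R ∧ x - iU R ε ∈ maximalIdeal (R3 R) := by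
  refine exists_sqrt (two_unit (two_map (iU R) h2)) _ _ (hε.map _) ?_
  have e : (iU R ε) ^ 2 - (iU R q + dd R) = iU R (ε ^ 2 - q) - dd R := by
    rw [map_sub, map_pow]; ring
  rw [e]
  exact Ideal.sub_mem _ (map_mem_maxIdeal (iU R) hq) dd_mem

/-- `u₃` -/
noncomputable def uu3 (w : R3 R) : R3 R := (dd R - uu1 R ^ 2) * w

lemma uu3_mem (w : R3 R) : uu3 w ∈ maximalIdeal (R3 R) :=
  Ideal.mul_mem_right _ _ (Ideal.sub_mem _ dd_mem (by
    rw [pow_two]; exact Ideal.mul_mem_right _ _ uu1_mem))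

lemma exists_zU {h : R} (h2 : 2 * h = 1) (w : R3 R) :
    ∃ z : R3 R, z ^ 2 = 1 + (yy R * uu1 R + aa R) ^ 2 + (yy R * (1 + uu2 R)) *
      (yy R * uu3 w + bb R) ∧ z - 1 ∈ maximalIdeal (R3 R) := by
  refine exists_sqrt (two_unit (two_map (iU R) h2)) _ _ isUnit_one ?_
  have e : (1 : R3 R) ^ 2 - (1 + (yy R * uu1 R + aa R) ^ 2 + (yy R * (1 + uu2 R)) *
      (yy R * uu3 w + bb R)) = - ((yy R * uu1 R + aa R) * (yy R * uu1 R + aa R)) -
      yy R * ((1 + uu2 R) * (yy R * uu3 w + bb R)) := by ring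
  rw [e]
  refine Ideal.sub_mem _ (Ideal.neg_mem_iff _ |>.2 (Ideal.mul_mem_right _ _
    (Ideal.add_mem _ (Ideal.mul_mem_right _ _ yy_mem) aa_mem))) (Ideal.mul_mem_right _ _ yy_mem)

/-- the matrix `Φ` -/
noncomputable def PhiU (w x : R3 R) : M2 (R3 R) := genM x (uu1 R) (1 + uu2 R) (uu3 w)

/-- the matrix `Σ` -/
noncomputable def TU (w z : R3 R) : M2 (R3 R) :=
  genM z (yy R * uu1 R + aa R) (yy R * (1 + uu2 R)) (yy R * uu3 w + bb R)

lemma U_univ {h q ε : R} (h2 : 2 * h = 1) (hε : IsUnit ε) (w : R3 R) (hw : (1 + uu2 R) * w = 1)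
    (x : R3 R) (hx : x ^ 2 = iU R q + dd R)
    (hx' : x - iU R ε ∈ maximalIdeal (R3 R)) (z : R3 R)
    (hz : z ^ 2 = 1 + (yy R * uu1 R + aa R) ^ 2 + (yy R * (1 + uu2 R)) *
      (yy R * uu3 w + bb R)) (hz' : z - 1 ∈ maximalIdeal (R3 R))
    (B : Type) [CommRing B] [IsLocalRing B] [IsAdicComplete (maximalIdeal B) B]
    (f : R →+* B) [IsLocalHom f] (Φ' T' : M2 B) (hΦ' : Φ'.det = f q) (hT' : T'.det = 1)
    (hΦ₀ : ∀ a b, Φ' a b - f (genM ε 0 1 0 a b) ∈ maximalIdeal B)
    (hT₀ : ∀ a b, T' a b - (1 : M2 B) a b ∈ maximalIdeal B) :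
    ∃ f' : R3 R →+* B, IsLocalHom f' ∧ f'.comp (iU R) = f ∧
      (PhiU w x).map f' = Φ' ∧ (TU w z).map f' = T' := by
  have h2B : 2 * f h = 1 := two_map f h2
  have hΦ00 : Φ' 0 0 - f ε ∈ maximalIdeal B := by simpa [genM] using hΦ₀ 0 0
  have hΦ01 : Φ' 0 1 - 1 ∈ maximalIdeal B := by simpa [genM] using hΦ₀ 0 1
  have hΦ10 : Φ' 1 0 ∈ maximalIdeal B := by simpa [genM] using hΦ₀ 1 0
  have hΦ11 : Φ' 1 1 - f ε ∈ maximalIdeal B := by simpa [genM] using hΦ₀ 1 1
  have hT00 : T' 0 0 - 1 ∈ maximalIdeal B := by simpa using hT₀ 0 0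
  have hT01 : T' 0 1 ∈ maximalIdeal B := by simpa using hT₀ 0 1
  have hT10 : T' 1 0 ∈ maximalIdeal B := by simpa using hT₀ 1 0
  have hT11 : T' 1 1 - 1 ∈ maximalIdeal B := by simpa using hT₀ 1 1
  have hu01 : IsUnit (Φ' 0 1) := isUnit_of_sub_mem isUnit_one hΦ01
  obtain ⟨v, hv⟩ := hu01.exists_right_inv
  set u1' : B := (Φ' 0 0 - Φ' 1 1) * f h with hu1'
  have m1 : u1' ∈ maximalIdeal B := by
    have e : (Φ' 0 0 - Φ' 1 1) * f h = ((Φ' 0 0 - f ε) - (Φ' 1 1 - f ε)) * f h := by ring
    rw [hu1', e]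
    exact Ideal.mul_mem_right _ _ (Ideal.sub_mem _ hΦ00 hΦ11)
  set t0' : B := (T' 0 0 - T' 1 1) * f h with ht0'
  have m0 : t0' ∈ maximalIdeal B := by
    have e : (T' 0 0 - T' 1 1) * f h = ((T' 0 0 - 1) - (T' 1 1 - 1)) * f h := by ring
    rw [ht0', e]
    exact Ideal.mul_mem_right _ _ (Ideal.sub_mem _ hT00 hT11)
  set y' : B := T' 0 1 * v with hy'
  have my : y' ∈ maximalIdeal B := Ideal.mul_mem_right _ _ hT01
  obtain ⟨f', hf', c1, c2, c3, c4, c5, c6, c7⟩ := R3_univ f u1' (Φ' 0 1 - 1)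
    (u1' ^ 2 + Φ' 0 1 * Φ' 1 0) y' (t0' - y' * u1') (T' 1 0 - y' * Φ' 1 0) m1 hΦ01
    (Ideal.add_mem _ (by rw [pow_two]; exact Ideal.mul_mem_right _ _ m1)
      (Ideal.mul_mem_left _ _ hΦ10)) my
    (Ideal.sub_mem _ m0 (Ideal.mul_mem_right _ _ my))
    (Ideal.sub_mem _ hT10 (Ideal.mul_mem_right _ _ my))
  have ciU : ∀ r, f' (iU R r) = f r := fun r => by rw [← RingHom.comp_apply, c1]
  have ew : Φ' 0 1 * f' w = 1 := by
    have := congrArg f' hw
    rw [map_mul, map_add, map_one, c3, add_sub_cancel] at this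
    exact this
  have ewv : f' w = v := by
    calc f' w = (Φ' 0 1 * v) * f' w := by rw [hv, one_mul]
      _ = (Φ' 0 1 * f' w) * v := by ring
      _ = v := by rw [ew, one_mul]
  have e3 : f' (uu3 w) = Φ' 1 0 := by
    rw [uu3, map_mul, map_sub, map_pow, c4, c2, ewv]
    linear_combination (Φ' 1 0) * hv
  have ex : f' x = Φ'.trace * f h := by
    refine eq_half_trace h2B (hε.map f) Φ' hΦ' ?_ ?_ ?_
    · rw [← map_pow, hx, map_add, ciU, c4]
      ring
    · have := map_mem_maxIdeal f' hx'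
      rwa [map_sub, ciU] at this
    · rw [Matrix.trace_fin_two]
      have e : Φ' 0 0 + Φ' 1 1 - 2 * f ε = (Φ' 0 0 - f ε) + (Φ' 1 1 - f ε) := by ring
      rw [e]
      exact Ideal.add_mem _ hΦ00 hΦ11
  have ey : y' * Φ' 0 1 = T' 0 1 := by
    rw [hy']
    linear_combination (T' 0 1) * hv
  have ez : f' z = T'.trace * f h := by
    refine eq_half_trace h2B isUnit_one T' hT' ?_ ?_ ?_
    · rw [← map_pow, hz]
      simp only [map_add, map_mul, map_pow, map_one, c2, c3, c5, c6, c7, e3]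
      rw [← ht0']
      linear_combination (T' 1 0) * ey
    · have := map_mem_maxIdeal f' hz'
      rwa [map_sub, map_one] at this
    · rw [Matrix.trace_fin_two]
      have e : T' 0 0 + T' 1 1 - 2 * 1 = (T' 0 0 - 1) + (T' 1 1 - 1) := by ring
      rw [e]
      exact Ideal.add_mem _ hT00 hT11
  refine ⟨f', hf', c1, ?_, ?_⟩
  · rw [PhiU, map_genM, ex, c2, map_add, map_one, c3, e3, add_sub_cancel]
    exact (eq_genM (f h) h2B Φ').symm
  · rw [TU, map_genM, ez]
    simp only [map_add, map_mul, map_one, c2, c3, c5, c6, c7, e3]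
    rw [add_sub_cancel, add_sub_cancel (1 : B), ey, add_sub_cancel]
    exact (eq_genM (f h) h2B T').symm

end U

section GoodU

variable {R : Type} [CommRing R] [IsLocalRing R] [IsNoetherianRing R]
  [IsAdicComplete (maximalIdeal R) R]

/-- all variables -/
noncomputable def aug3 (A : Type) [CommRing A] : Ideal (R3 A) :=
  Ideal.span {uu1 A, uu2 A, dd A, yy A, aa A, bb A}

lemma exists_aug3 (z : R3 R) : ∃ r : R, z - iU R r ∈ aug3 R := by
  refine ⟨constantCoeff (constantCoeff (constantCoeff z)), ?_⟩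
  have h1 : z - C (constantCoeff z) ∈ H04.XI (Fin 2) (R2 R) := by
    rw [mem_XI_iff]; simp
  have h2 : constantCoeff z - C (constantCoeff (constantCoeff z)) ∈ H04.XI (Fin 2) (R1 R) := by
    rw [mem_XI_iff]; simp
  have h3 : constantCoeff (constantCoeff z) -
      C (constantCoeff (constantCoeff (constantCoeff z))) ∈ H04.XI (Fin 2) R := by
    rw [mem_XI_iff]; simp
  have k1 : H04.XI (Fin 2) (R2 R) ≤ aug3 R := by
    rw [H04.XI, Ideal.span_le]
    rintro _ ⟨i, rfl⟩
    fin_cases i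
    · exact Ideal.subset_span (by simp [aa])
    · exact Ideal.subset_span (by simp [bb])
  have k2 : (H04.XI (Fin 2) (R1 R)).map (C : R2 R →+* R3 R) ≤ aug3 R := by
    rw [H04.XI, Ideal.map_span, Ideal.span_le]
    rintro _ ⟨_, ⟨i, rfl⟩, rfl⟩
    fin_cases i
    · exact Ideal.subset_span (by simp [dd])
    · exact Ideal.subset_span (by simp [yy])
  have k3 : (H04.XI (Fin 2) R).map ((C : R2 R →+* R3 R).comp (C : R1 R →+* R2 R)) ≤ aug3 R := by
    rw [H04.XI, Ideal.map_span, Ideal.span_le]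
    rintro _ ⟨_, ⟨i, rfl⟩, rfl⟩
    fin_cases i
    · exact Ideal.subset_span (by simp [uu1])
    · exact Ideal.subset_span (by simp [uu2])
  have e : z - iU R (constantCoeff (constantCoeff (constantCoeff z))) =
      (z - C (constantCoeff z)) +
      C (constantCoeff z - C (constantCoeff (constantCoeff z))) +
      ((C : R2 R →+* R3 R).comp (C : R1 R →+* R2 R)) (constantCoeff (constantCoeff z) -
        C (constantCoeff (constantCoeff (constantCoeff z)))) := by
    change z - C (C (C _)) = _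
    rw [map_sub, map_sub]
    simp only [RingHom.comp_apply]
    ring
  rw [e]
  exact Ideal.add_mem _ (Ideal.add_mem _ (k1 h1) (k2 (Ideal.mem_map_of_mem _ h2)))
    (k3 (Ideal.mem_map_of_mem _ h3))

/-- the explicit form of the ideal of type `χ`. -/
noncomputable def idU (A : Type) [CommRing A] (c : A) : Ideal (R3 A) :=
  H04.XI (Fin 2) (R2 A) ⊔ Ideal.span {C (relM 2 (C c : R1 A))}

lemma monomial_TT' {A : Type} [CommRing A] (b : ℕ) :
    (monomial (TT b) 1 : MvPowerSeries (Fin 2) A) = X 0 * X 1 ^ b := by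
  rw [X_pow_eq, X_def, monomial_mul_monomial, one_mul]
  rfl

lemma C_relM {A : Type} [CommRing A] (c : A) :
    (C (relM 2 (C c : R1 A)) : R3 A) = dd A * yy A ^ 2 - iU A c := by
  rw [relM, monomial_TT', map_sub, map_mul, map_pow]
  rfl

lemma XI_eq {A : Type} [CommRing A] : H04.XI (Fin 2) (R2 A) = Ideal.span {aa A, bb A} := by
  rw [H04.XI]
  congr 1
  ext z
  constructor
  · rintro ⟨i, rfl⟩
    fin_cases i
    · exact Or.inl rfl
    · exact Or.inr rfl
  · rintro (rfl | rfl)
    · exact ⟨0, rfl⟩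
    · exact ⟨1, rfl⟩

/-- the ideal generated by the minors -/
lemma minorsU {A : Type} [CommRing A] (w : R3 A) (hw : (1 + uu2 A) * w = 1) :
    Ideal.span {uu1 A * (yy A * (1 + uu2 A)) - (1 + uu2 A) * (yy A * uu1 A + aa A),
      uu1 A * (yy A * uu3 w + bb A) - uu3 w * (yy A * uu1 A + aa A),
      (1 + uu2 A) * (yy A * uu3 w + bb A) - uu3 w * (yy A * (1 + uu2 A))} =
    Ideal.span {aa A, bb A} := by
  have e1 : uu1 A * (yy A * (1 + uu2 A)) - (1 + uu2 A) * (yy A * uu1 A + aa A) =
      (-(1 + uu2 A)) * aa A := by ring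
  have e2 : uu1 A * (yy A * uu3 w + bb A) - uu3 w * (yy A * uu1 A + aa A) =
      uu1 A * bb A - uu3 w * aa A := by ring
  have e3 : (1 + uu2 A) * (yy A * uu3 w + bb A) - uu3 w * (yy A * (1 + uu2 A)) =
      (1 + uu2 A) * bb A := by ring
  rw [e1, e2, e3]
  have ma : aa A ∈ Ideal.span {aa A, bb A} := Ideal.subset_span (by simp)
  have mb : bb A ∈ Ideal.span {aa A, bb A} := Ideal.subset_span (by simp)
  apply le_antisymm
  · rw [Ideal.span_le]
    intro z hz
    rw [Set.mem_insert_iff, Set.mem_insert_iff, Set.mem_singleton_iff] at hz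
    rcases hz with rfl | rfl | rfl
    · exact Ideal.mul_mem_left _ _ ma
    · exact Ideal.sub_mem _ (Ideal.mul_mem_left _ _ mb) (Ideal.mul_mem_left _ _ ma)
    · exact Ideal.mul_mem_left _ _ mb
  · rw [Ideal.span_le]
    intro z hz
    rw [Set.mem_insert_iff, Set.mem_singleton_iff] at hz
    rcases hz with rfl | rfl
    · have e : (-w) * ((-(1 + uu2 A)) * aa A) = aa A := by
        linear_combination (aa A) * hw
      have m : (-w) * ((-(1 + uu2 A)) * aa A) ∈ Ideal.span {-(1 + uu2 A) * aa A,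
        uu1 A * bb A - uu3 w * aa A, (1 + uu2 A) * bb A} :=
        Ideal.mul_mem_left _ _ (Ideal.subset_span (by simp))
      rwa [e] at m
    · have e : w * ((1 + uu2 A) * bb A) = bb A := by
        linear_combination (bb A) * hw
      have m : w * ((1 + uu2 A) * bb A) ∈ Ideal.span {-(1 + uu2 A) * aa A,
        uu1 A * bb A - uu3 w * aa A, (1 + uu2 A) * bb A} :=
        Ideal.mul_mem_left _ _ (Ideal.subset_span (by simp))
      rwa [e] at m

lemma span_sup_singleton_congr {A : Type} [CommRing A] (I : Ideal A) {a b : A}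
    (h : a - b ∈ I) : I ⊔ Ideal.span {a} = I ⊔ Ideal.span {b} := by
  apply le_antisymm
  · refine sup_le le_sup_left ?_
    rw [Ideal.span_singleton_le_iff_mem]
    have : a = (a - b) + b := by ring
    rw [this]
    exact Ideal.add_mem _ (Ideal.mem_sup_left h) (Ideal.mem_sup_right (Ideal.subset_span rfl))
  · refine sup_le le_sup_left ?_
    rw [Ideal.span_singleton_le_iff_mem]
    have : b = a - (a - b) := by ring
    rw [this]
    exact Ideal.sub_mem _ (Ideal.mem_sup_right (Ideal.subset_span rfl)) (Ideal.mem_sup_left h)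

lemma Jchi_U {h t : R} (h2 : 2 * h = 1) (ht : t - 2 ∈ maximalIdeal R) (w x z : R3 R)
    (hw : (1 + uu2 R) * w = 1)
    (hz : z ^ 2 = 1 + (yy R * uu1 R + aa R) ^ 2 + (yy R * (1 + uu2 R)) *
      (yy R * uu3 w + bb R)) (hz' : z - 1 ∈ maximalIdeal (R3 R)) :
    Jchi (iU R t) (PhiU w x) (TU w z) = idU R ((t * h) ^ 2 - 1) := by
  have hh : 2 * iU R h = 1 := two_map (iU R) h2
  rw [PhiU, TU, Jchi_genM _ _ _ _ _ _ _ _ _ _ hh, minorsU w hw, idU, XI_eq, C_relM]
  · apply span_sup_singleton_congr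
    have ma : aa R ∈ Ideal.span {aa R, bb R} := Ideal.subset_span (by simp)
    have mb : bb R ∈ Ideal.span {aa R, bb R} := Ideal.subset_span (by simp)
    have e : z ^ 2 - (iU R t * iU R h) ^ 2 - (dd R * yy R ^ 2 - iU R ((t * h) ^ 2 - 1)) =
        (2 * yy R * uu1 R + aa R) * aa R + (yy R * (1 + uu2 R)) * bb R := by
      rw [hz, map_sub, map_pow, map_mul, map_one, uu3]
      linear_combination (yy R ^ 2 * (dd R - uu1 R ^ 2)) * hw
    rw [e]
    exact Ideal.add_mem _ (Ideal.mul_mem_left _ _ ma) (Ideal.mul_mem_left _ _ mb)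
  · refine isUnit_of_sub_mem (y := 2 * 2) ((two_unit hh).mul (two_unit hh)) ?_
    have e : 2 * z + iU R t - 2 * 2 = 2 * (z - 1) + iU R (t - 2) := by
      rw [map_sub, map_ofNat]; ring
    rw [e]
    exact Ideal.add_mem _ (Ideal.mul_mem_left _ _ hz') (map_mem_maxIdeal _ ht)

/-- base change -/
noncomputable def map3 {A B : Type} [CommRing A] [CommRing B] (φ : A →+* B) : R3 A →+* R3 B :=
  MvPowerSeries.map (σ := Fin 2) (MvPowerSeries.map (σ := Fin 2) (MvPowerSeries.map (σ := Fin 2) φ))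

section map3
variable {A B : Type} [CommRing A] [CommRing B] (φ : A →+* B)

lemma map3_surj (hφ : Function.Surjective φ) : Function.Surjective (map3 φ) :=
  psmap_surjective _ (psmap_surjective _ (psmap_surjective _ hφ))

lemma map3_iU (a : A) : map3 φ (iU A a) = iU B (φ a) := by
  change MvPowerSeries.map _ (C (C (C a))) = C (C (C (φ a)))
  rw [map_C, map_C, map_C]

lemma map3_comp : (map3 φ).comp (iU A) = (iU B).comp φ := RingHom.ext (map3_iU φ)

@[simp] lemma map3_uu1 : map3 φ (uu1 A) = uu1 B := by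
  change MvPowerSeries.map _ (C (C (X 0))) = C (C (X 0))
  rw [map_C, map_C, map_X]
@[simp] lemma map3_uu2 : map3 φ (uu2 A) = uu2 B := by
  change MvPowerSeries.map _ (C (C (X 1))) = C (C (X 1))
  rw [map_C, map_C, map_X]
@[simp] lemma map3_dd : map3 φ (dd A) = dd B := by
  change MvPowerSeries.map _ (C (X 0)) = C (X 0)
  rw [map_C, map_X]
@[simp] lemma map3_yy : map3 φ (yy A) = yy B := by
  change MvPowerSeries.map _ (C (X 1)) = C (X 1)
  rw [map_C, map_X]
@[simp] lemma map3_aa : map3 φ (aa A) = aa B := by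
  change MvPowerSeries.map _ (X 0) = X 0
  rw [map_X]
@[simp] lemma map3_bb : map3 φ (bb A) = bb B := by
  change MvPowerSeries.map _ (X 1) = X 1
  rw [map_X]

lemma ker_map3 [IsNoetherianRing A] : RingHom.ker (map3 φ) = (RingHom.ker φ).map (iU A) := by
  rw [map3, ker_psmap, ker_psmap, ker_psmap, Ideal.map_map, Ideal.map_map]
  rfl

end map3

lemma map_idU {A B : Type} [CommRing A] [CommRing B] (φ : A →+* B) (c : A) :
    (idU A c).map (map3 φ) = idU B (φ c) := by
  rw [idU, idU, XI_eq, XI_eq, C_relM, C_relM, Ideal.map_sup, Ideal.map_span, Ideal.map_span,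
    Set.image_singleton, Set.image_insert_eq, Set.image_singleton]
  simp only [map_sub, map_mul, map_pow, map3_aa, map3_bb, map3_dd, map3_yy, map3_iU]

lemma comap_constantCoeff {σ A : Type} [CommRing A] [Finite σ] (J : Ideal A) :
    J.comap (constantCoeff : MvPowerSeries σ A →+* A) = H04.XI σ A ⊔ J.map C := by
  apply le_antisymm
  · intro f hf
    have e : f = (f - C (constantCoeff f)) + C (constantCoeff f) := by ring
    rw [e]
    refine Ideal.add_mem _ (Ideal.mem_sup_left ?_) (Ideal.mem_sup_right (Ideal.mem_map_of_mem _ hf))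
    rw [mem_XI_iff]
    simp
  · refine sup_le ?_ ?_
    · intro f hf
      rw [mem_XI_iff] at hf
      rw [Ideal.mem_comap, hf]
      exact zero_mem _
    · rw [Ideal.map_le_iff_le_comap]
      intro a ha
      rw [Ideal.mem_comap, Ideal.mem_comap, constantCoeff_C]
      exact ha

lemma idU_eq_comap {A : Type} [CommRing A] (c : A) : idU A c =
    (Ideal.span {(relM 2 (C c : R1 A))}).comap (constantCoeff : R3 A →+* R2 A) := by
  rw [comap_constantCoeff, Ideal.map_span, Set.image_singleton, idU]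

lemma comap_idU {B : Type} [CommRing B] [IsLocalRing B] [IsNoetherianRing B]
    [IsAdicComplete (maximalIdeal B) B] {c : B} (hc : c ∈ maximalIdeal B) :
    (idU B c).comap (iU B) = ⊥ := by
  rw [eq_bot_iff]
  intro b hb
  rw [Ideal.mem_comap] at hb
  rw [Ideal.mem_bot]
  obtain ⟨g, hg, c1, c2, c3, c4, c5, c6, c7⟩ := R3_univ (B := MvPowerSeries Unit B)
    (C : B →+* MvPowerSeries Unit B) 0 0 (PowerSeries.X : PowerSeries B)
    (PowerSeries.X : PowerSeries B) 0 0 (zero_mem _) (zero_mem _) (X_mem_maxIdeal ())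
    (X_mem_maxIdeal ()) (zero_mem _) (zero_mem _)
  have hgC : ∀ r, g (iU B r) = C r := fun r => by rw [← RingHom.comp_apply, c1]
  have h1 : idU B c ≤ (Ideal.span {(PowerSeries.X ^ 3 - PowerSeries.C c : PowerSeries B)}).comap
      g := by
    rw [idU, XI_eq, C_relM]
    refine sup_le ?_ ?_
    · rw [Ideal.span_le]
      intro z hz
      rw [Set.mem_insert_iff, Set.mem_singleton_iff] at hz
      rcases hz with rfl | rfl
      · rw [SetLike.mem_coe, Ideal.mem_comap, c6]
        exact zero_mem _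
      · rw [SetLike.mem_coe, Ideal.mem_comap, c7]
        exact zero_mem _
    · rw [Ideal.span_singleton_le_iff_mem, Ideal.mem_comap]
      apply Ideal.subset_span
      rw [Set.mem_singleton_iff, map_sub, map_mul, map_pow, c4, c5, hgC]
      change (PowerSeries.X : PowerSeries B) * PowerSeries.X ^ 2 - PowerSeries.C c = _
      ring
  have h2 := h1 hb
  rw [Ideal.mem_comap, hgC] at h2
  exact eq_zero_of_C_mem 3 (by norm_num) hc h2

theorem good_idU (I : Ideal R) [I.IsPrime] {c : R}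
    (hc : c ∈ maximalIdeal R) (hcI : c ∉ I) : Good (iU R) I (idU R c) := by
  classical
  have hI : I ≠ ⊤ := Ideal.IsPrime.ne_top'
  have := isLocalRing_quot I hI
  have := isAdicComplete_of_surjective (Ideal.Quotient.mk I) Ideal.Quotient.mk_surjective
  let φ : R →+* R ⧸ I := Ideal.Quotient.mk I
  have hφ : Function.Surjective φ := Ideal.Quotient.mk_surjective
  have hcB : φ c ∈ maximalIdeal (R ⧸ I) := by
    rw [← map_maximalIdeal_of_surjective φ hφ]
    exact Ideal.mem_map_of_mem _ hc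
  have hcB0 : φ c ≠ 0 := by
    rwa [Ne, Ideal.Quotient.eq_zero_iff_mem]
  have hJ : ((idU R c).map (map3 φ)).IsPrime := by
    rw [map_idU, idU_eq_comap]
    have hc0 : (C (φ c) : R1 (R ⧸ I)) ≠ 0 := by
      intro h
      have := congrArg constantCoeff h
      rw [constantCoeff_C, map_zero] at this
      exact hcB0 this
    have := isPrime_relM 2 (C (φ c) : R1 (R ⧸ I)) (C_mem_maxIdeal hcB) hc0
    exact Ideal.comap_isPrime _ _
  have hinj : ((idU R c).map (map3 φ)).comap (iU (R ⧸ I)) = ⊥ := by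
    rw [map_idU]
    exact comap_idU hcB
  have key := prime_of_baseChange (iU R) φ (map3 φ) (map3_surj φ hφ) (iU (R ⧸ I)) (map3_comp φ)
    (ker_map3 φ) (idU R c) hJ hinj
  rw [Ideal.mk_ker] at key
  obtain ⟨k1, k2⟩ := key
  refine ⟨k1, k2, ?_⟩
  refine dim_bound_chi (iU R) (aug3 R) exists_aug3 I c hc hcI _ le_sup_left
    {uu1 R, uu2 R, yy R - dd R} ?_ ?_ 3 Finset.card_le_three
  · intro z hz
    rw [Finset.mem_insert, Finset.mem_insert, Finset.mem_singleton] at hz
    rcases hz with rfl | rfl | rfl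
    · exact uu1_mem
    · exact uu2_mem
    · exact Ideal.sub_mem _ yy_mem dd_mem
  · intro P hP h1 h3 h4
    have m1 : uu1 R ∈ P := h4 _ (by simp)
    have m2 : uu2 R ∈ P := h4 _ (by simp)
    have m3 : yy R - dd R ∈ P := h4 _ (by simp)
    have h5 : idU R c ≤ P := le_sup_right.trans h1
    rw [idU, XI_eq, C_relM] at h5
    have n1 : aa R ∈ P := h5 (Ideal.mem_sup_left (Ideal.subset_span (by simp)))
    have n2 : bb R ∈ P := h5 (Ideal.mem_sup_left (Ideal.subset_span (by simp)))
    have n3 : dd R * yy R ^ 2 ∈ P := by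
      have := Ideal.add_mem _ (h5 (Ideal.mem_sup_right (Ideal.subset_span rfl))) h3
      rwa [sub_add_cancel] at this
    have n4 : dd R ∈ P ∧ yy R ∈ P := by
      rcases hP.mem_or_mem n3 with h | h
      · refine ⟨h, ?_⟩
        have := Ideal.add_mem _ m3 h
        rwa [sub_add_cancel] at this
      · have h' := hP.mem_of_pow_mem 2 h
        refine ⟨?_, h'⟩
        have := Ideal.sub_mem _ h' m3
        rwa [sub_sub_cancel] at this
    rw [aug3, Ideal.span_le]
    intro z hz
    simp only [Set.mem_insert_iff, Set.mem_singleton_iff] at hz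
    rcases hz with rfl | rfl | rfl | rfl | rfl | rfl
    · exact m1
    · exact m2
    · exact n4.1
    · exact n4.2
    · exact n1
    · exact n2

lemma prime_X1 {D : Type} [CommRing D] [IsDomain D] : Prime (X 1 : MvPowerSeries (Fin 2) D) := by
  let e1 := renameEquiv D (Equiv.swap (0 : Fin 2) 1)
  have h1 : e1 (X 1) = X 0 := by
    change rename _ (X 1) = X 0
    rw [rename_X]
    simp
  let e2 := finSuccEquiv D 1
  have h2 : e2 (X 0) = PowerSeries.X := finSuccEquiv_X_zero
  rw [← MulEquiv.prime_iff (e1.trans e2).toMulEquiv]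
  change Prime (e2 (e1 (X 1)))
  rw [h1, h2]
  exact PowerSeries.X_prime

/-- the ideal of unramified type -/
noncomputable def jdU (A : Type) [CommRing A] : Ideal (R3 A) :=
  H04.XI (Fin 2) (R2 A) ⊔ Ideal.span {yy A}

lemma Junr_U {h : R} (h2 : 2 * h = 1) (w z : R3 R) (hw : (1 + uu2 R) * w = 1)
    (hz : z ^ 2 = 1 + (yy R * uu1 R + aa R) ^ 2 + (yy R * (1 + uu2 R)) *
      (yy R * uu3 w + bb R)) (hz' : z - 1 ∈ maximalIdeal (R3 R)) :
    Junr (TU w z) = jdU R := by
  have hh : 2 * iU R h = 1 := two_map (iU R) h2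
  rw [jdU, XI_eq]
  apply le_antisymm
  · set L : Ideal (R3 R) := Ideal.span {aa R, bb R} ⊔ Ideal.span {yy R} with hL
    have ma : aa R ∈ L := Ideal.mem_sup_left (Ideal.subset_span (by simp))
    have mb : bb R ∈ L := Ideal.mem_sup_left (Ideal.subset_span (by simp))
    have my : yy R ∈ L := Ideal.mem_sup_right (Ideal.subset_span rfl)
    have mz : z - 1 ∈ L := by
      have h3 : IsUnit (z + 1) := by
        refine isUnit_of_sub_mem (two_unit hh) ?_
        have e : z + 1 - 2 = z - 1 := by ring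
        rw [e]
        exact hz'
      have h4 : (z - 1) * (z + 1) ∈ L := by
        have e : (z - 1) * (z + 1) = yy R * (yy R * uu1 R ^ 2 + 2 * uu1 R * aa R +
            (1 + uu2 R) * (yy R * uu3 w + bb R)) + aa R * aa R := by linear_combination hz
        rw [e]
        exact Ideal.add_mem _ (Ideal.mul_mem_right _ _ my) (Ideal.mul_mem_right _ _ ma)
      exact (Ideal.mul_unit_mem_iff_mem _ h3).1 h4
    rw [Junr, one_eq_genM, TU, ent_le_iff]
    intro i j
    fin_cases i <;> fin_cases j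
    · have e : z + (yy R * uu1 R + aa R) - (1 + 0) = (z - 1) + (yy R * uu1 R + aa R) := by ring
      change z + (yy R * uu1 R + aa R) - (1 + 0) ∈ _
      rw [e]
      exact Ideal.add_mem _ mz (Ideal.add_mem _ (Ideal.mul_mem_right _ _ my) ma)
    · change yy R * (1 + uu2 R) - 0 ∈ _
      rw [sub_zero]
      exact Ideal.mul_mem_right _ _ my
    · change yy R * uu3 w + bb R - 0 ∈ _
      rw [sub_zero]
      exact Ideal.add_mem _ (Ideal.mul_mem_right _ _ my) mb
    · have e : z - (yy R * uu1 R + aa R) - (1 - 0) = (z - 1) - (yy R * uu1 R + aa R) := by ring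
      change z - (yy R * uu1 R + aa R) - (1 - 0) ∈ _
      rw [e]
      exact Ideal.sub_mem _ mz (Ideal.add_mem _ (Ideal.mul_mem_right _ _ my) ma)
  · have m00 := mem_ent (TU w z - 1) 0 0
    have m01 := mem_ent (TU w z - 1) 0 1
    have m10 := mem_ent (TU w z - 1) 1 0
    have m11 := mem_ent (TU w z - 1) 1 1
    rw [Junr]
    set L := ent (TU w z - 1) with hL
    rw [TU, one_eq_genM] at m00 m01 m10 m11
    change z + (yy R * uu1 R + aa R) - (1 + 0) ∈ _ at m00
    change z - (yy R * uu1 R + aa R) - (1 - 0) ∈ _ at m11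
    change yy R * (1 + uu2 R) - 0 ∈ _ at m01
    change yy R * uu3 w + bb R - 0 ∈ _ at m10
    rw [sub_zero] at m01 m10
    have my : yy R ∈ L := by
      have e : yy R = w * (yy R * (1 + uu2 R)) := by linear_combination (-yy R) * hw
      rw [e]
      exact Ideal.mul_mem_left _ _ m01
    have ma : aa R ∈ L := by
      have e : aa R = iU R h * ((z + (yy R * uu1 R + aa R) - (1 + 0)) -
          (z - (yy R * uu1 R + aa R) - (1 - 0))) - uu1 R * yy R := by
        linear_combination (-(yy R * uu1 R + aa R)) * hh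
      rw [e]
      exact Ideal.sub_mem _ (Ideal.mul_mem_left _ _ (Ideal.sub_mem _ m00 m11))
        (Ideal.mul_mem_left _ _ my)
    have mb : bb R ∈ L := by
      have e : bb R = (yy R * uu3 w + bb R) - uu3 w * yy R := by ring
      rw [e]
      exact Ideal.sub_mem _ m10 (Ideal.mul_mem_left _ _ my)
    refine sup_le ?_ ?_
    · rw [Ideal.span_le]
      intro z hz
      rw [Set.mem_insert_iff, Set.mem_singleton_iff] at hz
      rcases hz with rfl | rfl
      · exact ma
      · exact mb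
    · rw [Ideal.span_singleton_le_iff_mem]
      exact my

lemma map_jdU {A B : Type} [CommRing A] [CommRing B] (φ : A →+* B) :
    (jdU A).map (map3 φ) = jdU B := by
  rw [jdU, jdU, XI_eq, XI_eq, Ideal.map_sup, Ideal.map_span, Ideal.map_span,
    Set.image_singleton, Set.image_insert_eq, Set.image_singleton]
  simp only [map3_aa, map3_bb, map3_yy]

lemma jdU_eq_comap {A : Type} [CommRing A] : jdU A =
    (Ideal.span {(X 1 : R2 A)}).comap (constantCoeff : R3 A →+* R2 A) := by
  rw [comap_constantCoeff, Ideal.map_span, Set.image_singleton, jdU]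
  rfl

theorem good_jdU (I : Ideal R) [I.IsPrime] : Good (iU R) I (jdU R) := by
  classical
  have hI : I ≠ ⊤ := Ideal.IsPrime.ne_top'
  have := isLocalRing_quot I hI
  have := isAdicComplete_of_surjective (Ideal.Quotient.mk I) Ideal.Quotient.mk_surjective
  let φ : R →+* R ⧸ I := Ideal.Quotient.mk I
  have hφ : Function.Surjective φ := Ideal.Quotient.mk_surjective
  have hJ : ((jdU R).map (map3 φ)).IsPrime := by
    rw [map_jdU, jdU_eq_comap]
    have : (Ideal.span {(X 1 : R2 (R ⧸ I))}).IsPrime := by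
      rw [Ideal.span_singleton_prime prime_X1.ne_zero]
      exact prime_X1
    exact Ideal.comap_isPrime _ _
  have hinj : ((jdU R).map (map3 φ)).comap (iU (R ⧸ I)) = ⊥ := by
    rw [map_jdU, jdU_eq_comap, eq_bot_iff]
    intro b hb
    rw [Ideal.mem_comap, Ideal.mem_comap] at hb
    change constantCoeff (C (C (C b))) ∈ _ at hb
    rw [constantCoeff_C] at hb
    obtain ⟨g, hg⟩ := Ideal.mem_span_singleton'.1 hb
    have h1 := congrArg (fun f => constantCoeff (constantCoeff f)) hg
    simp only [map_mul, constantCoeff_X, mul_zero, constantCoeff_C, map_zero] at h1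
    exact h1.symm
  have key := prime_of_baseChange (iU R) φ (map3 φ) (map3_surj φ hφ) (iU (R ⧸ I)) (map3_comp φ)
    (ker_map3 φ) (jdU R) hJ hinj
  rw [Ideal.mk_ker] at key
  obtain ⟨k1, k2⟩ := key
  refine ⟨k1, k2, ?_⟩
  refine dim_bound (iU R) (aug3 R) exists_aug3 I _ le_sup_left
    {uu1 R, uu2 R, dd R} ?_ ?_ 3 Finset.card_le_three
  · intro z hz
    rw [Finset.mem_insert, Finset.mem_insert, Finset.mem_singleton] at hz
    rcases hz with rfl | rfl | rfl
    · exact uu1_mem
    · exact uu2_mem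
    · exact dd_mem
  · intro P hP h1 h4
    have m1 : uu1 R ∈ P := h4 _ (by simp)
    have m2 : uu2 R ∈ P := h4 _ (by simp)
    have m3 : dd R ∈ P := h4 _ (by simp)
    have h5 : jdU R ≤ P := le_sup_right.trans h1
    rw [jdU, XI_eq] at h5
    have n1 : aa R ∈ P := h5 (Ideal.mem_sup_left (Ideal.subset_span (by simp)))
    have n2 : bb R ∈ P := h5 (Ideal.mem_sup_left (Ideal.subset_span (by simp)))
    have n3 : yy R ∈ P := h5 (Ideal.mem_sup_right (Ideal.subset_span rfl))
    rw [aug3, Ideal.span_le]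
    intro z hz
    simp only [Set.mem_insert_iff, Set.mem_singleton_iff] at hz
    rcases hz with rfl | rfl | rfl | rfl | rfl | rfl
    · exact m1
    · exact m2
    · exact m3
    · exact n3
    · exact n1
    · exact n2

lemma ns_U {h : R} (h2 : 2 * h = 1) (I : Ideal R) [I.IsPrime] (q : R) (x : R3 R)
    (hx : x ^ 2 = iU R q + dd R) :
    (2 * x) ^ 2 - (iU R q + 1) ^ 2 ∉ I.map (iU R) ⊔ jdU R := by
  intro hmem
  have hI : I ≠ ⊤ := Ideal.IsPrime.ne_top'
  have := isLocalRing_quot I hI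
  have := isAdicComplete_of_surjective (Ideal.Quotient.mk I) Ideal.Quotient.mk_surjective
  let B := R ⧸ I
  have hloc : IsLocalHom (Ideal.Quotient.mk I) := by
    constructor
    intro a ha
    by_contra hna
    have h1 : a ∈ maximalIdeal R := (mem_maximalIdeal _).2 hna
    have h2 : Ideal.Quotient.mk I a ∈ maximalIdeal (R ⧸ I) := by
      rw [← map_maximalIdeal_of_surjective (Ideal.Quotient.mk I) Ideal.Quotient.mk_surjective]
      exact Ideal.mem_map_of_mem _ h1
    exact (mem_maximalIdeal _).1 h2 ha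
  obtain ⟨g, hg, c1, c2, c3, c4, c5, c6, c7⟩ := R3_univ (B := MvPowerSeries Unit B)
    ((C : B →+* MvPowerSeries Unit B).comp (Ideal.Quotient.mk I)) 0 0
    (PowerSeries.X : PowerSeries B) 0 0 0 (zero_mem _) (zero_mem _) (X_mem_maxIdeal ())
    (zero_mem _) (zero_mem _) (zero_mem _)
  have hgC : ∀ r, g (iU R r) = C (Ideal.Quotient.mk I r) := fun r => by
    rw [← RingHom.comp_apply, c1]; rfl
  have hg : I.map (iU R) ⊔ jdU R ≤ RingHom.ker g := by
    rw [jdU, XI_eq]
    refine sup_le ?_ (sup_le ?_ ?_)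
    · rw [Ideal.map_le_iff_le_comap]
      intro a ha
      rw [Ideal.mem_comap, RingHom.mem_ker, hgC, Ideal.Quotient.eq_zero_iff_mem.2 ha, map_zero]
    · rw [Ideal.span_le]
      intro z hz
      rw [Set.mem_insert_iff, Set.mem_singleton_iff] at hz
      rcases hz with rfl | rfl
      · exact c6
      · exact c7
    · rw [Ideal.span_singleton_le_iff_mem]
      exact c5
  have h1 := RingHom.mem_ker.1 (hg hmem)
  have e1 : (2 * x) ^ 2 - (iU R q + 1) ^ 2 = 4 * dd R - iU R ((q - 1) ^ 2) := by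
    rw [map_pow, map_sub, map_one]
    linear_combination 4 * hx
  rw [e1, map_sub, map_mul, map_ofNat, c4, hgC] at h1
  change (4 : PowerSeries B) * (PowerSeries.X : PowerSeries B) - PowerSeries.C _ = 0 at h1
  have h3 := congrArg (PowerSeries.coeff 1) h1
  have h4 : (4 : PowerSeries B) = PowerSeries.C 4 := by rw [map_ofNat]
  rw [map_sub, PowerSeries.coeff_C, if_neg one_ne_zero, sub_zero, map_zero,
    h4, PowerSeries.coeff_C_mul, PowerSeries.coeff_one_X, mul_one] at h3
  have h5 : IsUnit (4 : B) := by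
    have h6 := two_map (Ideal.Quotient.mk I) h2
    have h7 : (4 : B) = 2 * 2 := by norm_num
    rw [h7]
    exact (two_unit h6).mul (two_unit h6)
  exact h5.ne_zero h3

end GoodU

section StepU

/-- the ring of the non-scalar case -/
noncomputable def ringU (R : CLR) : CLR := ⟨R3 R⟩

/-- the universal pair in the non-scalar case -/
noncomputable def stepU {R : CLR} (h q ε : R) (h2 : 2 * h = 1) (hε : IsUnit ε)
    (w : R3 R) (hw : (1 + uu2 R) * w = 1)
    (x : R3 R) (hx : x ^ 2 = iU R q + dd R)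
    (hx' : x - iU R ε ∈ maximalIdeal (R3 R)) (z : R3 R)
    (hz : z ^ 2 = 1 + (yy R * uu1 R + aa R) ^ 2 + (yy R * (1 + uu2 R)) *
      (yy R * uu3 w + bb R)) (hz' : z - 1 ∈ maximalIdeal (R3 R)) :
    Step R q (genM ε 0 1 0) where
  R' := ringU R
  i := iU R
  loc := inferInstanceAs (IsLocalHom (iU R))
  Φ := PhiU w x
  T := TU w z
  detΦ := by
    change (PhiU w x).det = iU R q
    rw [PhiU, det_genM, hx, uu3]
    linear_combination (-(dd R - uu1 R ^ 2)) * hw
  detT := by
    change (TU w z).det = 1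
    rw [TU, det_genM, hz]
    ring
  hΦ := by
    intro a b
    change PhiU w x a b - ((genM ε 0 1 0).map (iU R) : M2 (R3 R)) a b ∈ maximalIdeal (R3 R)
    rw [map_genM, PhiU]
    refine genM_sub_mem hx' ?_ ?_ ?_ a b
    · rw [map_zero, sub_zero]
      exact uu1_mem
    · rw [map_one, add_sub_cancel_left]
      exact uu2_mem
    · rw [map_zero, sub_zero]
      exact uu3_mem w
  hT := by
    intro a b
    change TU w z a b - (1 : M2 (R3 R)) a b ∈ maximalIdeal (R3 R)
    rw [one_eq_genM, TU]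
    refine genM_sub_mem hz' ?_ ?_ ?_ a b
    · rw [sub_zero]
      exact Ideal.add_mem _ (Ideal.mul_mem_right _ _ yy_mem) aa_mem
    · rw [sub_zero]
      exact Ideal.mul_mem_right _ _ yy_mem
    · rw [sub_zero]
      exact Ideal.add_mem _ (Ideal.mul_mem_right _ _ yy_mem) bb_mem
  univ := U_univ h2 hε w hw x hx hx' z hz hz'
  res := fun z => res_R3 z

theorem exists_stepU (R : CLR) {h q ε : R} (h2 : 2 * h = 1) (hε : IsUnit ε)
    (hq : ε ^ 2 - q ∈ maximalIdeal R) : ∃ s : Step R q (genM ε 0 1 0), StepLL s := by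
  obtain ⟨w, hw⟩ := exists_wU (R := R)
  obtain ⟨x, hx, hx'⟩ := exists_xU h2 hε hq
  obtain ⟨z, hz, hz'⟩ := exists_zU h2 w
  refine ⟨stepU h q ε h2 hε w hw x hx hx' z hz hz', ?_, ?_, ?_⟩
  · intro I _ t ht htI
    change Good (iU R) I (Jchi (iU R t) (PhiU w x) (TU w z))
    rw [Jchi_U h2 ht w x z hw hz hz']
    have e : t ^ 2 - 4 = 4 * ((t * h) ^ 2 - 1) := by
      linear_combination (-(t ^ 2)) * (2 * h + 1) * h2
    refine good_idU I ?_ ?_
    · have e2 : (t * h) ^ 2 - 1 = (t - 2) * ((t + 2) * h ^ 2) := by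
        linear_combination (2 * h + 1) * h2
      rw [e2]
      exact Ideal.mul_mem_right _ _ ht
    · intro hmem
      apply htI
      rw [e]
      exact Ideal.mul_mem_left _ _ hmem
  · intro I _
    change Good (iU R) I (Junr (TU w z))
    rw [Junr_U h2 w z hw hz hz']
    exact good_jdU I
  · intro I _
    change (PhiU w x).trace ^ 2 - (iU R q + 1) ^ 2 ∉ I.map (iU R) ⊔ Junr (TU w z)
    rw [Junr_U h2 w z hw hz hz', PhiU, trace_genM]
    exact ns_U h2 I q x hx

end StepU

end Fermat.Agent.TAlg
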