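import Mathlib
import Fermat.Agent.TAlg.CaseU

/-! # (A4), general Frobenius, several primes. -/

set_option autoImplicit false
set_option linter.unusedSectionVars false

open IsLocalRing

namespace Fermat.Agent.TAlg

section Conj

variable {R : CLR} {q : R} {Φ₀ Φ₁ : M2 R}

lemma map_conj {A B : Type} [CommRing A] [CommRing B] (f : A →+* B) (M N P : M2 A) :
    (M * N * P).map f = M.map f * N.map f * P.map f := by
  rw [Matrix.map_mul, Matrix.map_mul]

lemma map_inv_pair {A B : Type} [CommRing A] [CommRing B] (f : A →+* B) {g g' : M2 A}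
    (h : g * g' = 1) : g.map f * g'.map f = 1 := by
  rw [← Matrix.map_mul, h, Matrix.map_one f (map_zero f) (map_one f)]

lemma conj_sub_mem {B : Type} [CommRing B] [IsLocalRing B] {g g' M N : M2 B}
    (h : ∀ a b, M a b - N a b ∈ maximalIdeal B) (a b : Fin 2) :
    (g * M * g') a b - (g * N * g') a b ∈ maximalIdeal B := by
  have h1 : ent (M - N) ≤ maximalIdeal B := ent_le_iff.2 h
  have h2 : ent (g * (M - N) * g') ≤ maximalIdeal B :=
    (ent_mul_right _ _).trans ((ent_mul_left _ _).trans h1)
  have h3 := ent_le_iff.1 h2 a b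
  rwa [mul_sub, sub_mul] at h3

lemma det_conj' {B : Type} [CommRing B] {g g' M : M2 B} (h : g * g' = 1) :
    (g * M * g').det = M.det := by
  rw [Matrix.det_mul, Matrix.det_mul]
  have : g.det * g'.det = 1 := by rw [← Matrix.det_mul, h, Matrix.det_one]
  linear_combination M.det * this

/-- transport of a universal pair under conjugation -/
noncomputable def Step.conj (s : Step R q Φ₁) (g g' : M2 R) (h : g * g' = 1) (h' : g' * g = 1)
    (hc : ∀ a b, (g * Φ₀ * g') a b - Φ₁ a b ∈ maximalIdeal R) : Step R q Φ₀ where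
  R' := s.R'
  i := s.i
  loc := s.loc
  Φ := g'.map s.i * s.Φ * g.map s.i
  T := g'.map s.i * s.T * g.map s.i
  detΦ := by rw [det_conj' (map_inv_pair s.i h'), s.detΦ]
  detT := by rw [det_conj' (map_inv_pair s.i h'), s.detT]
  hΦ := by
    intro a b
    have := s.loc
    have e : Φ₀ = g' * (g * Φ₀ * g') * g := by
      calc Φ₀ = (g' * g) * Φ₀ * (g' * g) := by rw [h', one_mul, mul_one]
        _ = g' * (g * Φ₀ * g') * g := by simp only [mul_assoc]
    have h1 : ∀ a b, s.Φ a b - ((g * Φ₀ * g').map s.i) a b ∈ maximalIdeal s.R' := by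
      intro a b
      have h2 := s.hΦ a b
      have h3 := map_mem_maxIdeal s.i (hc a b)
      rw [map_sub] at h3
      have h4 := Ideal.sub_mem _ h2 h3
      rw [Matrix.map_apply]
      convert h4 using 1
      ring
    have h2 := conj_sub_mem (g := g'.map s.i) (g' := g.map s.i) h1 a b
    rw [← map_conj, ← e] at h2
    exact h2
  hT := by
    intro a b
    have h2 := conj_sub_mem (g := g'.map s.i) (g' := g.map s.i) s.hT a b
    rw [mul_one, map_inv_pair s.i h'] at h2
    exact h2
  univ := by
    intro B _ _ _ f _ Φ' T' hΦ' hT' h1 h2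
    obtain ⟨f', k1, k2, k3, k4⟩ := s.univ B f (g.map f * Φ' * g'.map f) (g.map f * T' * g'.map f)
      (by rw [det_conj' (map_inv_pair f h), hΦ'])
      (by rw [det_conj' (map_inv_pair f h), hT'])
      (by
        intro a b
        have h3 : (g.map f * Φ' * g'.map f) a b - (g.map f * Φ₀.map f * g'.map f) a b ∈
            maximalIdeal B := conj_sub_mem h1 a b
        rw [← map_conj] at h3
        have h4 := map_mem_maxIdeal f (hc a b)
        rw [map_sub] at h4
        have h5 := Ideal.add_mem _ h3 h4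
        rw [Matrix.map_apply] at h5
        convert h5 using 1
        ring)
      (by
        intro a b
        have h3 := conj_sub_mem (g := g.map f) (g' := g'.map f) h2 a b
        rwa [mul_one, map_inv_pair f h] at h3)
    have k5 : ∀ M : M2 R, (M.map s.i).map f' = M.map f := by
      intro M
      rw [Matrix.map_map, ← RingHom.coe_comp, k2]
    have k6 : ∀ M : M2 B, g'.map f * (g.map f * M * g'.map f) * g.map f = M := by
      intro M
      calc _ = (g'.map f * g.map f) * M * (g'.map f * g.map f) := by simp only [mul_assoc]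
        _ = M := by rw [map_inv_pair f h', one_mul, mul_one]
    refine ⟨f', k1, k2, ?_, ?_⟩
    · rw [map_conj, k5, k5, k3, k6]
    · rw [map_conj, k5, k5, k4, k6]
  res := s.res

theorem StepLL.conj (s : Step R q Φ₁) (hs : StepLL s) (g g' : M2 R) (h : g * g' = 1)
    (h' : g' * g = 1) (hc : ∀ a b, (g * Φ₀ * g') a b - Φ₁ a b ∈ maximalIdeal R) :
    StepLL (s.conj g g' h h' hc) := by
  have e := map_inv_pair s.i h
  have e' := map_inv_pair s.i h'
  refine ⟨?_, ?_, ?_⟩
  · intro I _ t ht htI
    change Good s.i I (Jchi (s.i t) (g'.map s.i * s.Φ * g.map s.i) (g'.map s.i * s.T * g.map s.i))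
    rw [Jchi_conj e' e]
    exact hs.chi I t ht htI
  · intro I _
    change Good s.i I (Junr (g'.map s.i * s.T * g.map s.i))
    rw [Junr_conj e' e]
    exact hs.unr I
  · intro I _
    change (g'.map s.i * s.Φ * g.map s.i).trace ^ 2 - (s.i q + 1) ^ 2 ∉ I.map s.i ⊔
      Junr (g'.map s.i * s.T * g.map s.i)
    rw [Junr_conj e' e, trace_conj e]
    exact hs.ns I

/-- normal form of Frobenius -/
lemma exists_normal {B : Type} [CommRing B] [IsLocalRing B] {ε q : B} (M : M2 B)
    (hq : ε ^ 2 - q ∈ maximalIdeal B)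
    (hdet : M.det - q ∈ maximalIdeal B) (htr : M.trace - 2 * ε ∈ maximalIdeal B) :
    (∀ a b, M a b - genM ε 0 0 0 a b ∈ maximalIdeal B) ∨
    ∃ g g' : M2 B, g * g' = 1 ∧ g' * g = 1 ∧
      ∀ a b, (g * M * g') a b - genM ε 0 1 0 a b ∈ maximalIdeal B := by
  set a := M 0 0 - ε with ha
  set b := M 0 1 with hb
  set c := M 1 0 with hc
  set d := M 1 1 - ε with hd
  have eM : M = !![a + ε, b; c, d + ε] := by
    ext i j
    fin_cases i <;> fin_cases j <;> simp [ha, hb, hc, hd]
  have had : a + d ∈ maximalIdeal B := by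
    rw [Matrix.trace_fin_two] at htr
    convert htr using 1
    rw [ha, hd]; ring
  have hdt : a * d - b * c ∈ maximalIdeal B := by
    have e : a * d - b * c = (M.det - q) - ε * (M.trace - 2 * ε) - (ε ^ 2 - q) := by
      rw [Matrix.det_fin_two, Matrix.trace_fin_two, ha, hb, hc, hd]; ring
    rw [e]
    exact Ideal.sub_mem _ (Ideal.sub_mem _ hdet (Ideal.mul_mem_left _ _ htr)) hq
  have main : ∀ P : M2 B, IsUnit P.det →
      (∀ i j, (M * P) i j - (P * genM ε 0 1 0) i j ∈ maximalIdeal B) →
      ∃ g g' : M2 B, g * g' = 1 ∧ g' * g = 1 ∧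
      ∀ a b, (g * M * g') a b - genM ε 0 1 0 a b ∈ maximalIdeal B := by
    intro P hP hMP
    refine ⟨P⁻¹, P, Matrix.nonsing_inv_mul P hP, Matrix.mul_nonsing_inv P hP, ?_⟩
    have h1 : ent (M * P - P * genM ε 0 1 0) ≤ maximalIdeal B := ent_le_iff.2 hMP
    have h2 := (ent_mul_left P⁻¹ (M * P - P * genM ε 0 1 0)).trans h1
    have e : P⁻¹ * (M * P - P * genM ε 0 1 0) = P⁻¹ * M * P - genM ε 0 1 0 := by
      rw [mul_sub, ← mul_assoc, ← mul_assoc, Matrix.nonsing_inv_mul P hP, one_mul]
    rw [e] at h2
    exact ent_le_iff.1 h2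
  by_cases hbu : IsUnit b
  · right
    apply main !![b, 0; d, 1]
    · rw [Matrix.det_fin_two_of, mul_one, zero_mul, sub_zero]
      exact hbu
    · intro i j
      have e : M * !![b, 0; d, 1] - !![b, 0; d, 1] * genM ε 0 1 0 =
          !![b * (a + d), 0; d * (a + d) - (a * d - b * c), 0] := by
        rw [eM, genM]
        ext i j
        fin_cases i <;> fin_cases j <;> simp [Matrix.mul_apply] <;> ring
      have : (M * !![b, 0; d, 1] - !![b, 0; d, 1] * genM ε 0 1 0) i j ∈ maximalIdeal B := by
        rw [e]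
        fin_cases i <;> fin_cases j
        · exact Ideal.mul_mem_left _ _ had
        · exact zero_mem _
        · exact Ideal.sub_mem _ (Ideal.mul_mem_left _ _ had) hdt
        · exact zero_mem _
      exact this
  have hbm : b ∈ maximalIdeal B := (mem_maximalIdeal _).2 hbu
  have had2 : a * d ∈ maximalIdeal B := by
    have e : a * d = (a * d - b * c) + b * c := by ring
    rw [e]
    exact Ideal.add_mem _ hdt (Ideal.mul_mem_right _ _ hbm)
  have ham : a ∈ maximalIdeal B := by
    have e : a ^ 2 = a * (a + d) - a * d := by ring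
    have h1 : a ^ 2 ∈ maximalIdeal B := by
      rw [e]
      exact Ideal.sub_mem _ (Ideal.mul_mem_left _ _ had) had2
    exact Ideal.IsPrime.mem_of_pow_mem (Ideal.IsMaximal.isPrime inferInstance) 2 h1
  have hdm : d ∈ maximalIdeal B := by
    have e : d = (a + d) - a := by ring
    rw [e]
    exact Ideal.sub_mem _ had ham
  by_cases hcu : IsUnit c
  · right
    apply main !![a, 1; c, 0]
    · rw [Matrix.det_fin_two_of, mul_zero, one_mul, zero_sub]
      exact hcu.neg
    · intro i j
      have e : M * !![a, 1; c, 0] - !![a, 1; c, 0] * genM ε 0 1 0 =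
          !![a * a + b * c, 0; c * (a + d), 0] := by
        rw [eM, genM]
        ext i j
        fin_cases i <;> fin_cases j <;> simp [Matrix.mul_apply] <;> ring
      have : (M * !![a, 1; c, 0] - !![a, 1; c, 0] * genM ε 0 1 0) i j ∈ maximalIdeal B := by
        rw [e]
        fin_cases i <;> fin_cases j
        · exact Ideal.add_mem _ (Ideal.mul_mem_left _ _ ham) (Ideal.mul_mem_right _ _ hbm)
        · exact zero_mem _
        · exact Ideal.mul_mem_left _ _ had
        · exact zero_mem _
      exact this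
  · left
    have hcm : c ∈ maximalIdeal B := (mem_maximalIdeal _).2 hcu
    intro i j
    rw [eM, genM]
    fin_cases i <;> fin_cases j
    · have e : a + ε - (ε + 0) = a := by ring
      change a + ε - (ε + 0) ∈ _
      rw [e]; exact ham
    · change b - 0 ∈ _
      rw [sub_zero]; exact hbm
    · change c - 0 ∈ _
      rw [sub_zero]; exact hcm
    · have e : d + ε - (ε - 0) = d := by ring
      change d + ε - (ε - 0) ∈ _
      rw [e]; exact hdm

/-- EXISTENCE of the universal pair when `q ≡ 1`, `tr Φ ≡ ± 2`. -/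
theorem exists_step (R : CLR) {h q ε : R} (h2 : 2 * h = 1) (hε : IsUnit ε)
    (hq : ε ^ 2 - q ∈ maximalIdeal R) (Φ₀ : M2 R) (hdet : Φ₀.det - q ∈ maximalIdeal R)
    (htr : Φ₀.trace - 2 * ε ∈ maximalIdeal R) : ∃ s : Step R q Φ₀, StepLL s := by
  rcases exists_normal Φ₀ hq hdet htr with h1 | ⟨g, g', h1, h1', h3⟩
  · obtain ⟨s, hs⟩ := exists_stepS R h2 hε hq
    exact ⟨_, hs.conj s 1 1 (mul_one 1) (mul_one 1) (by
      intro a b
      rw [one_mul, mul_one]
      exact h1 a b)⟩
  · obtain ⟨s, hs⟩ := exists_stepU R h2 hε hq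
    exact ⟨_, hs.conj s g g' h1 h1' h3⟩

end Conj

end Fermat.Agent.TAlg
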