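import Mathlib
import Fermat.Agent.TAlg.Conj

/-! # (A4), several primes: the local package. -/

set_option autoImplicit false
set_option linter.unusedSectionVars false

open IsLocalRing

namespace Fermat.Agent.TAlg

/-- local types -/
inductive Typ (A : Type) : Type
  | unr : Typ A
  | st (ε : A) : Typ A
  | chi (t : A) : Typ A
  | rz (ε : A) : Typ A

namespace Typ

variable {A B : Type}

/-- functoriality -/
def map (f : A → B) : Typ A → Typ B
  | unr => unr
  | st ε => st (f ε)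
  | chi t => chi (f t)
  | rz ε => rz (f ε)

lemma map_map {C : Type} (f : A → B) (g : B → C) (τ : Typ A) : (τ.map f).map g = τ.map (g ∘ f) := by
  cases τ <;> rfl

variable [CommRing A] [CommRing B]

/-- the ideal of a local type -/
def J (τ : Typ A) (q : A) (Φ T : M2 A) : Ideal A :=
  match τ with
  | unr => Junr T
  | st ε => Jst ε q Φ T
  | chi t => Jchi t Φ T
  | rz ε => Jrz ε q Φ T

lemma map_J (f : A →+* B) (τ : Typ A) (q : A) (Φ T : M2 A) :
    (τ.J q Φ T).map f = (τ.map f).J (f q) (Φ.map f) (T.map f) := by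
  cases τ
  · exact map_Junr f T
  · exact map_Jst f _ _ _ _
  · exact map_Jchi f _ _ _
  · exact map_Jrz f _ _ _ _

end Typ

/-- steps over `O → R`: `ok` is the list of allowed types. -/
def StepOK {O R : CLR} (j : O →+* R) {q : O} {Φ₀ : M2 O} (s : Step R (j q) (Φ₀.map j))
    (ok : Ideal O → Typ O → Prop) : Prop :=
  (∀ (I : Ideal R) [I.IsPrime] (τ : Typ O), ok (I.comap j) τ →
    Good s.i I ((τ.map (s.i.comp j)).J (s.i (j q)) s.Φ s.T)) ∧
  (∀ (I : Ideal R) [I.IsPrime] (ε : O), ε ^ 2 = 1 →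
    s.Φ.trace - s.i (j ε) * (s.i (j q) + 1) ∉ I.map s.i ⊔ Junr s.T)

section Raw

variable {O R : Type} [CommRing O] [CommRing R] {T : Type}

/-- the ideal attached to a family of types -/
def Kid (i : O →+* R) (q : T → O) (Φ S : T → M2 R) (𝔭 : Ideal O) (τ : T → Typ O) : Ideal R :=
  𝔭.map i ⊔ ⨆ t, ((τ t).map i).J (i (q t)) (Φ t) (S t)

/-- primality of all the ideals of families of types allowed by `ok`. -/
def OKraw (r : ℕ) (i : O →+* R) (q : T → O) (Φ S : T → M2 R) (ok : T → Ideal O → Typ O → Prop) :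
    Prop :=
  ∀ (𝔭 : Ideal O) [𝔭.IsPrime] (τ : T → Typ O), (∀ t, ok t 𝔭 (τ t)) →
    (Kid i q Φ S 𝔭 τ).IsPrime ∧ (Kid i q Φ S 𝔭 τ).comap i = 𝔭 ∧
    ringKrullDim (R ⧸ Kid i q Φ S 𝔭 τ) ≤
      ringKrullDim (O ⧸ 𝔭) + ((r + 3 * Nat.card T : ℕ) : WithBot ℕ∞) ∧
    ∀ t, τ t = .unr → ∀ ε : O, ε ^ 2 = 1 →
      (Φ t).trace - i ε * (i (q t) + 1) ∉ Kid i q Φ S 𝔭 τ

lemma Kid_option {R' : Type} [CommRing R'] (i : O →+* R) (k : R →+* R') (q : Option T → O)
    (Φ S : T → M2 R) (Φ' S' : M2 R') (𝔭 : Ideal O) (τ : Option T → Typ O) :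
    Kid (k.comp i) q (fun t => Option.elim t Φ' fun t => (Φ t).map k)
      (fun t => Option.elim t S' fun t => (S t).map k) 𝔭 τ =
    (Kid i (fun t => q (some t)) Φ S 𝔭 (fun t => τ (some t))).map k ⊔
      ((τ none).map (k.comp i)).J (k (i (q none))) Φ' S' := by
  rw [Kid, Kid, iSup_option, Ideal.map_sup, Ideal.map_iSup, sup_assoc, Ideal.map_map]
  congr 1
  rw [sup_comm]
  congr 1
  refine iSup_congr fun t => ?_
  rw [Typ.map_J, Typ.map_map]
  rfl

theorem OKraw_option [Finite T] {R' : Type} [CommRing R'] (r : ℕ) (i : O →+* R) (k : R →+* R')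
    (q : Option T → O)
    (Φ S : T → M2 R) (Φ' S' : M2 R') (ok : Option T → Ideal O → Typ O → Prop)
    (hp : OKraw r i (fun t => q (some t)) Φ S (fun t => ok (some t)))
    (hs1 : ∀ (I : Ideal R) [I.IsPrime] (τ : Typ O), ok none (I.comap i) τ →
      Good k I ((τ.map (k.comp i)).J (k (i (q none))) Φ' S'))
    (hs2 : ∀ (I : Ideal R) [I.IsPrime] (ε : O), ε ^ 2 = 1 →
      Φ'.trace - k (i ε) * (k (i (q none)) + 1) ∉ I.map k ⊔ Junr S') :
    OKraw r (k.comp i) q (fun t => Option.elim t Φ' fun t => (Φ t).map k)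
      (fun t => Option.elim t S' fun t => (S t).map k) ok := by
  intro 𝔭 _ τ hτ
  obtain ⟨k1, k2, k3, k4⟩ := hp 𝔭 (fun t => τ (some t)) (fun t => hτ (some t))
  have hok : ok none ((Kid i (fun t => q (some t)) Φ S 𝔭 (fun t => τ (some t))).comap i)
      (τ none) := by
    rw [k2]; exact hτ none
  obtain ⟨l1, l2, l3⟩ := hs1 _ (τ none) hok
  rw [← Kid_option] at l1 l2 l3
  refine ⟨l1, ?_, ?_, ?_⟩
  · rw [← Ideal.comap_comap, l2, k2]
  · refine l3.trans ?_
    refine (add_le_add_left k3 _).trans (le_of_eq ?_)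
    have : Nat.card (Option T) = Nat.card T + 1 := Finite.card_option
    rw [this, add_assoc, ← Nat.cast_add]
    congr 1
  · rintro (_ | t) ht ε hε hmem
    · rw [Kid_option, ht] at hmem
      exact hs2 _ ε hε hmem
    · apply k4 t ht ε hε
      rw [← l2, Ideal.mem_comap, map_sub, map_mul, map_add, map_one]
      have e : k (Φ t).trace = ((Φ t).map k).trace := by
        rw [Matrix.trace_fin_two, Matrix.trace_fin_two, map_add]; rfl
      rw [e]
      exact hmem

end Raw

/-- The local package. -/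
structure Pack (O : CLR) (r : ℕ) (T : Type) (q : T → O) (Φ₀ : T → M2 O) where
  R : CLR
  i : O →+* R
  loc : IsLocalHom i
  X : Fin r → R
  hX : ∀ k, X k ∈ maximalIdeal R
  Φ : T → M2 R
  S : T → M2 R
  detΦ : ∀ t, (Φ t).det = i (q t)
  detS : ∀ t, (S t).det = 1
  hΦ : ∀ t a b, Φ t a b - i (Φ₀ t a b) ∈ maximalIdeal R
  hS : ∀ t a b, S t a b - (1 : M2 R) a b ∈ maximalIdeal R
  univ : ∀ (B : Type) [CommRing B] [IsLocalRing B] [IsAdicComplete (maximalIdeal B) B]
    (f : O →+* B) [IsLocalHom f] (X' : Fin r → B) (_ : ∀ k, X' k ∈ maximalIdeal B)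
    (Φ' S' : T → M2 B), (∀ t, (Φ' t).det = f (q t)) → (∀ t, (S' t).det = 1) →
    (∀ t a b, Φ' t a b - f (Φ₀ t a b) ∈ maximalIdeal B) →
    (∀ t a b, S' t a b - (1 : M2 B) a b ∈ maximalIdeal B) →
    ∃ f' : R →+* B, IsLocalHom f' ∧ f'.comp i = f ∧ (∀ k, f' (X k) = X' k) ∧
      (∀ t, (Φ t).map f' = Φ' t) ∧ (∀ t, (S t).map f' = S' t)
  res : ∀ x : R, ∃ a : O, x - i a ∈ maximalIdeal R

namespace Pack

variable {O : CLR} {r : ℕ} {T : Type} {q : T → O} {Φ₀ : T → M2 O}

/-- the ideal of a family of types -/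
def K (p : Pack O r T q Φ₀) (𝔭 : Ideal O) (τ : T → Typ O) : Ideal p.R :=
  Kid p.i q p.Φ p.S 𝔭 τ

/-- the package property -/
def OK (p : Pack O r T q Φ₀) (ok : T → Ideal O → Typ O → Prop) : Prop :=
  OKraw r p.i q p.Φ p.S ok

end Pack

section Base

open MvPowerSeries

variable (O : CLR) (r : ℕ)

/-- the package for the empty set of primes -/
noncomputable def packEmpty (q : PEmpty → O) (Φ₀ : PEmpty → M2 O) : Pack O r PEmpty q Φ₀ where
  R := ⟨MvPowerSeries (Fin r) O⟩
  i := (C : O →+* MvPowerSeries (Fin r) O)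
  loc := isLocalHom_C
  X := fun k => (X k : MvPowerSeries (Fin r) O)
  hX := fun k => X_mem_maxIdeal k
  Φ := fun t => t.elim
  S := fun t => t.elim
  detΦ := fun t => t.elim
  detS := fun t => t.elim
  hΦ := fun t => t.elim
  hS := fun t => t.elim
  univ := by
    intro B _ _ _ f _ X' hX' Φ' S' _ _ _ _
    refine ⟨lift (maximalIdeal B) f X' hX', isLocalHom_lift f X' hX', ?_, ?_, ?_, ?_⟩
    · refine RingHom.ext fun a => ?_
      change lift (maximalIdeal B) f X' hX' (C a) = f a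
      rw [lift_C]
    · intro k
      change lift (maximalIdeal B) f X' hX' (X k) = X' k
      rw [lift_X]
    · exact fun t => t.elim
    · exact fun t => t.elim
  res := by
    intro x
    refine ⟨constantCoeff (σ := Fin r) (R := O) x, ?_⟩
    exact (mem_maxIdeal_iff (σ := Fin r) (A := O) _).2 (by
      rw [_root_.map_sub, constantCoeff_C, sub_self]
      exact zero_mem _)

theorem packEmpty_OK (q : PEmpty → O) (Φ₀ : PEmpty → M2 O)
    (ok : PEmpty → Ideal O → Typ O → Prop) : (packEmpty O r q Φ₀).OK ok := by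
  classical
  change OKraw r (C : O →+* MvPowerSeries (Fin r) O) q (fun t => t.elim) (fun t => t.elim) ok
  intro 𝔭 _ τ _
  have eK : Kid (C : O →+* MvPowerSeries (Fin r) O) q (fun t => t.elim) (fun t => t.elim) 𝔭 τ =
      𝔭.map (C : O →+* MvPowerSeries (Fin r) O) := by
    rw [Kid, iSup_of_empty, sup_bot_eq]
  have eker : 𝔭.map (C : O →+* MvPowerSeries (Fin r) O) =
      RingHom.ker (MvPowerSeries.map (σ := Fin r) (Ideal.Quotient.mk 𝔭)) := by
    rw [ker_psmap, Ideal.mk_ker]
  rw [eK]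
  refine ⟨?_, ?_, ?_, fun t => t.elim⟩
  · change (𝔭.map (C : O →+* MvPowerSeries (Fin r) O)).IsPrime
    rw [eker]
    exact RingHom.ker_isPrime _
  · change (𝔭.map (C : O →+* MvPowerSeries (Fin r) O)).comap C = 𝔭
    ext a
    rw [eker, Ideal.mem_comap, RingHom.mem_ker, map_C]
    constructor
    · intro h
      have := congrArg constantCoeff h
      rw [constantCoeff_C, map_zero] at this
      exact Ideal.Quotient.eq_zero_iff_mem.1 this
    · intro h
      rw [Ideal.Quotient.eq_zero_iff_mem.2 h, map_zero]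
  · change ringKrullDim (MvPowerSeries (Fin r) O ⧸ 𝔭.map (C : O →+* MvPowerSeries (Fin r) O)) ≤ _
    refine dim_bound (C : O →+* MvPowerSeries (Fin r) O) (H04.XI (Fin r) O) ?_ 𝔭 _ le_rfl
      (Finset.univ.image (X : Fin r → MvPowerSeries (Fin r) O)) ?_ ?_ _ ?_
    · intro x
      refine ⟨constantCoeff x, ?_⟩
      rw [mem_XI_iff]
      simp
    · intro x hx
      rw [Finset.mem_image] at hx
      obtain ⟨k, -, rfl⟩ := hx
      exact X_mem_maxIdeal k
    · intro P _ _ h
      rw [Ideal.span_le]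
      rintro _ ⟨k, rfl⟩
      exact h _ (Finset.mem_image_of_mem _ (Finset.mem_univ _))
    · refine Finset.card_image_le.trans ?_
      simp

end Base

section Opt

variable {O : CLR} {r : ℕ} {T : Type}

/-- adding one prime to a package -/
noncomputable def packOption (q : Option T → O) (Φ₀ : Option T → M2 O)
    (p : Pack O r T (fun t => q (some t)) (fun t => Φ₀ (some t)))
    (s : Step p.R (p.i (q none)) ((Φ₀ none).map p.i)) : Pack O r (Option T) q Φ₀ where
  R := s.R'
  i := s.i.comp p.i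
  loc := by
    have := p.loc
    have := s.loc
    infer_instance
  X := fun k => s.i (p.X k)
  hX := fun k => by
    have := s.loc
    exact map_mem_maxIdeal s.i (p.hX k)
  Φ := fun t => Option.elim t s.Φ fun t => (p.Φ t).map s.i
  S := fun t => Option.elim t s.T fun t => (p.S t).map s.i
  detΦ := by
    rintro (_ | t)
    · exact s.detΦ
    · change ((p.Φ t).map s.i).det = s.i (p.i (q (some t)))
      rw [← p.detΦ t, RingHom.map_det]
      rfl
  detS := by
    rintro (_ | t)
    · exact s.detT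
    · change ((p.S t).map s.i).det = 1
      rw [← map_one s.i, ← p.detS t, RingHom.map_det]
      rfl
  hΦ := by
    have := s.loc
    rintro (_ | t) a b
    · exact s.hΦ a b
    · change s.i (p.Φ t a b) - s.i (p.i (Φ₀ (some t) a b)) ∈ _
      rw [← map_sub]
      exact map_mem_maxIdeal s.i (p.hΦ t a b)
  hS := by
    have := s.loc
    rintro (_ | t) a b
    · exact s.hT a b
    · have h1 := map_mem_maxIdeal s.i (p.hS t a b)
      rw [map_sub] at h1
      have e : s.i ((1 : M2 p.R) a b) = (1 : M2 s.R') a b := by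
        rw [← Matrix.map_apply (f := s.i), Matrix.map_one s.i (map_zero _) (map_one _)]
      rw [e] at h1
      exact h1
  univ := by
    have := p.loc
    have := s.loc
    intro B _ _ _ f _ X' hX' Φ' S' h1 h2 h3 h4
    obtain ⟨g, k1, k2, k3, k4, k5⟩ := p.univ B f X' hX' (fun t => Φ' (some t))
      (fun t => S' (some t)) (fun t => h1 _) (fun t => h2 _) (fun t => h3 _) (fun t => h4 _)
    obtain ⟨g', l1, l2, l3, l4⟩ := s.univ B g (Φ' none) (S' none)
      (by rw [h1, ← RingHom.comp_apply, k2]) (h2 _)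
      (by
        intro a b
        rw [Matrix.map_apply, ← RingHom.comp_apply, k2]
        exact h3 none a b) (h4 none)
    have l5 : ∀ M : M2 p.R, (M.map s.i).map g' = M.map g := by
      intro M
      rw [Matrix.map_map, ← RingHom.coe_comp, l2]
    refine ⟨g', l1, ?_, ?_, ?_, ?_⟩
    · rw [← RingHom.comp_assoc, l2, k2]
    · intro k
      rw [← RingHom.comp_apply, l2, k3]
    · rintro (_ | t)
      · exact l3
      · change ((p.Φ t).map s.i).map g' = _
        rw [l5, k4]
    · rintro (_ | t)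
      · exact l4
      · change ((p.S t).map s.i).map g' = _
        rw [l5, k5]
  res := by
    have := s.loc
    intro x
    obtain ⟨y, hy⟩ := s.res x
    obtain ⟨a, ha⟩ := p.res y
    refine ⟨a, ?_⟩
    have h1 := map_mem_maxIdeal s.i ha
    rw [map_sub] at h1
    have h2 := Ideal.add_mem _ hy h1
    rw [sub_add_sub_cancel] at h2
    exact h2

theorem packOption_OK [Finite T] (q : Option T → O) (Φ₀ : Option T → M2 O)
    (p : Pack O r T (fun t => q (some t)) (fun t => Φ₀ (some t)))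
    (ok : Option T → Ideal O → Typ O → Prop) (hp : p.OK (fun t => ok (some t)))
    (s : Step p.R (p.i (q none)) ((Φ₀ none).map p.i)) (hs : StepOK p.i s (ok none)) :
    (packOption q Φ₀ p s).OK ok :=
  OKraw_option r p.i s.i q p.Φ p.S s.Φ s.T ok hp hs.1 hs.2

/-- reindexing -/
noncomputable def packEquiv {T' : Type} (e : T ≃ T') (q : T' → O) (Φ₀ : T' → M2 O)
    (p : Pack O r T (fun t => q (e t)) (fun t => Φ₀ (e t))) : Pack O r T' q Φ₀ where
  R := p.R
  i := p.i
  loc := p.loc
  X := p.X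
  hX := p.hX
  Φ := fun t => p.Φ (e.symm t)
  S := fun t => p.S (e.symm t)
  detΦ := fun t => by
    have := p.detΦ (e.symm t)
    rwa [Equiv.apply_symm_apply] at this
  detS := fun t => p.detS (e.symm t)
  hΦ := fun t a b => by
    have := p.hΦ (e.symm t) a b
    rwa [Equiv.apply_symm_apply] at this
  hS := fun t a b => p.hS (e.symm t) a b
  univ := by
    intro B _ _ _ f _ X' hX' Φ' S' h1 h2 h3 h4
    obtain ⟨g, k1, k2, k3, k4, k5⟩ := p.univ B f X' hX' (fun t => Φ' (e t))
      (fun t => S' (e t)) (fun t => h1 _) (fun t => h2 _) (fun t => h3 _) (fun t => h4 _)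
    refine ⟨g, k1, k2, k3, fun t => ?_, fun t => ?_⟩
    · rw [k4, Equiv.apply_symm_apply]
    · rw [k5, Equiv.apply_symm_apply]
  res := p.res

lemma Kid_equiv {O R : Type} [CommRing O] [CommRing R] {T' : Type} (e : T ≃ T') (i : O →+* R)
    (q : T' → O) (Φ S : T → M2 R) (𝔭 : Ideal O) (τ : T' → Typ O) :
    Kid i q (fun t => Φ (e.symm t)) (fun t => S (e.symm t)) 𝔭 τ =
      Kid i (fun t => q (e t)) Φ S 𝔭 (fun t => τ (e t)) := by
  rw [Kid, Kid]
  congr 1
  rw [← e.iSup_comp]
  refine iSup_congr fun t => ?_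
  rw [Equiv.symm_apply_apply]

theorem OKraw_equiv {O R : Type} [CommRing O] [CommRing R] {T' : Type} (e : T ≃ T') (i : O →+* R)
    (q : T' → O) (Φ S : T → M2 R) (ok : T' → Ideal O → Typ O → Prop)
    (h : OKraw r i (fun t => q (e t)) Φ S (fun t => ok (e t))) :
    OKraw r i q (fun t => Φ (e.symm t)) (fun t => S (e.symm t)) ok := by
  intro 𝔭 _ τ hτ
  obtain ⟨k1, k2, k3, k4⟩ := h 𝔭 (fun t => τ (e t)) (fun t => hτ _)
  rw [← Kid_equiv] at k1 k2 k3
  refine ⟨k1, k2, ?_, ?_⟩
  · rw [← Nat.card_congr e]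
    exact k3
  · intro t ht ε hε
    have := k4 (e.symm t) (by rw [Equiv.apply_symm_apply]; exact ht) ε hε
    rw [← Kid_equiv] at this
    simp only [Equiv.apply_symm_apply] at this
    exact this

/-- existence of packages from existence of steps. -/
theorem exists_pack (O : CLR) (r : ℕ) (T : Type) [Finite T] (q : T → O) (Φ₀ : T → M2 O)
    (ok : T → Ideal O → Typ O → Prop)
    (hstep : ∀ t (R : CLR) (j : O →+* R), IsLocalHom j →
      ∃ s : Step R (j (q t)) ((Φ₀ t).map j), StepOK j s (ok t)) :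
    ∃ p : Pack O r T q Φ₀, p.OK ok := by
  induction T using Finite.induction_empty_option with
  | of_equiv e H =>
    obtain ⟨p, hp⟩ := H (fun t => q (e t)) (fun t => Φ₀ (e t)) (fun t => ok (e t))
      (fun t R j hj => hstep (e t) R j hj)
    exact ⟨packEquiv e q Φ₀ p, OKraw_equiv e p.i q p.Φ p.S ok hp⟩
  | h_empty => exact ⟨packEmpty O r q Φ₀, packEmpty_OK O r q Φ₀ ok⟩
  | h_option IH =>
    obtain ⟨p, hp⟩ := IH (fun t => q (some t)) (fun t => Φ₀ (some t)) (fun t => ok (some t))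
      (fun t R j hj => hstep (some t) R j hj)
    obtain ⟨s, hs⟩ := hstep none p.R p.i p.loc
    exact ⟨packOption q Φ₀ p s, packOption_OK q Φ₀ p ok hp s hs⟩

end Opt

section LL

/-- allowed types for level lowering -/
def okLL {O : Type} [CommRing O] [IsLocalRing O] (𝔭 : Ideal O) (τ : Typ O) : Prop :=
  match τ with
  | .unr => True
  | .chi t => t - 2 ∈ maximalIdeal O ∧ t ^ 2 - 4 ∉ 𝔭
  | .st _ => False
  | .rz _ => False

theorem exists_pack_LL (O : CLR) (h2 : IsUnit (2 : O)) (r : ℕ) (T : Type) [Finite T] (q : T → O)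
    (hq : ∀ t, q t - 1 ∈ maximalIdeal O) (Φ₀ : T → M2 O)
    (hdet : ∀ t, (Φ₀ t).det - 1 ∈ maximalIdeal O)
    (htr : ∀ t, (Φ₀ t).trace ^ 2 - 4 ∈ maximalIdeal O) :
    ∃ p : Pack O r T q Φ₀, p.OK (fun _ => okLL) := by
  refine exists_pack O r T q Φ₀ _ ?_
  intro t R j hj
  obtain ⟨h, h2'⟩ := h2.exists_right_inv
  have hh : 2 * j h = 1 := two_map j h2'
  -- the sign
  obtain ⟨ε, hε, hε'⟩ : ∃ ε : O, ε ^ 2 = 1 ∧ (Φ₀ t).trace - 2 * ε ∈ maximalIdeal O := by
    have e : (Φ₀ t).trace ^ 2 - 4 = ((Φ₀ t).trace - 2) * ((Φ₀ t).trace + 2) := by ring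
    have h3 := htr t
    rw [e] at h3
    rcases (Ideal.IsMaximal.isPrime (inferInstance : (maximalIdeal O).IsMaximal)).mem_or_mem h3
      with h4 | h4
    · exact ⟨1, one_pow 2, by rwa [mul_one]⟩
    · refine ⟨-1, by ring, ?_⟩
      have : (Φ₀ t).trace - 2 * (-1) = (Φ₀ t).trace + 2 := by ring
      rwa [this]
  have hεu : IsUnit (j ε) := (IsUnit.of_mul_eq_one ε (by rw [← pow_two, hε])).map j
  have h3 : (j ε) ^ 2 - j (q t) ∈ maximalIdeal R := by
    have e : (j ε) ^ 2 - j (q t) = - j (q t - 1) := by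
      rw [← map_pow, hε, map_sub, map_one]; ring
    rw [e]
    exact (Ideal.neg_mem_iff _).2 (map_mem_maxIdeal j (hq t))
  have h4 : ((Φ₀ t).map j).det - j (q t) ∈ maximalIdeal R := by
    have e : ((Φ₀ t).map j).det = j (Φ₀ t).det := by
      rw [RingHom.map_det]; rfl
    have e2 : ((Φ₀ t).map j).det - j (q t) = j ((Φ₀ t).det - 1) - j (q t - 1) := by
      rw [e, map_sub, map_sub]; ring
    rw [e2]
    exact Ideal.sub_mem _ (map_mem_maxIdeal j (hdet t)) (map_mem_maxIdeal j (hq t))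
  have h5 : ((Φ₀ t).map j).trace - 2 * j ε ∈ maximalIdeal R := by
    have e : ((Φ₀ t).map j).trace - 2 * j ε = j ((Φ₀ t).trace - 2 * ε) := by
      rw [Matrix.trace_fin_two, Matrix.trace_fin_two, map_sub, map_add, map_mul, map_ofNat]; rfl
    rw [e]
    exact map_mem_maxIdeal j hε'
  obtain ⟨s, hs⟩ := exists_step R hh hεu h3 ((Φ₀ t).map j) h4 h5
  refine ⟨s, ?_, ?_⟩
  · intro I _ τ hok
    cases τ with
    | unr => exact hs.unr I
    | chi c =>
      obtain ⟨k1, k2⟩ := hok
      refine hs.chi I (j c) ?_ ?_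
      · have e : j c - 2 = j (c - 2) := by rw [map_sub, map_ofNat]
        rw [e]
        exact map_mem_maxIdeal j k1
      · intro hmem
        apply k2
        rw [Ideal.mem_comap, map_sub, map_pow, map_ofNat]
        exact hmem
    | st ε => exact hok.elim
    | rz ε => exact hok.elim
  · intro I _ ε' hε'' hmem
    apply hs.ns I
    have e : s.Φ.trace ^ 2 - (s.i (j (q t)) + 1) ^ 2 =
        (s.Φ.trace - s.i (j ε') * (s.i (j (q t)) + 1)) *
        (s.Φ.trace + s.i (j ε') * (s.i (j (q t)) + 1)) := by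
      have h6 : (s.i (j ε')) ^ 2 = 1 := by rw [← map_pow, ← map_pow, hε'', map_one, map_one]
      linear_combination (s.i (j (q t)) + 1) ^ 2 * h6
    rw [e]
    exact Ideal.mul_mem_right _ _ hmem

end LL

end Fermat.Agent.TAlg
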