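import Mathlib
import Fermat.Agent.TAlg.Pack

/-! # Surjectivity from tangent spaces. -/

set_option autoImplicit false
set_option linter.unusedSectionVars false

open IsLocalRing

namespace Fermat.Agent.TAlg

section Der

variable {O A k : Type} [CommRing O] [CommRing A] [Field k]

/-- `O`-derivations `A → k` -/
def DerSpace (c : O →+* A) (π : A →+* k) : Submodule k (A → k) where
  carrier := {D | (∀ a b, D (a + b) = D a + D b) ∧ (∀ a b, D (a * b) = π a * D b + π b * D a) ∧
    ∀ o, D (c o) = 0}
  add_mem' := by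
    rintro D D' ⟨h1, h2, h3⟩ ⟨h1', h2', h3'⟩
    refine ⟨fun a b => ?_, fun a b => ?_, fun o => ?_⟩
    · simp only [Pi.add_apply, h1, h1']; ring
    · simp only [Pi.add_apply, h2, h2']; ring
    · simp only [Pi.add_apply, h3, h3', add_zero]
  zero_mem' := ⟨fun _ _ => by simp, fun _ _ => by simp, fun _ => rfl⟩
  smul_mem' := by
    rintro x D ⟨h1, h2, h3⟩
    refine ⟨fun a b => ?_, fun a b => ?_, fun o => ?_⟩
    · simp only [Pi.smul_apply, h1, smul_eq_mul]; ring
    · simp only [Pi.smul_apply, h2, smul_eq_mul]; ring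
    · simp only [Pi.smul_apply, h3, smul_zero]

variable {c : O →+* A} {π : A →+* k} {D : A → k}

lemma mem_DerSpace : D ∈ DerSpace c π ↔ (∀ a b, D (a + b) = D a + D b) ∧
    (∀ a b, D (a * b) = π a * D b + π b * D a) ∧ ∀ o, D (c o) = 0 := Iff.rfl

lemma Der_add (h : D ∈ DerSpace c π) (a b : A) : D (a + b) = D a + D b := h.1 a b
lemma Der_mul (h : D ∈ DerSpace c π) (a b : A) : D (a * b) = π a * D b + π b * D a := h.2.1 a b
lemma Der_c (h : D ∈ DerSpace c π) (o : O) : D (c o) = 0 := h.2.2 o
lemma Der_zero (h : D ∈ DerSpace c π) : D 0 = 0 := by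
  have := Der_c h 0
  rwa [map_zero] at this
lemma Der_one (h : D ∈ DerSpace c π) : D 1 = 0 := by
  have := Der_c h 1
  rwa [map_one] at this
lemma Der_neg (h : D ∈ DerSpace c π) (a : A) : D (-a) = - D a := by
  have := Der_add h a (-a)
  rw [add_neg_cancel, Der_zero h] at this
  exact (neg_eq_of_add_eq_zero_right this.symm).symm
lemma Der_sub (h : D ∈ DerSpace c π) (a b : A) : D (a - b) = D a - D b := by
  rw [sub_eq_add_neg, Der_add h, Der_neg h, sub_eq_add_neg]
lemma Der_sum (h : D ∈ DerSpace c π) {ι : Type} (s : Finset ι) (f : ι → A) :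
    D (∑ i ∈ s, f i) = ∑ i ∈ s, D (f i) := by
  classical
  induction s using Finset.induction_on with
  | empty => simp [Der_zero h]
  | insert i s hi ih => rw [Finset.sum_insert hi, Finset.sum_insert hi, Der_add h, ih]

/-- a derivation vanishing on generators of an ideal `I ⊆ ker π` vanishes on `I` -/
lemma Der_eq_zero_of_span (h : D ∈ DerSpace c π) {s : Set A} (hs : ∀ x ∈ s, D x = 0)
    (hπ : ∀ x ∈ s, π x = 0) {x : A} (hx : x ∈ Ideal.span s) : D x = 0 := by
  refine Submodule.span_induction (fun x hx => hs x hx) (Der_zero h) ?_ ?_ hx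
  · intro x y _ _ h1 h2
    rw [Der_add h, h1, h2, add_zero]
  · intro a x hx h1
    have h2 : π x = 0 := by
      have : Ideal.span s ≤ RingHom.ker π := Ideal.span_le.2 hπ
      exact this hx
    rw [smul_eq_mul, Der_mul h, h1, h2, mul_zero, zero_mul, add_zero]

end Der

section Cot

variable {O B k : Type} [CommRing O] [IsLocalRing O] [CommRing B] [IsLocalRing B]
  [IsNoetherianRing B] [Field k]

lemma ker_eq_maximalIdeal' (π : B →+* k) (hπ : Function.Surjective π) :
    RingHom.ker π = maximalIdeal B :=
  IsLocalRing.eq_maximalIdeal (RingHom.ker_isMaximal_of_surjective π hπ)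

/-- dual basis of the cotangent space, as derivations -/
lemma exists_derivations (c : O →+* B) (hc : ∀ o ∈ maximalIdeal O, c o = 0)
    (hres : ∀ b, ∃ o, b - c o ∈ maximalIdeal B) (π : B →+* k) (hπ : Function.Surjective π) :
    ∃ (m : ℕ) (D : Fin m → (B → k)) (x : Fin m → B), (∀ i, D i ∈ DerSpace c π) ∧
      LinearIndependent k D ∧ Ideal.span (Set.range x) = maximalIdeal B := by
  classical
  have hker := ker_eq_maximalIdeal' π hπ
  -- the isomorphism of residue fields
  let e : ResidueField B →+* k := Ideal.Quotient.lift (maximalIdeal B) π (fun a ha => by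
    rw [← hker] at ha; exact ha)
  have he : ∀ b, e (residue B b) = π b := fun b => rfl
  let m := Module.finrank (ResidueField B) (CotangentSpace B)
  let b : Module.Basis (Fin m) (ResidueField B) (CotangentSpace B) :=
    Module.finBasis (ResidueField B) (CotangentSpace B)
  choose x hx using fun i => (maximalIdeal B).toCotangent_surjective (b i)
  choose o ho using hres
  -- uniqueness of `c o`
  have huniq : ∀ (y : B) (o' : O), y - c o' ∈ maximalIdeal B → c o' = c (o y) := by
    intro y o' h
    have h1 : c (o' - o y) ∈ maximalIdeal B := by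
      have := Ideal.sub_mem _ (ho y) h
      rw [map_sub]
      convert this using 1
      ring
    have h2 : o' - o y ∈ maximalIdeal O := by
      by_contra h3
      have h4 : IsUnit (o' - o y) := by
        by_contra h5
        exact h3 ((mem_maximalIdeal _).2 h5)
      exact (mem_maximalIdeal _).1 h1 (h4.map c)
    have h3 := hc _ h2
    rw [map_sub, sub_eq_zero] at h3
    exact h3
  let t : B → CotangentSpace B := fun y => (maximalIdeal B).toCotangent ⟨y - c (o y), ho y⟩
  have ht : ∀ (y : B) (o' : O) (h : y - c o' ∈ maximalIdeal B),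
      t y = (maximalIdeal B).toCotangent ⟨y - c o', h⟩ := by
    intro y o' h
    change (maximalIdeal B).toCotangent _ = _
    congr 2
    rw [huniq y o' h]
  have tadd : ∀ y z, t (y + z) = t y + t z := by
    intro y z
    have h1 : y + z - c (o y + o z) ∈ maximalIdeal B := by
      rw [map_add]
      convert Ideal.add_mem _ (ho y) (ho z) using 1
      ring
    rw [ht (y + z) _ h1]
    change _ = (maximalIdeal B).toCotangent _ + (maximalIdeal B).toCotangent _
    rw [← map_add]
    congr 1
    apply Subtype.ext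
    change y + z - c (o y + o z) = (y - c (o y)) + (z - c (o z))
    rw [map_add]
    ring
  have tmul : ∀ y z, t (y * z) = residue B y • t z + residue B z • t y := by
    intro y z
    have h1 : y * z - c (o y * o z) ∈ maximalIdeal B := by
      rw [map_mul]
      have e1 : y * z - c (o y) * c (o z) = y * (z - c (o z)) + c (o z) * (y - c (o y)) := by ring
      rw [e1]
      exact Ideal.add_mem _ (Ideal.mul_mem_left _ _ (ho z)) (Ideal.mul_mem_left _ _ (ho y))
    rw [ht (y * z) _ h1]
    have h2 : residue B y • t z = y • t z := by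
      rw [← ResidueField.algebraMap_eq, algebraMap_smul]
    have h3 : residue B z • t y = z • t y := by
      rw [← ResidueField.algebraMap_eq, algebraMap_smul]
    rw [h2, h3]
    change _ = y • (maximalIdeal B).toCotangent _ + z • (maximalIdeal B).toCotangent _
    rw [← map_smul, ← map_smul, ← map_add, Ideal.toCotangent_eq]
    change y * z - c (o y * o z) - (y * (z - c (o z)) + z * (y - c (o y))) ∈ _
    rw [map_mul]
    have e1 : y * z - c (o y) * c (o z) - (y * (z - c (o z)) + z * (y - c (o y))) =
        - ((y - c (o y)) * (z - c (o z))) := by ring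
    rw [e1, pow_two]
    exact (Ideal.neg_mem_iff _).2 (Ideal.mul_mem_mul (ho y) (ho z))
  have tc : ∀ o', t (c o') = 0 := by
    intro o'
    rw [ht (c o') o' (by rw [sub_self]; exact zero_mem _)]
    rw [Ideal.toCotangent_eq_zero]
    change c o' - c o' ∈ _
    rw [sub_self]
    exact zero_mem _
  have tx : ∀ i, t (x i : B) = b i := by
    intro i
    rw [ht (x i : B) 0 (by rw [map_zero, sub_zero]; exact (x i).2), ← hx i]
    congr 1
    apply Subtype.ext
    change (x i : B) - c 0 = x i
    rw [map_zero, sub_zero]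
  refine ⟨m, fun i y => e (b.coord i (t y)), fun i => x i, ?_, ?_, ?_⟩
  · intro i
    refine ⟨?_, ?_, ?_⟩
    · intro y z
      change e (b.coord i (t (y + z))) = e (b.coord i (t y)) + e (b.coord i (t z))
      rw [tadd, map_add, map_add]
    · intro y z
      change e (b.coord i (t (y * z))) = π y * e (b.coord i (t z)) + π z * e (b.coord i (t y))
      rw [tmul, map_add, map_smul, map_smul, map_add, smul_eq_mul, smul_eq_mul, map_mul, map_mul,
        he, he]
    · intro o'
      change e (b.coord i (t (c o'))) = 0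
      rw [tc, map_zero, map_zero]
  · rw [Fintype.linearIndependent_iff]
    intro g hg i
    have h1 := congrFun hg (x i : B)
    rw [Finset.sum_apply, Finset.sum_eq_single i] at h1
    · simp only [Pi.smul_apply, smul_eq_mul, tx, Module.Basis.coord_apply, Module.Basis.repr_self,
        Finsupp.single_eq_same, map_one, mul_one] at h1
      exact h1
    · intro j _ hj
      simp only [Pi.smul_apply, smul_eq_mul, tx, Module.Basis.coord_apply, Module.Basis.repr_self]
      rw [Finsupp.single_eq_of_ne hj, map_zero, mul_zero]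
    · intro h
      exact absurd (Finset.mem_univ _) h
  · have h1 : Submodule.span (ResidueField B)
        ((maximalIdeal B).toCotangent '' (Set.range x)) = ⊤ := by
      rw [← Set.range_comp]
      have : ((maximalIdeal B).toCotangent ∘ x) = b := funext hx
      rw [this]
      exact b.span_eq
    rw [CotangentSpace.span_image_eq_top_iff] at h1
    have h2 := congrArg (Submodule.map (maximalIdeal B).subtype) h1
    rw [Submodule.map_span, Submodule.map_top, Submodule.range_subtype, ← Set.range_comp] at h2
    exact h2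

/-- the same relative to an ideal `𝔞` -/
lemma exists_derivations' (𝔞 : Ideal B) (h𝔞 : 𝔞 ≤ maximalIdeal B) (c : O →+* B)
    (hc : ∀ o ∈ maximalIdeal O, c o ∈ 𝔞)
    (hres : ∀ b, ∃ o, b - c o ∈ maximalIdeal B) (π : B →+* k) (hπ : Function.Surjective π) :
    ∃ (m : ℕ) (D : Fin m → (B → k)) (x : Fin m → B), (∀ i, D i ∈ DerSpace c π) ∧
      (∀ i, ∀ a ∈ 𝔞, D i a = 0) ∧
      LinearIndependent k D ∧ (∀ i, x i ∈ maximalIdeal B) ∧
      maximalIdeal B ≤ 𝔞 ⊔ Ideal.span (Set.range x) := by
  classical
  have hne : 𝔞 ≠ ⊤ := fun h => (Ideal.IsMaximal.ne_top (inferInstance :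
    (maximalIdeal B).IsMaximal)) (top_le_iff.1 (h ▸ h𝔞))
  have := isLocalRing_quot 𝔞 hne
  have hker := ker_eq_maximalIdeal' π hπ
  let p : B →+* B ⧸ 𝔞 := Ideal.Quotient.mk 𝔞
  have hp : Function.Surjective p := Ideal.Quotient.mk_surjective
  have hmax : maximalIdeal (B ⧸ 𝔞) = (maximalIdeal B).map p :=
    (map_maximalIdeal_of_surjective p hp).symm
  let π' : B ⧸ 𝔞 →+* k := Ideal.Quotient.lift 𝔞 π (fun a ha => by
    have := h𝔞 ha
    rw [← hker] at this
    exact this)
  have hπ' : ∀ b, π' (p b) = π b := fun b => rfl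
  have hπ's : Function.Surjective π' := by
    intro z
    obtain ⟨b, rfl⟩ := hπ z
    exact ⟨p b, rfl⟩
  obtain ⟨m, D, x, h1, h2, h3⟩ := exists_derivations (O := O) (p.comp c)
    (fun o ho => Ideal.Quotient.eq_zero_iff_mem.2 (hc o ho))
    (by
      intro b
      obtain ⟨b, rfl⟩ := hp b
      obtain ⟨o, ho⟩ := hres b
      refine ⟨o, ?_⟩
      rw [RingHom.comp_apply, ← map_sub, hmax]
      exact Ideal.mem_map_of_mem _ ho) π' hπ's
  have hx : ∀ i, ∃ y ∈ maximalIdeal B, p y = x i := by
    intro i
    have h4 : x i ∈ maximalIdeal (B ⧸ 𝔞) := by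
      rw [← h3]; exact Ideal.subset_span ⟨i, rfl⟩
    rw [hmax, Ideal.mem_map_iff_of_surjective p hp] at h4
    exact h4
  choose y hy hyx using hx
  refine ⟨m, fun i b => D i (p b), y, ?_, ?_, ?_, hy, ?_⟩
  · intro i
    refine ⟨fun a b => ?_, fun a b => ?_, fun o => ?_⟩
    · change D i (p (a + b)) = _
      rw [map_add]; exact (h1 i).1 _ _
    · change D i (p (a * b)) = _
      rw [map_mul]; exact (h1 i).2.1 _ _
    · exact (h1 i).2.2 o
  · intro i a ha
    change D i (p a) = 0
    have : p a = 0 := Ideal.Quotient.eq_zero_iff_mem.2 ha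
    rw [this]
    exact Der_zero (h1 i)
  · rw [Fintype.linearIndependent_iff] at h2 ⊢
    intro g hg i
    apply h2 g _ i
    funext z
    obtain ⟨z, rfl⟩ := hp z
    have := congrFun hg z
    rw [Finset.sum_apply] at this ⊢
    exact this
  · intro z hz
    have h4 : p z ∈ Ideal.span (Set.range x) := by
      rw [h3, hmax]
      exact Ideal.mem_map_of_mem _ hz
    have h5 : Set.range x = p '' (Set.range y) := by
      rw [← Set.range_comp]
      congr 1
      funext i
      exact (hyx i).symm
    rw [h5, ← Ideal.map_span, Ideal.mem_map_iff_of_surjective p hp] at h4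
    obtain ⟨w, hw, hwz⟩ := h4
    have h6 : z - w ∈ 𝔞 := by
      rw [← Ideal.Quotient.eq_zero_iff_mem, map_sub, sub_eq_zero]
      exact hwz.symm
    have e : z = (z - w) + w := by ring
    rw [e]
    exact Ideal.add_mem _ (Ideal.mem_sup_left h6) (Ideal.mem_sup_right hw)

end Cot

section Surj

/-- surjectivity criterion -/
lemma surjective_of_le {R B : Type} [CommRing R] [IsLocalRing R] [IsAdicComplete (maximalIdeal R) R]
    [CommRing B] [IsLocalRing B] [IsNoetherianRing B] (f : R →+* B) [IsLocalHom f]
    (hres : ∀ b, ∃ r, b - f r ∈ maximalIdeal B)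
    (h : maximalIdeal B ≤ (maximalIdeal R).map f) : Function.Surjective f := by
  have h1 : (maximalIdeal R).map f = maximalIdeal B := by
    apply le_antisymm _ h
    rw [Ideal.map_le_iff_le_comap]
    intro x hx
    exact map_mem_maxIdeal f hx
  have : IsHausdorff ((maximalIdeal R).map f) B := by
    rw [h1]
    infer_instance
  apply surjective_of_mk_map_comp_surjective (I := maximalIdeal R) f
  intro y
  obtain ⟨y, rfl⟩ := Ideal.Quotient.mk_surjective y
  obtain ⟨r, hr⟩ := hres y
  refine ⟨r, ?_⟩
  rw [RingHom.comp_apply, eq_comm, Ideal.Quotient.eq, h1]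
  exact hr

end Surj

section Tan

variable {O A k T : Type} [CommRing O] [CommRing A] [Field k]

/-- tangent space of the framed problem, relative to the local pairs `(Φ t, Σ t)`. -/
def TanSpace (c : O →+* A) (π : A →+* k) (Φ S : T → M2 A) :
    Submodule k ((A → k) × (T → M2 k)) where
  carrier := {z | z.1 ∈ DerSpace c π ∧ (∀ t, (z.2 t).trace = 0) ∧
    (∀ t i j, z.1 (Φ t i j) + (z.2 t * (Φ t).map π - (Φ t).map π * z.2 t) i j = 0) ∧
    (∀ t i j, z.1 (S t i j) = 0)}
  add_mem' := by
    rintro z z' ⟨h1, h2, h3, h4⟩ ⟨h1', h2', h3', h4'⟩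
    refine ⟨Submodule.add_mem _ h1 h1', fun t => ?_, fun t i j => ?_, fun t i j => ?_⟩
    · change (z.2 t + z'.2 t).trace = 0
      rw [Matrix.trace_add, h2, h2', add_zero]
    · change z.1 (Φ t i j) + z'.1 (Φ t i j) + ((z.2 t + z'.2 t) * (Φ t).map π -
        (Φ t).map π * (z.2 t + z'.2 t)) i j = 0
      have := congrArg₂ (· + ·) (h3 t i j) (h3' t i j)
      rw [add_mul, mul_add]
      simp only [Matrix.sub_apply, Matrix.add_apply, add_zero] at this ⊢
      linear_combination this
    · change z.1 (S t i j) + z'.1 (S t i j) = 0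
      rw [h4, h4', add_zero]
  zero_mem' := by
    refine ⟨zero_mem _, fun t => ?_, fun t i j => ?_, fun t i j => rfl⟩
    · exact Matrix.trace_zero _ _
    · change (0 : k) + ((0 : M2 k) * (Φ t).map π - (Φ t).map π * (0 : M2 k)) i j = 0
      rw [zero_mul, mul_zero, sub_zero]
      simp
  smul_mem' := by
    rintro x z ⟨h1, h2, h3, h4⟩
    refine ⟨Submodule.smul_mem _ _ h1, fun t => ?_, fun t i j => ?_, fun t i j => ?_⟩
    · change (x • z.2 t).trace = 0
      rw [Matrix.trace_smul, h2, smul_zero]
    · change x * z.1 (Φ t i j) + ((x • z.2 t) * (Φ t).map π -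
        (Φ t).map π * (x • z.2 t)) i j = 0
      have := h3 t i j
      rw [smul_mul_assoc, mul_smul_comm]
      simp only [Matrix.sub_apply, Matrix.smul_apply, smul_eq_mul] at this ⊢
      linear_combination x * this
    · change x * z.1 (S t i j) = 0
      rw [h4, mul_zero]

lemma mem_TanSpace {c : O →+* A} {π : A →+* k} {Φ S : T → M2 A} {z : (A → k) × (T → M2 k)} :
    z ∈ TanSpace c π Φ S ↔ z.1 ∈ DerSpace c π ∧ (∀ t, (z.2 t).trace = 0) ∧
    (∀ t i j, z.1 (Φ t i j) + (z.2 t * (Φ t).map π - (Φ t).map π * z.2 t) i j = 0) ∧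
    (∀ t i j, z.1 (S t i j) = 0) := Iff.rfl

/-- finite dimensionality -/
lemma finite_TanSpace [IsLocalRing A] [IsNoetherianRing A] [Finite T] (c : O →+* A)
    (hres : ∀ b, ∃ o, b - c o ∈ maximalIdeal A) (π : A →+* k) (hπ : Function.Surjective π)
    (Φ S : T → M2 A) : Module.Finite k (TanSpace c π Φ S) := by
  classical
  have hker := ker_eq_maximalIdeal' π hπ
  obtain ⟨n, g, hg⟩ := Submodule.fg_iff_exists_fin_generating_family.1
    (IsNoetherian.noetherian (maximalIdeal A))
  let F : TanSpace c π Φ S →ₗ[k] (Fin n → k) × (T → M2 k) :=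
    { toFun := fun z => (fun i => z.1.1 (g i), z.1.2)
      map_add' := fun z z' => rfl
      map_smul' := fun x z => rfl }
  refine Module.Finite.of_injective F ?_
  rw [← LinearMap.ker_eq_bot, LinearMap.ker_eq_bot']
  intro z hz
  have h1 : ∀ i, z.1.1 (g i) = 0 := fun i => congrFun (congrArg Prod.fst hz) i
  have h2 : z.1.2 = 0 := congrArg Prod.snd hz
  have hD := z.2.1
  apply Subtype.ext
  refine Prod.ext ?_ h2
  funext a
  obtain ⟨o, ho⟩ := hres a
  have h3 : z.1.1 (a - c o) = 0 := by
    refine Der_eq_zero_of_span hD (s := Set.range g) ?_ ?_ ?_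
    · rintro _ ⟨i, rfl⟩
      exact h1 i
    · rintro _ ⟨i, rfl⟩
      have : g i ∈ maximalIdeal A := by
        rw [← hg]; exact Ideal.subset_span ⟨i, rfl⟩
      rw [← hker] at this
      exact this
    · change a - c o ∈ Submodule.span A (Set.range g)
      rw [hg]; exact ho
  rw [Der_sub hD, Der_c hD, sub_zero] at h3
  exact h3

end Tan

end Fermat.Agent.TAlg
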