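import Mathlib
import Fermat.Agent.TAlg.Tan

/-! # Framed maps `R → A⟦Y⟧`. -/

set_option autoImplicit false
set_option linter.unusedSectionVars false

open IsLocalRing MvPowerSeries

namespace Fermat.Agent.TAlg

section Fr

variable {T A : Type} [CommRing A]

/-- the framing variables as a matrix of trace zero -/
noncomputable def Ymat (A : Type) [CommRing A] (t : T) : M2 (MvPowerSeries (T × Fin 3) A) :=
  !![X (t, 0), X (t, 1); X (t, 2), -X (t, 0)]

/-- the universal frame -/
noncomputable def gmat (A : Type) [CommRing A] (t : T) : M2 (MvPowerSeries (T × Fin 3) A) :=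
  1 + Ymat A t

lemma isUnit_det_gmat (t : T) : IsUnit (gmat A t).det := by
  rw [MvPowerSeries.isUnit_iff_constantCoeff]
  have : constantCoeff (gmat A t).det = 1 := by
    rw [gmat, Ymat, Matrix.det_fin_two]
    simp
  rw [this]
  exact isUnit_one

lemma gmat_mul_inv (t : T) : gmat A t * (gmat A t)⁻¹ = 1 :=
  Matrix.mul_nonsing_inv _ (isUnit_det_gmat t)

lemma inv_mul_gmat (t : T) : (gmat A t)⁻¹ * gmat A t = 1 :=
  Matrix.nonsing_inv_mul _ (isUnit_det_gmat t)

/-- conjugation by the frame -/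
noncomputable def frM (M : M2 A) (t : T) : M2 (MvPowerSeries (T × Fin 3) A) :=
  gmat A t * M.map C * (gmat A t)⁻¹

lemma trace_frM (M : M2 A) (t : T) : (frM M t).trace = C M.trace := by
  rw [frM, trace_conj (inv_mul_gmat t), Matrix.trace_fin_two, Matrix.trace_fin_two, map_add]
  rfl

lemma det_frM (M : M2 A) (t : T) : (frM M t).det = C M.det := by
  rw [frM, det_conj' (gmat_mul_inv t), RingHom.map_det]
  rfl

lemma frM_one (t : T) : frM (1 : M2 A) t = 1 := by
  rw [frM, Matrix.map_one _ (map_zero _) (map_one _), mul_one, gmat_mul_inv]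

lemma J1_frM (q : A) (Φ S : M2 A) (t : T) :
    J1 (C q) (frM Φ t) (frM S t) = (J1 q Φ S).map (C : A →+* MvPowerSeries (T × Fin 3) A) := by
  rw [frM, frM, J1_conj (gmat_mul_inv (A := A) t) (inv_mul_gmat (A := A) t)]
  exact (map_J1 (C : A →+* MvPowerSeries (T × Fin 3) A) q Φ S).symm

lemma Jchi_frM (c : A) (Φ S : M2 A) (t : T) :
    Jchi (C c) (frM Φ t) (frM S t) = (Jchi c Φ S).map (C : A →+* MvPowerSeries (T × Fin 3) A) := by
  rw [frM, frM, Jchi_conj (gmat_mul_inv (A := A) t) (inv_mul_gmat (A := A) t)]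
  exact (map_Jchi (C : A →+* MvPowerSeries (T × Fin 3) A) c Φ S).symm

lemma Junr_frM (S : M2 A) (t : T) :
    Junr (frM S t) = (Junr S).map (C : A →+* MvPowerSeries (T × Fin 3) A) := by
  rw [frM, Junr_conj (gmat_mul_inv (A := A) t) (inv_mul_gmat (A := A) t)]
  exact (map_Junr (C : A →+* MvPowerSeries (T × Fin 3) A) S).symm

lemma Jst_frM (ε q : A) (Φ S : M2 A) (t : T) :
    Jst (C ε) (C q) (frM Φ t) (frM S t) = (Jst ε q Φ S).map (C : A →+* MvPowerSeries (T × Fin 3) A) := by
  rw [frM, frM, Jst_conj (gmat_mul_inv (A := A) t) (inv_mul_gmat (A := A) t)]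
  exact (map_Jst (C : A →+* MvPowerSeries (T × Fin 3) A) ε q Φ S).symm

lemma Jrz_frM (ε q : A) (Φ S : M2 A) (t : T) :
    Jrz (C ε) (C q) (frM Φ t) (frM S t) = (Jrz ε q Φ S).map (C : A →+* MvPowerSeries (T × Fin 3) A) := by
  rw [frM, frM, Jrz_conj (gmat_mul_inv (A := A) t) (inv_mul_gmat (A := A) t)]
  exact (map_Jrz (C : A →+* MvPowerSeries (T × Fin 3) A) ε q Φ S).symm

lemma frM_mul_gmat (M : M2 A) (t : T) : frM M t * gmat A t = gmat A t * M.map C := by
  rw [frM, mul_assoc, inv_mul_gmat, mul_one]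

lemma frM_sub_mem [IsLocalRing A] [Finite T] (M : M2 A) (t : T) (i j : Fin 2) :
    frM M t i j - C (M i j) ∈ maximalIdeal (MvPowerSeries (T × Fin 3) A) := by
  have hY : ent (Ymat A t) ≤ maximalIdeal (MvPowerSeries (T × Fin 3) A) := by
    rw [ent_le_iff]
    intro i j
    fin_cases i <;> fin_cases j
    · exact X_mem_maxIdeal _
    · exact X_mem_maxIdeal _
    · exact X_mem_maxIdeal _
    · exact (Ideal.neg_mem_iff _).2 (X_mem_maxIdeal _)
  have e : frM M t - M.map C = (Ymat A t * M.map C - M.map C * Ymat A t) * (gmat A t)⁻¹ := by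
    have h1 : (frM M t - M.map C) * gmat A t = Ymat A t * M.map C - M.map C * Ymat A t := by
      rw [sub_mul, frM_mul_gmat, gmat, add_mul, mul_add, one_mul, mul_one]
      abel
    rw [← h1, mul_assoc, gmat_mul_inv, mul_one]
  have h2 : ent (frM M t - M.map C) ≤ maximalIdeal (MvPowerSeries (T × Fin 3) A) := by
    rw [e]
    refine (ent_mul_right _ _).trans ?_
    rw [ent_le_iff]
    intro i j
    rw [Matrix.sub_apply]
    exact Ideal.sub_mem _ (hY (ent_mul_right _ _ (mem_ent _ i j)))
      (hY (ent_mul_left _ _ (mem_ent _ i j)))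
  exact h2 (mem_ent _ i j)

variable {O k : Type} [CommRing O] [Field k] {c : O →+* A} {π : A →+* k}

/-- derivations applied to matrices -/
lemma Der_matrix {B : Type} [CommRing B] {c : O →+* B} {π : B →+* k} {E : B → k}
    (hE : E ∈ DerSpace c π) (M N : M2 B) :
    (M * N).map E = M.map π * N.map E + M.map E * N.map π := by
  ext i j
  simp only [Matrix.map_apply, Matrix.add_apply, Matrix.mul_apply, Fin.sum_univ_two,
    Der_add hE, Der_mul hE]
  ring

lemma restrict_mem {E : MvPowerSeries (T × Fin 3) A → k}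
    (hE : E ∈ DerSpace ((C : A →+* MvPowerSeries (T × Fin 3) A).comp c) (π.comp constantCoeff)) :
    (fun a => E (C a)) ∈ DerSpace c π := by
  refine ⟨fun a b => ?_, fun a b => ?_, fun o => ?_⟩
  · change E (C (a + b)) = _
    rw [map_add, Der_add hE]
  · change E (C (a * b)) = _
    rw [map_mul, Der_mul hE, RingHom.comp_apply, RingHom.comp_apply, constantCoeff_C,
      constantCoeff_C]
  · exact Der_c hE o

lemma Der_frM {E : MvPowerSeries (T × Fin 3) A → k}
    (hE : E ∈ DerSpace ((C : A →+* MvPowerSeries (T × Fin 3) A).comp c) (π.comp constantCoeff))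
    (M : M2 A) (t : T) :
    (frM M t).map E = (M.map fun a => E (C a)) +
      ((Ymat A t).map E * M.map π - M.map π * (Ymat A t).map E) := by
  have hπg : (gmat A t).map (π.comp constantCoeff) = 1 := by
    ext i j
    fin_cases i <;> fin_cases j <;> simp [gmat, Ymat]
  have hπM : (M.map (C : A →+* MvPowerSeries (T × Fin 3) A)).map (π.comp constantCoeff) =
      M.map π := by
    ext i j
    simp
  have hEg : (gmat A t).map E = (Ymat A t).map E := by
    ext i j
    rw [Matrix.map_apply, Matrix.map_apply, gmat, Matrix.add_apply, Der_add hE]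
    fin_cases i <;> fin_cases j <;> simp [Der_zero hE, Der_one hE]
  have hEM : (M.map (C : A →+* MvPowerSeries (T × Fin 3) A)).map E = M.map fun a => E (C a) := by
    ext i j
    rfl
  have hfr : (frM M t).map (π.comp constantCoeff) = M.map π := by
    have h1 : (frM M t * gmat A t).map (π.comp constantCoeff) =
        (gmat A t * M.map C).map (π.comp constantCoeff) := by rw [frM_mul_gmat M t]
    rw [Matrix.map_mul, Matrix.map_mul, hπg, mul_one, one_mul, hπM] at h1
    exact h1
  have h1 : (frM M t * gmat A t).map E = (gmat A t * M.map C).map E := by rw [frM_mul_gmat M t]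
  rw [Der_matrix hE, Der_matrix hE, hπg, hπM, mul_one, one_mul, hfr, hEg, hEM] at h1
  rw [← eq_sub_iff_add_eq'] at h1
  rw [h1]
  abel

/-- the pair `(D, y)` attached to a derivation of `A⟦Y⟧` -/
noncomputable def toTan (T : Type) (A k : Type) [CommRing A] [Field k] :
    (MvPowerSeries (T × Fin 3) A → k) →ₗ[k] (A → k) × (T → M2 k) where
  toFun E := (fun a => E (C a), fun t => !![E (X (t, 0)), E (X (t, 1)); E (X (t, 2)), -E (X (t, 0))])
  map_add' E E' := by
    refine Prod.ext rfl ?_
    funext t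
    ext i j
    fin_cases i <;> fin_cases j <;> simp [add_comm]
  map_smul' x E := by
    refine Prod.ext rfl ?_
    funext t
    ext i j
    fin_cases i <;> fin_cases j <;> simp

lemma toTan_snd {E : MvPowerSeries (T × Fin 3) A → k}
    (hE : E ∈ DerSpace ((C : A →+* MvPowerSeries (T × Fin 3) A).comp c) (π.comp constantCoeff))
    (t : T) : (toTan T A k E).2 t = (Ymat A t).map E := by
  ext i j
  fin_cases i <;> fin_cases j
  · rfl
  · rfl
  · rfl
  · change -E (X (t, 0)) = E (-X (t, 0))
    rw [Der_neg hE]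

lemma toTan_mem {Φ S : T → M2 A} (hS : ∀ t, (S t).map π = 1) {E : MvPowerSeries (T × Fin 3) A → k}
    (hE : E ∈ DerSpace ((C : A →+* MvPowerSeries (T × Fin 3) A).comp c) (π.comp constantCoeff))
    (h1 : ∀ t i j, E (frM (Φ t) t i j) = 0) (h2 : ∀ t i j, E (frM (S t) t i j) = 0) :
    toTan T A k E ∈ TanSpace c π Φ S := by
  refine ⟨restrict_mem hE, ?_, ?_, ?_⟩
  · intro t
    change Matrix.trace !![E (X (t, 0)), E (X (t, 1)); E (X (t, 2)), -E (X (t, 0))] = 0
    rw [Matrix.trace_fin_two_of, add_neg_cancel]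
  · intro t i j
    have h3 := congrFun (congrFun (Der_frM hE (Φ t) t) i) j
    rw [Matrix.map_apply, h1] at h3
    rw [toTan_snd hE]
    exact h3.symm
  · intro t i j
    have h3 := congrFun (congrFun (Der_frM hE (S t) t) i) j
    rw [Matrix.map_apply, h2, hS, mul_one, one_mul, sub_self, add_zero] at h3
    exact h3.symm

lemma eq_zero_of_toTan [Finite T] {E : MvPowerSeries (T × Fin 3) A → k}
    (hE : E ∈ DerSpace ((C : A →+* MvPowerSeries (T × Fin 3) A).comp c) (π.comp constantCoeff))
    (h : toTan T A k E = 0) : E = 0 := by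
  have h1 : ∀ a, E (C a) = 0 := fun a => congrFun (congrArg Prod.fst h) a
  have h2 : ∀ t i, E (X (t, i)) = 0 := by
    intro t i
    have h3 := congrFun (congrArg Prod.snd h) t
    change !![E (X (t, 0)), E (X (t, 1)); E (X (t, 2)), -E (X (t, 0))] = 0 at h3
    fin_cases i
    · exact congrFun (congrFun h3 0) 0
    · exact congrFun (congrFun h3 0) 1
    · exact congrFun (congrFun h3 1) 0
  funext b
  have h3 : b - C (constantCoeff b) ∈ H04.XI (T × Fin 3) A := by
    rw [mem_XI_iff]; simp
  have h4 : E (b - C (constantCoeff b)) = 0 := by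
    refine Der_eq_zero_of_span hE ?_ ?_ h3
    · rintro _ ⟨⟨t, i⟩, rfl⟩
      exact h2 t i
    · rintro _ ⟨i, rfl⟩
      simp
  rw [Der_sub hE, h1, sub_zero] at h4
  exact h4

end Fr

/-- EXISTENCE of the surjection `R → A⟦Y⟧`. -/
theorem exists_phi {O : CLR} {r : ℕ} {T : Type} [Finite T] {q : T → O} {Φ₀ : T → M2 O}
    (p : Pack O r T q Φ₀) {A : Type} [CommRing A] [IsLocalRing A] [IsNoetherianRing A]
    [IsAdicComplete (maximalIdeal A) A] (c : O →+* A) [IsLocalHom c]
    (hres : ∀ b, ∃ o, b - c o ∈ maximalIdeal A) {k : Type} [Field k] (π : A →+* k)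
    (hπ : Function.Surjective π) (Φ S : T → M2 A) (detΦ : ∀ t, (Φ t).det = c (q t))
    (detS : ∀ t, (S t).det = 1) (hΦ : ∀ t i j, Φ t i j - c (Φ₀ t i j) ∈ maximalIdeal A)
    (hS : ∀ t i j, S t i j - (1 : M2 A) i j ∈ maximalIdeal A)
    (htan : Module.finrank k (TanSpace c π Φ S) ≤ r) :
    ∃ φ : p.R →+* MvPowerSeries (T × Fin 3) A, Function.Surjective φ ∧
      (∀ o, φ (p.i o) = C (c o)) ∧ (∀ t, (p.Φ t).map φ = frM (Φ t) t) ∧
      (∀ t, (p.S t).map φ = frM (S t) t) := by
  classical
  have hker := ker_eq_maximalIdeal' π hπ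
  have := p.loc
  let B := MvPowerSeries (T × Fin 3) A
  let cB : O →+* B := C.comp c
  let πB : B →+* k := π.comp constantCoeff
  have hπB : Function.Surjective πB := hπ.comp constantCoeff_surj'
  have hcB : ∀ o ∈ maximalIdeal O, cB o ∈ maximalIdeal B := fun o ho =>
    C_mem_maxIdeal (map_mem_maxIdeal c ho)
  have m1 : ∀ t i j, frM (Φ t) t i j - cB (Φ₀ t i j) ∈ maximalIdeal B := by
    intro t i j
    have h1 := frM_sub_mem (Φ t) t i j
    have h2 : (C (Φ t i j - c (Φ₀ t i j)) : B) ∈ maximalIdeal B := C_mem_maxIdeal (hΦ t i j)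
    rw [map_sub] at h2
    have h3 := Ideal.add_mem _ h1 h2
    rwa [sub_add_sub_cancel] at h3
  have m2 : ∀ t i j, frM (S t) t i j - (1 : M2 B) i j ∈ maximalIdeal B := by
    intro t i j
    have h1 := frM_sub_mem (S t) t i j
    have h2 : (C (S t i j - (1 : M2 A) i j) : B) ∈ maximalIdeal B := C_mem_maxIdeal (hS t i j)
    have h4 : (C ((1 : M2 A) i j) : B) = (1 : M2 B) i j := by
      fin_cases i <;> fin_cases j <;> simp
    rw [map_sub, h4] at h2
    have h3 := Ideal.add_mem _ h1 h2
    rwa [sub_add_sub_cancel] at h3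
  let 𝔞 : Ideal B := (maximalIdeal O).map cB ⊔ ((⨆ t, ent (frM (Φ t) t - (Φ₀ t).map cB)) ⊔
    ⨆ t, ent (frM (S t) t - 1))
  have h𝔞 : 𝔞 ≤ maximalIdeal B := by
    refine sup_le ?_ (sup_le (iSup_le fun t => ent_le_iff.2 (m1 t))
      (iSup_le fun t => ent_le_iff.2 (m2 t)))
    rw [Ideal.map_le_iff_le_comap]
    exact hcB
  have hresB : ∀ b : B, ∃ o, b - cB o ∈ maximalIdeal B := by
    intro b
    obtain ⟨o, ho⟩ := hres (constantCoeff b)
    refine ⟨o, ?_⟩
    rw [mem_maxIdeal_iff, map_sub]
    change constantCoeff b - constantCoeff (C (c o)) ∈ _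
    rw [constantCoeff_C]
    exact ho
  obtain ⟨m, D, x, d1, d2, d3, d4, d5⟩ := exists_derivations' 𝔞 h𝔞 cB
    (fun o ho => Ideal.mem_sup_left (Ideal.mem_map_of_mem _ ho)) hresB πB hπB
  -- `m ≤ r`
  have hSπ : ∀ t, (S t).map π = 1 := by
    intro t
    ext i j
    have h1 := hS t i j
    rw [← hker, RingHom.mem_ker, map_sub, sub_eq_zero] at h1
    rw [Matrix.map_apply, h1]
    fin_cases i <;> fin_cases j <;> simp
  have hmem : ∀ i, toTan T A k (D i) ∈ TanSpace c π Φ S := by
    intro i
    refine toTan_mem hSπ (d1 i) ?_ ?_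
    · intro t a b
      have h1 : frM (Φ t) t a b - cB (Φ₀ t a b) ∈ 𝔞 := by
        refine Ideal.mem_sup_right (Ideal.mem_sup_left (Ideal.mem_iSup_of_mem t ?_))
        exact mem_ent (frM (Φ t) t - (Φ₀ t).map cB) a b
      have h2 := d2 i _ h1
      rwa [Der_sub (d1 i), Der_c (d1 i), sub_zero] at h2
    · intro t a b
      have h1 : frM (S t) t a b - (1 : M2 B) a b ∈ 𝔞 := by
        refine Ideal.mem_sup_right (Ideal.mem_sup_right (Ideal.mem_iSup_of_mem t ?_))
        exact mem_ent (frM (S t) t - 1) a b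
      have h2 := d2 i _ h1
      have h3 : D i ((1 : M2 B) a b) = 0 := by
        fin_cases a <;> fin_cases b <;> simp [Der_one (d1 i), Der_zero (d1 i)]
      rwa [Der_sub (d1 i), h3, sub_zero] at h2
  have hfin := finite_TanSpace c hres π hπ Φ S
  have hmr : m ≤ r := by
    refine le_trans ?_ htan
    have hli : LinearIndependent k (fun i => (⟨toTan T A k (D i), hmem i⟩ :
        TanSpace c π Φ S)) := by
      rw [Fintype.linearIndependent_iff] at d3 ⊢
      intro g hg i
      apply d3 g _ i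
      have hE : (∑ i, g i • D i) ∈ DerSpace cB πB :=
        Submodule.sum_mem _ (fun i _ => Submodule.smul_mem _ _ (d1 i))
      apply eq_zero_of_toTan hE
      rw [map_sum]
      have h1 := congrArg Subtype.val hg
      simp only [Submodule.coe_sum, Submodule.coe_smul, Submodule.coe_zero] at h1
      rw [← h1]
      exact Finset.sum_congr rfl fun i _ => map_smul _ _ _
    have := hli.fintype_card_le_finrank
    rwa [Fintype.card_fin] at this
  let X' : Fin r → B := fun j => if h : j.1 < m then x ⟨j, h⟩ else 0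
  have hX' : ∀ j, X' j ∈ maximalIdeal B := by
    intro j
    by_cases h : j.1 < m
    · simp only [X', dif_pos h]; exact d4 _
    · simp only [X', dif_neg h]; exact zero_mem _
  have hloc : IsLocalHom cB := inferInstanceAs (IsLocalHom (C.comp c))
  obtain ⟨φ, f1, f2, f3, f4, f5⟩ := p.univ B cB X' hX' (fun t => frM (Φ t) t)
    (fun t => frM (S t) t) (fun t => by rw [det_frM, detΦ]; rfl)
    (fun t => by rw [det_frM, detS, map_one]) m1 m2
  refine ⟨φ, ?_, ?_, f4, f5⟩
  · apply surjective_of_le φ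
    · intro b
      obtain ⟨o, ho⟩ := hresB b
      refine ⟨p.i o, ?_⟩
      rw [← RingHom.comp_apply, f2]
      exact ho
    · refine d5.trans (sup_le (sup_le ?_ (sup_le ?_ ?_)) ?_)
      · rw [← f2, ← Ideal.map_map]
        refine Ideal.map_mono ?_
        rw [Ideal.map_le_iff_le_comap]
        intro o ho
        exact map_mem_maxIdeal p.i ho
      · refine iSup_le fun t => ent_le_iff.2 fun a b => ?_
        have h1 : (frM (Φ t) t - (Φ₀ t).map cB) a b = φ (p.Φ t a b - p.i (Φ₀ t a b)) := by
          rw [map_sub, ← f4 t, Matrix.sub_apply, Matrix.map_apply, Matrix.map_apply,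
            ← RingHom.comp_apply φ, f2]
        rw [h1]
        exact Ideal.mem_map_of_mem _ (p.hΦ t a b)
      · refine iSup_le fun t => ent_le_iff.2 fun a b => ?_
        have h1 : (frM (S t) t - 1) a b = φ (p.S t a b - (1 : M2 p.R) a b) := by
          rw [map_sub, ← f5 t, Matrix.sub_apply, Matrix.map_apply]
          congr 1
          fin_cases a <;> fin_cases b <;> simp
        rw [h1]
        exact Ideal.mem_map_of_mem _ (p.hS t a b)
      · rw [Ideal.span_le]
        rintro _ ⟨i, rfl⟩
        have h1 : x i = φ (p.X ⟨i, lt_of_lt_of_le i.2 hmr⟩) := by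
          rw [f3]
          simp only [X', dif_pos i.2]
        rw [SetLike.mem_coe, h1]
        exact Ideal.mem_map_of_mem _ (p.hX _)
  · intro o
    rw [← RingHom.comp_apply, f2]
    rfl

end Fermat.Agent.TAlg
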