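import Mathlib
import Fermat.Agent.TAlg.Fr

/-! # Level lowering: the black box. -/

set_option autoImplicit false
set_option linter.unusedSectionVars false

open IsLocalRing MvPowerSeries

namespace Fermat.Agent.TAlg

section Congr

variable {R : Type} [CommRing R]

lemma ent_sub_le {M N : M2 R} {I : Ideal R} (h : ∀ i j, M i j - N i j ∈ I) : ent M ≤ ent N ⊔ I := by
  rw [ent_le_iff]
  intro i j
  have e : M i j = N i j + (M i j - N i j) := by ring
  rw [e]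
  exact Ideal.add_mem _ (Ideal.mem_sup_left (mem_ent N i j)) (Ideal.mem_sup_right (h i j))

lemma J1_le_Jchi {q t : R} {Φ S : M2 R} {I : Ideal R} (hq : q - 1 ∈ I) (ht : t - 2 ∈ I) :
    J1 q Φ S ≤ Jchi t Φ S ⊔ I := by
  refine sup_le ?_ ?_
  · refine (ent_sub_le (N := Φ * S - S * Φ) (I := I) ?_).trans (sup_le_sup_right le_sup_left _)
    intro i j
    have e : (Φ * (S - 1) - q • ((S - 1) * Φ)) - (Φ * S - S * Φ) =
        (-(q - 1)) • ((S - 1) * Φ) := by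
      rw [neg_smul, sub_smul, one_smul, mul_sub, sub_mul, mul_one, one_mul]
      abel
    rw [← Matrix.sub_apply, e, Matrix.smul_apply, smul_eq_mul]
    exact Ideal.mul_mem_right _ _ ((Ideal.neg_mem_iff _).2 hq)
  · rw [Ideal.span_singleton_le_iff_mem]
    have e : S.trace - 2 = (S.trace - t) + (t - 2) := by ring
    rw [e]
    exact Ideal.add_mem _ (Ideal.mem_sup_left (Ideal.mem_sup_right (Ideal.subset_span rfl)))
      (Ideal.mem_sup_right ht)

lemma Jchi_le_J1 {q t : R} {Φ S : M2 R} {I : Ideal R} (hq : q - 1 ∈ I) (ht : t - 2 ∈ I) :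
    Jchi t Φ S ≤ J1 q Φ S ⊔ I := by
  refine sup_le ?_ ?_
  · refine (ent_sub_le (N := Φ * (S - 1) - q • ((S - 1) * Φ)) (I := I) ?_).trans
      (sup_le_sup_right le_sup_left _)
    intro i j
    have e : (Φ * S - S * Φ) - (Φ * (S - 1) - q • ((S - 1) * Φ)) =
        (q - 1) • ((S - 1) * Φ) := by
      rw [sub_smul, one_smul, mul_sub, sub_mul, mul_one, one_mul]
      abel
    rw [← Matrix.sub_apply, e, Matrix.smul_apply, smul_eq_mul]
    exact Ideal.mul_mem_right _ _ hq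
  · rw [Ideal.span_singleton_le_iff_mem]
    have e : S.trace - t = (S.trace - 2) - (t - 2) := by ring
    rw [e]
    exact Ideal.sub_mem _ (Ideal.mem_sup_left (Ideal.mem_sup_right (Ideal.subset_span rfl)))
      (Ideal.mem_sup_right ht)

lemma J1_le_Junr (q : R) (Φ S : M2 R) : J1 q Φ S ≤ Junr S := by
  refine sup_le ?_ ?_
  · rw [ent_le_iff]
    intro i j
    rw [Matrix.sub_apply, Matrix.smul_apply, smul_eq_mul]
    exact Ideal.sub_mem _ (ent_mul_left _ _ (mem_ent _ i j))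
      (Ideal.mul_mem_left _ _ (ent_mul_right _ _ (mem_ent _ i j)))
  · rw [Ideal.span_singleton_le_iff_mem]
    have e : S.trace - 2 = (S - 1) 0 0 + (S - 1) 1 1 := by
      rw [Matrix.trace_fin_two, Matrix.sub_apply, Matrix.sub_apply, Matrix.one_apply_eq,
        Matrix.one_apply_eq]
      ring
    rw [e]
    exact Ideal.add_mem _ (mem_ent _ 0 0) (mem_ent _ 1 1)

end Congr

section Coef

variable {σ A : Type} [Finite σ] [CommRing A] [IsNoetherianRing A] {N : Type} [AddCommGroup N]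
  {S : Type} [CommRing S] [Module S N]

/-- relations over `A` give relations over the frame ring -/
lemma coeff_act_eq_zero {R : Type} [CommRing R] (ρ : A →+* Module.End S N) (I₀ : Ideal A)
    (h : ∀ a ∈ I₀, ρ a = 0) (φ : R →+* MvPowerSeries σ A) (I : Ideal R)
    (hI : I.map φ ≤ I₀.map (C : A →+* MvPowerSeries σ A)) (x : R) (hx : x ∈ I) (k : σ →₀ ℕ) :
    ρ (coeff k (φ x)) = 0 :=
  h _ (coeff_mem_of_mem_map_C (hI (Ideal.mem_map_of_mem φ hx)) k)

end Coef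

lemma ideal_map_prod {κ : Type} [Fintype κ] {R B : Type} [CommRing R] [CommRing B] (φ : R →+* B)
    (K : κ → Ideal R) : (∏ j, K j).map φ = ∏ j, (K j).map φ :=
  map_prod (Ideal.mapHom φ) K Finset.univ

/-- LEVEL LOWERING BLACK BOX. -/
theorem levelLowering {O : CLR} [IsDomain O] (h2 : IsUnit (2 : O)) (ϖ : O)
    (hϖ : maximalIdeal O = Ideal.span {ϖ}) (hϖ0 : ϖ ≠ 0)
    {T : Type} [Fintype T] (q : T → O) (hq : ∀ t, q t - 1 ∈ maximalIdeal O) (Φ₀ : T → M2 O)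
    (hdet₀ : ∀ t, (Φ₀ t).det - 1 ∈ maximalIdeal O)
    (htr₀ : ∀ t, (Φ₀ t).trace ^ 2 - 4 ∈ maximalIdeal O)
    (r : ℕ) {ι : Type} {F : Ultrafilter ι} {J : ι → Ideal (MvPowerSeries (Fin r) O)}
    (hJ : Small F J)
    {A : ι → Type} [∀ n, CommRing (A n)] [∀ n, IsLocalRing (A n)] [∀ n, IsNoetherianRing (A n)]
    [∀ n, IsAdicComplete (maximalIdeal (A n)) (A n)]
    (cA : ∀ n, O →+* A n) [∀ n, IsLocalHom (cA n)]
    (hres : ∀ n b, ∃ o, b - cA n o ∈ maximalIdeal (A n))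
    {k : Type} [Field k] (π : ∀ n, A n →+* k) (hπ : ∀ n, Function.Surjective (π n))
    {θA : ∀ n, MvPowerSeries (Fin r) O →+* A n} (hθC : ∀ n o, θA n (C o) = cA n o)
    (hθX : ∀ n i, θA n (X i) ∈ maximalIdeal (A n))
    (Φ S : ∀ n, T → M2 (A n)) (detΦ : ∀ n t, (Φ n t).det = cA n (q t))
    (detS : ∀ n t, (S n t).det = 1)
    (hΦ : ∀ n t i j, Φ n t i j - cA n (Φ₀ t i j) ∈ maximalIdeal (A n))
    (hS : ∀ n t i j, S n t i j - (1 : M2 (A n)) i j ∈ maximalIdeal (A n))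
    (htan : ∀ n, Module.finrank k (TanSpace (cA n) (π n) (Φ n) (S n)) ≤ r)
    (U₁ U₂ : UData (MvPowerSeries (Fin r) O) J A θA)
    (h₁ : ∀ n t, ∀ x ∈ J1 (cA n (q t)) (Φ n t) (S n t), U₁.ρ n x = 0)
    {κ : Type} [Fintype κ] (ζ : κ → T → O) (hζ : ∀ j t, ζ j t - 2 ∈ maximalIdeal O)
    (hζ' : ∀ j t, ζ j t ^ 2 ≠ 4)
    (h₂ : ∀ n, ∀ x ∈ ∏ j, ⨆ t, Jchi (cA n (ζ j t)) (Φ n t) (S n t), U₂.ρ n x = 0)
    (g : ∀ n, U₁.M n →ₗ[MvPowerSeries (Fin r) O] U₂.M n) (hg : ∀ n, Function.Surjective (g n))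
    (hequiv : ∀ n a x, g n (U₁.ρ n a x) - U₂.ρ n a (g n x) ∈
      Ideal.span {(C ϖ : MvPowerSeries (Fin r) O)} •
        (⊤ : Submodule (MvPowerSeries (Fin r) O) (U₂.M n))) (hd : U₂.d ≠ 0) :
    ∀ᶠ n in (F : Filter ι),
      U₁.ρ n (∏ t, ((Φ n t).trace ^ 2 - (cA n (q t) + 1) ^ 2)) ≠ 0 := by
  classical
  obtain ⟨p, hp⟩ := exists_pack_LL O h2 r T q hq Φ₀ hdet₀ htr₀
  have := p.loc
  have hϖm : ϖ ∈ maximalIdeal O := by rw [hϖ]; exact Ideal.mem_span_singleton_self ϖ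
  choose φ hφs hφi hφΦ hφS using fun n =>
    exists_phi p (cA n) (hres n) (π n) (hπ n) (Φ n) (S n) (detΦ n) (detS n) (hΦ n) (hS n) (htan n)
  choose θ hθ hθi using fun n =>
    exists_theta (σ := T × Fin 3) p.i (cA n) (φ n) (hφs n) (hφi n) (θA n) (hθC n) (hθX n)
  -- the ideals
  let I₁ : Ideal p.R := ⨆ t, J1 (p.i (q t)) (p.Φ t) (p.S t)
  let K : κ → Ideal p.R := fun j => p.K ⊥ (fun t => .chi (ζ j t))
  have hKeq : ∀ j, K j = ⨆ t, Jchi (p.i (ζ j t)) (p.Φ t) (p.S t) := by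
    intro j
    change (⊥ : Ideal O).map p.i ⊔ ⨆ t, Jchi (p.i (ζ j t)) (p.Φ t) (p.S t) = _
    rw [Ideal.map_bot, bot_sup_eq]
  have hKok : ∀ j, (K j).IsPrime ∧ (K j).comap p.i = ⊥ ∧ ringKrullDim (p.R ⧸ K j) ≤
      ringKrullDim (O ⧸ (⊥ : Ideal O)) + ((r + 3 * Nat.card T : ℕ) : WithBot ℕ∞) := by
    intro j
    have h3 : (⊥ : Ideal O).IsPrime := Ideal.isPrime_bot
    obtain ⟨h4, h5, h6, -⟩ := hp ⊥ (fun t => .chi (ζ j t)) (fun t => ⟨hζ j t, fun h => by
      rw [Ideal.mem_bot, sub_eq_zero] at h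
      exact hζ' j t h⟩)
    exact ⟨h4, h5, h6⟩
  let Q : Ideal p.R := p.K (maximalIdeal O) (fun _ => .unr)
  have hmaxp : (maximalIdeal O).IsPrime := Ideal.IsMaximal.isPrime inferInstance
  obtain ⟨hQp, hQc, -, hQn⟩ := hp (maximalIdeal O) (fun _ => .unr) (fun t => trivial)
  change Q.IsPrime at hQp
  have hϖQ : p.i ϖ ∈ Q := by
    apply Ideal.mem_sup_left
    exact Ideal.mem_map_of_mem _ hϖm
  have hI₁Q : I₁ ≤ Q := by
    refine iSup_le fun t => (J1_le_Junr _ _ _).trans ?_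
    exact le_sup_of_le_right (le_iSup (fun t => Junr (p.S t)) t)
  have hqI : ∀ t, p.i (q t) - 1 ∈ Ideal.span {p.i ϖ} := by
    intro t
    have := hq t
    rw [hϖ] at this
    have h3 := Ideal.mem_map_of_mem p.i this
    rwa [Ideal.map_span, Set.image_singleton, map_sub, map_one] at h3
  have hζI : ∀ j t, p.i (ζ j t) - 2 ∈ Ideal.span {p.i ϖ} := by
    intro j t
    have := hζ j t
    rw [hϖ] at this
    have h3 := Ideal.mem_map_of_mem p.i this
    rwa [Ideal.map_span, Set.image_singleton, map_sub, map_ofNat] at h3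
  have hIK : ∀ j, I₁ ⊔ Ideal.span {p.i ϖ} = K j ⊔ Ideal.span {p.i ϖ} := by
    intro j
    rw [hKeq]
    apply le_antisymm
    · refine sup_le (iSup_le fun t => ?_) le_sup_right
      refine (J1_le_Jchi (t := p.i (ζ j t)) (hqI t) (hζI j t)).trans (sup_le_sup_right ?_ _)
      exact le_iSup (fun t => Jchi (p.i (ζ j t)) (p.Φ t) (p.S t)) t
    · refine sup_le (iSup_le fun t => ?_) le_sup_right
      refine (Jchi_le_J1 (q := p.i (q t)) (hqI t) (hζI j t)).trans (sup_le_sup_right ?_ _)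
      exact le_iSup (fun t => J1 (p.i (q t)) (p.Φ t) (p.S t)) t
  -- the relations
  have hI₁map : ∀ n, I₁.map (φ n) ≤
      (⨆ t, J1 (cA n (q t)) (Φ n t) (S n t)).map (C : A n →+* MvPowerSeries (T × Fin 3) (A n)) := by
    intro n
    rw [Ideal.map_iSup, Ideal.map_iSup]
    refine iSup_mono fun t => ?_
    rw [map_J1, hφi, hφΦ, hφS, J1_frM]
  have hKmap : ∀ n j, (K j).map (φ n) =
      (⨆ t, Jchi (cA n (ζ j t)) (Φ n t) (S n t)).map
        (C : A n →+* MvPowerSeries (T × Fin 3) (A n)) := by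
    intro n j
    rw [hKeq, Ideal.map_iSup, Ideal.map_iSup]
    refine iSup_congr fun t => ?_
    rw [map_Jchi, hφi, hφΦ, hφS, Jchi_frM]
  have hk₁ : ∀ n, ∀ x ∈ I₁, ∀ k, U₁.ρ n (coeff k (φ n x)) = 0 := by
    intro n x hx k
    refine coeff_act_eq_zero (U₁.ρ n) (⨆ t, J1 (cA n (q t)) (Φ n t) (S n t)) ?_ (φ n) I₁
      (hI₁map n) x hx k
    intro a ha
    have h3 : (⨆ t, J1 (cA n (q t)) (Φ n t) (S n t)) ≤ RingHom.ker (U₁.ρ n) :=
      iSup_le fun t x hx => h₁ n t x hx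
    exact h3 ha
  have hk₂ : ∀ n, ∀ x ∈ ∏ j, K j, ∀ k, U₂.ρ n (coeff k (φ n x)) = 0 := by
    intro n x hx k
    refine coeff_act_eq_zero (U₂.ρ n) (∏ j, ⨆ t, Jchi (cA n (ζ j t)) (Φ n t) (S n t)) (h₂ n)
      (φ n) (∏ j, K j) ?_ x hx k
    rw [ideal_map_prod, ideal_map_prod]
    exact le_of_eq (Finset.prod_congr rfl fun j _ => hKmap n j)
  have hdim : ringKrullDim (O ⧸ (⊥ : Ideal O)) + ((r + 3 * Nat.card T : ℕ) : WithBot ℕ∞) ≤
      ringKrullDim (MvPowerSeries (T × Fin 3) (MvPowerSeries (Fin r) O)) := by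
    have h3 := ringKrullDim_add_natCard_le_mvPowerSeries (R := O) (Fin r)
    have h4 := ringKrullDim_add_natCard_le_mvPowerSeries (R := MvPowerSeries (Fin r) O)
      (T × Fin 3)
    refine le_trans ?_ h4
    refine le_trans ?_ (add_le_add_left h3 _)
    rw [ringKrullDim_eq_of_ringEquiv (RingEquiv.quotientBot O), Nat.card_prod, Nat.card_fin,
      Nat.card_fin, Nat.cast_add, add_assoc, mul_comm 3]
  have key := UData.ihara_avoidance' U₁ U₂ φ hθ hJ (C ϖ) (p.i ϖ)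
    (map_mem_maxIdeal p.i hϖm) (fun n => hθi n ϖ) I₁ hk₁ K (fun j => (hKok j).1)
    (fun j => (hKok j).2.2.trans hdim)
    (fun j h => hϖ0 (by
      have h3 : ϖ ∈ (K j).comap p.i := h
      rw [(hKok j).2.1] at h3
      exact h3))
    hIK hk₂ g hg hequiv hd Q hI₁Q hϖQ
  -- the conclusion
  let s : p.R := ∏ t, ((p.Φ t).trace ^ 2 - (p.i (q t) + 1) ^ 2)
  have hs : s ∉ Q := by
    intro h
    obtain ⟨t, -, ht⟩ := (hQp.prod_mem_iff).1 h
    have e : (p.Φ t).trace ^ 2 - (p.i (q t) + 1) ^ 2 =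
        ((p.Φ t).trace - p.i 1 * (p.i (q t) + 1)) *
        ((p.Φ t).trace - p.i (-1) * (p.i (q t) + 1)) := by
      rw [map_neg, map_one]; ring
    rw [e] at ht
    rcases hQp.mem_or_mem ht with h3 | h3
    · exact hQn t rfl 1 (one_pow 2) h3
    · exact hQn t rfl (-1) (by ring) h3
  have hev := UData.eventually_ne_zero U₁ φ hθ hJ Q key.1 s hs
  filter_upwards [hev] with n hn
  obtain ⟨k, hk⟩ := hn
  intro h
  apply hk
  have e : φ n s = C (∏ t, ((Φ n t).trace ^ 2 - (cA n (q t) + 1) ^ 2)) := by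
    rw [map_prod, map_prod]
    refine Finset.prod_congr rfl fun t _ => ?_
    rw [map_sub, map_pow, map_pow, map_add, map_one, hφi, map_sub, map_pow, map_pow, map_add,
      map_one, ← trace_frM _ t, ← hφΦ n t]
    congr 2
    rw [Matrix.trace_fin_two, Matrix.trace_fin_two, map_add]
    rfl
  rw [e, coeff_C]
  split_ifs
  · exact h
  · exact map_zero _

end Fermat.Agent.TAlg
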