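import Mathlib
import Fermat.Agent.TAlg.LL

/-! # Unipotent types: either unramified or Steinberg. -/

set_option autoImplicit false
set_option linter.unusedSectionVars false

open IsLocalRing

namespace Fermat.Agent.TAlg

section Dom

variable {D : Type} [CommRing D] [IsDomain D]

lemma dich_aux {q : D} (hq : q ≠ 0) (Φ S : M2 D) (h1 : Φ * (S - 1) = q • ((S - 1) * Φ))
    (htr : S.trace = 2) (hdS : S.det = 1) (hdΦ : Φ.det = q) (hb : S 0 1 ≠ 0) :
    ∃ ε : D, (ε = 1 ∨ ε = -1) ∧ (S - 1) * (Φ - ε • (1 : M2 D)) = 0 ∧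
      Φ.trace = ε * (q + 1) := by
  set a : D := S 0 0 - 1 with ha
  set b : D := S 0 1 with hb'
  set c : D := S 1 0 with hc
  set α := Φ 0 0 with hα
  set β := Φ 0 1 with hβ
  set γ := Φ 1 0 with hγ
  set δ := Φ 1 1 with hδ
  have hS11 : S 1 1 = 1 - a := by
    rw [Matrix.trace_fin_two] at htr
    rw [ha]; linear_combination htr
  have eN : S - 1 = !![a, b; c, -a] := by
    ext i j
    fin_cases i <;> fin_cases j
    · simp [ha]
    · simp [hb']
    · simp [hc]
    · simp [hS11]
  have eΦ : Φ = !![α, β; γ, δ] := by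
    ext i j
    fin_cases i <;> fin_cases j <;> rfl
  have hN : a ^ 2 + b * c = 0 := by
    rw [Matrix.det_fin_two, hS11] at hdS
    have e : S 0 0 = a + 1 := by rw [ha]; ring
    rw [e] at hdS
    linear_combination -hdS
  have hdet : α * δ - β * γ = q := by
    rw [← hdΦ, Matrix.det_fin_two]
  rw [eN] at h1
  have hm := congrFun (congrFun h1 0) 1
  have hm' := congrFun (congrFun h1 1) 1
  rw [eΦ] at hm hm'
  simp only [Matrix.mul_apply, Fin.sum_univ_two, Matrix.smul_apply, smul_eq_mul,
    Matrix.of_apply, Matrix.cons_val', Matrix.cons_val_zero, Matrix.cons_val_one,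
    Matrix.cons_val_fin_one] at hm hm'
  -- hm : α * b + β * (-a) = q * (a * β + b * δ)
  -- hm' : γ * b + δ * (-a) = q * (c * β + (-a) * δ)
  set m : D := a * β + b * δ with hmdef
  have h2 : q * ((m - b) * (m + b)) = 0 := by
    have e : b ^ 2 * q = q * m ^ 2 := by
      rw [hmdef]
      linear_combination (-b ^ 2) * hdet + (b * δ) * hm - (b * β) * hm' - q * β ^ 2 * hN
    linear_combination -e
  have h3 : (m - b) * (m + b) = 0 := by
    rcases mul_eq_zero.1 h2 with h | h
    · exact absurd h hq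
    · exact h
  obtain ⟨ε, hε, hmε⟩ : ∃ ε : D, (ε = 1 ∨ ε = -1) ∧ m = ε * b := by
    rcases mul_eq_zero.1 h3 with h | h
    · exact ⟨1, Or.inl rfl, by linear_combination h⟩
    · exact ⟨-1, Or.inr rfl, by linear_combination h⟩
  refine ⟨ε, hε, ?_, ?_⟩
  · have e01 : a * β + b * (δ - ε) = 0 := by
      rw [hmdef] at hmε; linear_combination hmε
    have e11 : c * β + (-a) * (δ - ε) = 0 := by
      have : b * (c * β + (-a) * (δ - ε)) = 0 := by
        linear_combination β * hN - a * e01
      rcases mul_eq_zero.1 this with h | h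
      · exact absurd h hb
      · exact h
    have e00 : a * (α - ε) + b * γ = 0 := by
      have : b * (a * (α - ε) + b * γ) = 0 := by
        linear_combination a * hm + b * hm' + q * β * hN + a * e01
      rcases mul_eq_zero.1 this with h | h
      · exact absurd h hb
      · exact h
    have e10 : c * (α - ε) + (-a) * γ = 0 := by
      have : b * (c * (α - ε) + (-a) * γ) = 0 := by
        linear_combination (α - ε) * hN - a * e00
      rcases mul_eq_zero.1 this with h | h
      · exact absurd h hb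
      · exact h
    rw [eN, eΦ]
    ext i j
    fin_cases i <;> fin_cases j
    · simp [Matrix.mul_apply]; linear_combination e00
    · simp [Matrix.mul_apply]; linear_combination e01
    · simp [Matrix.mul_apply]; linear_combination e10
    · simp [Matrix.mul_apply]; linear_combination e11
  · have : b * (Φ.trace - ε * (q + 1)) = 0 := by
      rw [Matrix.trace_fin_two]
      change b * (α + δ - ε * (q + 1)) = 0
      linear_combination hm + (q + 1) * hmε
    rcases mul_eq_zero.1 this with h | h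
    · exact absurd h hb
    · exact sub_eq_zero.1 h

/-- DICHOTOMY over a domain -/
lemma dich_domain {q : D} (hq : q ≠ 0) (Φ S : M2 D) (h1 : Φ * (S - 1) = q • ((S - 1) * Φ))
    (htr : S.trace = 2) (hdS : S.det = 1) (hdΦ : Φ.det = q) (hS : S ≠ 1) :
    ∃ ε : D, (ε = 1 ∨ ε = -1) ∧ (S - 1) * (Φ - ε • (1 : M2 D)) = 0 ∧
      Φ.trace = ε * (q + 1) := by
  by_cases hb : S 0 1 = 0
  · have hc : S 1 0 ≠ 0 := by
      intro hc
      apply hS
      rw [Matrix.trace_fin_two] at htr
      rw [Matrix.det_fin_two, hb, zero_mul, sub_zero] at hdS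
      have h2 : (S 0 0 - 1) ^ 2 = 0 := by
        have e : S 1 1 = 2 - S 0 0 := by linear_combination htr
        rw [e] at hdS
        linear_combination -hdS
      have h3 : S 0 0 = 1 := sub_eq_zero.1 (pow_eq_zero_iff two_ne_zero |>.1 h2)
      have h4 : S 1 1 = 1 := by rw [h3] at htr; linear_combination htr
      ext i j
      fin_cases i <;> fin_cases j
      · simpa using h3
      · simpa using hb
      · simpa using hc
      · simpa using h4
    let g : M2 D := !![0, 1; 1, 0]
    have hg : g * g = 1 := by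
      ext i j
      fin_cases i <;> fin_cases j <;> simp [g]
    have e1 : ∀ A B : M2 D, (g * A * g) * (g * B * g) = g * (A * B) * g := by
      intro A B
      calc (g * A * g) * (g * B * g) = g * A * (g * g) * B * g := by simp only [mul_assoc]
        _ = _ := by rw [hg, mul_one]; simp only [mul_assoc]
    have e2 : g * S * g - 1 = g * (S - 1) * g := by
      rw [mul_sub, sub_mul, mul_one, hg]
    obtain ⟨ε, hε, h3, h4⟩ := dich_aux hq (g * Φ * g) (g * S * g)
      (by rw [e2, e1, e1, h1, mul_smul_comm, smul_mul_assoc])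
      (by rw [trace_conj hg, htr]) (by rw [det_conj' hg, hdS]) (by rw [det_conj' hg, hdΦ])
      (by
        have : (g * S * g) 0 1 = S 1 0 := by
          simp only [g, Matrix.mul_apply, Fin.sum_univ_two, Matrix.of_apply, Matrix.cons_val',
            Matrix.cons_val_zero, Matrix.cons_val_one, Matrix.cons_val_fin_one]
          ring
        rw [this]; exact hc)
    refine ⟨ε, hε, ?_, ?_⟩
    · have e3 : g * Φ * g - ε • (1 : M2 D) = g * (Φ - ε • (1 : M2 D)) * g := by
        rw [mul_sub, sub_mul, mul_smul_comm, mul_one, smul_mul_assoc, hg]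
      rw [e2, e3, e1] at h3
      calc (S - 1) * (Φ - ε • (1 : M2 D)) = (g * g) * ((S - 1) * (Φ - ε • (1 : M2 D))) * (g * g) := by
            rw [hg, one_mul, mul_one]
        _ = g * (g * ((S - 1) * (Φ - ε • (1 : M2 D))) * g) * g := by simp only [mul_assoc]
        _ = 0 := by rw [h3, mul_zero, zero_mul]
    · rwa [trace_conj hg] at h4
  · exact dich_aux hq Φ S h1 htr hdS hdΦ hb

end Dom

section Prime

variable {R : Type} [CommRing R]

lemma span_singleton_eq_bot_of_zero {x : R} (h : x = 0) : Ideal.span {x} = (⊥ : Ideal R) := by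
  rw [h, Ideal.span_singleton_eq_bot]

/-- DICHOTOMY -/
theorem dichotomy (P : Ideal R) [P.IsPrime] {q : R} (hq : q ∉ P) (Φ S : M2 R)
    (h1 : J1 q Φ S ≤ P) (hdS : S.det = 1) (hdΦ : Φ.det = q) :
    Junr S ≤ P ∨ Jst 1 q Φ S ≤ P ∨ Jst (-1) q Φ S ≤ P := by
  let D := R ⧸ P
  let f : R →+* D := Ideal.Quotient.mk P
  have hle : ∀ I : Ideal R, I ≤ P ↔ I.map f = ⊥ := by
    intro I
    rw [Ideal.map_eq_bot_iff_le_ker, Ideal.mk_ker]
  rw [hle] at h1
  simp only [hle, map_Junr, map_Jst]
  rw [map_J1] at h1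
  set Φ' : M2 D := Φ.map f with hΦ'
  set S' : M2 D := S.map f with hS'
  have hdS' : S'.det = 1 := by
    have := RingHom.map_det f S
    rw [hdS, map_one] at this
    exact this.symm
  have hdΦ' : Φ'.det = f q := by
    have := RingHom.map_det f Φ
    rw [hdΦ] at this
    exact this.symm
  have hq' : f q ≠ 0 := by
    rwa [Ne, Ideal.Quotient.eq_zero_iff_mem]
  rw [J1, sup_eq_bot_iff, ent_eq_bot_iff, Ideal.span_singleton_eq_bot, sub_eq_zero,
    sub_eq_zero] at h1
  obtain ⟨h2, h3⟩ := h1
  by_cases hS1 : S' = 1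
  · left
    rw [Junr, ent_eq_bot_iff, hS1, sub_self]
  · right
    obtain ⟨ε, hε, h4, h5⟩ := dich_domain hq' Φ' S' h2 h3 hdS' hdΦ' hS1
    have key : Jst ε (f q) Φ' S' = ⊥ := by
      rw [Jst]
      have h6 : (Φ' - (ε * f q) • (1 : M2 D)) * (S' - 1) = 0 := by
        have e : (Φ' - (ε * f q) • (1 : M2 D)) * (S' - 1) =
            Φ' * (S' - 1) - f q • ((S' - 1) * (ε • (1 : M2 D))) := by
          rw [sub_mul, smul_mul_assoc, one_mul, mul_smul_comm, mul_one, smul_smul, mul_comm ε]
        rw [e, h2, ← smul_sub, ← mul_sub, h4, smul_zero]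
      rw [ent_eq_bot_iff.2 h6, ent_eq_bot_iff.2 h4, bot_sup_eq, bot_sup_eq,
        span_singleton_eq_bot_of_zero (sub_eq_zero.2 h3),
        span_singleton_eq_bot_of_zero (sub_eq_zero.2 h5), bot_sup_eq]
    rcases hε with rfl | rfl
    · left
      rwa [map_one]
    · right
      rwa [map_neg, map_one]

lemma J1_le_Jst {q ε : R} (Φ S : M2 R) : J1 q Φ S ≤ Jst ε q Φ S := by
  refine sup_le ?_ ?_
  · have e : Φ * (S - 1) - q • ((S - 1) * Φ) = (Φ - (ε * q) • (1 : M2 R)) * (S - 1) +
        (-q) • ((S - 1) * (Φ - ε • (1 : M2 R))) := by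
      generalize S - 1 = N
      have e1 : (Φ - (ε * q) • (1 : M2 R)) * N = Φ * N - (ε * q) • N := by
        rw [sub_mul, smul_mul_assoc, one_mul]
      have e2 : N * (Φ - ε • (1 : M2 R)) = N * Φ - ε • N := by
        rw [mul_sub, mul_smul_comm, mul_one]
      rw [e1, e2, neg_smul, smul_sub, smul_smul, mul_comm ε]
      abel
    rw [e]
    refine (ent_add_le _ _).trans (sup_le ?_ ?_)
    · exact le_sup_of_le_left (le_sup_of_le_left le_sup_left)
    · exact (ent_smul_le _ _).trans (le_sup_of_le_left (le_sup_of_le_left le_sup_right))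
  · exact le_sup_of_le_left le_sup_right

lemma trace_mem_Jst {q ε : R} (Φ S : M2 R) : Φ.trace - ε * (q + 1) ∈ Jst ε q Φ S :=
  Ideal.mem_sup_right (Ideal.subset_span rfl)

lemma trace_mem_Jrz {q ε : R} (Φ S : M2 R) : Φ.trace - ε * (q + 1) ∈ Jrz ε q Φ S :=
  Ideal.mem_sup_right (Ideal.subset_span rfl)

lemma Junr_le_Jrz {q ε : R} (Φ S : M2 R) : Junr S ≤ Jrz ε q Φ S := le_sup_left

end Prime

end Fermat.Agent.TAlg
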