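import Mathlib
import Fermat.Agent.TAlg.CaseU

/-! # The Steinberg component in the scalar case. -/

set_option autoImplicit false
set_option linter.unusedSectionVars false

open IsLocalRing MvPowerSeries

namespace Fermat.Agent.TAlg

section QuadDiv

variable {B : Type} [CommRing B]

lemma quad_eq : quad B = monomial (Finsupp.single 0 2) 1 +
    monomial (Finsupp.single 1 1 + Finsupp.single 2 1) 1 := by
  rw [quad, X_pow_eq, X_def, X_def, monomial_mul_monomial, one_mul]

/-- the quadratic form is not a zero divisor, graded version -/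
lemma coeff_eq_zero_of_quad_mul (n : ℕ) (g : MvPowerSeries (Fin 3) B)
    (hg : ∀ γ : Fin 3 →₀ ℕ, γ.degree < n + 2 → coeff γ (quad B * g) = 0) :
    ∀ γ : Fin 3 →₀ ℕ, γ.degree < n → coeff γ g = 0 := by
  classical
  intro γ
  induction hd : γ 1 using Nat.strong_induction_on generalizing γ with
  | _ d ih =>
    intro hlt
    have h1 := hg (γ + Finsupp.single 0 2) (by
      rw [map_add, Finsupp.degree_single]; omega)
    rw [quad_eq, add_mul, map_add, coeff_monomial_mul, coeff_monomial_mul,
      if_pos le_add_self, one_mul, add_tsub_cancel_right] at h1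
    split_ifs at h1 with h2
    · have h5 : 1 ≤ γ 1 := by
        have h3 := h2 1
        simpa using h3
      have h6 : coeff (γ + Finsupp.single 0 2 - (Finsupp.single 1 1 + Finsupp.single 2 1)) g = 0 := by
        refine ih (d - 1) (by omega) _ ?_ ?_
        · simp
          omega
        · have h3 : γ + Finsupp.single 0 2 - (Finsupp.single 1 1 + Finsupp.single 2 1) +
              (Finsupp.single 1 1 + Finsupp.single 2 1) = γ + Finsupp.single 0 2 :=
            tsub_add_cancel_of_le h2
          have h4 := congrArg Finsupp.degree h3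
          simp only [map_add, Finsupp.degree_single] at h4
          omega
      rw [one_mul, h6, add_zero] at h1
      exact h1
    · rwa [add_zero] at h1

end QuadDiv

section NoDomain

variable {σ A : Type} [Finite σ] [CommRing A]

lemma coeff_coeff_Psi_eq_zero' (F : PP σ A) (k : Unit →₀ ℕ) (γ : σ →₀ ℕ) (hγ : γ.degree < k ()) :
    coeff γ (coeff k (Psi F)) = 0 := by
  classical
  rw [coeff_coeff_Psi]
  refine Finset.sum_eq_zero (fun α hα => ?_)
  rw [Finset.mem_filter, mem_fib] at hα
  have := Finsupp.degree_mono hα.2
  omega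

/-- the image of `Psi` is the Rees algebra -/
lemma exists_Psi_eq' (G : MvPowerSeries Unit (DD σ A))
    (hG : ∀ (k : Unit →₀ ℕ) (γ : σ →₀ ℕ), γ.degree < k () → coeff γ (coeff k G) = 0) :
    ∃ F, Psi F = G := by
  classical
  have hch : ∀ (γ : σ →₀ ℕ) (n : ℕ), ∃ α : σ →₀ ℕ, n ≤ γ.degree → (α ≤ γ ∧ α.degree = n) := by
    intro γ n
    by_cases hn : n ≤ γ.degree
    · obtain ⟨α, h1, h2⟩ := Finsupp.exists_le_degree_eq γ n hn
      exact ⟨α, fun _ => ⟨h1, h2⟩⟩
    · exact ⟨0, fun h => absurd h hn⟩
  choose a ha using hch
  let F : PP σ A := mkPS (fun α => mkPS (fun β =>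
    if a (α + β) α.degree = α then coeff (α + β) (coeff (Finsupp.single () α.degree) G) else 0))
  refine ⟨F, ?_⟩
  apply MvPowerSeries.ext
  intro k
  ext γ
  have hk : Finsupp.single () (k ()) = k := by
    ext
    simp
  rcases lt_or_ge γ.degree (k ()) with h1 | h1
  · rw [coeff_coeff_Psi_eq_zero' F k γ h1, hG k γ h1]
  · rw [coeff_coeff_Psi, Finset.sum_eq_single (a γ (k ()))]
    · have h2 := ha γ (k ()) h1
      change coeff (γ - a γ (k ())) (coeff (a γ (k ())) F) = _
      rw [coeff_mkPS, coeff_mkPS, add_tsub_cancel_of_le h2.1, h2.2, if_pos rfl, hk]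
    · intro α hα hne
      rw [Finset.mem_filter, mem_fib] at hα
      rw [coeff_mkPS, coeff_mkPS, add_tsub_cancel_of_le hα.2, if_neg]
      rw [hα.1]
      exact hne.symm
    · intro h2
      exfalso
      apply h2
      rw [Finset.mem_filter, mem_fib]
      exact ⟨(ha γ (k ()) h1).2, (ha γ (k ()) h1).1⟩


end NoDomain

section CPsi

variable {B : Type} [CommRing B]

/-- `2 u₀ v₀ + u₁ v₂ + u₂ v₁` -/
noncomputable def polar (B : Type) [CommRing B] : PP (Fin 3) B :=
  2 * X 0 * C (X 0) + X 1 * C (X 2) + X 2 * C (X 1)

/-- the outer quadratic form -/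
noncomputable def quadO (B : Type) [CommRing B] : PP (Fin 3) B := X 0 ^ 2 + X 1 * X 2

/-- the ideal of the Steinberg component for `σ = 0`. -/
noncomputable def J0 (B : Type) [CommRing B] : Ideal (PP (Fin 3) B) :=
  KI (Fin 3) B ⊔ Ideal.span {C (quad B), polar B, quadO B}

lemma Psi_polar : Psi (polar B) = 2 * (C (quad B) * X ()) := by
  rw [polar, map_add, map_add, map_mul, map_mul, map_mul, map_mul, Psi_C, Psi_C, Psi_C, Psi_X,
    Psi_X, Psi_X, map_ofNat, quad, map_add, map_pow, map_mul]
  ring

lemma Psi_quadO : Psi (quadO B) = C (quad B) * X () ^ 2 := by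
  rw [quadO, map_add, map_mul, map_pow, Psi_X, Psi_X, Psi_X, quad, map_add, map_pow, map_mul]
  ring

theorem comap_Psi_quad [IsLocalRing B] [IsNoetherianRing B] {h : B} (h2 : 2 * h = 1) :
    (Ideal.span {(C (quad B) : MvPowerSeries Unit (DD (Fin 3) B))}).comap Psi = J0 B := by
  classical
  apply le_antisymm
  · intro F hF
    obtain ⟨G, hG⟩ := Ideal.mem_span_singleton'.1 (Ideal.mem_comap.1 hF)
    rw [mul_comm] at hG
    -- divisibility of the coefficients of `G`.
    have hG' : ∀ (k : Unit →₀ ℕ) (γ : Fin 3 →₀ ℕ), γ.degree + 2 < k () + 0 →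
        coeff γ (coeff k G) = 0 := by
      intro k γ hγ
      refine coeff_eq_zero_of_quad_mul (k () - 2) (coeff k G) ?_ γ (by omega)
      intro δ hδ
      rw [← coeff_C_mul, hG]
      exact coeff_coeff_Psi_eq_zero' F k δ (by omega)
    let s2 : Unit →₀ ℕ := Finsupp.single () 2
    let G2 : MvPowerSeries Unit (DD (Fin 3) B) := mkPS (fun k => coeff (k + s2) G)
    obtain ⟨H2, hH2⟩ := exists_Psi_eq' G2 (by
      intro k γ hγ
      rw [coeff_mkPS]
      apply hG'
      simp only [s2, Finsupp.add_apply, Finsupp.single_eq_same]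
      omega)
    let g0 : DD (Fin 3) B := coeff 0 G
    let g1 : DD (Fin 3) B := coeff (Finsupp.single () 1) G
    have hdec : G = C g0 + C g1 * X () + X () ^ 2 * G2 := by
      apply MvPowerSeries.ext
      intro k
      rw [map_add, map_add, coeff_C, coeff_C_mul, X_pow_eq, coeff_monomial_mul, one_mul,
        coeff_X]
      have hk : Finsupp.single () (k ()) = k := by ext; simp
      rcases hk0 : k () with _ | _ | m
      · have e : k = 0 := by rw [← hk, hk0, Finsupp.single_zero]
        rw [e, if_pos rfl, if_neg, if_neg]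
        · simp [g0]
        · intro h3
          have := h3 ()
          simp at this
        · intro h3
          have := DFunLike.congr_fun h3 ()
          simp at this
      · have e : k = Finsupp.single () 1 := by rw [← hk, hk0]
        rw [e, if_neg, if_pos rfl, if_neg]
        · simp [g1]
        · intro h3
          have := h3 ()
          simp at this
        · intro h3
          have := DFunLike.congr_fun h3 ()
          simp at this
      · have e1 : Finsupp.single () 2 ≤ k := by
          rw [← hk]
          intro i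
          cases i
          rw [Finsupp.single_eq_same, Finsupp.single_eq_same]
          omega
        rw [if_neg, if_neg, if_pos e1]
        · rw [mul_zero, zero_add, zero_add, coeff_mkPS]
          congr 1
          rw [tsub_add_cancel_of_le e1]
        · intro h3
          rw [h3] at hk0
          simp at hk0
        · intro h3
          rw [h3] at hk0
          simp at hk0
    let F' : PP (Fin 3) B := C g0 * C (quad B) + C (C h) * C g1 * polar B + H2 * quadO B
    have hF' : Psi F' = Psi F := by
      have e : 2 * (C (C h) : MvPowerSeries Unit (DD (Fin 3) B)) = 1 :=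
        two_map (C : DD (Fin 3) B →+* MvPowerSeries Unit (DD (Fin 3) B))
          (two_map (C : B →+* DD (Fin 3) B) h2)
      rw [← hG, hdec]
      simp only [F', map_add, map_mul, Psi_C, Psi_polar, Psi_quadO, hH2]
      linear_combination (C g1 * C (quad B) * X ()) * e
    have h3 : F - F' ∈ KI (Fin 3) B := by
      rw [← ker_Psi, RingHom.mem_ker, map_sub, hF', sub_self]
    have e : F = (F - F') + F' := by ring
    rw [e]
    refine Submodule.add_mem_sup h3 ?_
    have m1 : (C (quad B) : PP (Fin 3) B) ∈
        Ideal.span {(C (quad B) : PP (Fin 3) B), polar B, quadO B} := Ideal.subset_span (by simp)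
    have m2 : polar B ∈
        Ideal.span {(C (quad B) : PP (Fin 3) B), polar B, quadO B} := Ideal.subset_span (by simp)
    have m3 : quadO B ∈
        Ideal.span {(C (quad B) : PP (Fin 3) B), polar B, quadO B} := Ideal.subset_span (by simp)
    exact Ideal.add_mem _ (Ideal.add_mem _ (Ideal.mul_mem_left _ _ m1)
      (Ideal.mul_mem_left _ _ m2)) (Ideal.mul_mem_left _ _ m3)
  · rw [J0, sup_le_iff]
    constructor
    · intro F hF
      rw [Ideal.mem_comap, RingHom.mem_ker.1 (KI_le_ker hF)]
      exact zero_mem _
    · rw [Ideal.span_le]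
      intro z hz
      rw [Set.mem_insert_iff, Set.mem_insert_iff, Set.mem_singleton_iff] at hz
      rcases hz with rfl | rfl | rfl
      · rw [SetLike.mem_coe, Ideal.mem_comap, Psi_C]
        exact Ideal.mem_span_singleton_self _
      · rw [SetLike.mem_coe, Ideal.mem_comap, Psi_polar]
        exact Ideal.mul_mem_left _ _ (Ideal.mul_mem_right _ _ (Ideal.mem_span_singleton_self _))
      · rw [SetLike.mem_coe, Ideal.mem_comap, Psi_quadO]
        exact Ideal.mul_mem_right _ _ (Ideal.mem_span_singleton_self _)

end CPsi

end Fermat.Agent.TAlg
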