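import Mathlib
import Fermat.Agent.TAlg.ScrollA

/-! # The Steinberg component in the scalar case, II: the cone is parametrised. -/

set_option autoImplicit false
set_option linter.unusedSectionVars false

open IsLocalRing

namespace Fermat.Agent.TAlg

open PowerSeries in
lemma exists_lin' {D : Type} [CommRing D] [IsLocalRing D] [IsNoetherianRing D]
    [IsAdicComplete (maximalIdeal D) D] {π : D} (hπ : π ∈ maximalIdeal D)
    (F : PowerSeries D) :
    ∃ a b : D, F - (C a + C b * X) ∈ Ideal.span {(X ^ 2 - C π : PowerSeries D)} := by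
  let s : ℕ → D := fun n => infsum π hπ (fun l => coeff (n + 2 * l) F)
  have hs : ∀ n, s n = coeff n F + π * s (n + 2) := by
    intro n
    change infsum π hπ _ = _ + π * infsum π hπ _
    rw [infsum_succ]
    congr 2
    congr 1
    funext l
    congr 2
    ring
  refine ⟨s 0, s 1, ?_⟩
  rw [Ideal.mem_span_singleton']
  refine ⟨PowerSeries.mk (fun n => s (n + 2)), ?_⟩
  rw [mul_comm, sub_mul]
  ext n
  rw [map_sub, map_sub, map_add, coeff_C_mul, coeff_mk, coeff_C_mul, coeff_X,
    coeff_C, coeff_X_pow_mul']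
  rcases n with _ | _ | n
  · simp [hs 0]
  · simp [hs 1]
  · have := hs (n + 2)
    simp [this]


open MvPowerSeries

section ES

variable {B : Type} [CommRing B]

lemma PsiD_C {σ D : Type} [Finite σ] [CommRing D] (w : σ → D) (d : D) : PsiD w (C d) = C d := by
  classical
  apply MvPowerSeries.ext
  intro k
  rw [coeff_PsiD, coeff_C]
  split_ifs with h
  · rw [h, Finset.sum_eq_single (0 : σ →₀ ℕ)]
    · simp
    · intro α hα hne
      rw [mem_fib] at hα
      exact absurd ((Finsupp.degree_eq_zero_iff _).1 hα) hne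
    · intro h1
      rw [mem_fib] at h1
      simp at h1
  · refine Finset.sum_eq_zero fun α hα => ?_
    rw [mem_fib] at hα
    rw [coeff_C, if_neg, mul_zero]
    rintro rfl
    apply h
    ext
    simpa using hα.symm

lemma PsiD_X {σ D : Type} [Finite σ] [CommRing D] (w : σ → D) (i : σ) :
    PsiD w (X i) = C (w i) * X () := by
  classical
  apply MvPowerSeries.ext
  intro k
  rw [coeff_PsiD, coeff_C_mul, coeff_X]
  split_ifs with h
  · rw [h, Finset.sum_eq_single (Finsupp.single i 1)]
    · simp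
    · intro α _ hne
      rw [coeff_X, if_neg hne, mul_zero]
    · intro h1
      rw [mem_fib] at h1
      simp at h1
  · refine (Finset.sum_eq_zero fun α hα => ?_).trans (mul_zero _).symm
    rw [mem_fib] at hα
    rw [coeff_X, if_neg, mul_zero]
    rintro rfl
    apply h
    ext
    simpa using hα.symm

/-- the weights `(-z, 1, -z²)` -/
noncomputable def wS (B : Type) [CommRing B] : Fin 3 → PowerSeries B :=
  ![-PowerSeries.X, 1, -PowerSeries.X ^ 2]

/-- the parametrisation of the cone `v₀² + v₁ v₂ = 0` -/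
noncomputable def eS (B : Type) [CommRing B] :
    MvPowerSeries (Fin 3) B →+* MvPowerSeries Unit (PowerSeries B) :=
  (PsiD (wS B)).comp (MvPowerSeries.map (PowerSeries.C : B →+* PowerSeries B))

lemma eS_C (b : B) : eS B (C b) = C (PowerSeries.C b) := by
  rw [eS, RingHom.comp_apply, map_C, PsiD_C]

lemma eS_X (i : Fin 3) : eS B (X i) = C (wS B i) * X () := by
  rw [eS, RingHom.comp_apply, map_X, PsiD_X]

lemma eS_quad : eS B (quad B) = 0 := by
  rw [quad, map_add, map_pow, map_mul, eS_X, eS_X, eS_X]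
  have e0 : wS B 0 = -PowerSeries.X := rfl
  have e1 : wS B 1 = 1 := rfl
  have e2 : wS B 2 = -PowerSeries.X ^ 2 := rfl
  rw [e0, e1, e2, map_neg, map_neg, map_one, map_pow]
  ring

lemma prod_wS (α : Fin 3 →₀ ℕ) : (α.prod fun s m => wS B s ^ m) =
    PowerSeries.C ((-1) ^ (α 0 + α 2)) * PowerSeries.X ^ (α 0 + 2 * α 2) := by
  rw [Finsupp.prod_fintype _ _ (fun i => pow_zero _), Fin.prod_univ_three]
  have e0 : wS B 0 = -PowerSeries.X := rfl
  have e1 : wS B 1 = 1 := rfl
  have e2 : wS B 2 = -PowerSeries.X ^ 2 := rfl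
  rw [e0, e1, e2, one_pow, mul_one, neg_pow, neg_pow (PowerSeries.X ^ 2), map_pow, map_neg,
    map_one, pow_add, pow_add, ← pow_mul]
  ring

lemma coeff_coeff_eS (G : MvPowerSeries (Fin 3) B) (k : Unit →₀ ℕ) (m : ℕ) :
    PowerSeries.coeff m (coeff k (eS B G)) =
      ∑ α ∈ fib (Fin 3) (k ()), if m = α 0 + 2 * α 2 then (-1) ^ (α 0 + α 2) * coeff α G else 0 := by
  classical
  rw [eS, RingHom.comp_apply, coeff_PsiD, map_sum]
  refine Finset.sum_congr rfl fun α _ => ?_
  rw [prod_wS, coeff_map, mul_assoc, PowerSeries.coeff_C_mul, mul_comm (PowerSeries.X ^ _),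
    PowerSeries.coeff_C_mul, PowerSeries.coeff_X_pow]
  split_ifs with h
  · rw [mul_one]
  · rw [mul_zero, mul_zero]

/-- injectivity on normal forms -/
lemma eq_zero_of_eS_eq_zero {G : MvPowerSeries (Fin 3) B} (hG : eS B G = 0)
    (hNF : ∀ γ : Fin 3 →₀ ℕ, 2 ≤ γ 0 → coeff γ G = 0) : G = 0 := by
  classical
  apply MvPowerSeries.ext
  intro γ
  rw [map_zero]
  rcases le_or_gt 2 (γ 0) with h | h
  · exact hNF γ h
  have h1 := coeff_coeff_eS G (Finsupp.single () γ.degree) (γ 0 + 2 * γ 2)
  have h0 : PowerSeries.coeff (γ 0 + 2 * γ 2) (coeff (Finsupp.single () γ.degree) (eS B G)) = 0 := by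
    rw [hG]
    exact map_zero _
  rw [h0, Finsupp.single_eq_same, Finset.sum_eq_single γ, if_pos rfl] at h1
  · have h2 := congrArg (fun x => (-1) ^ (γ 0 + γ 2) * x) h1
    simp only [mul_zero, ← mul_assoc, ← pow_add, Even.neg_one_pow ⟨_, rfl⟩, one_mul] at h2
    exact h2.symm
  · intro α hα hne
    split_ifs with h3
    · rcases le_or_gt 2 (α 0) with h4 | h4
      · rw [hNF α h4, mul_zero]
      · exfalso
        apply hne
        rw [mem_fib] at hα
        have h5 : α 0 = γ 0 := by omega
        have h6 : α 2 = γ 2 := by omega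
        have h7 : α 1 = γ 1 := by
          rw [Finsupp.degree_eq_sum, Finsupp.degree_eq_sum, Fin.sum_univ_three,
            Fin.sum_univ_three] at hα
          omega
        ext i
        fin_cases i
        · exact h5
        · exact h7
        · exact h6
    · rfl
  · intro h3
    exact absurd ((mem_fib _ _).2 rfl) h3

variable [IsLocalRing B] [IsNoetherianRing B] [IsAdicComplete (maximalIdeal B) B]

/-- normal forms modulo the quadratic form -/
lemma exists_NF_quad (F : MvPowerSeries (Fin 3) B) : ∃ G : MvPowerSeries (Fin 3) B,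
    F - G ∈ Ideal.span {quad B} ∧ ∀ γ : Fin 3 →₀ ℕ, 2 ≤ γ 0 → coeff γ G = 0 := by
  classical
  let e := finSuccEquiv B 2
  let π : MvPowerSeries (Fin 2) B := -(X 0 * X 1)
  have hπ : π ∈ maximalIdeal (MvPowerSeries (Fin 2) B) :=
    (Ideal.neg_mem_iff _).2 (Ideal.mul_mem_right _ _ (X_mem_maxIdeal _))
  have hq : e (quad B) = PowerSeries.X ^ 2 - PowerSeries.C π := by
    have e0 : e (X 0) = PowerSeries.X := finSuccEquiv_X_zero
    have e1 : e (X 1) = PowerSeries.C (X 0) := finSuccEquiv_X_succ 0
    have e2 : e (X 2) = PowerSeries.C (X 1) := finSuccEquiv_X_succ 1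
    rw [quad, map_add, map_pow, map_mul, e0, e1, e2, map_neg, map_mul]
    ring
  obtain ⟨a, b, hab⟩ := exists_lin' hπ (e F)
  refine ⟨e.symm (PowerSeries.C a + PowerSeries.C b * PowerSeries.X), ?_, ?_⟩
  · obtain ⟨H, hH⟩ := Ideal.mem_span_singleton'.1 hab
    rw [Ideal.mem_span_singleton']
    refine ⟨e.symm H, ?_⟩
    apply e.injective
    rw [map_mul, map_sub, AlgEquiv.apply_symm_apply, AlgEquiv.apply_symm_apply, hq, hH]
  · intro γ hγ
    have h1 := coeff_coeff_finSuccEquiv (R := B) (n := 2)
      (e.symm (PowerSeries.C a + PowerSeries.C b * PowerSeries.X)) (k := γ 0)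
      (x := Finsupp.tail γ)
    rw [Finsupp.cons_tail] at h1
    rw [← h1]
    change coeff (Finsupp.tail γ) (PowerSeries.coeff (γ 0) (e (e.symm _))) = 0
    rw [AlgEquiv.apply_symm_apply, map_add, PowerSeries.coeff_C_mul, PowerSeries.coeff_C,
      PowerSeries.coeff_X, if_neg (by omega), if_neg (by omega), mul_zero, add_zero, map_zero]

/-- the kernel of the parametrisation of the cone -/
theorem ker_eS : RingHom.ker (eS B) = Ideal.span {quad B} := by
  apply le_antisymm
  · intro F hF
    obtain ⟨G, h1, h2⟩ := exists_NF_quad F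
    have h3 : Ideal.span {quad B} ≤ RingHom.ker (eS B) := by
      rw [Ideal.span_singleton_le_iff_mem]
      exact eS_quad
    have h4 : eS B G = 0 := by
      have := RingHom.mem_ker.1 (h3 h1)
      rw [map_sub, RingHom.mem_ker.1 hF, zero_sub, neg_eq_zero] at this
      exact this
    rw [eq_zero_of_eS_eq_zero h4 h2, sub_zero] at h1
    exact h1
  · rw [Ideal.span_singleton_le_iff_mem]
    exact eS_quad

end ES

end Fermat.Agent.TAlg
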