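import Mathlib
import Fermat.Agent.TAlg.ScrollB

/-! # The Steinberg component in the scalar case, III: primality. -/

set_option autoImplicit false
set_option linter.unusedSectionVars false
set_option linter.unusedSimpArgs false

open IsLocalRing MvPowerSeries

namespace Fermat.Agent.TAlg

/-- `B⟦z⟧⟦v⟧` -/
abbrev VV (B : Type) : Type := MvPowerSeries Unit (MvPowerSeries Unit B)
/-- `B⟦z⟧⟦v⟧⟦u⟧` -/
abbrev NN (B : Type) : Type := MvPowerSeries Unit (VV B)

section Chi

variable {B : Type} [CommRing B]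

/-- the structure map -/
noncomputable def iN (B : Type) [CommRing B] : B →+* NN B :=
  (C : VV B →+* NN B).comp ((C : MvPowerSeries Unit B →+* VV B).comp C)

/-- the variable `z` -/
noncomputable def zN (B : Type) [CommRing B] : NN B := C (C (X ()))
/-- the variable `v` -/
noncomputable def vN (B : Type) [CommRing B] : NN B := C (X ())
/-- the variable `u` -/
noncomputable def uN (B : Type) [CommRing B] : NN B := X ()

/-- images of the `u`-variables -/
noncomputable def uS (σ : B) : Fin 3 → NN B :=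
  ![iN B σ - zN B * uN B, uN B, 2 * iN B σ * zN B - zN B ^ 2 * uN B]

/-- parametrisation of the cone, with the present notation -/
noncomputable def eV (B : Type) [CommRing B] : MvPowerSeries (Fin 3) B →+* VV B := eS B

lemma C_eV_C (b : B) : (C (eV B (C b)) : NN B) = iN B b := by
  change C (eS B (C b)) = _
  rw [eS_C]
  rfl

lemma C_eV_X0 : (C (eV B (X 0)) : NN B) = -(zN B * vN B) := by
  change C (eS B (X 0)) = _
  rw [eS_X]
  change C (C (-PowerSeries.X) * X ()) = _
  rw [map_mul, map_neg, map_neg, neg_mul]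
  rfl

lemma C_eV_X1 : (C (eV B (X 1)) : NN B) = vN B := by
  change C (eS B (X 1)) = _
  rw [eS_X]
  change C (C 1 * X ()) = _
  rw [map_one, one_mul]
  rfl

lemma C_eV_X2 : (C (eV B (X 2)) : NN B) = -(zN B ^ 2 * vN B) := by
  change C (eS B (X 2)) = _
  rw [eS_X]
  change C (C (-PowerSeries.X ^ 2) * X ()) = _
  rw [map_mul, map_neg, map_neg, neg_mul, map_pow, map_pow]
  rfl

lemma eV_quad : eV B (quad B) = 0 := eS_quad

variable [IsLocalRing B] [IsNoetherianRing B] [IsAdicComplete (maximalIdeal B) B]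

lemma ker_eV : RingHom.ker (eV B) = Ideal.span {quad B} := ker_eS

lemma zN_mem : zN B ∈ maximalIdeal (NN B) := C_mem_maxIdeal (C_mem_maxIdeal (X_mem_maxIdeal _))
lemma vN_mem : vN B ∈ maximalIdeal (NN B) := C_mem_maxIdeal (X_mem_maxIdeal _)
lemma uN_mem : uN B ∈ maximalIdeal (NN B) := X_mem_maxIdeal _
lemma iN_mem {b : B} (hb : b ∈ maximalIdeal B) : iN B b ∈ maximalIdeal (NN B) :=
  C_mem_maxIdeal (C_mem_maxIdeal (C_mem_maxIdeal hb))

lemma uS_mem {σ : B} (hσ : σ ∈ maximalIdeal B) (i : Fin 3) : uS σ i ∈ maximalIdeal (NN B) := by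
  fin_cases i
  · exact Ideal.sub_mem _ (iN_mem hσ) (Ideal.mul_mem_right _ _ zN_mem)
  · exact uN_mem
  · exact Ideal.sub_mem _ (Ideal.mul_mem_left _ _ zN_mem) (Ideal.mul_mem_left _ _ uN_mem)

/-- the chart of the resolution -/
noncomputable def chiS (σ : B) (hσ : σ ∈ maximalIdeal B) : PP (Fin 3) B →+* NN B :=
  lift (maximalIdeal (NN B)) ((C : VV B →+* NN B).comp (eV B)) (uS σ) (uS_mem hσ)

variable {σ : B} (hσ : σ ∈ maximalIdeal B)

lemma chiS_C (a : MvPowerSeries (Fin 3) B) : chiS σ hσ (C a) = C (eV B a) := lift_C _ _ _ _ _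
lemma chiS_CC (b : B) : chiS σ hσ (C (C b)) = iN B b := by rw [chiS_C, C_eV_C]
lemma chiS_X (i : Fin 3) : chiS σ hσ (X i) = uS σ i := lift_X _ _ _ _ _
lemma chiS_X0 : chiS σ hσ (X 0) = iN B σ - zN B * uN B := chiS_X hσ 0
lemma chiS_X1 : chiS σ hσ (X 1) = uN B := chiS_X hσ 1
lemma chiS_X2 : chiS σ hσ (X 2) = 2 * iN B σ * zN B - zN B ^ 2 * uN B := chiS_X hσ 2

/-- the ideal of the Steinberg component -/
noncomputable def JS {B : Type} [CommRing B] (σ : B) : Ideal (PP (Fin 3) B) :=
  Ideal.span {C (quad B), quadO B - C (C (σ ^ 2)),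
    (X 0 - C (C σ)) * C (X 0) + X 1 * C (X 2), (X 0 - C (C σ)) * C (X 1) - X 1 * C (X 0),
    X 2 * C (X 0) - (X 0 + C (C σ)) * C (X 2), X 2 * C (X 1) + (X 0 + C (C σ)) * C (X 0)}

lemma JS_le_ker : JS σ ≤ RingHom.ker (chiS σ hσ) := by
  rw [JS, Ideal.span_le]
  intro z hz
  simp only [Set.mem_insert_iff, Set.mem_singleton_iff] at hz
  rw [SetLike.mem_coe, RingHom.mem_ker]
  rcases hz with rfl | rfl | rfl | rfl | rfl | rfl
  · rw [chiS_C, eV_quad, map_zero]
  · rw [quadO, map_sub, map_add, map_mul, map_pow, chiS_CC, chiS_X0, chiS_X1, chiS_X2, map_pow]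
    ring
  · simp only [map_add, map_sub, map_mul, C_eV_C, chiS_X0, chiS_X1, chiS_X2, chiS_C, C_eV_X0,
      C_eV_X1, C_eV_X2]
    ring
  · simp only [map_add, map_sub, map_mul, C_eV_C, chiS_X0, chiS_X1, chiS_X2, chiS_C, C_eV_X0,
      C_eV_X1, C_eV_X2]
    ring
  · simp only [map_add, map_sub, map_mul, C_eV_C, chiS_X0, chiS_X1, chiS_X2, chiS_C, C_eV_X0,
      C_eV_X1, C_eV_X2]
    ring
  · simp only [map_add, map_sub, map_mul, C_eV_C, chiS_X0, chiS_X1, chiS_X2, chiS_C, C_eV_X0,
      C_eV_X1, C_eV_X2]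
    ring

omit [IsLocalRing B] [IsNoetherianRing B] [IsAdicComplete (maximalIdeal B) B] in
lemma J0_le_JS : J0 B ≤ JS (0 : B) := by
  have m1 : (C (quad B) : PP (Fin 3) B) ∈ JS (0 : B) := Ideal.subset_span (by simp)
  have m2 : quadO B ∈ JS (0 : B) := Ideal.subset_span (by simp)
  have m3 : X 0 * C (X 0) + X 1 * C (X 2) ∈ JS (0 : B) := Ideal.subset_span (by simp)
  have m4 : X 0 * C (X 1) - X 1 * C (X 0) ∈ JS (0 : B) := Ideal.subset_span (by simp)
  have m5 : X 2 * C (X 0) - X 0 * C (X 2) ∈ JS (0 : B) := Ideal.subset_span (by simp)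
  have m6 : X 2 * C (X 1) + X 0 * C (X 0) ∈ JS (0 : B) := Ideal.subset_span (by simp)
  refine sup_le ?_ ?_
  · rw [KI_eq, Ideal.span_le]
    intro z hz
    rw [Set.mem_insert_iff, Set.mem_insert_iff, Set.mem_singleton_iff] at hz
    rcases hz with rfl | rfl | rfl
    · exact m4
    · have := (JS (0 : B)).neg_mem m5
      rwa [neg_sub] at this
    · have := Ideal.sub_mem _ m3 m6
      rw [SetLike.mem_coe]
      convert this using 1
      ring
  · rw [Ideal.span_le]
    intro z hz
    rw [Set.mem_insert_iff, Set.mem_insert_iff, Set.mem_singleton_iff] at hz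
    rcases hz with rfl | rfl | rfl
    · exact m1
    · have := Ideal.add_mem _ m3 m6
      rw [SetLike.mem_coe, polar]
      convert this using 1
      ring
    · exact m2

/-- the kernel for `σ = 0` -/
theorem ker_chiS_zero {h : B} (h2 : 2 * h = 1) (h0 : (0 : B) ∈ maximalIdeal B) :
    RingHom.ker (chiS 0 h0) = JS (0 : B) := by
  apply le_antisymm _ (JS_le_ker h0)
  refine le_trans ?_ J0_le_JS
  have hb : ∀ i : Unit, vN B * uN B ∈ maximalIdeal (NN B) := fun _ => Ideal.mul_mem_left _ _ uN_mem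
  let g : NN B →+* NN B := lift (maximalIdeal (NN B)) (C : VV B →+* NN B) (fun _ => vN B * uN B) hb
  have hgC : ∀ a, g (C a) = C a := fun a => lift_C _ _ _ _ _
  have hgz : g (zN B) = zN B := hgC _
  have hgi : ∀ b, g (iN B b) = iN B b := fun b => hgC _
  have hgu : g (uN B) = vN B * uN B := lift_X _ _ _ _ _
  have key : g.comp (chiS 0 h0) = (MvPowerSeries.map (σ := Unit) (eV B)).comp Psi := by
    apply hom_ext (maximalIdeal (NN B))
    · intro a
      rw [RingHom.comp_apply, RingHom.comp_apply, chiS_C, hgC, Psi_C, map_C]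
    · intro i
      rw [RingHom.comp_apply, RingHom.comp_apply, Psi_X, map_mul, map_C, map_X]
      fin_cases i
      · change g (chiS 0 h0 (X 0)) = C (eV B (X 0)) * uN B
        rw [chiS_X0, C_eV_X0, map_sub, map_mul, hgi, hgz, hgu, map_zero]
        ring
      · change g (chiS 0 h0 (X 1)) = C (eV B (X 1)) * uN B
        rw [chiS_X1, C_eV_X1, hgu]
      · change g (chiS 0 h0 (X 2)) = C (eV B (X 2)) * uN B
        rw [chiS_X2, C_eV_X2, map_sub, map_mul, map_mul, map_mul, map_pow, hgi, hgz, hgu, map_zero]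
        ring
    · intro i
      rw [RingHom.comp_apply, chiS_X]
      have hloc : IsLocalHom g := isLocalHom_lift _ _ _
      exact map_mem_maxIdeal g (uS_mem h0 i)
  intro F hF
  have h3 : ((MvPowerSeries.map (σ := Unit) (eV B)).comp Psi) F = 0 := by
    rw [← key, RingHom.comp_apply, RingHom.mem_ker.1 hF, map_zero]
  rw [RingHom.comp_apply] at h3
  have h4 : Psi F ∈ RingHom.ker (MvPowerSeries.map (σ := Unit) (eV B)) := h3
  rw [ker_psmap, ker_eV, Ideal.map_span, Set.image_singleton, ← Ideal.mem_comap,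
    comap_Psi_quad h2] at h4
  exact h4

theorem ker_chiS_zero' {h τ : B} (h2 : 2 * h = 1) (hτ : τ ∈ maximalIdeal B) (h0 : τ = 0) :
    RingHom.ker (chiS τ hτ) = JS τ := by
  subst h0
  exact ker_chiS_zero h2 hτ

/-- base change of `JS` -/
lemma map_JS {A B : Type} [CommRing A] [CommRing B] (φ : A →+* B) (σ : A) :
    (JS σ).map (MvPowerSeries.map (σ := Fin 3) (MvPowerSeries.map (σ := Fin 3) φ)) =
      JS (φ σ) := by
  rw [JS, JS, Ideal.map_span]
  congr 1
  simp only [Set.image_insert_eq, Set.image_singleton, quadO, quad, map_sub, map_add, map_mul,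
    map_pow, map_C, map_X]

/-- base change of `NN` -/
noncomputable def mapN {A B : Type} [CommRing A] [CommRing B] (φ : A →+* B) : NN A →+* NN B :=
  MvPowerSeries.map (σ := Unit) (MvPowerSeries.map (σ := Unit) (MvPowerSeries.map (σ := Unit) φ))

section mapN

variable {A : Type} [CommRing A] (φ : A →+* B)

omit [IsLocalRing B] [IsNoetherianRing B] [IsAdicComplete (maximalIdeal B) B]

lemma mapN_i (a : A) : mapN φ (iN A a) = iN B (φ a) := by
  change MvPowerSeries.map _ (C (C (C a))) = C (C (C (φ a)))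
  rw [map_C, map_C, map_C]
lemma mapN_z : mapN φ (zN A) = zN B := by
  change MvPowerSeries.map _ (C (C (X ()))) = C (C (X ()))
  rw [map_C, map_C, map_X]
lemma mapN_v : mapN φ (vN A) = vN B := by
  change MvPowerSeries.map _ (C (X ())) = C (X ())
  rw [map_C, map_X]
lemma mapN_u : mapN φ (uN A) = uN B := by
  change MvPowerSeries.map _ (X ()) = X ()
  rw [map_X]

end mapN

/-- compatibility of the charts with base change -/
lemma mapN_chiS {A : Type} [CommRing A] [IsLocalRing A] [IsNoetherianRing A]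
    [IsAdicComplete (maximalIdeal A) A] (φ : A →+* B) [IsLocalHom φ] (τ : A)
    (hτ : τ ∈ maximalIdeal A) (hσ' : φ τ ∈ maximalIdeal B) :
    (mapN φ).comp (chiS τ hτ) = (chiS (φ τ) hσ').comp
      (MvPowerSeries.map (σ := Fin 3) (MvPowerSeries.map (σ := Fin 3) φ)) := by
  have hN : ∀ x ∈ maximalIdeal (NN A), mapN φ x ∈ maximalIdeal (NN B) := by
    intro x hx
    rw [mem_maxIdeal_iff, mem_maxIdeal_iff, mem_maxIdeal_iff] at hx ⊢
    rw [mapN, constantCoeff_map, constantCoeff_map, constantCoeff_map]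
    exact map_mem_maxIdeal φ hx
  have h1 : ((mapN φ).comp ((C : VV A →+* NN A).comp (eV A))) =
      ((C : VV B →+* NN B).comp (eV B)).comp (MvPowerSeries.map (σ := Fin 3) φ) := by
    apply hom_ext (maximalIdeal (NN B))
    · intro a
      simp only [RingHom.comp_apply, map_C]
      rw [C_eV_C, C_eV_C, mapN_i]
    · intro i
      simp only [RingHom.comp_apply, map_X]
      fin_cases i
      · change mapN φ (C (eV A (X 0))) = C (eV B (X 0))
        rw [C_eV_X0, C_eV_X0, map_neg, map_mul, mapN_z, mapN_v]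
      · change mapN φ (C (eV A (X 1))) = C (eV B (X 1))
        rw [C_eV_X1, C_eV_X1, mapN_v]
      · change mapN φ (C (eV A (X 2))) = C (eV B (X 2))
        rw [C_eV_X2, C_eV_X2, map_neg, map_mul, map_pow, mapN_z, mapN_v]
    · intro i
      rw [RingHom.comp_apply]
      apply hN
      rw [RingHom.comp_apply]
      fin_cases i
      · change (C (eV A (X 0)) : NN A) ∈ _
        rw [C_eV_X0]
        exact (Ideal.neg_mem_iff _).2 (Ideal.mul_mem_right _ _ zN_mem)
      · change (C (eV A (X 1)) : NN A) ∈ _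
        rw [C_eV_X1]
        exact vN_mem
      · change (C (eV A (X 2)) : NN A) ∈ _
        rw [C_eV_X2]
        exact (Ideal.neg_mem_iff _).2 (Ideal.mul_mem_left _ _ vN_mem)
  apply hom_ext (maximalIdeal (NN B))
  · intro a
    rw [RingHom.comp_apply, RingHom.comp_apply, chiS_C, map_C, chiS_C]
    exact congrArg (fun f => f a) h1
  · intro i
    rw [RingHom.comp_apply, RingHom.comp_apply, map_X]
    fin_cases i
    · change mapN φ (chiS τ hτ (X 0)) = chiS (φ τ) hσ' (X 0)
      rw [chiS_X0, chiS_X0, map_sub, map_mul, mapN_i, mapN_z, mapN_u]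
    · change mapN φ (chiS τ hτ (X 1)) = chiS (φ τ) hσ' (X 1)
      rw [chiS_X1, chiS_X1, mapN_u]
    · change mapN φ (chiS τ hτ (X 2)) = chiS (φ τ) hσ' (X 2)
      rw [chiS_X2, chiS_X2, map_sub, map_mul, map_mul, map_mul, map_pow, map_ofNat, mapN_i,
        mapN_z, mapN_u]
  · intro i
    rw [RingHom.comp_apply, chiS_X]
    exact hN _ (uS_mem hτ i)

/-- THE STEINBERG COMPONENT: over a complete local noetherian domain the ideal `JS σ` is the kernel
of the chart. -/
theorem ker_chiS [IsDomain B] {h : B} (h2 : 2 * h = 1) :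
    RingHom.ker (chiS σ hσ) = JS σ := by
  by_cases h0 : σ = 0
  · subst h0
    exact ker_chiS_zero h2 hσ
  apply le_antisymm _ (JS_le_ker hσ)
  -- the reduction modulo `σ`
  let 𝔰 : Ideal B := Ideal.span {σ}
  have h𝔰 : 𝔰 ≠ ⊤ := by
    intro h1
    have h3 : 𝔰 ≤ maximalIdeal B := by
      rw [Ideal.span_singleton_le_iff_mem]; exact hσ
    exact (Ideal.IsMaximal.ne_top (inferInstance : (maximalIdeal B).IsMaximal))
      (top_le_iff.1 (h1 ▸ h3))
  have := isLocalRing_quot 𝔰 h𝔰
  have := isAdicComplete_of_surjective (Ideal.Quotient.mk 𝔰) Ideal.Quotient.mk_surjective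
  let φ : B →+* B ⧸ 𝔰 := Ideal.Quotient.mk 𝔰
  have hφ : Function.Surjective φ := Ideal.Quotient.mk_surjective
  have hloc : IsLocalHom φ := by
    constructor
    intro a ha
    by_contra hna
    exact (mem_maximalIdeal _).1 (loc_of_surjective φ hφ a ((mem_maximalIdeal _).2 hna)) ha
  have hφσ : φ σ = 0 := Ideal.Quotient.eq_zero_iff_mem.2 (Ideal.mem_span_singleton_self σ)
  let red : PP (Fin 3) B →+* PP (Fin 3) (B ⧸ 𝔰) :=
    MvPowerSeries.map (σ := Fin 3) (MvPowerSeries.map (σ := Fin 3) φ)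
  have hred : Function.Surjective red := psmap_surjective _ (psmap_surjective _ hφ)
  have hkred : RingHom.ker red = Ideal.span {iS B σ} := by
    have h1 : RingHom.ker red = (RingHom.ker φ).map (iS B) := ker_mapmap φ
    rw [h1, Ideal.mk_ker, Ideal.map_span, Set.image_singleton]
  have hinj : Function.Injective (iN B) := by
    intro a b hab
    have h1 := congrArg (fun f : NN B => constantCoeff (constantCoeff (constantCoeff f))) hab
    change constantCoeff (constantCoeff (constantCoeff (C (C (C a))))) =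
      constantCoeff (constantCoeff (constantCoeff (C (C (C b))))) at h1
    rwa [constantCoeff_C, constantCoeff_C, constantCoeff_C, constantCoeff_C, constantCoeff_C,
      constantCoeff_C] at h1
  have hσN : iN B σ ≠ 0 := fun h1 => h0 (hinj (by rw [h1, map_zero]))
  set K : Ideal (PP (Fin 3) B) := RingHom.ker (chiS σ hσ) with hK
  have hKfg : K.FG := IsNoetherian.noetherian K
  refine Submodule.le_of_le_smul_of_le_jacobson_bot (I := Ideal.span {iS B σ}) hKfg ?_ ?_
  · refine le_trans ?_ (IsLocalRing.maximalIdeal_le_jacobson _)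
    rw [Ideal.span_singleton_le_iff_mem]
    exact map_mem_maxIdeal (iS B) hσ
  · intro F hF
    have h1 : chiS (φ σ) (by rw [hφσ]; exact zero_mem _) (red F) = 0 := by
      have h3 := congrArg (fun f => f F) (mapN_chiS φ σ hσ (by rw [hφσ]; exact zero_mem _))
      simp only [RingHom.comp_apply] at h3
      rw [← h3, RingHom.mem_ker.1 hF, map_zero]
    have h4 : red F ∈ (JS σ).map red := by
      rw [map_JS, ← ker_chiS_zero' (two_map φ h2) (by rw [hφσ]; exact zero_mem _) hφσ,
        RingHom.mem_ker]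
      exact h1
    have h5 : F ∈ JS σ ⊔ Ideal.span {iS B σ} := by
      rw [← hkred, RingHom.ker_eq_comap_bot, ← Ideal.comap_map_of_surjective _ hred]
      exact h4
    obtain ⟨j, hj, y, hy, rfl⟩ := Submodule.mem_sup.1 h5
    obtain ⟨F', rfl⟩ := Ideal.mem_span_singleton'.1 hy
    refine Submodule.add_mem_sup hj ?_
    have e1 : F' * iS B σ = iS B σ * F' := mul_comm _ _
    rw [smul_eq_mul, e1]
    refine Ideal.mul_mem_mul (Ideal.mem_span_singleton_self _) ?_
    rw [hK, RingHom.mem_ker, map_add, RingHom.mem_ker.1 (JS_le_ker hσ hj), zero_add, map_mul] at hF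
    have h6 : chiS σ hσ (iS B σ) = iN B σ := chiS_CC hσ σ
    rw [h6] at hF
    rw [hK, RingHom.mem_ker]
    exact (mul_eq_zero.1 hF).resolve_right hσN

theorem isPrime_JS [IsDomain B] {h : B} (h2 : 2 * h = 1) (hσ : σ ∈ maximalIdeal B) :
    (JS σ).IsPrime := by
  rw [← ker_chiS hσ h2]
  exact RingHom.ker_isPrime _

lemma comap_JS {σ : B} (hσ : σ ∈ maximalIdeal B) : (JS σ).comap (iS B) = ⊥ := by
  rw [eq_bot_iff]
  intro b hb
  have h1 := JS_le_ker hσ (Ideal.mem_comap.1 hb)
  rw [RingHom.mem_ker] at h1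
  change chiS σ hσ (C (C b)) = 0 at h1
  rw [chiS_CC] at h1
  have h3 := congrArg (fun f : NN B => constantCoeff (constantCoeff (constantCoeff f))) h1
  change constantCoeff (constantCoeff (constantCoeff (C (C (C b))))) = _ at h3
  rw [constantCoeff_C, constantCoeff_C, constantCoeff_C] at h3
  simpa using h3

/-- the inner variable `v₁` is not in `JS σ`. -/
lemma notMem_JS {σ : B} (hσ : σ ∈ maximalIdeal B) : (C (X 1) : PP (Fin 3) B) ∉ JS σ := by
  intro h
  have h1 := JS_le_ker hσ h
  rw [RingHom.mem_ker, chiS_C, C_eV_X1] at h1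
  have h2 := congrArg (fun f : NN B => coeff (Finsupp.single () 1) (constantCoeff f)) h1
  change coeff (Finsupp.single () 1) (constantCoeff (C (X ()))) = _ at h2
  rw [constantCoeff_C, coeff_X, if_pos rfl] at h2
  simp at h2

end Chi

section GoodJS

variable {R : Type} [CommRing R] [IsLocalRing R] [IsNoetherianRing R]
  [IsAdicComplete (maximalIdeal R) R]

lemma vars_zero' {D : Type} [CommRing D] [IsDomain D] (h2 : (2 : D) ≠ 0) {u0 u1 u2 v0 v1 v2 : D}
    (hq : v0 ^ 2 + v1 * v2 = 0) (hq' : u0 ^ 2 + u1 * u2 = 0)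
    (r1 : u0 * v0 + u1 * v2 = 0) (r2 : u0 * v1 - u1 * v0 = 0) (r4 : u2 * v1 + u0 * v0 = 0)
    (e0 : u0 = v2) (e1 : u1 = v0) (e2 : u2 = v1) :
    v0 = 0 ∧ v1 = 0 ∧ v2 = 0 := by
  subst e0 e1 e2
  have a0 : u1 = 0 := by
    have : 2 * u1 ^ 2 = 0 := by linear_combination hq - r2
    rcases mul_eq_zero.1 this with h | h
    · exact absurd h h2
    · exact pow_eq_zero_iff two_ne_zero |>.1 h
  subst a0
  refine ⟨rfl, ?_, ?_⟩
  · have : u2 ^ 2 = 0 := by linear_combination r4
    exact pow_eq_zero_iff two_ne_zero |>.1 this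
  · have : u0 ^ 2 = 0 := by linear_combination hq'
    exact pow_eq_zero_iff two_ne_zero |>.1 this

theorem good_JS {h : R} (h2 : 2 * h = 1) (I : Ideal R) [I.IsPrime] {σ : R}
    (hσ : σ ∈ maximalIdeal R) : Good (iS R) I (JS σ) ∧
      (C (X 1) : PP (Fin 3) R) ∉ I.map (iS R) ⊔ JS σ := by
  classical
  have hI : I ≠ ⊤ := Ideal.IsPrime.ne_top'
  have := isLocalRing_quot I hI
  have := isAdicComplete_of_surjective (Ideal.Quotient.mk I) Ideal.Quotient.mk_surjective
  let φ : R →+* R ⧸ I := Ideal.Quotient.mk I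
  let φ' : PP (Fin 3) R →+* PP (Fin 3) (R ⧸ I) :=
    MvPowerSeries.map (σ := Fin 3) (MvPowerSeries.map (σ := Fin 3) φ)
  have hφ : Function.Surjective φ := Ideal.Quotient.mk_surjective
  have hφ' : Function.Surjective φ' := psmap_surjective _ (psmap_surjective _ hφ)
  have comm : φ'.comp (iS R) = (iS (R ⧸ I)).comp φ := by
    refine RingHom.ext fun a => ?_
    change MvPowerSeries.map (MvPowerSeries.map φ) (C (C a)) = C (C (φ a))
    rw [map_C, map_C]
  have hker : RingHom.ker φ' = (RingHom.ker φ).map (iS R) := ker_mapmap φ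
  have hσB : φ σ ∈ maximalIdeal (R ⧸ I) := by
    rw [← map_maximalIdeal_of_surjective φ hφ]
    exact Ideal.mem_map_of_mem _ hσ
  have hJ : ((JS σ).map φ').IsPrime := by
    rw [map_JS]
    exact isPrime_JS (two_map φ h2) hσB
  have hinj : ((JS σ).map φ').comap (iS (R ⧸ I)) = ⊥ := by
    rw [map_JS]
    exact comap_JS hσB
  have key := prime_of_baseChange (iS R) φ φ' hφ' (iS (R ⧸ I)) comm hker (JS σ) hJ hinj
  have key2 := comap_map_eq' (iS R) φ φ' hφ' hker (JS σ)
  rw [Ideal.mk_ker] at key key2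
  obtain ⟨k1, k2⟩ := key
  have hpar : ∀ P : Ideal (PP (Fin 3) R), P.IsPrime → I.map (iS R) ⊔ JS σ ≤ P → iS R σ ∈ P →
      (∀ x ∈ ({X 0 - C (X 2), X 1 - C (X 0), X 2 - C (X 1)} : Finset (PP (Fin 3) R)), x ∈ P) →
      augPP (Fin 3) R ≤ P := by
    intro P hP h1 h3 h4
    have m1 : X 0 - C (X 2) ∈ P := h4 _ (by simp)
    have m2 : X 1 - C (X 0) ∈ P := h4 _ (by simp)
    have m3 : X 2 - C (X 1) ∈ P := h4 _ (by simp)
    have h5 : JS σ ≤ P := le_sup_right.trans h1
    let π := Ideal.Quotient.mk P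
    have hπσ : π (C (C σ)) = 0 := Ideal.Quotient.eq_zero_iff_mem.2 h3
    have n : ∀ z ∈ JS σ, π z = 0 := fun z hz => Ideal.Quotient.eq_zero_iff_mem.2 (h5 hz)
    have j1 : (C (quad R) : PP (Fin 3) R) ∈ JS σ := Ideal.subset_span (by simp)
    have j2 : quadO R - C (C (σ ^ 2)) ∈ JS σ := Ideal.subset_span (by simp)
    have j3 : (X 0 - C (C σ)) * C (X 0) + X 1 * C (X 2) ∈ JS σ := Ideal.subset_span (by simp)
    have j4 : (X 0 - C (C σ)) * C (X 1) - X 1 * C (X 0) ∈ JS σ := Ideal.subset_span (by simp)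
    have j6 : X 2 * C (X 1) + (X 0 + C (C σ)) * C (X 0) ∈ JS σ := Ideal.subset_span (by simp)
    have n1 := n _ j1
    have n2 := n _ j2
    have n3 := n _ j3
    have n4 := n _ j4
    have n6 := n _ j6
    have hD : (2 : PP (Fin 3) R ⧸ P) ≠ 0 := by
      have h7 : IsUnit (2 : PP (Fin 3) R ⧸ P) := by
        have := (two_unit h2).map (π.comp (iS R))
        rwa [map_ofNat] at this
      exact h7.ne_zero
    have key := vars_zero' (D := PP (Fin 3) R ⧸ P) hD (u0 := π (X 0)) (u1 := π (X 1))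
      (u2 := π (X 2)) (v0 := π (C (X 0))) (v1 := π (C (X 1))) (v2 := π (C (X 2)))
      (by simpa only [quad, map_add, map_mul, map_pow] using n1)
      (by simpa only [quadO, map_sub, map_add, map_mul, map_pow, hπσ, zero_pow two_ne_zero,
            sub_zero] using n2)
      (by simpa only [map_sub, map_add, map_mul, hπσ, sub_zero, add_zero] using n3)
      (by simpa only [map_sub, map_add, map_mul, hπσ, sub_zero, add_zero] using n4)
      (by simpa only [map_sub, map_add, map_mul, hπσ, sub_zero, add_zero] using n6)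
      (Ideal.Quotient.eq.2 m1) (Ideal.Quotient.eq.2 m2) (Ideal.Quotient.eq.2 m3)
    obtain ⟨k0, k1, k2⟩ := key
    have v0 := Ideal.Quotient.eq_zero_iff_mem.1 k0
    have v1 := Ideal.Quotient.eq_zero_iff_mem.1 k1
    have v2 := Ideal.Quotient.eq_zero_iff_mem.1 k2
    refine augPP_le ?_ ?_
    · intro i
      fin_cases i
      · have := Ideal.add_mem _ m1 v2
        rwa [sub_add_cancel] at this
      · have := Ideal.add_mem _ m2 v0
        rwa [sub_add_cancel] at this
      · have := Ideal.add_mem _ m3 v1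
        rwa [sub_add_cancel] at this
    · intro i
      fin_cases i
      · exact v0
      · exact v1
      · exact v2
  have hsm : ∀ z ∈ ({X 0 - C (X 2), X 1 - C (X 0), X 2 - C (X 1)} : Finset (PP (Fin 3) R)),
      z ∈ maximalIdeal (PP (Fin 3) R) := by
    intro z hz
    rw [Finset.mem_insert, Finset.mem_insert, Finset.mem_singleton] at hz
    rcases hz with rfl | rfl | rfl <;>
    exact Ideal.sub_mem _ (X_mem_maxIdeal _) (C_mem_maxIdeal (X_mem_maxIdeal _))
  refine ⟨⟨k1, k2, ?_⟩, ?_⟩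
  · by_cases hσI : σ ∈ I
    · refine dim_bound (iS R) (augPP (Fin 3) R) exists_augPP I _ le_sup_left
        {X 0 - C (X 2), X 1 - C (X 0), X 2 - C (X 1)} hsm ?_ 3 Finset.card_le_three
      intro P hP h1 h4
      exact hpar P hP h1 (h1 (Ideal.mem_sup_left (Ideal.mem_map_of_mem _ hσI))) h4
    · exact dim_bound_chi (iS R) (augPP (Fin 3) R) exists_augPP I σ hσ hσI _ le_sup_left
        {X 0 - C (X 2), X 1 - C (X 0), X 2 - C (X 1)} hsm hpar 3 Finset.card_le_three
  · intro hmem
    rw [← key2, Ideal.mem_comap, map_JS] at hmem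
    change MvPowerSeries.map (MvPowerSeries.map φ) (C (X 1)) ∈ _ at hmem
    rw [map_C, map_X] at hmem
    exact notMem_JS hσB hmem

end GoodJS

end Fermat.Agent.TAlg
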