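import Mathlib
import Fermat.Agent.TAlg.ScrollC

/-! # The Steinberg and raising ideals for generic matrices. -/

set_option autoImplicit false
set_option linter.unusedSectionVars false
set_option linter.unusedSimpArgs false

open IsLocalRing MvPowerSeries

namespace Fermat.Agent.TAlg

section Alg

variable {A : Type} [CommRing A]

/-- the four bilinear relations of the Steinberg component -/
def rels (σ u v w a b c : A) : Set A :=
  {(u - σ) * a + v * c, (u - σ) * b - v * a, w * a - (u + σ) * c, w * b + (u + σ) * a}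

lemma Jst_genM {ε q x u v w y a b c h σ : A} (h2 : 2 * h = 1)
    (hσ : σ = ε * (q - 1) * h) :
    Jst ε q (genM x u v w) (genM y a b c) =
      Ideal.span {y - 1} ⊔ Ideal.span {x - ε * (q + 1) * h} ⊔ Ideal.span (rels σ u v w a b c) := by
  set L : Ideal A := Ideal.span {y - 1} ⊔ Ideal.span {x - ε * (q + 1) * h} ⊔
    Ideal.span (rels σ u v w a b c) with hL
  set x1 : A := ε * (q + 1) * h with hx1
  have l1 : y - 1 ∈ L := Ideal.mem_sup_left (Ideal.mem_sup_left (Ideal.subset_span rfl))
  have l2 : x - x1 ∈ L := Ideal.mem_sup_left (Ideal.mem_sup_right (Ideal.subset_span rfl))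
  have l3 : (u - σ) * a + v * c ∈ L := Ideal.mem_sup_right (Ideal.subset_span (by simp [rels]))
  have l4 : (u - σ) * b - v * a ∈ L := Ideal.mem_sup_right (Ideal.subset_span (by simp [rels]))
  have l5 : w * a - (u + σ) * c ∈ L := Ideal.mem_sup_right (Ideal.subset_span (by simp [rels]))
  have l6 : w * b + (u + σ) * a ∈ L := Ideal.mem_sup_right (Ideal.subset_span (by simp [rels]))
  have e1 : ε * q = x1 + σ := by rw [hx1, hσ]; linear_combination (-(ε * q)) * h2
  have e2 : ε = x1 - σ := by rw [hx1, hσ]; linear_combination (-ε) * h2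
  have eM1 : genM x u v w - (ε * q) • (1 : M2 A) =
      !![(x - x1) + (u - σ), v; w, (x - x1) - (u + σ)] := by
    rw [e1]
    ext i j
    fin_cases i <;> fin_cases j <;> simp [genM] <;> ring
  have eM2 : genM x u v w - ε • (1 : M2 A) =
      !![(x - x1) + (u + σ), v; w, (x - x1) - (u - σ)] := by
    ext i j
    fin_cases i <;> fin_cases j <;> simp [genM] <;> linear_combination (-1) * e2
  have eM3 : genM y a b c - 1 = !![(y - 1) + a, b; c, (y - 1) - a] := by
    ext i j
    fin_cases i <;> fin_cases j <;> simp [genM] <;> ring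
  have eP : (genM x u v w - (ε * q) • (1 : M2 A)) * (genM y a b c - 1) =
      !![((u - σ) * a + v * c) + (x - x1) * ((y - 1) + a) + (y - 1) * (u - σ),
        ((u - σ) * b - v * a) + (x - x1) * b + (y - 1) * v;
        (w * a - (u + σ) * c) + (x - x1) * c + (y - 1) * w,
        (w * b + (u + σ) * a) + (x - x1) * ((y - 1) - a) - (y - 1) * (u + σ)] := by
    rw [eM1, eM3]
    ext i j
    fin_cases i <;> fin_cases j <;> simp [Matrix.mul_apply] <;> ring
  have eQ : (genM y a b c - 1) * (genM x u v w - ε • (1 : M2 A)) =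
      !![(w * b + (u + σ) * a) + (x - x1) * ((y - 1) + a) + (y - 1) * (u + σ),
        - ((u - σ) * b - v * a) + (x - x1) * b + (y - 1) * v;
        - (w * a - (u + σ) * c) + (x - x1) * c + (y - 1) * w,
        ((u - σ) * a + v * c) + (x - x1) * ((y - 1) - a) - (y - 1) * (u - σ)] := by
    rw [eM2, eM3]
    ext i j
    fin_cases i <;> fin_cases j <;> simp [Matrix.mul_apply] <;> ring
  have eT : (genM y a b c).trace - 2 = 2 * (y - 1) := by rw [trace_genM]; ring
  have eF : (genM x u v w).trace - ε * (q + 1) = 2 * (x - x1) := by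
    rw [trace_genM, hx1]; linear_combination (ε * (q + 1)) * h2
  rw [Jst, eP, eQ, eT, eF]
  apply le_antisymm
  · refine sup_le (sup_le (sup_le ?_ ?_) ?_) ?_
    · rw [ent_le_iff]
      intro i j
      fin_cases i <;> fin_cases j
      · exact Ideal.add_mem _ (Ideal.add_mem _ l3 (Ideal.mul_mem_right _ _ l2))
          (Ideal.mul_mem_right _ _ l1)
      · exact Ideal.add_mem _ (Ideal.add_mem _ l4 (Ideal.mul_mem_right _ _ l2))
          (Ideal.mul_mem_right _ _ l1)
      · exact Ideal.add_mem _ (Ideal.add_mem _ l5 (Ideal.mul_mem_right _ _ l2))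
          (Ideal.mul_mem_right _ _ l1)
      · exact Ideal.sub_mem _ (Ideal.add_mem _ l6 (Ideal.mul_mem_right _ _ l2))
          (Ideal.mul_mem_right _ _ l1)
    · rw [ent_le_iff]
      intro i j
      fin_cases i <;> fin_cases j
      · exact Ideal.add_mem _ (Ideal.add_mem _ l6 (Ideal.mul_mem_right _ _ l2))
          (Ideal.mul_mem_right _ _ l1)
      · exact Ideal.add_mem _ (Ideal.add_mem _ (L.neg_mem l4) (Ideal.mul_mem_right _ _ l2))
          (Ideal.mul_mem_right _ _ l1)
      · exact Ideal.add_mem _ (Ideal.add_mem _ (L.neg_mem l5) (Ideal.mul_mem_right _ _ l2))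
          (Ideal.mul_mem_right _ _ l1)
      · exact Ideal.sub_mem _ (Ideal.add_mem _ l3 (Ideal.mul_mem_right _ _ l2))
          (Ideal.mul_mem_right _ _ l1)
    · rw [Ideal.span_singleton_le_iff_mem]
      exact Ideal.mul_mem_left _ _ l1
    · rw [Ideal.span_singleton_le_iff_mem]
      exact Ideal.mul_mem_left _ _ l2
  · set P : M2 A := !![((u - σ) * a + v * c) + (x - x1) * ((y - 1) + a) + (y - 1) * (u - σ),
        ((u - σ) * b - v * a) + (x - x1) * b + (y - 1) * v;
        (w * a - (u + σ) * c) + (x - x1) * c + (y - 1) * w,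
        (w * b + (u + σ) * a) + (x - x1) * ((y - 1) - a) - (y - 1) * (u + σ)] with hP
    set K : Ideal A := _ ⊔ _ ⊔ Ideal.span {2 * (y - 1)} ⊔ Ideal.span {2 * (x - x1)} with hK
    have k1 : y - 1 ∈ K := by
      have : y - 1 = h * (2 * (y - 1)) := by linear_combination (-(y - 1)) * h2
      rw [this]
      exact Ideal.mul_mem_left _ _ (Ideal.mem_sup_left (Ideal.mem_sup_right
        (Ideal.subset_span rfl)))
    have k2 : x - x1 ∈ K := by
      have : x - x1 = h * (2 * (x - x1)) := by linear_combination (-(x - x1)) * h2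
      rw [this]
      exact Ideal.mul_mem_left _ _ (Ideal.mem_sup_right (Ideal.subset_span rfl))
    have kP : ent P ≤ K := le_sup_of_le_left (le_sup_of_le_left le_sup_left)
    have kP' := ent_le_iff.1 kP
    refine sup_le (sup_le ?_ ?_) ?_
    · rw [Ideal.span_singleton_le_iff_mem]; exact k1
    · rw [Ideal.span_singleton_le_iff_mem]; exact k2
    · rw [Ideal.span_le]
      intro z hz
      simp only [rels, Set.mem_insert_iff, Set.mem_singleton_iff] at hz
      rw [SetLike.mem_coe]
      rcases hz with rfl | rfl | rfl | rfl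
      · have e : (u - σ) * a + v * c = P 0 0 - (x - x1) * ((y - 1) + a) - (y - 1) * (u - σ) := by
          simp [hP] <;> ring
        rw [e]
        exact Ideal.sub_mem _ (Ideal.sub_mem _ (kP' 0 0) (Ideal.mul_mem_right _ _ k2))
          (Ideal.mul_mem_right _ _ k1)
      · have e : (u - σ) * b - v * a = P 0 1 - (x - x1) * b - (y - 1) * v := by
          simp [hP] <;> ring
        rw [e]
        exact Ideal.sub_mem _ (Ideal.sub_mem _ (kP' 0 1) (Ideal.mul_mem_right _ _ k2))
          (Ideal.mul_mem_right _ _ k1)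
      · have e : w * a - (u + σ) * c = P 1 0 - (x - x1) * c - (y - 1) * w := by
          simp [hP] <;> ring
        rw [e]
        exact Ideal.sub_mem _ (Ideal.sub_mem _ (kP' 1 0) (Ideal.mul_mem_right _ _ k2))
          (Ideal.mul_mem_right _ _ k1)
      · have e : w * b + (u + σ) * a = P 1 1 - (x - x1) * ((y - 1) - a) + (y - 1) * (u + σ) := by
          simp [hP] <;> ring
        rw [e]
        exact Ideal.add_mem _ (Ideal.sub_mem _ (kP' 1 1) (Ideal.mul_mem_right _ _ k2))
          (Ideal.mul_mem_right _ _ k1)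

lemma Jrz_genM {ε q x u v w h : A} (h2 : 2 * h = 1) (T : M2 A) :
    Jrz ε q (genM x u v w) T = Junr T ⊔ Ideal.span {x - ε * (q + 1) * h} := by
  rw [Jrz, Junr]
  congr 1
  have e : (genM x u v w).trace - ε * (q + 1) = (x - ε * (q + 1) * h) * 2 := by
    rw [trace_genM]; linear_combination (ε * (q + 1)) * h2
  rw [e, Ideal.span_singleton_mul_right_unit (two_unit h2)]

end Alg

end Fermat.Agent.TAlg
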