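import Mathlib
import Fermat.Agent.TAlg.GenSt

/-! # (A4), scalar case, Steinberg and raising types. -/

set_option autoImplicit false
set_option linter.unusedSectionVars false
set_option linter.unusedSimpArgs false

open IsLocalRing MvPowerSeries

namespace Fermat.Agent.TAlg

section S2

variable {R : Type} [CommRing R] [IsLocalRing R] [IsNoetherianRing R]
  [IsAdicComplete (maximalIdeal R) R]

lemma span_sub_one_S {h : R} (h2 : 2 * h = 1) (y : MvPowerSeries (Fin 3) R)
    (hy : y ^ 2 = 1 + quad R) (hy' : y - 1 ∈ maximalIdeal (MvPowerSeries (Fin 3) R)) :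
    Ideal.span {(C y - 1 : PP (Fin 3) R)} = Ideal.span {(C (quad R) : PP (Fin 3) R)} := by
  have hu : IsUnit (C y + 1 : PP (Fin 3) R) := by
    refine isUnit_of_sub_mem (y := 2) (two_unit (two_map (iS R) h2)) ?_
    have e : (C y + 1 - 2 : PP (Fin 3) R) = C (y - 1) := by rw [map_sub, map_one]; ring
    rw [e]
    exact C_mem_maxIdeal hy'
  have e : (C (quad R) : PP (Fin 3) R) = (C y - 1) * (C y + 1) := by
    have h3 : quad R = (y - 1) * (y + 1) := by linear_combination -hy
    rw [h3, map_mul, map_sub, map_add, map_one]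
  rw [e, Ideal.span_singleton_mul_right_unit hu]

lemma span_x_S {h q ε ε' : R} (h2 : 2 * h = 1) (hε' : IsUnit ε') (hε : ε ^ 2 = 1)
    (hx1 : ε * (q + 1) * h - ε' ∈ maximalIdeal R)
    (x : PP (Fin 3) R) (hx : x ^ 2 = C (C q) + quad (MvPowerSeries (Fin 3) R))
    (hx' : x - C (C ε') ∈ maximalIdeal (PP (Fin 3) R)) :
    Ideal.span {x - iS R (ε * (q + 1) * h)} =
      Ideal.span {quadO R - C (C ((ε * (q - 1) * h) ^ 2))} := by
  set x1 : R := ε * (q + 1) * h with hx1'
  have hh : 2 * iS R h = 1 := two_map (iS R) h2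
  have hu : IsUnit (x + iS R x1) := by
    refine isUnit_of_sub_mem (y := 2 * iS R ε') ((two_unit hh).mul (hε'.map _)) ?_
    have e : x + iS R x1 - 2 * iS R ε' = (x - iS R ε') + iS R (x1 - ε') := by
      rw [map_sub]; ring
    rw [e]
    exact Ideal.add_mem _ hx' (map_mem_maxIdeal (iS R) hx1)
  have e1 : x1 ^ 2 - q = (ε * (q - 1) * h) ^ 2 := by
    rw [hx1']
    have h4 : 4 * h ^ 2 = 1 := by linear_combination (2 * h + 1) * h2
    linear_combination (q + 1) ^ 2 * h ^ 2 * hε + q * h4 - (q - 1) ^ 2 * h ^ 2 * hε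
  have e : quadO R - C (C ((ε * (q - 1) * h) ^ 2)) = (x - iS R x1) * (x + iS R x1) := by
    rw [← e1]
    have h3 : (x - iS R x1) * (x + iS R x1) = x ^ 2 - iS R (x1 ^ 2) := by rw [map_pow]; ring
    rw [h3, hx, quad, quadO, map_sub, map_sub]
    change _ = _ - C (C (x1 ^ 2))
    ring
  rw [e, Ideal.span_singleton_mul_right_unit hu]

lemma JS_eq_sup (σ : R) : JS σ = Ideal.span {(C (quad R) : PP (Fin 3) R)} ⊔
    (Ideal.span {quadO R - C (C (σ ^ 2))} ⊔
      Ideal.span (rels (C (C σ)) (X 0) (X 1) (X 2) (C (X 0)) (C (X 1)) (C (X 2)))) := by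
  rw [JS, Ideal.span_insert, Ideal.span_insert]
  rfl

lemma Jst_S {h q ε ε' : R} (h2 : 2 * h = 1) (hε' : IsUnit ε') (hε : ε ^ 2 = 1)
    (hx1 : ε * (q + 1) * h - ε' ∈ maximalIdeal R)
    (x : PP (Fin 3) R) (hx : x ^ 2 = C (C q) + quad (MvPowerSeries (Fin 3) R))
    (hx' : x - C (C ε') ∈ maximalIdeal (PP (Fin 3) R))
    (y : MvPowerSeries (Fin 3) R) (hy : y ^ 2 = 1 + quad R)
    (hy' : y - 1 ∈ maximalIdeal (MvPowerSeries (Fin 3) R)) :
    Jst (iS R ε) (iS R q) (genM x (X 0) (X 1) (X 2)) (genM (C y) (C (X 0)) (C (X 1)) (C (X 2))) =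
      JS (ε * (q - 1) * h) := by
  have hh : 2 * iS R h = 1 := two_map (iS R) h2
  rw [Jst_genM (σ := iS R (ε * (q - 1) * h)) hh (by simp only [map_mul, map_sub, map_one])]
  have e : iS R ε * (iS R q + 1) * iS R h = iS R (ε * (q + 1) * h) := by
    simp only [map_mul, map_add, map_one]
  rw [e, span_x_S h2 hε' hε hx1 x hx hx', span_sub_one_S h2 y hy hy', JS_eq_sup, sup_assoc]
  rfl

/-- the raising ideal in the scalar case -/
noncomputable def idRz (A : Type) [CommRing A] (c : A) : Ideal (PP (Fin 3) A) :=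
  innS A ⊔ Ideal.span {quadO A - C (C c)}

lemma Jrz_S {h q ε ε' : R} (h2 : 2 * h = 1) (hε' : IsUnit ε') (hε : ε ^ 2 = 1)
    (hx1 : ε * (q + 1) * h - ε' ∈ maximalIdeal R)
    (x : PP (Fin 3) R) (hx : x ^ 2 = C (C q) + quad (MvPowerSeries (Fin 3) R))
    (hx' : x - C (C ε') ∈ maximalIdeal (PP (Fin 3) R))
    (y : MvPowerSeries (Fin 3) R) (hy : y ^ 2 = 1 + quad R)
    (hy' : y - 1 ∈ maximalIdeal (MvPowerSeries (Fin 3) R)) :
    Jrz (iS R ε) (iS R q) (genM x (X 0) (X 1) (X 2)) (genM (C y) (C (X 0)) (C (X 1)) (C (X 2))) =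
      idRz R ((ε * (q - 1) * h) ^ 2) := by
  have hh : 2 * iS R h = 1 := two_map (iS R) h2
  have e : iS R ε * (iS R q + 1) * iS R h = iS R (ε * (q + 1) * h) := by
    simp only [map_mul, map_add, map_one]
  rw [Jrz_genM hh, Junr_S h2 y hy hy', e, span_x_S h2 hε' hε hx1 x hx hx', idRz]

lemma map_idRz {A B : Type} [CommRing A] [CommRing B] (φ : A →+* B) (c : A) :
    (idRz A c).map (MvPowerSeries.map (σ := Fin 3) (MvPowerSeries.map (σ := Fin 3) φ)) =
      idRz B (φ c) := by
  rw [idRz, idRz, Ideal.map_sup, map_innS, Ideal.map_span, Set.image_singleton]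
  simp only [map_sub, map_mul, map_C, map_X, quadO, map_add, map_pow]

lemma idRz_eq_comap (A : Type) [CommRing A] [IsNoetherianRing A] (c : A) : idRz A c =
    (Ideal.span {quad A - C c}).comap (MvPowerSeries.map (σ := Fin 3)
      (constantCoeff : MvPowerSeries (Fin 3) A →+* A)) := by
  let ψ : PP (Fin 3) A →+* MvPowerSeries (Fin 3) A := MvPowerSeries.map (σ := Fin 3)
      (constantCoeff : MvPowerSeries (Fin 3) A →+* A)
  have hψ : Function.Surjective ψ := psmap_surjective _ (fun a => ⟨C a, constantCoeff_C _⟩)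
  have h1 : (idRz A c).map ψ = Ideal.span {quad A - C c} := by
    have h3 : (innS A).map ψ = ⊥ := by
      rw [innS_eq_ker, eq_bot_iff, Ideal.map_le_iff_le_comap]
      exact le_of_eq (RingHom.ker_eq_comap_bot _)
    rw [idRz, Ideal.map_sup, h3, bot_sup_eq, Ideal.map_span, Set.image_singleton]
    congr 2
    change MvPowerSeries.map constantCoeff _ = _
    simp only [map_sub, map_mul, map_C, map_X, quadO, quad, map_add, map_pow, constantCoeff_C]
  change _ = (Ideal.span {quad A - C c}).comap ψ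
  rw [← h1, Ideal.comap_map_of_surjective _ hψ, ← RingHom.ker_eq_comap_bot]
  have h4 : RingHom.ker ψ = innS A := innS_eq_ker.symm
  rw [h4, eq_comm, sup_eq_left]
  exact le_sup_left

theorem good_idRz (I : Ideal R) [I.IsPrime] {c : R}
    (hc : c ∈ maximalIdeal R) (hcI : c ∉ I) : Good (iS R) I (idRz R c) := by
  classical
  have hI : I ≠ ⊤ := Ideal.IsPrime.ne_top'
  have := isLocalRing_quot I hI
  have := isAdicComplete_of_surjective (Ideal.Quotient.mk I) Ideal.Quotient.mk_surjective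
  let φ : R →+* R ⧸ I := Ideal.Quotient.mk I
  let φ' : PP (Fin 3) R →+* PP (Fin 3) (R ⧸ I) :=
    MvPowerSeries.map (σ := Fin 3) (MvPowerSeries.map (σ := Fin 3) φ)
  have hφ : Function.Surjective φ := Ideal.Quotient.mk_surjective
  have hφ' : Function.Surjective φ' := psmap_surjective _ (psmap_surjective _ hφ)
  have comm : φ'.comp (iS R) = (iS (R ⧸ I)).comp φ := by
    refine RingHom.ext fun a => ?_
    change MvPowerSeries.map (MvPowerSeries.map φ) (C (C a)) = C (C (φ a))
    rw [map_C, map_C]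
  have hker : RingHom.ker φ' = (RingHom.ker φ).map (iS R) := ker_mapmap φ
  have hcB : φ c ∈ maximalIdeal (R ⧸ I) := by
    rw [← map_maximalIdeal_of_surjective φ hφ]
    exact Ideal.mem_map_of_mem _ hc
  have hcB0 : φ c ≠ 0 := by
    rwa [Ne, Ideal.Quotient.eq_zero_iff_mem]
  have hJ : ((idRz R c).map φ').IsPrime := by
    rw [map_idRz, idRz_eq_comap]
    have := isPrime_quad (φ c) hcB hcB0
    exact Ideal.comap_isPrime _ _
  have hinj : ((idRz R c).map φ').comap (iS (R ⧸ I)) = ⊥ := by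
    rw [map_idRz, idRz_eq_comap, eq_bot_iff]
    intro b hb
    rw [Ideal.mem_comap, Ideal.mem_comap] at hb
    change MvPowerSeries.map constantCoeff (C (C b)) ∈ _ at hb
    rw [map_C, constantCoeff_C] at hb
    rw [Ideal.mem_bot]
    let w : Fin 3 → MvPowerSeries Unit (R ⧸ I) := ![(PowerSeries.X : PowerSeries (R ⧸ I)), 0, 0]
    have hw : ∀ i, w i ∈ maximalIdeal (MvPowerSeries Unit (R ⧸ I)) := by
      intro i
      fin_cases i
      · exact X_mem_maxIdeal ()
      · exact zero_mem _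
      · exact zero_mem _
    let g : MvPowerSeries (Fin 3) (R ⧸ I) →+* MvPowerSeries Unit (R ⧸ I) :=
      lift (maximalIdeal (MvPowerSeries Unit (R ⧸ I))) C w hw
    have h1 : Ideal.span {quad (R ⧸ I) - C (φ c)} ≤
        (Ideal.span {(PowerSeries.X ^ 2 - PowerSeries.C (φ c) : PowerSeries (R ⧸ I))}).comap g := by
      rw [Ideal.span_singleton_le_iff_mem, Ideal.mem_comap]
      apply Ideal.subset_span
      rw [Set.mem_singleton_iff, quad, map_sub, map_add, map_mul, map_pow, lift_X, lift_X, lift_X,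
        lift_C]
      change (PowerSeries.X : PowerSeries (R ⧸ I)) ^ 2 + 0 * 0 - PowerSeries.C (φ c) = _
      ring
    have h2 := h1 hb
    rw [Ideal.mem_comap, lift_C] at h2
    exact eq_zero_of_C_mem 2 (by norm_num) hcB h2
  have key := prime_of_baseChange (iS R) φ φ' hφ' (iS (R ⧸ I)) comm hker (idRz R c) hJ hinj
  rw [Ideal.mk_ker] at key
  obtain ⟨k1, k2⟩ := key
  refine ⟨k1, k2, ?_⟩
  refine le_trans ?_ (good_innS I).2.2
  have hle : I.map (iS R) ⊔ innS R ≤ I.map (iS R) ⊔ idRz R c := sup_le_sup_left le_sup_left _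
  exact ringKrullDim_le_of_surjective (Ideal.Quotient.factor hle) (Ideal.Quotient.factor_surjective _)

end S2

section Full

/-- the properties of a step needed for modularity lifting. -/
structure StepFull {R : CLR} {q : R} {Φ₀ : M2 R} (s : Step R q Φ₀) : Prop where
  unr : ∀ (I : Ideal R) [I.IsPrime], Good s.i I (Junr s.T)
  st : ∀ (I : Ideal R) [I.IsPrime] (ε : R), ε ^ 2 = 1 → Φ₀.trace - ε * (q + 1) ∈ maximalIdeal R →
    Good s.i I (Jst (s.i ε) (s.i q) s.Φ s.T) ∧
      ¬ Junr s.T ≤ I.map s.i ⊔ Jst (s.i ε) (s.i q) s.Φ s.T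
  rz : ∀ (I : Ideal R) [I.IsPrime] (ε : R), ε ^ 2 = 1 → Φ₀.trace - ε * (q + 1) ∈ maximalIdeal R →
    q - 1 ∉ I → Good s.i I (Jrz (s.i ε) (s.i q) s.Φ s.T)
  ns : ∀ (I : Ideal R) [I.IsPrime] (ε : R), s.Φ.trace - s.i ε * (s.i q + 1) ∉ I.map s.i ⊔ Junr s.T

/-- half traces -/
lemma half_trace_mem {B : Type} [CommRing B] [IsLocalRing B] {h ε ε' q : B} (h2 : 2 * h = 1)
    {t : B} (h1 : t - 2 * ε' ∈ maximalIdeal B) (h3 : t - ε * (q + 1) ∈ maximalIdeal B) :
    ε * (q + 1) * h - ε' ∈ maximalIdeal B := by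
  have e : ε * (q + 1) * h - ε' = ((t - 2 * ε') - (t - ε * (q + 1))) * h := by
    linear_combination ε' * h2
  rw [e]
  exact Ideal.mul_mem_right _ _ (Ideal.sub_mem _ h1 h3)

/-- the trace of Frobenius on the unramified component, scalar case -/
lemma ns_S' {R : Type} [CommRing R] [IsLocalRing R] [IsNoetherianRing R]
    [IsAdicComplete (maximalIdeal R) R] {h : R} (h2 : 2 * h = 1) (I : Ideal R) [I.IsPrime] (q c : R)
    (x : PP (Fin 3) R)
    (hx : x ^ 2 = C (C q) + quad (MvPowerSeries (Fin 3) R)) :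
    2 * x - iS R c ∉ I.map (iS R) ⊔ innS R := by
  intro hmem
  have hI : I ≠ ⊤ := Ideal.IsPrime.ne_top'
  have := isLocalRing_quot I hI
  have := isAdicComplete_of_surjective (Ideal.Quotient.mk I) Ideal.Quotient.mk_surjective
  let B := R ⧸ I
  let w : Fin 3 → MvPowerSeries Unit B := ![(PowerSeries.X : PowerSeries B), 0, 0]
  have hw : ∀ i, w i ∈ maximalIdeal (MvPowerSeries Unit B) := by
    intro i
    fin_cases i
    · exact X_mem_maxIdeal ()
    · exact zero_mem _
    · exact zero_mem _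
  let g₀ : MvPowerSeries (Fin 3) R →+* MvPowerSeries Unit B :=
    (C : B →+* MvPowerSeries Unit B).comp ((Ideal.Quotient.mk I).comp constantCoeff)
  let g : PP (Fin 3) R →+* MvPowerSeries Unit B :=
    lift (maximalIdeal (MvPowerSeries Unit B)) g₀ w hw
  have hgi : ∀ a, g (iS R a) = C (Ideal.Quotient.mk I a) := by
    intro a
    change g (C (C a)) = _
    rw [lift_C]
    change C (Ideal.Quotient.mk I (constantCoeff (C a))) = _
    rw [constantCoeff_C]
  have hg : I.map (iS R) ⊔ innS R ≤ RingHom.ker g := by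
    refine sup_le ?_ ?_
    · rw [Ideal.map_le_iff_le_comap]
      intro a ha
      rw [Ideal.mem_comap, RingHom.mem_ker, hgi, Ideal.Quotient.eq_zero_iff_mem.2 ha, map_zero]
    · rw [innS, Ideal.map_le_iff_le_comap, Ideal.span_le]
      rintro _ ⟨i, rfl⟩
      rw [SetLike.mem_coe, Ideal.mem_comap, RingHom.mem_ker, lift_C]
      change C (Ideal.Quotient.mk I (constantCoeff (X i))) = 0
      rw [constantCoeff_X, map_zero, map_zero]
  have h1 := RingHom.mem_ker.1 (hg hmem)
  rw [map_sub, map_mul, map_ofNat, hgi, sub_eq_zero] at h1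
  -- square
  have h5 : (4 : MvPowerSeries Unit B) * (g x) ^ 2 = (C (Ideal.Quotient.mk I c)) ^ 2 := by
    rw [← h1]; ring
  rw [← map_pow g, hx, map_add, quad, map_add, map_pow, map_mul, lift_X, lift_X, lift_X] at h5
  change (4 : PowerSeries B) * (g (iS R q) + ((PowerSeries.X : PowerSeries B) ^ 2 + 0 * 0)) =
    (PowerSeries.C _) ^ 2 at h5
  rw [hgi, ← map_pow] at h5
  change (4 : PowerSeries B) * (PowerSeries.C _ + ((PowerSeries.X : PowerSeries B) ^ 2 + 0 * 0)) =
    PowerSeries.C _ at h5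
  have h3 := congrArg (PowerSeries.coeff 2) h5
  have h4 : (4 : PowerSeries B) = PowerSeries.C 4 := by rw [map_ofNat]
  rw [zero_mul, add_zero, h4, PowerSeries.coeff_C_mul, map_add, PowerSeries.coeff_C,
    if_neg two_ne_zero, zero_add, PowerSeries.coeff_X_pow_self, mul_one, PowerSeries.coeff_C,
    if_neg two_ne_zero] at h3
  have h5 : IsUnit (4 : B) := by
    have h6 := two_map (Ideal.Quotient.mk I) h2
    have h7 : (4 : B) = 2 * 2 := by norm_num
    rw [h7]
    exact (two_unit h6).mul (two_unit h6)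
  exact h5.ne_zero h3

theorem exists_stepS_full (R : CLR) {h q ε' : R} (h2 : 2 * h = 1) (hε' : IsUnit ε')
    (hq : ε' ^ 2 - q ∈ maximalIdeal R) (hq1 : q - 1 ∈ maximalIdeal R) :
    ∃ s : Step R q (genM ε' 0 0 0), StepLL s ∧ StepFull s := by
  obtain ⟨x, hx, hx'⟩ := exists_xS h2 hε' hq
  obtain ⟨y, hy, hy'⟩ := exists_yS h2
  have hσm : ∀ ε : R, ε * (q - 1) * h ∈ maximalIdeal R := fun ε =>
    Ideal.mul_mem_right _ _ (Ideal.mul_mem_left _ _ hq1)
  refine ⟨stepS h q ε' h2 hε' x hx hx' y hy hy', ?_, ?_, ?_, ?_, ?_⟩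
  · refine ⟨?_, ?_, ?_⟩
    · intro I _ t ht htI
      change Good (iS R) I (Jchi (iS R t) (genM x (X 0) (X 1) (X 2))
        (genM (C y) (C (X 0)) (C (X 1)) (C (X 2))))
      rw [Jchi_S h2 ht x y hy hy']
      have e : t ^ 2 - 4 = 4 * ((t * h) ^ 2 - 1) := by
        linear_combination (-(t ^ 2)) * (2 * h + 1) * h2
      refine good_idS (two_unit h2) I ?_ ?_
      · have e2 : (t * h) ^ 2 - 1 = (t - 2) * ((t + 2) * h ^ 2) := by
          linear_combination (2 * h + 1) * h2
        rw [e2]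
        exact Ideal.mul_mem_right _ _ ht
      · intro hmem
        apply htI
        rw [e]
        exact Ideal.mul_mem_left _ _ hmem
    · intro I _
      change Good (iS R) I (Junr (genM (C y) (C (X 0)) (C (X 1)) (C (X 2))))
      rw [Junr_S h2 y hy hy']
      exact good_innS I
    · intro I _
      change (genM x (X 0) (X 1) (X 2) : M2 (PP (Fin 3) R)).trace ^ 2 - (iS R q + 1) ^ 2 ∉
        I.map (iS R) ⊔ (Junr (genM (C y) (C (X 0)) (C (X 1)) (C (X 2))))
      rw [Junr_S h2 y hy hy', trace_genM]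
      exact ns_S h2 I q x hx
  · intro I _
    change Good (iS R) I (Junr (genM (C y) (C (X 0)) (C (X 1)) (C (X 2))))
    rw [Junr_S h2 y hy hy']
    exact good_innS I
  · intro I _ ε hε htr
    rw [trace_genM] at htr
    have hx1 := half_trace_mem (ε' := ε') h2 (by rw [sub_self]; exact zero_mem _) htr
    change Good (iS R) I (Jst (iS R ε) (iS R q) (genM x (X 0) (X 1) (X 2))
      (genM (C y) (C (X 0)) (C (X 1)) (C (X 2)))) ∧
      ¬ Junr (genM (C y) (C (X 0)) (C (X 1)) (C (X 2))) ≤ I.map (iS R) ⊔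
        Jst (iS R ε) (iS R q) (genM x (X 0) (X 1) (X 2))
          (genM (C y) (C (X 0)) (C (X 1)) (C (X 2)))
    rw [Jst_S h2 hε' hε hx1 x hx hx' y hy hy', Junr_S h2 y hy hy']
    obtain ⟨g1, g2⟩ := good_JS h2 I (hσm ε)
    refine ⟨g1, fun hle => g2 (hle ?_)⟩
    exact Ideal.mem_map_of_mem _ (Ideal.subset_span ⟨1, rfl⟩)
  · intro I _ ε hε htr hqI
    rw [trace_genM] at htr
    have hx1 := half_trace_mem (ε' := ε') h2 (by rw [sub_self]; exact zero_mem _) htr
    change Good (iS R) I (Jrz (iS R ε) (iS R q) (genM x (X 0) (X 1) (X 2))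
      (genM (C y) (C (X 0)) (C (X 1)) (C (X 2))))
    rw [Jrz_S h2 hε' hε hx1 x hx hx' y hy hy']
    refine good_idRz I ?_ ?_
    · rw [pow_two]
      exact Ideal.mul_mem_right _ _ (hσm ε)
    · intro hmem
      have hIp : I.IsPrime := inferInstance
      have h3 := hIp.mem_of_pow_mem 2 hmem
      apply hqI
      have e : q - 1 = (2 * ε) * (ε * (q - 1) * h) := by
        linear_combination (-(q - 1) * ε ^ 2) * h2 - (q - 1) * hε
      rw [e]
      exact Ideal.mul_mem_left _ _ h3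
  · intro I _ ε
    change (genM x (X 0) (X 1) (X 2) : M2 (PP (Fin 3) R)).trace - iS R ε * (iS R q + 1) ∉
      I.map (iS R) ⊔ (Junr (genM (C y) (C (X 0)) (C (X 1)) (C (X 2))))
    rw [Junr_S h2 y hy hy', trace_genM]
    have := ns_S' h2 I q (ε * (q + 1)) x hx
    rwa [map_mul, map_add, map_one] at this

end Full

end Fermat.Agent.TAlg
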