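import Mathlib
import Fermat.Agent.TAlg.CaseS2

/-! # The Steinberg, raising and unramified ideals: non-scalar matrices; retracts. -/

set_option autoImplicit false
set_option linter.unusedSectionVars false
set_option linter.unusedSimpArgs false

open IsLocalRing MvPowerSeries

namespace Fermat.Agent.TAlg

section Alg

variable {A : Type} [CommRing A]

/-- Steinberg ideal for non-scalar matrices -/
lemma Jst_nonsc {h ε q x u v w' u3 z y a b σ : A} (h2 : 2 * h = 1) (hε : ε ^ 2 = 1)
    (hσ : σ = ε * (q - 1) * h) (hv : v * w' = 1) (hu3 : u3 = (x ^ 2 - q - u ^ 2) * w')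
    (hz : z ^ 2 = 1 + (y * u + a) ^ 2 + (y * v) * (y * u3 + b)) (hz' : IsUnit (z + 1)) :
    Jst ε q (genM x u v u3) (genM z (y * u + a) (y * v) (y * u3 + b)) =
      Ideal.span {x - ε * (q + 1) * h} ⊔
        Ideal.span {a + σ * y, b + 2 * σ * (σ - u) * w' * y} := by
  set x1 : A := ε * (q + 1) * h with hx1
  have hx1q : x1 ^ 2 = q + σ ^ 2 := by
    rw [hx1, hσ]
    have h4 : 4 * h ^ 2 = 1 := by linear_combination (2 * h + 1) * h2
    linear_combination (q + 1) ^ 2 * h ^ 2 * hε + q * h4 - (q - 1) ^ 2 * h ^ 2 * hε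
  have hvu3 : v * u3 = x ^ 2 - q - u ^ 2 := by
    rw [hu3]; linear_combination (x ^ 2 - q - u ^ 2) * hv
  rw [Jst_genM h2 hσ]
  rw [← hx1]
  apply le_antisymm
  · set L : Ideal A := Ideal.span {x - x1} ⊔
        Ideal.span {a + σ * y, b + 2 * σ * (σ - u) * w' * y} with hL
    have m1 : x - x1 ∈ L := Ideal.mem_sup_left (Ideal.subset_span rfl)
    have m2 : a + σ * y ∈ L := Ideal.mem_sup_right (Ideal.subset_span (by simp))
    have m3 : b + 2 * σ * (σ - u) * w' * y ∈ L := Ideal.mem_sup_right (Ideal.subset_span (by simp))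
    have mx : x ^ 2 - q - σ ^ 2 ∈ L := by
      have e : x ^ 2 - q - σ ^ 2 = (x + x1) * (x - x1) := by linear_combination hx1q
      rw [e]
      exact Ideal.mul_mem_left _ _ m1
    have l4 : (u - σ) * (y * v) - v * (y * u + a) ∈ L := by
      have e : (u - σ) * (y * v) - v * (y * u + a) = (-v) * (a + σ * y) := by ring
      rw [e]
      exact Ideal.mul_mem_left _ _ m2
    have l3 : (u - σ) * (y * u + a) + v * (y * u3 + b) ∈ L := by
      have e : (u - σ) * (y * u + a) + v * (y * u3 + b) = (u - σ) * (a + σ * y) +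
          y * (x ^ 2 - q - σ ^ 2) + v * (b + 2 * σ * (σ - u) * w' * y) := by
        linear_combination y * hvu3 - (2 * σ * (σ - u) * y) * hv
      rw [e]
      exact Ideal.add_mem _ (Ideal.add_mem _ (Ideal.mul_mem_left _ _ m2)
        (Ideal.mul_mem_left _ _ mx)) (Ideal.mul_mem_left _ _ m3)
    have l6 : u3 * (y * v) + (u + σ) * (y * u + a) ∈ L := by
      have e : u3 * (y * v) + (u + σ) * (y * u + a) = y * (x ^ 2 - q - σ ^ 2) +
          (u + σ) * (a + σ * y) := by
        linear_combination y * hvu3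
      rw [e]
      exact Ideal.add_mem _ (Ideal.mul_mem_left _ _ mx) (Ideal.mul_mem_left _ _ m2)
    have l5 : u3 * (y * u + a) - (u + σ) * (y * u3 + b) ∈ L := by
      have e : u3 * (y * u + a) - (u + σ) * (y * u3 + b) = u3 * (a + σ * y) -
          (u + σ) * (b + 2 * σ * (σ - u) * w' * y) - 2 * σ * y * w' * (x ^ 2 - q - σ ^ 2) := by
        linear_combination (-2 * σ * y) * hu3
      rw [e]
      exact Ideal.sub_mem _ (Ideal.sub_mem _ (Ideal.mul_mem_left _ _ m2)
        (Ideal.mul_mem_left _ _ m3)) (Ideal.mul_mem_left _ _ mx)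
    have lz : z - 1 ∈ L := by
      have h4 : (z - 1) * (z + 1) ∈ L := by
        have e : (z - 1) * (z + 1) = (y * (u - σ) + y * u + a) * (a + σ * y) +
            y ^ 2 * (x ^ 2 - q - σ ^ 2) + y * v * (b + 2 * σ * (σ - u) * w' * y) := by
          linear_combination hz + y ^ 2 * hvu3 - (2 * σ * (σ - u) * y ^ 2) * hv
        rw [e]
        exact Ideal.add_mem _ (Ideal.add_mem _ (Ideal.mul_mem_left _ _ m2)
          (Ideal.mul_mem_left _ _ mx)) (Ideal.mul_mem_left _ _ m3)
      exact (Ideal.mul_unit_mem_iff_mem _ hz').1 h4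
    refine sup_le (sup_le ?_ ?_) ?_
    · rw [Ideal.span_singleton_le_iff_mem]; exact lz
    · rw [Ideal.span_singleton_le_iff_mem]; exact m1
    · rw [Ideal.span_le]
      intro t ht
      simp only [rels, Set.mem_insert_iff, Set.mem_singleton_iff] at ht
      rw [SetLike.mem_coe]
      rcases ht with rfl | rfl | rfl | rfl
      · exact l3
      · exact l4
      · exact l5
      · exact l6
  · set L : Ideal A := Ideal.span {z - 1} ⊔ Ideal.span {x - x1} ⊔
      Ideal.span (rels σ u v u3 (y * u + a) (y * v) (y * u3 + b)) with hL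
    have m1 : x - x1 ∈ L := Ideal.mem_sup_left (Ideal.mem_sup_right (Ideal.subset_span rfl))
    have l3 : (u - σ) * (y * u + a) + v * (y * u3 + b) ∈ L :=
      Ideal.mem_sup_right (Ideal.subset_span (by simp [rels]))
    have l4 : (u - σ) * (y * v) - v * (y * u + a) ∈ L :=
      Ideal.mem_sup_right (Ideal.subset_span (by simp [rels]))
    have mx : x ^ 2 - q - σ ^ 2 ∈ L := by
      have e : x ^ 2 - q - σ ^ 2 = (x + x1) * (x - x1) := by linear_combination hx1q
      rw [e]
      exact Ideal.mul_mem_left _ _ m1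
    have m2 : a + σ * y ∈ L := by
      have e : a + σ * y = (-w') * ((u - σ) * (y * v) - v * (y * u + a)) := by
        linear_combination (-(a + σ * y)) * hv
      rw [e]
      exact Ideal.mul_mem_left _ _ l4
    have m3 : b + 2 * σ * (σ - u) * w' * y ∈ L := by
      have e : b + 2 * σ * (σ - u) * w' * y = w' * ((u - σ) * (y * u + a) + v * (y * u3 + b)) -
          w' * (u - σ) * (a + σ * y) - w' * y * (x ^ 2 - q - σ ^ 2) := by
        linear_combination (-(w' * y)) * hvu3 - b * hv
      rw [e]
      exact Ideal.sub_mem _ (Ideal.sub_mem _ (Ideal.mul_mem_left _ _ l3)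
        (Ideal.mul_mem_left _ _ m2)) (Ideal.mul_mem_left _ _ mx)
    refine sup_le ?_ ?_
    · rw [Ideal.span_singleton_le_iff_mem]; exact m1
    · rw [Ideal.span_le]
      intro t ht
      simp only [Set.mem_insert_iff, Set.mem_singleton_iff] at ht
      rw [SetLike.mem_coe]
      rcases ht with rfl | rfl
      · exact m2
      · exact m3

/-- unramified ideal for non-scalar matrices -/
lemma Junr_nonsc {h u v w' u3 z y a b : A} (h2 : 2 * h = 1) (hv : v * w' = 1)
    (hz : z ^ 2 = 1 + (y * u + a) ^ 2 + (y * v) * (y * u3 + b)) (hz' : IsUnit (z + 1)) :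
    Junr (genM z (y * u + a) (y * v) (y * u3 + b)) =
      Ideal.span {a, b} ⊔ Ideal.span {y} := by
  apply le_antisymm
  · set L : Ideal A := Ideal.span {a, b} ⊔ Ideal.span {y} with hL
    have ma : a ∈ L := Ideal.mem_sup_left (Ideal.subset_span (by simp))
    have mb : b ∈ L := Ideal.mem_sup_left (Ideal.subset_span (by simp))
    have my : y ∈ L := Ideal.mem_sup_right (Ideal.subset_span rfl)
    have mz : z - 1 ∈ L := by
      have h4 : (z - 1) * (z + 1) ∈ L := by
        have e : (z - 1) * (z + 1) = y * (y * u ^ 2 + 2 * u * a + v * (y * u3 + b)) + a * a := by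
          linear_combination hz
        rw [e]
        exact Ideal.add_mem _ (Ideal.mul_mem_right _ _ my) (Ideal.mul_mem_right _ _ ma)
      exact (Ideal.mul_unit_mem_iff_mem _ hz').1 h4
    rw [Junr, one_eq_genM, ent_le_iff]
    intro i j
    fin_cases i <;> fin_cases j
    · have e : z + (y * u + a) - (1 + 0) = (z - 1) + (y * u + a) := by ring
      change z + (y * u + a) - (1 + 0) ∈ _
      rw [e]
      exact Ideal.add_mem _ mz (Ideal.add_mem _ (Ideal.mul_mem_right _ _ my) ma)
    · change y * v - 0 ∈ _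
      rw [sub_zero]
      exact Ideal.mul_mem_right _ _ my
    · change y * u3 + b - 0 ∈ _
      rw [sub_zero]
      exact Ideal.add_mem _ (Ideal.mul_mem_right _ _ my) mb
    · have e : z - (y * u + a) - (1 - 0) = (z - 1) - (y * u + a) := by ring
      change z - (y * u + a) - (1 - 0) ∈ _
      rw [e]
      exact Ideal.sub_mem _ mz (Ideal.add_mem _ (Ideal.mul_mem_right _ _ my) ma)
  · have m00 := mem_ent (genM z (y * u + a) (y * v) (y * u3 + b) - 1) 0 0
    have m01 := mem_ent (genM z (y * u + a) (y * v) (y * u3 + b) - 1) 0 1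
    have m10 := mem_ent (genM z (y * u + a) (y * v) (y * u3 + b) - 1) 1 0
    have m11 := mem_ent (genM z (y * u + a) (y * v) (y * u3 + b) - 1) 1 1
    rw [Junr]
    set L := ent (genM z (y * u + a) (y * v) (y * u3 + b) - 1) with hL
    rw [one_eq_genM] at m00 m01 m10 m11
    change z + (y * u + a) - (1 + 0) ∈ _ at m00
    change z - (y * u + a) - (1 - 0) ∈ _ at m11
    change y * v - 0 ∈ _ at m01
    change y * u3 + b - 0 ∈ _ at m10
    rw [sub_zero] at m01 m10
    have my : y ∈ L := by
      have e : y = w' * (y * v) := by linear_combination (-y) * hv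
      rw [e]
      exact Ideal.mul_mem_left _ _ m01
    have ma : a ∈ L := by
      have e : a = h * ((z + (y * u + a) - (1 + 0)) -
          (z - (y * u + a) - (1 - 0))) - u * y := by
        linear_combination (-(y * u + a)) * h2
      rw [e]
      exact Ideal.sub_mem _ (Ideal.mul_mem_left _ _ (Ideal.sub_mem _ m00 m11))
        (Ideal.mul_mem_left _ _ my)
    have mb : b ∈ L := by
      have e : b = (y * u3 + b) - u3 * y := by ring
      rw [e]
      exact Ideal.sub_mem _ m10 (Ideal.mul_mem_left _ _ my)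
    refine sup_le ?_ ?_
    · rw [Ideal.span_le]
      intro z hz
      rw [Set.mem_insert_iff, Set.mem_singleton_iff] at hz
      rcases hz with rfl | rfl
      · exact ma
      · exact mb
    · rw [Ideal.span_singleton_le_iff_mem]
      exact my

end Alg

section Retract

variable {R R' R'' : Type} [CommRing R] [CommRing R'] [CommRing R'']

/-- retracts and the property `Good` -/
theorem good_of_retract (i : R →+* R') (j : R →+* R'') (ψ : R' →+* R'') (s : R'' →+* R')
    (J : Ideal R') (hψi : ψ.comp i = j) (hψs : ∀ x, ψ (s x) = x)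
    (hJ : J ≤ RingHom.ker ψ) (hsψ : ∀ x, s (ψ x) - x ∈ J) (I : Ideal R) (h : Good j I ⊥) :
    Good i I J ∧ I.map i ⊔ J = (I.map j).comap ψ := by
  have hψ : Function.Surjective ψ := fun x => ⟨s x, hψs x⟩
  have hker : RingHom.ker ψ = J := by
    apply le_antisymm _ hJ
    intro x hx
    have h1 := hsψ x
    rw [RingHom.mem_ker.1 hx, map_zero, zero_sub] at h1
    exact (Ideal.neg_mem_iff _).1 h1
  have hcomap : I.map i ⊔ J = (I.map j).comap ψ := by
    have h1 : I.map j = (I.map i).map ψ := by rw [Ideal.map_map, hψi]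
    rw [h1, Ideal.comap_map_of_surjective _ hψ, ← RingHom.ker_eq_comap_bot, hker]
  obtain ⟨g1, g2, g3⟩ := h
  rw [sup_bot_eq] at g1 g2 g3
  refine ⟨⟨?_, ?_, ?_⟩, hcomap⟩
  · rw [hcomap]
    exact Ideal.comap_isPrime ψ _
  · rw [hcomap, Ideal.comap_comap, hψi, g2]
  · rw [hcomap]
    refine le_trans (le_of_eq ?_) g3
    have e : RingHom.ker ((Ideal.Quotient.mk (I.map j)).comp ψ) = (I.map j).comap ψ := by
      rw [← RingHom.comap_ker, Ideal.mk_ker]
    rw [← e]
    exact ringKrullDim_eq_of_ringEquiv (RingHom.quotientKerEquivOfSurjective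
      (Ideal.Quotient.mk_surjective.comp hψ))

end Retract

section PSGood

variable {R : Type} [CommRing R] [IsLocalRing R] [IsNoetherianRing R]

/-- power series in at most three variables -/
theorem good_PS (σ : Type) [Finite σ] (hσ : Nat.card σ ≤ 3) (I : Ideal R) [I.IsPrime] :
    Good (C : R →+* MvPowerSeries σ R) I ⊥ := by
  classical
  have := Fintype.ofFinite σ
  have hker : I.map (C : R →+* MvPowerSeries σ R) =
      RingHom.ker (MvPowerSeries.map (σ := σ) (Ideal.Quotient.mk I)) := by
    rw [ker_psmap, Ideal.mk_ker]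
  refine ⟨?_, ?_, ?_⟩
  · rw [sup_bot_eq, hker]
    exact RingHom.ker_isPrime _
  · rw [sup_bot_eq]
    apply le_antisymm
    · intro a ha
      have h1 := coeff_mem_of_mem_map_C ha 0
      rwa [coeff_zero_eq_constantCoeff_apply, constantCoeff_C] at h1
    · intro a ha
      exact Ideal.mem_map_of_mem _ ha
  · rw [sup_bot_eq]
    refine dim_bound (C : R →+* MvPowerSeries σ R) (H04.XI σ R) ?_ I _ le_rfl
      (Finset.univ.image (fun i => (X i : MvPowerSeries σ R))) ?_ ?_ 3 ?_
    · intro f
      refine ⟨constantCoeff f, ?_⟩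
      rw [mem_XI_iff, map_sub, constantCoeff_C, sub_self]
    · intro x hx
      rw [Finset.mem_image] at hx
      obtain ⟨i, -, rfl⟩ := hx
      exact X_mem_maxIdeal i
    · intro P hP _ h
      rw [H04.XI, Ideal.span_le]
      rintro _ ⟨i, rfl⟩
      exact h _ (Finset.mem_image_of_mem _ (Finset.mem_univ i))
    · refine Finset.card_image_le.trans ?_
      rwa [Finset.card_univ, ← Nat.card_eq_fintype_card]

end PSGood

end Fermat.Agent.TAlg
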