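import Mathlib
import Fermat.Agent.TAlg.NonSc

/-! # Steinberg and raising ideals in the ring of the non-scalar cases. -/

set_option autoImplicit false
set_option linter.unusedSectionVars false
set_option linter.unusedSimpArgs false

open IsLocalRing MvPowerSeries

namespace Fermat.Agent.TAlg

section Ext

variable {R : Type} [CommRing R]

/-- uniqueness for maps out of `R3` -/
theorem R3_ext {B : Type} [CommRing B] [IsLocalRing B] [IsAdicComplete (maximalIdeal B) B]
    {f f' : R3 R →+* B} (h0 : ∀ r, f (iU R r) = f' (iU R r))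
    (h1 : f (uu1 R) = f' (uu1 R)) (h2 : f (uu2 R) = f' (uu2 R))
    (h3 : f (dd R) = f' (dd R)) (h4 : f (yy R) = f' (yy R))
    (h5 : f (aa R) = f' (aa R)) (h6 : f (bb R) = f' (bb R))
    (m1 : f (uu1 R) ∈ maximalIdeal B) (m2 : f (uu2 R) ∈ maximalIdeal B)
    (m3 : f (dd R) ∈ maximalIdeal B) (m4 : f (yy R) ∈ maximalIdeal B)
    (m5 : f (aa R) ∈ maximalIdeal B) (m6 : f (bb R) ∈ maximalIdeal B) : f = f' := by
  have k1 : (f.comp (C : R2 R →+* R3 R)).comp (C : R1 R →+* R2 R) =
      (f'.comp (C : R2 R →+* R3 R)).comp (C : R1 R →+* R2 R) := by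
    apply hom_ext (maximalIdeal B)
    · exact h0
    · intro i
      fin_cases i
      · exact h1
      · exact h2
    · intro i
      fin_cases i
      · exact m1
      · exact m2
  have k2 : f.comp (C : R2 R →+* R3 R) = f'.comp (C : R2 R →+* R3 R) := by
    apply hom_ext (maximalIdeal B)
    · intro a
      exact congrArg (fun F : R1 R →+* B => F a) k1
    · intro i
      fin_cases i
      · exact h3
      · exact h4
    · intro i
      fin_cases i
      · exact m3
      · exact m4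
  apply hom_ext (maximalIdeal B)
  · intro a
    exact congrArg (fun F : R2 R →+* B => F a) k2
  · intro i
    fin_cases i
    · exact h5
    · exact h6
  · intro i
    fin_cases i
    · exact m5
    · exact m6

end Ext

section Ids

/-- the Steinberg ideal, explicitly -/
noncomputable def idSt {A : Type} [CommRing A] (w : R3 A) (σ d1 : A) : Ideal (R3 A) :=
  Ideal.span {dd A - iU A d1} ⊔
    Ideal.span {aa A + iU A σ * yy A, bb A + 2 * iU A σ * (iU A σ - uu1 A) * w * yy A}

/-- the raising ideal, explicitly -/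
noncomputable def idRz' (A : Type) [CommRing A] (d1 : A) : Ideal (R3 A) :=
  Ideal.span {dd A - iU A d1} ⊔ Ideal.span {aa A, bb A, yy A}

variable {R : Type} [CommRing R] [IsLocalRing R] [IsNoetherianRing R]
  [IsAdicComplete (maximalIdeal R) R]

theorem good_idSt (w : R3 R) (hw : (1 + uu2 R) * w = 1) (σ : R) {d1 : R}
    (hd : d1 ∈ maximalIdeal R) (I : Ideal R) [I.IsPrime] :
    Good (iU R) I (idSt w σ d1) ∧ yy R ∉ I.map (iU R) ⊔ idSt w σ d1 := by
  let R4 : Type := MvPowerSeries (Fin 3) R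
  let j : R →+* R4 := (C : R →+* MvPowerSeries (Fin 3) R)
  have hX : ∀ i, (X i : R4) ∈ maximalIdeal R4 := fun i => X_mem_maxIdeal i
  obtain ⟨w4, hw4⟩ : ∃ w4 : R4, (1 + X 1) * w4 = 1 := by
    have : IsUnit (1 + X 1 : R4) := isUnit_of_sub_mem isUnit_one (by
      rw [add_sub_cancel_left]; exact hX 1)
    obtain ⟨w, hw⟩ := this.exists_right_inv
    exact ⟨w, hw⟩
  have hjl : IsLocalHom j := isLocalHom_C
  obtain ⟨ψ, hψl, c1, c2, c3, c4, c5, c6, c7⟩ := R3_univ (B := R4) j (X 0) (X 1) (j d1) (X 2)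
    (-(j σ * X 2)) (-(2 * j σ * (j σ - X 0) * w4 * X 2)) (hX 0) (hX 1)
    (C_mem_maxIdeal hd) (hX 2) ((Ideal.neg_mem_iff _).2 (Ideal.mul_mem_left _ _ (hX 2)))
    ((Ideal.neg_mem_iff _).2 (Ideal.mul_mem_left _ _ (hX 2)))
  have hψi : ∀ r, ψ (iU R r) = j r := fun r => by rw [← RingHom.comp_apply, c1]
  have hψw : ψ w = w4 := by
    have h1 : (1 + X 1) * ψ w = 1 := by
      rw [← c3, ← map_one ψ, ← map_add, ← map_mul, hw]
    calc ψ w = ((1 + X 1) * w4) * ψ w := by rw [hw4, one_mul]
      _ = ((1 + X 1) * ψ w) * w4 := by ring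
      _ = w4 := by rw [h1, one_mul]
  let v : Fin 3 → R3 R := ![uu1 R, uu2 R, yy R]
  have hv : ∀ i, v i ∈ maximalIdeal (R3 R) := by
    intro i
    fin_cases i
    · exact uu1_mem
    · exact uu2_mem
    · exact yy_mem
  let s : R4 →+* R3 R := lift (maximalIdeal (R3 R)) (iU R) v hv
  have hsC : ∀ r, s (j r) = iU R r := fun r => lift_C _ _ _ _ _
  have hsX : ∀ i, s (X i) = v i := fun i => lift_X _ _ _ _ _
  have hsw : s w4 = w := by
    have h1 : (1 + uu2 R) * s w4 = 1 := by
      have h2 : s (X 1) = uu2 R := hsX 1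
      rw [← h2, ← map_one s, ← map_add, ← map_mul, hw4]
    calc s w4 = ((1 + uu2 R) * w) * s w4 := by rw [hw, one_mul]
      _ = ((1 + uu2 R) * s w4) * w := by ring
      _ = w := by rw [h1, one_mul]
  have hψs : ∀ x, ψ (s x) = x := by
    have : ψ.comp s = RingHom.id R4 := by
      apply hom_ext (maximalIdeal R4)
      · intro a
        change ψ (s (j a)) = j a
        rw [hsC, hψi]
      · intro i
        rw [RingHom.comp_apply, hsX, RingHom.id_apply]
        fin_cases i
        · exact c2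
        · exact c3
        · exact c5
      · intro i
        rw [RingHom.comp_apply, hsX]
        fin_cases i
        · change ψ (uu1 R) ∈ _
          rw [c2]; exact hX 0
        · change ψ (uu2 R) ∈ _
          rw [c3]; exact hX 1
        · change ψ (yy R) ∈ _
          rw [c5]; exact hX 2
    intro x
    exact congrArg (fun F : R4 →+* R4 => F x) this
  have hJ : idSt w σ d1 ≤ RingHom.ker ψ := by
    rw [idSt]
    refine sup_le ?_ ?_
    · rw [Ideal.span_singleton_le_iff_mem, RingHom.mem_ker, map_sub, c4, hψi, sub_self]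
    · rw [Ideal.span_le]
      intro z hz
      rw [Set.mem_insert_iff, Set.mem_singleton_iff] at hz
      rcases hz with rfl | rfl
      · rw [SetLike.mem_coe, RingHom.mem_ker, map_add, map_mul, c6, hψi, c5]
        ring
      · rw [SetLike.mem_coe, RingHom.mem_ker]
        simp only [map_add, map_mul, map_sub, c7, hψi, c5, c2, hψw, map_ofNat]
        ring
  have hJm : idSt w σ d1 ≤ maximalIdeal (R3 R) := by
    rw [idSt]
    refine sup_le ?_ ?_
    · rw [Ideal.span_singleton_le_iff_mem]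
      exact Ideal.sub_mem _ dd_mem (map_mem_maxIdeal (iU R) hd)
    · rw [Ideal.span_le]
      intro z hz
      rw [Set.mem_insert_iff, Set.mem_singleton_iff] at hz
      rcases hz with rfl | rfl
      · exact Ideal.add_mem _ aa_mem (Ideal.mul_mem_left _ _ yy_mem)
      · exact Ideal.add_mem _ bb_mem (Ideal.mul_mem_left _ _ yy_mem)
  have hJt : idSt w σ d1 ≠ ⊤ := fun h => by
    rw [h, top_le_iff] at hJm
    exact Ideal.IsPrime.ne_top' hJm
  have := isLocalRing_quot (idSt w σ d1) hJt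
  have := isAdicComplete_of_surjective (Ideal.Quotient.mk (idSt w σ d1))
    Ideal.Quotient.mk_surjective
  have hmk : ∀ z ∈ maximalIdeal (R3 R), Ideal.Quotient.mk (idSt w σ d1) z ∈
      maximalIdeal (R3 R ⧸ idSt w σ d1) := by
    intro z hz
    rw [← map_maximalIdeal_of_surjective (Ideal.Quotient.mk (idSt w σ d1))
      Ideal.Quotient.mk_surjective]
    exact Ideal.mem_map_of_mem _ hz
  have hsψ : ∀ x, s (ψ x) - x ∈ idSt w σ d1 := by
    have : (Ideal.Quotient.mk (idSt w σ d1)) = ((Ideal.Quotient.mk (idSt w σ d1)).comp s).comp ψ := by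
      have e0 : s (X 0) = uu1 R := hsX 0
      have e1 : s (X 1) = uu2 R := hsX 1
      have e2 : s (X 2) = yy R := hsX 2
      apply R3_ext
      · intro r
        rw [RingHom.comp_apply, hψi, RingHom.comp_apply, hsC]
      · rw [RingHom.comp_apply, c2, RingHom.comp_apply, e0]
      · rw [RingHom.comp_apply, c3, RingHom.comp_apply, e1]
      · rw [RingHom.comp_apply, c4, RingHom.comp_apply, hsC, Ideal.Quotient.eq]
        exact Ideal.mem_sup_left (Ideal.subset_span rfl)
      · rw [RingHom.comp_apply, c5, RingHom.comp_apply, e2]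
      · rw [RingHom.comp_apply, c6, RingHom.comp_apply, map_neg, map_mul, e2, hsC,
          Ideal.Quotient.eq, sub_neg_eq_add]
        exact Ideal.mem_sup_right (Ideal.subset_span (by simp))
      · rw [RingHom.comp_apply, c7, RingHom.comp_apply, Ideal.Quotient.eq]
        simp only [map_neg, map_mul, map_sub, map_ofNat, e2, hsC, hsw, e0, sub_neg_eq_add]
        exact Ideal.mem_sup_right (Ideal.subset_span (by simp))
      · exact hmk _ uu1_mem
      · exact hmk _ uu2_mem
      · exact hmk _ dd_mem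
      · exact hmk _ yy_mem
      · exact hmk _ aa_mem
      · exact hmk _ bb_mem
    intro x
    have h1 := congrArg (fun F : R3 R →+* (R3 R ⧸ idSt w σ d1) => F x) this
    rw [← Ideal.Quotient.eq]
    exact h1.symm
  have hgood : Good j I ⊥ := good_PS (Fin 3) (by rw [Nat.card_fin]) I
  obtain ⟨g1, g2⟩ := good_of_retract (iU R) j ψ s (idSt w σ d1) c1 hψs hJ hsψ I hgood
  refine ⟨g1, ?_⟩
  rw [g2, Ideal.mem_comap, c5]
  intro h
  have h1 := coeff_mem_of_mem_map_C h (Finsupp.single 2 1)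
  rw [coeff_index_single_self_X] at h1
  exact Ideal.IsPrime.ne_top' ((Ideal.eq_top_iff_one I).2 h1)

theorem good_idRz' {d1 : R} (hd : d1 ∈ maximalIdeal R) (I : Ideal R) [I.IsPrime] :
    Good (iU R) I (idRz' R d1) := by
  let R4 : Type := MvPowerSeries (Fin 2) R
  let j : R →+* R4 := (C : R →+* MvPowerSeries (Fin 2) R)
  have hX : ∀ i, (X i : R4) ∈ maximalIdeal R4 := fun i => X_mem_maxIdeal i
  have hjl : IsLocalHom j := isLocalHom_C
  obtain ⟨ψ, hψl, c1, c2, c3, c4, c5, c6, c7⟩ := R3_univ (B := R4) j (X 0) (X 1) (j d1) 0 0 0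
    (hX 0) (hX 1) (C_mem_maxIdeal hd) (zero_mem _) (zero_mem _) (zero_mem _)
  have hψi : ∀ r, ψ (iU R r) = j r := fun r => by rw [← RingHom.comp_apply, c1]
  let v : Fin 2 → R3 R := ![uu1 R, uu2 R]
  have hv : ∀ i, v i ∈ maximalIdeal (R3 R) := by
    intro i
    fin_cases i
    · exact uu1_mem
    · exact uu2_mem
  let s : R4 →+* R3 R := lift (maximalIdeal (R3 R)) (iU R) v hv
  have hsC : ∀ r, s (j r) = iU R r := fun r => lift_C _ _ _ _ _
  have hsX : ∀ i, s (X i) = v i := fun i => lift_X _ _ _ _ _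
  have hψs : ∀ x, ψ (s x) = x := by
    have : ψ.comp s = RingHom.id R4 := by
      apply hom_ext (maximalIdeal R4)
      · intro a
        change ψ (s (j a)) = j a
        rw [hsC, hψi]
      · intro i
        rw [RingHom.comp_apply, hsX, RingHom.id_apply]
        fin_cases i
        · exact c2
        · exact c3
      · intro i
        rw [RingHom.comp_apply, hsX]
        fin_cases i
        · change ψ (uu1 R) ∈ _
          rw [c2]; exact hX 0
        · change ψ (uu2 R) ∈ _
          rw [c3]; exact hX 1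
    intro x
    exact congrArg (fun F : R4 →+* R4 => F x) this
  have hJ : idRz' R d1 ≤ RingHom.ker ψ := by
    rw [idRz']
    refine sup_le ?_ ?_
    · rw [Ideal.span_singleton_le_iff_mem, RingHom.mem_ker, map_sub, c4, hψi, sub_self]
    · rw [Ideal.span_le]
      intro z hz
      rw [Set.mem_insert_iff, Set.mem_insert_iff, Set.mem_singleton_iff] at hz
      rcases hz with rfl | rfl | rfl
      · exact c6
      · exact c7
      · exact c5
  have hJm : idRz' R d1 ≤ maximalIdeal (R3 R) := by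
    rw [idRz']
    refine sup_le ?_ ?_
    · rw [Ideal.span_singleton_le_iff_mem]
      exact Ideal.sub_mem _ dd_mem (map_mem_maxIdeal (iU R) hd)
    · rw [Ideal.span_le]
      intro z hz
      rw [Set.mem_insert_iff, Set.mem_insert_iff, Set.mem_singleton_iff] at hz
      rcases hz with rfl | rfl | rfl
      · exact aa_mem
      · exact bb_mem
      · exact yy_mem
  have hJt : idRz' R d1 ≠ ⊤ := fun h => by
    rw [h, top_le_iff] at hJm
    exact Ideal.IsPrime.ne_top' hJm
  have := isLocalRing_quot (idRz' R d1) hJt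
  have := isAdicComplete_of_surjective (Ideal.Quotient.mk (idRz' R d1))
    Ideal.Quotient.mk_surjective
  have hmk : ∀ z ∈ maximalIdeal (R3 R), Ideal.Quotient.mk (idRz' R d1) z ∈
      maximalIdeal (R3 R ⧸ idRz' R d1) := by
    intro z hz
    rw [← map_maximalIdeal_of_surjective (Ideal.Quotient.mk (idRz' R d1))
      Ideal.Quotient.mk_surjective]
    exact Ideal.mem_map_of_mem _ hz
  have hsψ : ∀ x, s (ψ x) - x ∈ idRz' R d1 := by
    have : (Ideal.Quotient.mk (idRz' R d1)) = ((Ideal.Quotient.mk (idRz' R d1)).comp s).comp ψ := by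
      have e0 : s (X 0) = uu1 R := hsX 0
      have e1 : s (X 1) = uu2 R := hsX 1
      apply R3_ext
      · intro r
        rw [RingHom.comp_apply, hψi, RingHom.comp_apply, hsC]
      · rw [RingHom.comp_apply, c2, RingHom.comp_apply, e0]
      · rw [RingHom.comp_apply, c3, RingHom.comp_apply, e1]
      · rw [RingHom.comp_apply, c4, RingHom.comp_apply, hsC, Ideal.Quotient.eq]
        exact Ideal.mem_sup_left (Ideal.subset_span rfl)
      · rw [RingHom.comp_apply, c5, map_zero, Ideal.Quotient.eq_zero_iff_mem]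
        exact Ideal.mem_sup_right (Ideal.subset_span (by simp))
      · rw [RingHom.comp_apply, c6, map_zero, Ideal.Quotient.eq_zero_iff_mem]
        exact Ideal.mem_sup_right (Ideal.subset_span (by simp))
      · rw [RingHom.comp_apply, c7, map_zero, Ideal.Quotient.eq_zero_iff_mem]
        exact Ideal.mem_sup_right (Ideal.subset_span (by simp))
      · exact hmk _ uu1_mem
      · exact hmk _ uu2_mem
      · exact hmk _ dd_mem
      · exact hmk _ yy_mem
      · exact hmk _ aa_mem
      · exact hmk _ bb_mem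
    intro x
    have h1 := congrArg (fun F : R3 R →+* (R3 R ⧸ idRz' R d1) => F x) this
    rw [← Ideal.Quotient.eq]
    exact h1.symm
  have hgood : Good j I ⊥ := good_PS (Fin 2) (by rw [Nat.card_fin]; norm_num) I
  exact (good_of_retract (iU R) j ψ s (idRz' R d1) c1 hψs hJ hsψ I hgood).1

/-- constants and `dd` on the unramified component -/
lemma dd_sub_notMem (I : Ideal R) [I.IsPrime] (n : ℕ) (hn : IsUnit (n : R))
    (c : R) :
    (n : R3 R) * dd R - iU R c ∉ I.map (iU R) ⊔ jdU R := by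
  intro hmem
  have hI : I ≠ ⊤ := Ideal.IsPrime.ne_top'
  have := isLocalRing_quot I hI
  have := isAdicComplete_of_surjective (Ideal.Quotient.mk I) Ideal.Quotient.mk_surjective
  let B := R ⧸ I
  have hloc : IsLocalHom (Ideal.Quotient.mk I) := by
    constructor
    intro a ha
    by_contra hna
    have h1 : a ∈ maximalIdeal R := (mem_maximalIdeal _).2 hna
    have h2 : Ideal.Quotient.mk I a ∈ maximalIdeal (R ⧸ I) := by
      rw [← map_maximalIdeal_of_surjective (Ideal.Quotient.mk I) Ideal.Quotient.mk_surjective]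
      exact Ideal.mem_map_of_mem _ h1
    exact (mem_maximalIdeal _).1 h2 ha
  obtain ⟨g, hg, c1, c2, c3, c4, c5, c6, c7⟩ := R3_univ (B := MvPowerSeries Unit B)
    ((C : B →+* MvPowerSeries Unit B).comp (Ideal.Quotient.mk I)) 0 0
    (PowerSeries.X : PowerSeries B) 0 0 0 (zero_mem _) (zero_mem _) (X_mem_maxIdeal ())
    (zero_mem _) (zero_mem _) (zero_mem _)
  have hgC : ∀ r, g (iU R r) = C (Ideal.Quotient.mk I r) := fun r => by
    rw [← RingHom.comp_apply, c1]; rfl
  have hg : I.map (iU R) ⊔ jdU R ≤ RingHom.ker g := by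
    rw [jdU, XI_eq]
    refine sup_le ?_ (sup_le ?_ ?_)
    · rw [Ideal.map_le_iff_le_comap]
      intro a ha
      rw [Ideal.mem_comap, RingHom.mem_ker, hgC, Ideal.Quotient.eq_zero_iff_mem.2 ha, map_zero]
    · rw [Ideal.span_le]
      intro z hz
      rw [Set.mem_insert_iff, Set.mem_singleton_iff] at hz
      rcases hz with rfl | rfl
      · exact c6
      · exact c7
    · rw [Ideal.span_singleton_le_iff_mem]
      exact c5
  have h1 := RingHom.mem_ker.1 (hg hmem)
  rw [map_sub, map_mul, map_natCast, c4, hgC] at h1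
  change (n : PowerSeries B) * (PowerSeries.X : PowerSeries B) - PowerSeries.C _ = 0 at h1
  have h3 := congrArg (PowerSeries.coeff 1) h1
  have h4 : (n : PowerSeries B) = PowerSeries.C (n : B) := by rw [map_natCast]
  rw [map_sub, PowerSeries.coeff_C, if_neg one_ne_zero, sub_zero, map_zero,
    h4, PowerSeries.coeff_C_mul, PowerSeries.coeff_one_X, mul_one] at h3
  have h5 : IsUnit ((n : ℕ) : B) := by
    have := hn.map (Ideal.Quotient.mk I)
    rwa [map_natCast] at this
  exact h5.ne_zero h3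

/-- the Steinberg ideal in `R3` -/
lemma Jst_R3 {h q ε d1 : R} (h2 : 2 * h = 1) (hε : ε ^ 2 = 1) (w x z u3 : R3 R)
    (hw : (1 + uu2 R) * w = 1) (hu3 : u3 = (x ^ 2 - iU R q - uu1 R ^ 2) * w)
    (hz : z ^ 2 = 1 + (yy R * uu1 R + aa R) ^ 2 + (yy R * (1 + uu2 R)) * (yy R * u3 + bb R))
    (hz' : z - 1 ∈ maximalIdeal (R3 R))
    (hd : Ideal.span {x - iU R (ε * (q + 1) * h)} = Ideal.span {dd R - iU R d1}) :
    Jst (iU R ε) (iU R q) (genM x (uu1 R) (1 + uu2 R) u3)
      (genM z (yy R * uu1 R + aa R) (yy R * (1 + uu2 R)) (yy R * u3 + bb R)) =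
      idSt w (ε * (q - 1) * h) d1 := by
  have hh : 2 * iU R h = 1 := two_map (iU R) h2
  have hzu : IsUnit (z + 1) := by
    refine isUnit_of_sub_mem (two_unit hh) ?_
    have e : z + 1 - 2 = z - 1 := by ring
    rw [e]
    exact hz'
  rw [Jst_nonsc (σ := iU R (ε * (q - 1) * h)) hh (by rw [← map_pow, hε, map_one])
    (by simp only [map_mul, map_sub, map_one]) hw hu3 hz hzu, idSt, ← hd]
  simp only [map_mul, map_add, map_one]

/-- the raising ideal in `R3` -/
lemma Jrz_R3 {h q ε d1 : R} (h2 : 2 * h = 1) (w x z u3 : R3 R)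
    (hw : (1 + uu2 R) * w = 1)
    (hz : z ^ 2 = 1 + (yy R * uu1 R + aa R) ^ 2 + (yy R * (1 + uu2 R)) * (yy R * u3 + bb R))
    (hz' : z - 1 ∈ maximalIdeal (R3 R))
    (hd : Ideal.span {x - iU R (ε * (q + 1) * h)} = Ideal.span {dd R - iU R d1}) :
    Jrz (iU R ε) (iU R q) (genM x (uu1 R) (1 + uu2 R) u3)
      (genM z (yy R * uu1 R + aa R) (yy R * (1 + uu2 R)) (yy R * u3 + bb R)) =
      idRz' R d1 := by
  have hh : 2 * iU R h = 1 := two_map (iU R) h2
  have hzu : IsUnit (z + 1) := by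
    refine isUnit_of_sub_mem (two_unit hh) ?_
    have e : z + 1 - 2 = z - 1 := by ring
    rw [e]
    exact hz'
  rw [Jrz_genM hh, Junr_nonsc hh hw hz hzu, idRz', ← hd]
  simp only [map_mul, map_add, map_one]
  rw [sup_comm, ← Ideal.span_union]
  congr 2
  ext t
  simp only [Set.mem_union, Set.mem_insert_iff, Set.mem_singleton_iff]
  tauto

lemma Junr_R3 {h : R} (h2 : 2 * h = 1) (w z u3 : R3 R)
    (hw : (1 + uu2 R) * w = 1)
    (hz : z ^ 2 = 1 + (yy R * uu1 R + aa R) ^ 2 + (yy R * (1 + uu2 R)) * (yy R * u3 + bb R))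
    (hz' : z - 1 ∈ maximalIdeal (R3 R)) :
    Junr (genM z (yy R * uu1 R + aa R) (yy R * (1 + uu2 R)) (yy R * u3 + bb R)) = jdU R := by
  have hh : 2 * iU R h = 1 := two_map (iU R) h2
  have hzu : IsUnit (z + 1) := by
    refine isUnit_of_sub_mem (two_unit hh) ?_
    have e : z + 1 - 2 = z - 1 := by ring
    rw [e]
    exact hz'
  rw [Junr_nonsc hh hw hz hzu, jdU, XI_eq]

/-- the four properties -/
theorem full_R3 {h q : R} (h2 : 2 * h = 1) (w x z u3 : R3 R)
    (hw : (1 + uu2 R) * w = 1) (hu3 : u3 = (x ^ 2 - iU R q - uu1 R ^ 2) * w)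
    (hz : z ^ 2 = 1 + (yy R * uu1 R + aa R) ^ 2 + (yy R * (1 + uu2 R)) * (yy R * u3 + bb R))
    (hz' : z - 1 ∈ maximalIdeal (R3 R)) (tr₀ : R)
    (hd : ∀ ε : R, ε ^ 2 = 1 → tr₀ - ε * (q + 1) ∈ maximalIdeal R →
      ∃ d1 ∈ maximalIdeal R, Ideal.span {x - iU R (ε * (q + 1) * h)} =
        Ideal.span {dd R - iU R d1}) (Φ T : M2 (R3 R))
    (hΦ : Φ = genM x (uu1 R) (1 + uu2 R) u3)
    (hT : T = genM z (yy R * uu1 R + aa R) (yy R * (1 + uu2 R)) (yy R * u3 + bb R)) :
    (∀ (I : Ideal R) [I.IsPrime], Good (iU R) I (Junr T)) ∧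
    (∀ (I : Ideal R) [I.IsPrime] (ε : R), ε ^ 2 = 1 → tr₀ - ε * (q + 1) ∈ maximalIdeal R →
      Good (iU R) I (Jst (iU R ε) (iU R q) Φ T) ∧
      ¬ Junr T ≤ I.map (iU R) ⊔ Jst (iU R ε) (iU R q) Φ T) ∧
    (∀ (I : Ideal R) [I.IsPrime] (ε : R), ε ^ 2 = 1 → tr₀ - ε * (q + 1) ∈ maximalIdeal R →
      Good (iU R) I (Jrz (iU R ε) (iU R q) Φ T)) := by
  subst hΦ hT
  refine ⟨?_, ?_, ?_⟩
  · intro I _
    rw [Junr_R3 h2 w z u3 hw hz hz']
    exact good_jdU I
  · intro I _ ε hε htr
    obtain ⟨d1, hd1, hd2⟩ := hd ε hε htr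
    rw [Jst_R3 h2 hε w x z u3 hw hu3 hz hz' hd2, Junr_R3 h2 w z u3 hw hz hz']
    obtain ⟨g1, g2⟩ := good_idSt w hw (ε * (q - 1) * h) hd1 I
    refine ⟨g1, fun hle => g2 (hle ?_)⟩
    rw [jdU]
    exact Ideal.mem_sup_right (Ideal.subset_span rfl)
  · intro I _ ε hε htr
    obtain ⟨d1, hd1, hd2⟩ := hd ε hε htr
    rw [Jrz_R3 h2 w x z u3 hw hz hz' hd2]
    exact good_idRz' hd1 I

end Ids

section FullU

theorem exists_stepU_full (R : CLR) {h q ε' : R} (h2 : 2 * h = 1) (hε' : IsUnit ε')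
    (hq : ε' ^ 2 - q ∈ maximalIdeal R) (hq1 : q - 1 ∈ maximalIdeal R) :
    ∃ s : Step R q (genM ε' 0 1 0), StepLL s ∧ StepFull s := by
  obtain ⟨w, hw⟩ := exists_wU (R := R)
  obtain ⟨x, hx, hx'⟩ := exists_xU h2 hε' hq
  obtain ⟨z, hz, hz'⟩ := exists_zU h2 w
  have hh : 2 * iU R h = 1 := two_map (iU R) h2
  have hu3 : uu3 w = (x ^ 2 - iU R q - uu1 R ^ 2) * w := by
    rw [hx, uu3]; ring
  have hd : ∀ ε : R, ε ^ 2 = 1 → (genM ε' 0 1 0 : M2 R).trace - ε * (q + 1) ∈ maximalIdeal R →
      ∃ d1 ∈ maximalIdeal R, Ideal.span {x - iU R (ε * (q + 1) * h)} =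
        Ideal.span {dd R - iU R d1} := by
    intro ε hε htr
    rw [trace_genM] at htr
    have hx1 := half_trace_mem (ε' := ε') h2 (by rw [sub_self]; exact zero_mem _) htr
    refine ⟨(ε * (q - 1) * h) ^ 2, ?_, ?_⟩
    · rw [pow_two]
      exact Ideal.mul_mem_right _ _ (Ideal.mul_mem_right _ _ (Ideal.mul_mem_left _ _ hq1))
    · set x1 : R := ε * (q + 1) * h with hx1'
      have hu : IsUnit (x + iU R x1) := by
        refine isUnit_of_sub_mem (y := 2 * iU R ε') ((two_unit hh).mul (hε'.map _)) ?_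
        have e : x + iU R x1 - 2 * iU R ε' = (x - iU R ε') + iU R (x1 - ε') := by
          rw [map_sub]; ring
        rw [e]
        exact Ideal.add_mem _ hx' (map_mem_maxIdeal (iU R) hx1)
      have e1 : x1 ^ 2 - q = (ε * (q - 1) * h) ^ 2 := by
        rw [hx1']
        have h4 : 4 * h ^ 2 = 1 := by linear_combination (2 * h + 1) * h2
        linear_combination (q + 1) ^ 2 * h ^ 2 * hε + q * h4 - (q - 1) ^ 2 * h ^ 2 * hε
      have e : dd R - iU R ((ε * (q - 1) * h) ^ 2) = (x - iU R x1) * (x + iU R x1) := by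
        rw [← e1]
        have h3 : (x - iU R x1) * (x + iU R x1) = x ^ 2 - iU R (x1 ^ 2) := by rw [map_pow]; ring
        rw [h3, hx, map_sub]
        ring
      rw [e, Ideal.span_singleton_mul_right_unit hu]
  obtain ⟨f1, f2, f3⟩ := full_R3 h2 w x z (uu3 w) hw hu3 hz hz' (genM ε' 0 1 0 : M2 R).trace hd
    (PhiU w x) (TU w z) rfl rfl
  refine ⟨stepU h q ε' h2 hε' w hw x hx hx' z hz hz', ?_, ⟨?_, ?_, ?_, ?_⟩⟩
  · refine ⟨?_, ?_, ?_⟩
    · intro I _ t ht htI
      change Good (iU R) I (Jchi (iU R t) (PhiU w x) (TU w z))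
      rw [Jchi_U h2 ht w x z hw hz hz']
      have e : t ^ 2 - 4 = 4 * ((t * h) ^ 2 - 1) := by
        linear_combination (-(t ^ 2)) * (2 * h + 1) * h2
      refine good_idU I ?_ ?_
      · have e2 : (t * h) ^ 2 - 1 = (t - 2) * ((t + 2) * h ^ 2) := by
          linear_combination (2 * h + 1) * h2
        rw [e2]
        exact Ideal.mul_mem_right _ _ ht
      · intro hmem
        apply htI
        rw [e]
        exact Ideal.mul_mem_left _ _ hmem
    · intro I _
      change Good (iU R) I (Junr (TU w z))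
      rw [Junr_U h2 w z hw hz hz']
      exact good_jdU I
    · intro I _
      change (PhiU w x).trace ^ 2 - (iU R q + 1) ^ 2 ∉ I.map (iU R) ⊔ Junr (TU w z)
      rw [Junr_U h2 w z hw hz hz', PhiU, trace_genM]
      exact ns_U h2 I q x hx
  · intro I _
    exact f1 I
  · intro I _ ε hε htr
    exact f2 I ε hε htr
  · intro I _ ε hε htr _
    exact f3 I ε hε htr
  · intro I _ ε
    change (PhiU w x).trace - iU R ε * (iU R q + 1) ∉ I.map (iU R) ⊔ Junr (TU w z)
    rw [Junr_U h2 w z hw hz hz', PhiU, trace_genM]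
    intro hmem
    have h4 : IsUnit ((4 : ℕ) : R) := by
      have : ((4 : ℕ) : R) = 2 * 2 := by norm_num
      rw [this]
      exact (two_unit h2).mul (two_unit h2)
    apply dd_sub_notMem I 4 h4 ((ε * (q + 1)) ^ 2 - 4 * q)
    have e : ((4 : ℕ) : R3 R) * dd R - iU R ((ε * (q + 1)) ^ 2 - 4 * q) =
        (2 * x + iU R ε * (iU R q + 1)) * (2 * x - iU R ε * (iU R q + 1)) := by
      simp only [map_sub, map_pow, map_mul, map_add, map_one, map_ofNat, Nat.cast_ofNat]
      linear_combination (-4) * hx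
    rw [e]
    exact Ideal.mul_mem_left _ _ hmem

end FullU

end Fermat.Agent.TAlg
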