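import Mathlib
import Fermat.Agent.TAlg.CaseU2
import Fermat.Agent.TAlg.Conj

/-! # Distinct eigenvalues: `Φ ≡ (x₀ 1; x₀² - q x₀)`. -/

set_option autoImplicit false
set_option linter.unusedSectionVars false
set_option linter.unusedSimpArgs false

open IsLocalRing MvPowerSeries

namespace Fermat.Agent.TAlg

section D

variable {R : Type} [CommRing R] [IsLocalRing R] [IsNoetherianRing R]
  [IsAdicComplete (maximalIdeal R) R]

/-- half trace -/
noncomputable def xD (x₀ : R) : R3 R := iU R x₀ + dd R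

/-- `u₃` -/
noncomputable def uD (q x₀ : R) (w : R3 R) : R3 R := (xD x₀ ^ 2 - iU R q - uu1 R ^ 2) * w

lemma w_sub_one_mem (w : R3 R) (hw : (1 + uu2 R) * w = 1) : w - 1 ∈ maximalIdeal (R3 R) := by
  have e : w - 1 = -(uu2 R * w) := by linear_combination hw
  rw [e]
  exact (Ideal.neg_mem_iff _).2 (Ideal.mul_mem_right _ _ uu2_mem)

lemma uD_sub_mem (q x₀ : R) (w : R3 R) (hw : (1 + uu2 R) * w = 1) :
    uD q x₀ w - iU R (x₀ ^ 2 - q) ∈ maximalIdeal (R3 R) := by
  have e : uD q x₀ w - iU R (x₀ ^ 2 - q) = iU R (x₀ ^ 2 - q) * (w - 1) +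
      dd R * ((2 * iU R x₀ + dd R) * w) - uu1 R * (uu1 R * w) := by
    rw [uD, xD]; simp only [map_sub, map_pow]; ring
  rw [e]
  exact Ideal.sub_mem _ (Ideal.add_mem _ (Ideal.mul_mem_left _ _ (w_sub_one_mem w hw))
    (Ideal.mul_mem_right _ _ dd_mem)) (Ideal.mul_mem_right _ _ uu1_mem)

lemma exists_zD {h : R} (h2 : 2 * h = 1) (u3 : R3 R) :
    ∃ z : R3 R, z ^ 2 = 1 + (yy R * uu1 R + aa R) ^ 2 + (yy R * (1 + uu2 R)) *
      (yy R * u3 + bb R) ∧ z - 1 ∈ maximalIdeal (R3 R) := by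
  refine exists_sqrt (two_unit (two_map (iU R) h2)) _ _ isUnit_one ?_
  have e : (1 : R3 R) ^ 2 - (1 + (yy R * uu1 R + aa R) ^ 2 + (yy R * (1 + uu2 R)) *
      (yy R * u3 + bb R)) = - ((yy R * uu1 R + aa R) * (yy R * uu1 R + aa R)) -
      yy R * ((1 + uu2 R) * (yy R * u3 + bb R)) := by ring
  rw [e]
  refine Ideal.sub_mem _ (Ideal.neg_mem_iff _ |>.2 (Ideal.mul_mem_right _ _
    (Ideal.add_mem _ (Ideal.mul_mem_right _ _ yy_mem) aa_mem))) (Ideal.mul_mem_right _ _ yy_mem)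

lemma D_univ {h q x₀ : R} (h2 : 2 * h = 1) (w : R3 R) (hw : (1 + uu2 R) * w = 1)
    (z : R3 R)
    (hz : z ^ 2 = 1 + (yy R * uu1 R + aa R) ^ 2 + (yy R * (1 + uu2 R)) *
      (yy R * uD q x₀ w + bb R)) (hz' : z - 1 ∈ maximalIdeal (R3 R))
    (B : Type) [CommRing B] [IsLocalRing B] [IsAdicComplete (maximalIdeal B) B]
    (f : R →+* B) [IsLocalHom f] (Φ' T' : M2 B) (hΦ' : Φ'.det = f q) (hT' : T'.det = 1)
    (hΦ₀ : ∀ a b, Φ' a b - f (genM x₀ 0 1 (x₀ ^ 2 - q) a b) ∈ maximalIdeal B)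
    (hT₀ : ∀ a b, T' a b - (1 : M2 B) a b ∈ maximalIdeal B) :
    ∃ f' : R3 R →+* B, IsLocalHom f' ∧ f'.comp (iU R) = f ∧
      (genM (xD x₀) (uu1 R) (1 + uu2 R) (uD q x₀ w)).map f' = Φ' ∧
      (genM z (yy R * uu1 R + aa R) (yy R * (1 + uu2 R))
        (yy R * uD q x₀ w + bb R)).map f' = T' := by
  have h2B : 2 * f h = 1 := two_map f h2
  have hΦ00 : Φ' 0 0 - f x₀ ∈ maximalIdeal B := by simpa [genM] using hΦ₀ 0 0
  have hΦ01 : Φ' 0 1 - 1 ∈ maximalIdeal B := by simpa [genM] using hΦ₀ 0 1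
  have hΦ11 : Φ' 1 1 - f x₀ ∈ maximalIdeal B := by simpa [genM] using hΦ₀ 1 1
  have hT00 : T' 0 0 - 1 ∈ maximalIdeal B := by simpa using hT₀ 0 0
  have hT01 : T' 0 1 ∈ maximalIdeal B := by simpa using hT₀ 0 1
  have hT10 : T' 1 0 ∈ maximalIdeal B := by simpa using hT₀ 1 0
  have hT11 : T' 1 1 - 1 ∈ maximalIdeal B := by simpa using hT₀ 1 1
  have hu01 : IsUnit (Φ' 0 1) := isUnit_of_sub_mem isUnit_one hΦ01
  obtain ⟨v, hv⟩ := hu01.exists_right_inv
  set u1' : B := (Φ' 0 0 - Φ' 1 1) * f h with hu1'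
  have m1 : u1' ∈ maximalIdeal B := by
    have e : (Φ' 0 0 - Φ' 1 1) * f h = ((Φ' 0 0 - f x₀) - (Φ' 1 1 - f x₀)) * f h := by ring
    rw [hu1', e]
    exact Ideal.mul_mem_right _ _ (Ideal.sub_mem _ hΦ00 hΦ11)
  set t0' : B := (T' 0 0 - T' 1 1) * f h with ht0'
  have m0 : t0' ∈ maximalIdeal B := by
    have e : (T' 0 0 - T' 1 1) * f h = ((T' 0 0 - 1) - (T' 1 1 - 1)) * f h := by ring
    rw [ht0', e]
    exact Ideal.mul_mem_right _ _ (Ideal.sub_mem _ hT00 hT11)
  set y' : B := T' 0 1 * v with hy'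
  have my : y' ∈ maximalIdeal B := Ideal.mul_mem_right _ _ hT01
  have md : Φ'.trace * f h - f x₀ ∈ maximalIdeal B := by
    have e : Φ'.trace * f h - f x₀ = ((Φ' 0 0 - f x₀) + (Φ' 1 1 - f x₀)) * f h := by
      rw [Matrix.trace_fin_two]; linear_combination (f x₀) * h2B
    rw [e]
    exact Ideal.mul_mem_right _ _ (Ideal.add_mem _ hΦ00 hΦ11)
  obtain ⟨f', hf', c1, c2, c3, c4, c5, c6, c7⟩ := R3_univ f u1' (Φ' 0 1 - 1)
    (Φ'.trace * f h - f x₀) y' (t0' - y' * u1') (T' 1 0 - y' * Φ' 1 0) m1 hΦ01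
    md my
    (Ideal.sub_mem _ m0 (Ideal.mul_mem_right _ _ my))
    (Ideal.sub_mem _ hT10 (Ideal.mul_mem_right _ _ my))
  have ciU : ∀ r, f' (iU R r) = f r := fun r => by rw [← RingHom.comp_apply, c1]
  have ew : Φ' 0 1 * f' w = 1 := by
    have := congrArg f' hw
    rw [map_mul, map_add, map_one, c3, add_sub_cancel] at this
    exact this
  have ewv : f' w = v := by
    calc f' w = (Φ' 0 1 * v) * f' w := by rw [hv, one_mul]
      _ = (Φ' 0 1 * f' w) * v := by ring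
      _ = v := by rw [ew, one_mul]
  have ex : f' (xD x₀) = Φ'.trace * f h := by
    rw [xD, map_add, ciU, c4]; ring
  have e3 : f' (uD q x₀ w) = Φ' 1 0 := by
    rw [uD, map_mul, map_sub, map_sub, map_pow, map_pow, ex, c2, ciU, ewv, ← hΦ', hu1',
      Matrix.det_fin_two, Matrix.trace_fin_two]
    linear_combination (Φ' 1 0) * hv + (Φ' 0 0 * Φ' 1 1 * v) * (2 * f h + 1) * h2B
  have ey : y' * Φ' 0 1 = T' 0 1 := by
    rw [hy']
    linear_combination (T' 0 1) * hv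
  have ez : f' z = T'.trace * f h := by
    refine eq_half_trace h2B isUnit_one T' hT' ?_ ?_ ?_
    · rw [← map_pow, hz]
      simp only [map_add, map_mul, map_pow, map_one, c2, c3, c5, c6, c7, e3]
      rw [← ht0']
      linear_combination (T' 1 0) * ey
    · have := map_mem_maxIdeal f' hz'
      rwa [map_sub, map_one] at this
    · rw [Matrix.trace_fin_two]
      have e : T' 0 0 + T' 1 1 - 2 * 1 = (T' 0 0 - 1) + (T' 1 1 - 1) := by ring
      rw [e]
      exact Ideal.add_mem _ hT00 hT11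
  refine ⟨f', hf', c1, ?_, ?_⟩
  · rw [map_genM, ex, c2, map_add, map_one, c3, e3, add_sub_cancel]
    exact (eq_genM (f h) h2B Φ').symm
  · rw [map_genM, ez]
    simp only [map_add, map_mul, map_one, c2, c3, c5, c6, c7, e3]
    rw [add_sub_cancel, add_sub_cancel (1 : B), ey, add_sub_cancel]
    exact (eq_genM (f h) h2B T').symm

end D

section StepD

/-- the universal pair in the case of distinct eigenvalues -/
noncomputable def stepD {R : CLR} (h q x₀ : R) (h2 : 2 * h = 1)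
    (w : R3 R) (hw : (1 + uu2 R) * w = 1) (z : R3 R)
    (hz : z ^ 2 = 1 + (yy R * uu1 R + aa R) ^ 2 + (yy R * (1 + uu2 R)) *
      (yy R * uD q x₀ w + bb R)) (hz' : z - 1 ∈ maximalIdeal (R3 R)) :
    Step R q (genM x₀ 0 1 (x₀ ^ 2 - q)) where
  R' := ringU R
  i := iU R
  loc := inferInstanceAs (IsLocalHom (iU R))
  Φ := (genM (xD x₀) (uu1 R) (1 + uu2 R) (uD q x₀ w) : M2 (R3 R))
  T := (genM z (yy R * uu1 R + aa R) (yy R * (1 + uu2 R)) (yy R * uD q x₀ w + bb R) : M2 (R3 R))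
  detΦ := by
    change (genM (xD x₀) (uu1 R) (1 + uu2 R) (uD q x₀ w) : M2 (R3 R)).det = iU R q
    rw [det_genM, uD]
    linear_combination (-(xD x₀ ^ 2 - iU R q - uu1 R ^ 2)) * hw
  detT := by
    change (genM z (yy R * uu1 R + aa R) (yy R * (1 + uu2 R))
      (yy R * uD q x₀ w + bb R) : M2 (R3 R)).det = 1
    rw [det_genM, hz]
    ring
  hΦ := by
    intro a b
    change (genM (xD x₀) (uu1 R) (1 + uu2 R) (uD q x₀ w) : M2 (R3 R)) a b -
      ((genM x₀ 0 1 (x₀ ^ 2 - q)).map (iU R) : M2 (R3 R)) a b ∈ maximalIdeal (R3 R)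
    rw [map_genM]
    refine genM_sub_mem ?_ ?_ ?_ ?_ a b
    · rw [xD, add_sub_cancel_left]
      exact dd_mem
    · rw [map_zero, sub_zero]
      exact uu1_mem
    · rw [map_one, add_sub_cancel_left]
      exact uu2_mem
    · exact uD_sub_mem q x₀ w hw
  hT := by
    intro a b
    change (genM z (yy R * uu1 R + aa R) (yy R * (1 + uu2 R))
      (yy R * uD q x₀ w + bb R) : M2 (R3 R)) a b - (1 : M2 (R3 R)) a b ∈ maximalIdeal (R3 R)
    rw [one_eq_genM]
    refine genM_sub_mem hz' ?_ ?_ ?_ a b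
    · rw [sub_zero]
      exact Ideal.add_mem _ (Ideal.mul_mem_right _ _ yy_mem) aa_mem
    · rw [sub_zero]
      exact Ideal.mul_mem_right _ _ yy_mem
    · rw [sub_zero]
      exact Ideal.add_mem _ (Ideal.mul_mem_right _ _ yy_mem) bb_mem
  univ := D_univ h2 w hw z hz hz'
  res := fun z => res_R3 z

theorem exists_stepD_full (R : CLR) {h q x₀ : R} (h2 : 2 * h = 1) :
    ∃ s : Step R q (genM x₀ 0 1 (x₀ ^ 2 - q)), StepFull s := by
  obtain ⟨w, hw⟩ := exists_wU (R := R)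
  obtain ⟨z, hz, hz'⟩ := exists_zD h2 (uD q x₀ w)
  have hh : 2 * iU R h = 1 := two_map (iU R) h2
  have hd : ∀ ε : R, ε ^ 2 = 1 → (genM x₀ 0 1 (x₀ ^ 2 - q) : M2 R).trace - ε * (q + 1) ∈
      maximalIdeal R → ∃ d1 ∈ maximalIdeal R, Ideal.span {xD x₀ - iU R (ε * (q + 1) * h)} =
        Ideal.span {dd R - iU R d1} := by
    intro ε hε htr
    rw [trace_genM] at htr
    have hx1 := half_trace_mem (ε' := x₀) h2 (by rw [sub_self]; exact zero_mem _) htr
    refine ⟨ε * (q + 1) * h - x₀, hx1, ?_⟩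
    have e : xD x₀ - iU R (ε * (q + 1) * h) = dd R - iU R (ε * (q + 1) * h - x₀) := by
      rw [xD, map_sub]; ring
    rw [e]
  obtain ⟨f1, f2, f3⟩ := full_R3 h2 w (xD x₀) z (uD q x₀ w) hw rfl hz hz'
    (genM x₀ 0 1 (x₀ ^ 2 - q) : M2 R).trace hd
    (genM (xD x₀) (uu1 R) (1 + uu2 R) (uD q x₀ w))
    (genM z (yy R * uu1 R + aa R) (yy R * (1 + uu2 R)) (yy R * uD q x₀ w + bb R)) rfl rfl
  refine ⟨stepD h q x₀ h2 w hw z hz hz', ?_, ?_, ?_, ?_⟩
  · intro I _
    exact f1 I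
  · intro I _ ε hε htr
    exact f2 I ε hε htr
  · intro I _ ε hε htr _
    exact f3 I ε hε htr
  · intro I _ ε
    change (genM (xD x₀) (uu1 R) (1 + uu2 R) (uD q x₀ w) : M2 (R3 R)).trace -
      iU R ε * (iU R q + 1) ∉ I.map (iU R) ⊔
      Junr (genM z (yy R * uu1 R + aa R) (yy R * (1 + uu2 R)) (yy R * uD q x₀ w + bb R))
    rw [Junr_R3 h2 w z _ hw hz hz', trace_genM]
    intro hmem
    have h4 : IsUnit ((2 : ℕ) : R) := by
      rw [Nat.cast_ofNat]
      exact two_unit h2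
    apply dd_sub_notMem I 2 h4 (ε * (q + 1) - 2 * x₀)
    have e : ((2 : ℕ) : R3 R) * dd R - iU R (ε * (q + 1) - 2 * x₀) =
        2 * xD x₀ - iU R ε * (iU R q + 1) := by
      simp only [map_sub, map_pow, map_mul, map_add, map_one, map_ofNat, Nat.cast_ofNat, xD]
      ring
    rw [e]
    exact hmem

end StepD

section Normal

variable {R : CLR} {q : R} {Φ₀ Φ₁ : M2 R}

theorem StepFull.conj (s : Step R q Φ₁) (hs : StepFull s) (g g' : M2 R) (h : g * g' = 1)
    (h' : g' * g = 1) (hc : ∀ a b, (g * Φ₀ * g') a b - Φ₁ a b ∈ maximalIdeal R) :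
    StepFull (s.conj g g' h h' hc) := by
  have e := map_inv_pair s.i h
  have e' := map_inv_pair s.i h'
  have htr : Φ₁.trace - Φ₀.trace ∈ maximalIdeal R := by
    have h1 : (g * Φ₀ * g').trace = Φ₀.trace := trace_conj h' Φ₀
    rw [← h1, Matrix.trace_fin_two, Matrix.trace_fin_two]
    have e : Φ₁ 0 0 + Φ₁ 1 1 - ((g * Φ₀ * g') 0 0 + (g * Φ₀ * g') 1 1) =
      -(((g * Φ₀ * g') 0 0 - Φ₁ 0 0) + ((g * Φ₀ * g') 1 1 - Φ₁ 1 1)) := by ring
    rw [e]
    exact (Ideal.neg_mem_iff _).2 (Ideal.add_mem _ (hc 0 0) (hc 1 1))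
  have htr' : ∀ ε : R, Φ₀.trace - ε * (q + 1) ∈ maximalIdeal R →
      Φ₁.trace - ε * (q + 1) ∈ maximalIdeal R := by
    intro ε h1
    have := Ideal.add_mem _ htr h1
    rwa [sub_add_sub_cancel] at this
  refine ⟨?_, ?_, ?_, ?_⟩
  · intro I _
    change Good s.i I (Junr (g'.map s.i * s.T * g.map s.i))
    rw [Junr_conj e' e]
    exact hs.unr I
  · intro I _ ε hε h1
    change Good s.i I (Jst (s.i ε) (s.i q) (g'.map s.i * s.Φ * g.map s.i)
      (g'.map s.i * s.T * g.map s.i)) ∧ ¬ Junr (g'.map s.i * s.T * g.map s.i) ≤ I.map s.i ⊔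
        Jst (s.i ε) (s.i q) (g'.map s.i * s.Φ * g.map s.i) (g'.map s.i * s.T * g.map s.i)
    rw [Jst_conj e' e, Junr_conj e' e]
    exact hs.st I ε hε (htr' ε h1)
  · intro I _ ε hε h1 h2
    change Good s.i I (Jrz (s.i ε) (s.i q) (g'.map s.i * s.Φ * g.map s.i)
      (g'.map s.i * s.T * g.map s.i))
    rw [Jrz_conj e' e]
    exact hs.rz I ε hε (htr' ε h1) h2
  · intro I _ ε
    change (g'.map s.i * s.Φ * g.map s.i).trace - s.i ε * (s.i q + 1) ∉ I.map s.i ⊔
      Junr (g'.map s.i * s.T * g.map s.i)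
    rw [Junr_conj e' e, trace_conj e]
    exact hs.ns I ε

/-- normal form of a matrix with distinct eigenvalues modulo the maximal ideal -/
lemma exists_normal_D {B : Type} [CommRing B] [IsLocalRing B] {h q : B} (h2 : 2 * h = 1) (M : M2 B)
    (hdet : M.det - q ∈ maximalIdeal B) (hu : IsUnit ((M.trace * h) ^ 2 - q)) :
    ∃ g g' : M2 B, g * g' = 1 ∧ g' * g = 1 ∧
      ∀ a b, (g * M * g') a b - genM (M.trace * h) 0 1 ((M.trace * h) ^ 2 - q) a b ∈
        maximalIdeal B := by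
  set x : B := M.trace * h with hx
  set a : B := (M 0 0 - M 1 1) * h with ha
  set b := M 0 1 with hb
  set c := M 1 0 with hc
  have eM : M = genM x a b c := eq_genM h h2 M
  have hdet' : a ^ 2 + b * c - (x ^ 2 - q) ∈ maximalIdeal B := by
    have h1 := hdet
    rw [eM, det_genM] at h1
    have e : a ^ 2 + b * c - (x ^ 2 - q) = -(x ^ 2 - a ^ 2 - b * c - q) := by ring
    rw [e]
    exact (Ideal.neg_mem_iff _).2 h1
  have main : ∀ P : M2 B, IsUnit P.det →
      (∀ i j, (M * P) i j - (P * genM x 0 1 (x ^ 2 - q)) i j ∈ maximalIdeal B) →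
      ∃ g g' : M2 B, g * g' = 1 ∧ g' * g = 1 ∧
      ∀ a b, (g * M * g') a b - genM x 0 1 (x ^ 2 - q) a b ∈ maximalIdeal B := by
    intro P hP hMP
    refine ⟨P⁻¹, P, Matrix.nonsing_inv_mul P hP, Matrix.mul_nonsing_inv P hP, ?_⟩
    have h1 : ent (M * P - P * genM x 0 1 (x ^ 2 - q)) ≤ maximalIdeal B := ent_le_iff.2 hMP
    have h2 := (ent_mul_left P⁻¹ (M * P - P * genM x 0 1 (x ^ 2 - q))).trans h1
    have e : P⁻¹ * (M * P - P * genM x 0 1 (x ^ 2 - q)) = P⁻¹ * M * P -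
        genM x 0 1 (x ^ 2 - q) := by
      rw [mul_sub, ← mul_assoc, ← mul_assoc, Matrix.nonsing_inv_mul P hP, one_mul]
    rw [e] at h2
    exact ent_le_iff.1 h2
  -- the matrix `(M₀ v | v)` for `v = (s, t)`
  have key : ∀ s t : B, IsUnit ((a * s + b * t) * t - (c * s - a * t) * s) →
      ∃ g g' : M2 B, g * g' = 1 ∧ g' * g = 1 ∧
      ∀ a b, (g * M * g') a b - genM x 0 1 (x ^ 2 - q) a b ∈ maximalIdeal B := by
    intro s t hst
    apply main !![a * s + b * t, s; c * s - a * t, t]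
    · rw [Matrix.det_fin_two_of]
      have e : (a * s + b * t) * t - s * (c * s - a * t) =
        (a * s + b * t) * t - (c * s - a * t) * s := by ring
      rw [e]
      exact hst
    · intro i j
      have e : M * !![a * s + b * t, s; c * s - a * t, t] -
          !![a * s + b * t, s; c * s - a * t, t] * genM x 0 1 (x ^ 2 - q) =
          !![(a ^ 2 + b * c - (x ^ 2 - q)) * s, 0; (a ^ 2 + b * c - (x ^ 2 - q)) * t, 0] := by
        rw [eM, genM, genM]
        ext i j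
        fin_cases i <;> fin_cases j <;> simp [Matrix.mul_apply] <;> ring
      have : (M * !![a * s + b * t, s; c * s - a * t, t] -
          !![a * s + b * t, s; c * s - a * t, t] * genM x 0 1 (x ^ 2 - q)) i j ∈
            maximalIdeal B := by
        rw [e]
        fin_cases i <;> fin_cases j
        · exact Ideal.mul_mem_right _ _ hdet'
        · exact zero_mem _
        · exact Ideal.mul_mem_right _ _ hdet'
        · exact zero_mem _
      exact this
  by_cases hbu : IsUnit b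
  · refine key 0 1 ?_
    have e : (a * 0 + b * 1) * 1 - (c * 0 - a * 1) * 0 = b := by ring
    rw [e]; exact hbu
  by_cases hcu : IsUnit c
  · refine key 1 0 ?_
    have e : (a * 1 + b * 0) * 0 - (c * 1 - a * 0) * 1 = -c := by ring
    rw [e]; exact hcu.neg
  · have hbm : b ∈ maximalIdeal B := (mem_maximalIdeal _).2 hbu
    have hcm : c ∈ maximalIdeal B := (mem_maximalIdeal _).2 hcu
    have hau : IsUnit a := by
      have h1 : IsUnit (a ^ 2) := by
        refine isUnit_of_sub_mem hu ?_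
        have e : a ^ 2 - (x ^ 2 - q) = (a ^ 2 + b * c - (x ^ 2 - q)) - b * c := by ring
        rw [e]
        exact Ideal.sub_mem _ hdet' (Ideal.mul_mem_right _ _ hbm)
      exact (isUnit_pow_iff two_ne_zero).1 h1
    refine key 1 1 ?_
    refine isUnit_of_sub_mem ((two_unit h2).mul hau) ?_
    have e : (a * 1 + b * 1) * 1 - (c * 1 - a * 1) * 1 - 2 * a = b - c := by ring
    rw [e]
    exact Ideal.sub_mem _ hbm hcm

/-- EXISTENCE of the universal pair. -/
theorem exists_step_full (R : CLR) {h q ε : R} (h2 : 2 * h = 1) (hε : ε ^ 2 = 1)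
    (Φ₀ : M2 R) (hdet : Φ₀.det - q ∈ maximalIdeal R)
    (htr : Φ₀.trace - ε * (q + 1) ∈ maximalIdeal R) : ∃ s : Step R q Φ₀, StepFull s := by
  have hεu : IsUnit ε := IsUnit.of_mul_eq_one ε (by rw [← pow_two, hε])
  by_cases hq1 : q - 1 ∈ maximalIdeal R
  · have hq : ε ^ 2 - q ∈ maximalIdeal R := by
      rw [hε]
      have e : 1 - q = -(q - 1) := by ring
      rw [e]
      exact (Ideal.neg_mem_iff _).2 hq1
    have htr' : Φ₀.trace - 2 * ε ∈ maximalIdeal R := by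
      have e : Φ₀.trace - 2 * ε = (Φ₀.trace - ε * (q + 1)) + ε * (q - 1) := by ring
      rw [e]
      exact Ideal.add_mem _ htr (Ideal.mul_mem_left _ _ hq1)
    rcases exists_normal Φ₀ hq hdet htr' with h1 | ⟨g, g', h1, h1', h3⟩
    · obtain ⟨s, -, hs⟩ := exists_stepS_full R h2 hεu hq hq1
      exact ⟨_, hs.conj s 1 1 (mul_one 1) (mul_one 1) (by
        intro a b
        rw [one_mul, mul_one]
        exact h1 a b)⟩
    · obtain ⟨s, -, hs⟩ := exists_stepU_full R h2 hεu hq hq1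
      exact ⟨_, hs.conj s g g' h1 h1' h3⟩
  · have hqu : IsUnit (q - 1) := by
      by_contra h
      exact hq1 ((mem_maximalIdeal _).2 h)
    have hu : IsUnit ((Φ₀.trace * h) ^ 2 - q) := by
      have hhu : IsUnit h := IsUnit.of_mul_eq_one 2 (by rw [mul_comm]; exact h2)
      refine isUnit_of_sub_mem ((hqu.mul hhu).pow 2) ?_
      have e : (Φ₀.trace * h) ^ 2 - q - ((q - 1) * h) ^ 2 =
          (Φ₀.trace - ε * (q + 1)) * ((Φ₀.trace + ε * (q + 1)) * h ^ 2) := by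
        have h4 : 4 * h ^ 2 = 1 := by linear_combination (2 * h + 1) * h2
        linear_combination ((q + 1) ^ 2 * h ^ 2) * hε + q * h4
      rw [e]
      exact Ideal.mul_mem_right _ _ htr
    obtain ⟨g, g', h1, h1', h3⟩ := exists_normal_D h2 Φ₀ hdet hu
    obtain ⟨s, hs⟩ := exists_stepD_full R (q := q) (x₀ := Φ₀.trace * h) h2
    exact ⟨_, hs.conj s g g' h1 h1' h3⟩

end Normal

end Fermat.Agent.TAlg
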