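import Mathlib
import Fermat.Agent.TAlg.CaseD
import Fermat.Agent.TAlg.Pack

/-! # Local packages for modularity lifting. -/

set_option autoImplicit false
set_option linter.unusedSectionVars false

open IsLocalRing

namespace Fermat.Agent.TAlg

section Raw

variable {O R : Type} [CommRing O] [CommRing R] {T : Type}

/-- non-triviality of Steinberg components -/
def OKst (i : O →+* R) (q : T → O) (Φ S : T → M2 R) (ok : T → Ideal O → Typ O → Prop) :
    Prop :=
  ∀ (𝔭 : Ideal O) [𝔭.IsPrime] (τ : T → Typ O), (∀ t, ok t 𝔭 (τ t)) →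
    ∀ t ε, τ t = .st ε → ¬ Junr (S t) ≤ Kid i q Φ S 𝔭 τ

theorem OKst_option [Finite T] {R' : Type} [CommRing R'] (r : ℕ) (i : O →+* R) (k : R →+* R')
    (q : Option T → O)
    (Φ S : T → M2 R) (Φ' S' : M2 R') (ok : Option T → Ideal O → Typ O → Prop)
    (hp : OKraw r i (fun t => q (some t)) Φ S (fun t => ok (some t)))
    (hp' : OKst i (fun t => q (some t)) Φ S (fun t => ok (some t)))
    (hs1 : ∀ (I : Ideal R) [I.IsPrime] (τ : Typ O), ok none (I.comap i) τ →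
      Good k I ((τ.map (k.comp i)).J (k (i (q none))) Φ' S'))
    (hs3 : ∀ (I : Ideal R) [I.IsPrime] (ε : O), ok none (I.comap i) (.st ε) →
      ¬ Junr S' ≤ I.map k ⊔ Jst (k (i ε)) (k (i (q none))) Φ' S') :
    OKst (k.comp i) q (fun t => Option.elim t Φ' fun t => (Φ t).map k)
      (fun t => Option.elim t S' fun t => (S t).map k) ok := by
  intro 𝔭 _ τ hτ
  obtain ⟨k1, k2, k3, k4⟩ := hp 𝔭 (fun t => τ (some t)) (fun t => hτ (some t))
  have hok : ok none ((Kid i (fun t => q (some t)) Φ S 𝔭 (fun t => τ (some t))).comap i)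
      (τ none) := by
    rw [k2]; exact hτ none
  obtain ⟨l1, l2, l3⟩ := hs1 _ (τ none) hok
  rw [← Kid_option] at l1 l2 l3
  rintro (_ | t) ε ht hle
  · rw [Kid_option, ht] at hle
    rw [ht] at hok
    exact hs3 _ ε hok hle
  · apply hp' 𝔭 (fun t => τ (some t)) (fun t => hτ (some t)) t ε ht
    rw [← l2, ← Ideal.map_le_iff_le_comap, map_Junr]
    exact hle

theorem OKst_equiv {T' : Type} (e : T ≃ T') (i : O →+* R)
    (q : T' → O) (Φ S : T → M2 R) (ok : T' → Ideal O → Typ O → Prop)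
    (h : OKst i (fun t => q (e t)) Φ S (fun t => ok (e t))) :
    OKst i q (fun t => Φ (e.symm t)) (fun t => S (e.symm t)) ok := by
  intro 𝔭 _ τ hτ t ε ht hle
  rw [Kid_equiv] at hle
  refine h 𝔭 (fun t => τ (e t)) (fun t => hτ _) (e.symm t) ε ?_ hle
  rw [Equiv.apply_symm_apply]
  exact ht

end Raw

/-- the property of a step giving `OKst` -/
def StepSt {O R : CLR} (j : O →+* R) {q : O} {Φ₀ : M2 O} (s : Step R (j q) (Φ₀.map j))
    (ok : Ideal O → Typ O → Prop) : Prop :=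
  ∀ (I : Ideal R) [I.IsPrime] (ε : O), ok (I.comap j) (.st ε) →
    ¬ Junr s.T ≤ I.map s.i ⊔ Jst (s.i (j ε)) (s.i (j q)) s.Φ s.T

/-- existence of packages from existence of steps. -/
theorem exists_pack2 (O : CLR) (r : ℕ) (T : Type) [Finite T] (q : T → O) (Φ₀ : T → M2 O)
    (ok : T → Ideal O → Typ O → Prop)
    (hstep : ∀ t (R : CLR) (j : O →+* R), IsLocalHom j →
      ∃ s : Step R (j (q t)) ((Φ₀ t).map j), StepOK j s (ok t) ∧ StepSt j s (ok t)) :
    ∃ p : Pack O r T q Φ₀, p.OK ok ∧ OKst p.i q p.Φ p.S ok := by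
  induction T using Finite.induction_empty_option with
  | of_equiv e H =>
    obtain ⟨p, hp, hp'⟩ := H (fun t => q (e t)) (fun t => Φ₀ (e t)) (fun t => ok (e t))
      (fun t R j hj => hstep (e t) R j hj)
    exact ⟨packEquiv e q Φ₀ p, OKraw_equiv e p.i q p.Φ p.S ok hp, OKst_equiv e p.i q p.Φ p.S ok hp'⟩
  | h_empty => exact ⟨packEmpty O r q Φ₀, packEmpty_OK O r q Φ₀ ok, fun _ _ _ _ t => t.elim⟩
  | h_option IH =>
    obtain ⟨p, hp, hp'⟩ := IH (fun t => q (some t)) (fun t => Φ₀ (some t)) (fun t => ok (some t))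
      (fun t R j hj => hstep (some t) R j hj)
    obtain ⟨s, hs, hs'⟩ := hstep none p.R p.i p.loc
    exact ⟨packOption q Φ₀ p s, packOption_OK q Φ₀ p ok hp s hs,
      OKst_option r p.i s.i q p.Φ p.S s.Φ s.T ok hp hp' hs.1 hs'⟩

/-- allowed types for modularity lifting -/
def okML {O : Type} [CommRing O] [IsLocalRing O] (q : O) (tr : O) (𝔭 : Ideal O) (τ : Typ O) :
    Prop :=
  match τ with
  | .unr => True
  | .chi _ => False
  | .st ε => ε ^ 2 = 1 ∧ tr - ε * (q + 1) ∈ maximalIdeal O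
  | .rz ε => ε ^ 2 = 1 ∧ tr - ε * (q + 1) ∈ maximalIdeal O ∧ q - 1 ∉ 𝔭

theorem exists_pack_ML (O : CLR) (h2 : IsUnit (2 : O)) (r : ℕ) (T : Type) [Finite T] (q : T → O)
    (Φ₀ : T → M2 O)
    (hdet : ∀ t, (Φ₀ t).det - q t ∈ maximalIdeal O)
    (htr : ∀ t, ∃ ε : O, ε ^ 2 = 1 ∧ (Φ₀ t).trace - ε * (q t + 1) ∈ maximalIdeal O) :
    ∃ p : Pack O r T q Φ₀, p.OK (fun t => okML (q t) (Φ₀ t).trace) ∧
      OKst p.i q p.Φ p.S (fun t => okML (q t) (Φ₀ t).trace) := by
  refine exists_pack2 O r T q Φ₀ _ ?_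
  intro t R j hj
  obtain ⟨h, h2'⟩ := h2.exists_right_inv
  have hh : 2 * j h = 1 := two_map j h2'
  obtain ⟨ε, hε, hε'⟩ := htr t
  have htrj : ((Φ₀ t).map j).trace = j (Φ₀ t).trace := by
    rw [Matrix.trace_fin_two, Matrix.trace_fin_two, map_add]; rfl
  have htr' : ∀ ε : O, (Φ₀ t).trace - ε * (q t + 1) ∈ maximalIdeal O →
      ((Φ₀ t).map j).trace - j ε * (j (q t) + 1) ∈ maximalIdeal R := by
    intro ε h1
    have e : ((Φ₀ t).map j).trace - j ε * (j (q t) + 1) =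
        j ((Φ₀ t).trace - ε * (q t + 1)) := by
      rw [htrj]; simp only [map_sub, map_mul, map_add, map_one]
    rw [e]
    exact map_mem_maxIdeal j h1
  have hε2 : ∀ ε : O, ε ^ 2 = 1 → (j ε) ^ 2 = 1 := fun ε h => by rw [← map_pow, h, map_one]
  have h4 : ((Φ₀ t).map j).det - j (q t) ∈ maximalIdeal R := by
    have e : ((Φ₀ t).map j).det = j (Φ₀ t).det := by
      rw [RingHom.map_det]; rfl
    rw [e, ← map_sub]
    exact map_mem_maxIdeal j (hdet t)
  obtain ⟨s, hs⟩ := exists_step_full R hh (hε2 ε hε) ((Φ₀ t).map j) h4 (htr' ε hε')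
  refine ⟨s, ⟨?_, ?_⟩, ?_⟩
  · intro I _ τ hok
    cases τ with
    | unr => exact hs.unr I
    | chi c => exact hok.elim
    | st ε =>
      obtain ⟨k1, k2⟩ := hok
      exact (hs.st I (j ε) (hε2 ε k1) (htr' ε k2)).1
    | rz ε =>
      obtain ⟨k1, k2, k3⟩ := hok
      refine hs.rz I (j ε) (hε2 ε k1) (htr' ε k2) (fun h => k3 ?_)
      rw [Ideal.mem_comap, map_sub, map_one]
      exact h
  · intro I _ ε' hε''
    exact hs.ns I (j ε')
  · intro I _ ε hok
    obtain ⟨k1, k2⟩ := hok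
    exact (hs.st I (j ε) (hε2 ε k1) (htr' ε k2)).2

end Fermat.Agent.TAlg
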