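import Mathlib
import Fermat.Agent.TAlg.Dich
import Fermat.Agent.TAlg.Pack2

/-! # One step of level raising: ideals of the local package. -/

set_option autoImplicit false
set_option linter.unusedSectionVars false

open IsLocalRing MvPowerSeries

namespace Fermat.Agent.TAlg

namespace Pack

section General

variable {O : CLR} {r : ℕ} {T : Type} {q : T → O} {Φ₀ : T → M2 O} (p : Pack O r T q Φ₀)

lemma J_le_K (𝔭 : Ideal O) (τ : T → Typ O) (t : T) :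
    ((τ t).map p.i).J (p.i (q t)) (p.Φ t) (p.S t) ≤ p.K 𝔭 τ :=
  le_sup_of_le_right (le_iSup (fun t => ((τ t).map p.i).J (p.i (q t)) (p.Φ t) (p.S t)) t)

lemma K_bot_le {τ : T → Typ O} {P : Ideal p.R}
    (h : ∀ t, ((τ t).map p.i).J (p.i (q t)) (p.Φ t) (p.S t) ≤ P) : p.K ⊥ τ ≤ P := by
  rw [K, Kid, Ideal.map_bot, bot_sup_eq]
  exact iSup_le h

/-- traces of Frobenius and residual traces -/
lemma trace_sub_mem (t : T) : (p.Φ t).trace - p.i (Φ₀ t).trace ∈ maximalIdeal p.R := by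
  rw [Matrix.trace_fin_two, Matrix.trace_fin_two, map_add]
  have e : p.Φ t 0 0 + p.Φ t 1 1 - (p.i (Φ₀ t 0 0) + p.i (Φ₀ t 1 1)) =
    (p.Φ t 0 0 - p.i (Φ₀ t 0 0)) + (p.Φ t 1 1 - p.i (Φ₀ t 1 1)) := by ring
  rw [e]
  exact Ideal.add_mem _ (p.hΦ t 0 0) (p.hΦ t 1 1)

/-- a Steinberg component through the closed point forces the congruence -/
lemma residual_of_mem {t : T} {ε : O} {P : Ideal p.R} (hP : P ≠ ⊤)
    (h : (p.Φ t).trace - p.i ε * (p.i (q t) + 1) ∈ P) :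
    (Φ₀ t).trace - ε * (q t + 1) ∈ maximalIdeal O := by
  have := p.loc
  have h1 : (p.Φ t).trace - p.i ε * (p.i (q t) + 1) ∈ maximalIdeal p.R := le_maximalIdeal hP h
  have h2 : p.i ((Φ₀ t).trace - ε * (q t + 1)) ∈ maximalIdeal p.R := by
    have h3 := Ideal.sub_mem _ h1 (p.trace_sub_mem t)
    have e : p.i ((Φ₀ t).trace - ε * (q t + 1)) =
      (p.Φ t).trace - p.i ε * (p.i (q t) + 1) - ((p.Φ t).trace - p.i (Φ₀ t).trace) := by
      simp only [map_sub, map_mul, map_add, map_one]; ring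
    rw [e]
    exact h3
  rw [mem_maximalIdeal, mem_nonunits_iff]
  intro hu
  exact (mem_maximalIdeal _).1 h2 (hu.map p.i)

/-- dichotomy in the package -/
lemma exists_type (P : Ideal p.R) [P.IsPrime] (t : T) (hqu : IsUnit (q t))
    (h1 : J1 (p.i (q t)) (p.Φ t) (p.S t) ≤ P) :
    Junr (p.S t) ≤ P ∨ ∃ ε : O, (ε = 1 ∨ ε = -1) ∧
      Jst (p.i ε) (p.i (q t)) (p.Φ t) (p.S t) ≤ P := by
  have hq : p.i (q t) ∉ P := fun h =>
    Ideal.IsPrime.ne_top' (Ideal.eq_top_of_isUnit_mem _ h (hqu.map p.i))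
  rcases dichotomy P hq (p.Φ t) (p.S t) h1 (p.detS t) (p.detΦ t) with h | h | h
  · exact Or.inl h
  · exact Or.inr ⟨1, Or.inl rfl, by rwa [map_one]⟩
  · exact Or.inr ⟨-1, Or.inr rfl, by rwa [map_neg, map_one]⟩

end General

section Raise

variable {O : CLR} [IsDomain O] {r m : ℕ} {q : Fin m → O} {Φ₀ : Fin m → M2 O}
  (p : Pack O r (Fin m) q Φ₀) (ε : Fin m → O)

/-- types at stage `j` -/
def tyS (ε : Fin m → O) (j : Fin (m + 1)) (t : Fin m) : Typ O :=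
  if t.castSucc < j then .st (ε t) else .unr

/-- types of the raising prime -/
def tyQ (ε : Fin m → O) (t₀ t : Fin m) : Typ O :=
  if t < t₀ then .st (ε t) else if t = t₀ then .rz (ε t) else .unr

/-- the ideal killing both systems -/
noncomputable def I0 (t₀ : Fin m) : Ideal p.R :=
  ⨆ t, if t ≤ t₀ then J1 (p.i (q t)) (p.Φ t) (p.S t) else Junr (p.S t)

lemma I0_le {t₀ : Fin m} {P : Ideal p.R}
    (h1 : ∀ t, t ≤ t₀ → J1 (p.i (q t)) (p.Φ t) (p.S t) ≤ P)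
    (h2 : ∀ t, t₀ < t → Junr (p.S t) ≤ P) : p.I0 t₀ ≤ P := by
  refine iSup_le fun t => ?_
  split_ifs with h
  · exact h1 t h
  · exact h2 t (not_le.1 h)

lemma J1_le_I0 {t₀ t : Fin m} (h : t ≤ t₀) : J1 (p.i (q t)) (p.Φ t) (p.S t) ≤ p.I0 t₀ := by
  have := le_iSup (fun t => if t ≤ t₀ then J1 (p.i (q t)) (p.Φ t) (p.S t) else Junr (p.S t)) t
  simp only [if_pos h] at this
  exact this

lemma Junr_le_I0 {t₀ t : Fin m} (h : t₀ < t) : Junr (p.S t) ≤ p.I0 t₀ := by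
  have := le_iSup (fun t => if t ≤ t₀ then J1 (p.i (q t)) (p.Φ t) (p.S t) else Junr (p.S t)) t
  simp only [if_neg (not_le.2 h)] at this
  exact this

lemma ok_tyS (htr₀ : ∀ t, (Φ₀ t).trace - ε t * (q t + 1) ∈ maximalIdeal O)
    (hε : ∀ t, ε t ^ 2 = 1) (j : Fin (m + 1)) (t : Fin m) (𝔭 : Ideal O) :
    okML (q t) (Φ₀ t).trace 𝔭 (tyS ε j t) := by
  rw [tyS]
  split_ifs
  · exact ⟨hε t, htr₀ t⟩
  · trivial

lemma ok_tyQ (htr₀ : ∀ t, (Φ₀ t).trace - ε t * (q t + 1) ∈ maximalIdeal O)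
    (hε : ∀ t, ε t ^ 2 = 1) (hq1 : ∀ t, q t ≠ 1) (t₀ t : Fin m) :
    okML (q t) (Φ₀ t).trace ⊥ (tyQ ε t₀ t) := by
  rw [tyQ]
  split_ifs
  · exact ⟨hε t, htr₀ t⟩
  · refine ⟨hε t, htr₀ t, fun h => hq1 t ?_⟩
    rwa [Ideal.mem_bot, sub_eq_zero] at h
  · trivial

lemma I0_le_Q (t₀ : Fin m) : p.I0 t₀ ≤ p.K ⊥ (tyQ ε t₀) := by
  refine p.I0_le (fun t ht => ?_) (fun t ht => ?_)
  · refine le_trans ?_ (p.J_le_K ⊥ (tyQ ε t₀) t)
    rcases lt_or_eq_of_le ht with h | h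
    · rw [tyQ, if_pos h]
      exact J1_le_Jst _ _
    · rw [tyQ, if_neg (by rw [h]; exact lt_irrefl _), if_pos h]
      exact (J1_le_Junr _ _ _).trans (Junr_le_Jrz _ _)
  · refine le_trans ?_ (p.J_le_K ⊥ (tyQ ε t₀) t)
    rw [tyQ, if_neg (not_lt.2 ht.le), if_neg ht.ne']
    exact le_rfl

lemma KS_le_Q (t₀ : Fin m) : p.K ⊥ (tyS ε t₀.castSucc) ≤ p.K ⊥ (tyQ ε t₀) := by
  refine p.K_bot_le fun t => ?_
  refine le_trans ?_ (p.J_le_K ⊥ (tyQ ε t₀) t)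
  rcases lt_trichotomy t t₀ with h | h | h
  · rw [tyQ, tyS, if_pos h, if_pos (Fin.castSucc_lt_castSucc_iff.2 h)]
  · rw [tyQ, tyS, if_neg (by rw [h]; exact lt_irrefl _), if_neg (by rw [h]; exact lt_irrefl _),
      if_pos h]
    exact Junr_le_Jrz _ _
  · rw [tyQ, tyS, if_neg (by rw [Fin.castSucc_lt_castSucc_iff]; exact not_lt.2 h.le),
      if_neg (not_lt.2 h.le), if_neg h.ne']

lemma I0_le_KS (t₀ : Fin m) : p.I0 t₀ ≤ p.K ⊥ (tyS ε t₀.succ) := by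
  refine p.I0_le (fun t ht => ?_) (fun t ht => ?_)
  · refine le_trans ?_ (p.J_le_K ⊥ (tyS ε t₀.succ) t)
    rw [tyS, if_pos (by rw [Fin.castSucc_lt_succ_iff]; exact ht)]
    exact J1_le_Jst _ _
  · refine le_trans ?_ (p.J_le_K ⊥ (tyS ε t₀.succ) t)
    rw [tyS, if_neg (by rw [Fin.castSucc_lt_succ_iff, not_le]; exact ht)]
    exact le_rfl

/-- the dimension of the space killing both systems -/
lemma dim_I0 (hp : p.OK (fun t => okML (q t) (Φ₀ t).trace)) (hqu : ∀ t, IsUnit (q t))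
    (t₀ : Fin m) : ringKrullDim (p.R ⧸ p.I0 t₀) ≤
      ringKrullDim (O ⧸ (⊥ : Ideal O)) + ((r + 3 * Nat.card (Fin m) : ℕ) : WithBot ℕ∞) := by
  have hbot : (⊥ : Ideal O).IsPrime := Ideal.isPrime_bot
  refine ringKrullDim_quotient_le_of_forall
    (fun τ : {τ : Fin m → Typ O // ∀ t, okML (q t) (Φ₀ t).trace ⊥ (τ t)} => p.K ⊥ τ.1)
    (p.I0 t₀) ?_ _ (fun τ => (hp ⊥ τ.1 τ.2).2.2.1)
  intro P hP hIP
  have key : ∀ t, ∃ τ : Typ O, okML (q t) (Φ₀ t).trace ⊥ τ ∧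
      (τ.map p.i).J (p.i (q t)) (p.Φ t) (p.S t) ≤ P := by
    intro t
    have h1 : Junr (p.S t) ≤ P ∨ ∃ ε : O, (ε = 1 ∨ ε = -1) ∧
        Jst (p.i ε) (p.i (q t)) (p.Φ t) (p.S t) ≤ P := by
      rcases le_or_gt t t₀ with h | h
      · exact p.exists_type P t (hqu t) ((p.J1_le_I0 h).trans hIP)
      · exact Or.inl ((p.Junr_le_I0 h).trans hIP)
    rcases h1 with h1 | ⟨ε, hε, h1⟩
    · exact ⟨.unr, trivial, h1⟩
    · refine ⟨.st ε, ⟨?_, ?_⟩, h1⟩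
      · rcases hε with rfl | rfl
        · exact one_pow 2
        · ring
      · exact p.residual_of_mem hP.ne_top (h1 (trace_mem_Jst _ _))
  choose τ hτ hτP using key
  exact ⟨⟨τ, hτ⟩, p.K_bot_le hτP⟩

/-- identification of the component -/
lemma minimal_le (hp : p.OK (fun t => okML (q t) (Φ₀ t).trace))
    (hp' : OKst p.i q p.Φ p.S (fun t => okML (q t) (Φ₀ t).trace)) (hqu : ∀ t, IsUnit (q t))
    (hq1 : ∀ t, q t ≠ 1) (hq2 : ∀ t, q t + 1 ≠ 0)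
    (htr₀ : ∀ t, (Φ₀ t).trace - ε t * (q t + 1) ∈ maximalIdeal O)
    (hε : ∀ t, ε t ^ 2 = 1) (t₀ : Fin m) (P₀ : Ideal p.R) (hP₀ : P₀ ∈ (p.I0 t₀).minimalPrimes)
    (hI : Jst 1 (p.i (q t₀)) (p.Φ t₀) (p.S t₀) * Jst (-1) (p.i (q t₀)) (p.Φ t₀) (p.S t₀) ≤ P₀)
    (hQ : P₀ ≤ p.K ⊥ (tyQ ε t₀)) : P₀ ≤ p.K ⊥ (tyS ε t₀.succ) := by
  have hbot : (⊥ : Ideal O).IsPrime := Ideal.isPrime_bot
  have hP₀p : P₀.IsPrime := hP₀.1.1
  have hI₀P₀ : p.I0 t₀ ≤ P₀ := hP₀.1.2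
  obtain ⟨-, k2, -, -⟩ := hp ⊥ (tyQ ε t₀) (fun t => ok_tyQ ε htr₀ hε hq1 t₀ t)
  change (p.K ⊥ (tyQ ε t₀)).comap p.i = ⊥ at k2
  have hnst := hp' ⊥ (tyQ ε t₀) (fun t => ok_tyQ ε htr₀ hε hq1 t₀ t)
  -- the sign is correct
  have hsign : ∀ t, t ≤ t₀ → ∀ ε' : O, (ε' = 1 ∨ ε' = -1) →
      Jst (p.i ε') (p.i (q t)) (p.Φ t) (p.S t) ≤ P₀ → ε' = ε t := by
    intro t ht ε' hε' hle
    have h1 : (p.Φ t).trace - p.i ε' * (p.i (q t) + 1) ∈ p.K ⊥ (tyQ ε t₀) :=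
      hQ (hle (trace_mem_Jst _ _))
    have h3 : (p.Φ t).trace - p.i (ε t) * (p.i (q t) + 1) ∈ p.K ⊥ (tyQ ε t₀) := by
      apply p.J_le_K ⊥ (tyQ ε t₀) t
      rcases lt_or_eq_of_le ht with h | h
      · rw [tyQ, if_pos h]
        exact trace_mem_Jst _ _
      · rw [tyQ, if_neg (by rw [h]; exact lt_irrefl _), if_pos h]
        exact trace_mem_Jrz _ _
    have h4 : (ε t - ε') * (q t + 1) ∈ (p.K ⊥ (tyQ ε t₀)).comap p.i := by
      rw [Ideal.mem_comap]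
      have := Ideal.sub_mem _ h1 h3
      convert this using 1
      simp only [map_sub, map_mul, map_add, map_one]
      ring
    rw [k2, Ideal.mem_bot] at h4
    rcases mul_eq_zero.1 h4 with h5 | h5
    · exact (sub_eq_zero.1 h5).symm
    · exact absurd h5 (hq2 t)
  have hle : p.K ⊥ (tyS ε t₀.succ) ≤ P₀ := by
    refine p.K_bot_le fun t => ?_
    rcases lt_trichotomy t t₀ with h | h | h
    · rw [tyS, if_pos (by rw [Fin.castSucc_lt_succ_iff]; exact h.le)]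
      rcases p.exists_type P₀ t (hqu t) ((p.J1_le_I0 h.le).trans hI₀P₀) with h1 | ⟨ε', hε', h1⟩
      · exact absurd (h1.trans hQ) (hnst t (ε t) (by rw [tyQ, if_pos h]))
      · rw [← hsign t h.le ε' hε' h1]
        exact h1
    · subst h
      rw [tyS, if_pos (by rw [Fin.castSucc_lt_succ_iff])]
      rcases (Ideal.IsPrime.mul_le hP₀p).1 hI with h1 | h1
      · have h1' : Jst (p.i 1) (p.i (q t)) (p.Φ t) (p.S t) ≤ P₀ := by rwa [map_one]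
        rw [← hsign t le_rfl 1 (Or.inl rfl) h1']
        exact h1'
      · have h1' : Jst (p.i (-1)) (p.i (q t)) (p.Φ t) (p.S t) ≤ P₀ := by rwa [map_neg, map_one]
        rw [← hsign t le_rfl (-1) (Or.inr rfl) h1']
        exact h1'
    · rw [tyS, if_neg (by rw [Fin.castSucc_lt_succ_iff, not_le]; exact h)]
      exact (p.Junr_le_I0 h).trans hI₀P₀
  obtain ⟨l1, -, -, -⟩ := hp ⊥ (tyS ε t₀.succ) (fun t => ok_tyS ε htr₀ hε _ t ⊥)
  exact hP₀.2 ⟨l1, p.I0_le_KS ε t₀⟩ hle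

end Raise

end Pack

end Fermat.Agent.TAlg
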