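import Mathlib
import Fermat.Agent.TAlg.MLStep

/-! # Modularity lifting: the black box. -/

set_option autoImplicit false
set_option linter.unusedSectionVars false

open IsLocalRing MvPowerSeries Filter

namespace Fermat.Agent.TAlg

/-- MODULARITY LIFTING BLACK BOX. -/
theorem modularityLifting {O : CLR} [IsDomain O] (h2 : IsUnit (2 : O)) {m : ℕ}
    (q : Fin m → O) (hqu : ∀ t, IsUnit (q t)) (hq1 : ∀ t, q t ≠ 1) (hq2 : ∀ t, q t + 1 ≠ 0)
    (Φ₀ : Fin m → M2 O) (hdet₀ : ∀ t, (Φ₀ t).det - q t ∈ maximalIdeal O)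
    (ε : Fin m → O) (hε : ∀ t, ε t ^ 2 = 1)
    (htr₀ : ∀ t, (Φ₀ t).trace - ε t * (q t + 1) ∈ maximalIdeal O)
    (r : ℕ) {ι : Type} [Nonempty ι] {F : Ultrafilter ι}
    {J : ι → Ideal (MvPowerSeries (Fin r) O)} (hJ : Small F J)
    {A : ι → Type} [∀ n, CommRing (A n)] [∀ n, IsLocalRing (A n)] [∀ n, IsNoetherianRing (A n)]
    [∀ n, IsAdicComplete (maximalIdeal (A n)) (A n)]
    (cA : ∀ n, O →+* A n) [∀ n, IsLocalHom (cA n)]
    (hres : ∀ n b, ∃ o, b - cA n o ∈ maximalIdeal (A n))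
    {k : Type} [Field k] (π : ∀ n, A n →+* k) (hπ : ∀ n, Function.Surjective (π n))
    {θA : ∀ n, MvPowerSeries (Fin r) O →+* A n} (hθC : ∀ n o, θA n (C o) = cA n o)
    (hθX : ∀ n i, θA n (X i) ∈ maximalIdeal (A n))
    (Φ S : ∀ n, Fin m → M2 (A n)) (detΦ : ∀ n t, (Φ n t).det = cA n (q t))
    (detS : ∀ n t, (S n t).det = 1)
    (hΦ : ∀ n t i j, Φ n t i j - cA n (Φ₀ t i j) ∈ maximalIdeal (A n))
    (hS : ∀ n t i j, S n t i j - (1 : M2 (A n)) i j ∈ maximalIdeal (A n))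
    (htan : ∀ n, Module.finrank k (TanSpace (cA n) (π n) (Φ n) (S n)) ≤ r)
    (U : Fin (m + 1) → UData (MvPowerSeries (Fin r) O) J A θA)
    (hunr : ∀ n (j : Fin (m + 1)) (t : Fin m), j ≤ t.castSucc →
      ∀ x ∈ Junr (S n t), (U j).ρ n x = 0)
    (h1 : ∀ n (j : Fin (m + 1)) (t : Fin m), t.castSucc < j →
      ∀ x ∈ J1 (cA n (q t)) (Φ n t) (S n t), (U j).ρ n x = 0)
    (i₁ i₂ : ∀ (t : Fin m) n,
      (U t.castSucc).M n →ₗ[MvPowerSeries (Fin r) O] (U t.succ).M n)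
    (j₁ j₂ : ∀ (t : Fin m) n,
      (U t.succ).M n →ₗ[MvPowerSeries (Fin r) O] (U t.castSucc).M n)
    (hi : ∀ t n a b, i₁ t n a + i₂ t n b ∈
        maximalIdeal (MvPowerSeries (Fin r) O) •
          (⊤ : Submodule (MvPowerSeries (Fin r) O) ((U t.succ).M n)) →
      a ∈ maximalIdeal (MvPowerSeries (Fin r) O) •
          (⊤ : Submodule (MvPowerSeries (Fin r) O) ((U t.castSucc).M n)) ∧
      b ∈ maximalIdeal (MvPowerSeries (Fin r) O) •
          (⊤ : Submodule (MvPowerSeries (Fin r) O) ((U t.castSucc).M n)))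
    (hj : ∀ t n a b, ∃ x, j₁ t n x = a ∧ j₂ t n x = b)
    (hi₁ : ∀ t n a x, i₁ t n ((U t.castSucc).ρ n a x) = (U t.succ).ρ n a (i₁ t n x))
    (hi₂ : ∀ t n a x, i₂ t n ((U t.castSucc).ρ n a x) = (U t.succ).ρ n a (i₂ t n x))
    (hj₁ : ∀ t n a x, j₁ t n ((U t.succ).ρ n a x) = (U t.castSucc).ρ n a (j₁ t n x))
    (hj₂ : ∀ t n a x, j₂ t n ((U t.succ).ρ n a x) = (U t.castSucc).ρ n a (j₂ t n x))
    (hD11 : ∀ t n x, j₁ t n (i₁ t n x) = (U t.castSucc).ρ n (cA n (q t + 1)) x)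
    (hD12 : ∀ t n x, j₁ t n (i₂ t n x) = (U t.castSucc).ρ n (Φ n t).trace x)
    (hD21 : ∀ t n x, j₂ t n (i₁ t n x) = (U t.castSucc).ρ n (Φ n t).trace x)
    (hD22 : ∀ t n x, j₂ t n (i₂ t n x) = (U t.castSucc).ρ n (cA n (q t + 1)) x)
    (hnew : ∀ t n, ∀ a ∈ Jst 1 (cA n (q t)) (Φ n t) (S n t) *
        Jst (-1) (cA n (q t)) (Φ n t) (S n t),
      ∀ x, ∃ y z, (U t.succ).ρ n a x = i₁ t n y + i₂ t n z)
    (hd : (U 0).d ≠ 0)
    {𝔞 : Ideal (MvPowerSeries (Fin r) O)} {A₀ : Type}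
    [CommRing A₀] [IsLocalRing A₀] [IsNoetherianRing A₀] [IsAdicComplete (maximalIdeal A₀) A₀]
    [Finite (ResidueField A₀)] (B : UBase (U (Fin.last m)) 𝔞 A₀)
    {O' : Type} [CommRing O'] [IsDomain O'] (x : A₀ →+* O')
    (hx : ∀ n t, ∀ a ∈ Jst (cA n (ε t)) (cA n (q t)) (Φ n t) (S n t), x (B.π n a) = 0) :
    RingHom.ker B.ρ₀ ≤ RingHom.ker x := by
  classical
  obtain ⟨p, hp, hp'⟩ := exists_pack_ML O h2 r (Fin m) q Φ₀ hdet₀ (fun t => ⟨ε t, hε t, htr₀ t⟩)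
  have := p.loc
  choose φ hφs hφi hφΦ hφS using fun n =>
    exists_phi p (cA n) (hres n) (π n) (hπ n) (Φ n) (S n) (detΦ n) (detS n) (hΦ n) (hS n) (htan n)
  choose θ hθ hθi using fun n =>
    exists_theta (σ := Fin m × Fin 3) p.i (cA n) (φ n) (hφs n) (hφi n) (θA n) (hθC n) (hθX n)
  have hbot : (⊥ : Ideal O).IsPrime := Ideal.isPrime_bot
  have hdim : ringKrullDim (O ⧸ (⊥ : Ideal O)) + ((r + 3 * Nat.card (Fin m) : ℕ) : WithBot ℕ∞) ≤
      ringKrullDim (MvPowerSeries (Fin m × Fin 3) (MvPowerSeries (Fin r) O)) := by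
    have h3 := ringKrullDim_add_natCard_le_mvPowerSeries (R := O) (Fin r)
    have h4 := ringKrullDim_add_natCard_le_mvPowerSeries (R := MvPowerSeries (Fin r) O)
      (Fin m × Fin 3)
    refine le_trans ?_ h4
    refine le_trans ?_ (add_le_add_left h3 _)
    rw [ringKrullDim_eq_of_ringEquiv (RingEquiv.quotientBot O), Nat.card_prod, Nat.card_fin,
      Nat.card_fin, Nat.card_fin, Nat.cast_add, add_assoc, mul_comm 3]
  -- translations of relations
  have hJunr : ∀ n t, (Junr (p.S t)).map (φ n) =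
      (Junr (S n t)).map (C : A n →+* MvPowerSeries (Fin m × Fin 3) (A n)) := by
    intro n t
    rw [map_Junr, hφS, Junr_frM]
  have hJ1 : ∀ n t, (J1 (p.i (q t)) (p.Φ t) (p.S t)).map (φ n) =
      (J1 (cA n (q t)) (Φ n t) (S n t)).map
        (C : A n →+* MvPowerSeries (Fin m × Fin 3) (A n)) := by
    intro n t
    rw [map_J1, hφi, hφΦ, hφS, J1_frM]
  have hJst : ∀ n t (e : O), (Jst (p.i e) (p.i (q t)) (p.Φ t) (p.S t)).map (φ n) =
      (Jst (cA n e) (cA n (q t)) (Φ n t) (S n t)).map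
        (C : A n →+* MvPowerSeries (Fin m × Fin 3) (A n)) := by
    intro n t e
    rw [map_Jst, hφi, hφi, hφΦ, hφS, Jst_frM]
  -- killing
  have hkill : ∀ (j : Fin (m + 1)) (I : Ideal p.R),
      (∀ n, ∃ I' : Ideal (A n), (∀ a ∈ I', (U j).ρ n a = 0) ∧
        I.map (φ n) ≤ I'.map (C : A n →+* MvPowerSeries (Fin m × Fin 3) (A n))) →
      ∀ n, ∀ x ∈ I, ∀ k, (U j).ρ n (coeff k (φ n x)) = 0 := by
    intro j I h n x hx k
    obtain ⟨I', h3, h4⟩ := h n
    exact coeff_act_eq_zero ((U j).ρ n) I' h3 (φ n) I h4 x hx k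
  -- bottom of the tower
  have base : Module.annihilator p.R (((U 0).frame φ hθ).Lim
      (small_frameIdeal (σ := Fin m × Fin 3) hJ)) ≤ p.K ⊥ (Pack.tyS ε 0) := by
    obtain ⟨k1, -, k3, -⟩ := hp ⊥ (Pack.tyS ε 0) (fun t => Pack.ok_tyS ε htr₀ hε 0 t ⊥)
    have hk0 : ∀ n, ∀ x ∈ p.K ⊥ (Pack.tyS ε 0), ∀ k, (U 0).ρ n (coeff k (φ n x)) = 0 := by
      refine hkill 0 _ (fun n => ⟨⨆ t, Junr (S n t), ?_, ?_⟩)
      · intro a ha
        have h3 : (⨆ t, Junr (S n t)) ≤ RingHom.ker ((U 0).ρ n) :=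
          iSup_le fun t x hx => hunr n 0 t (Fin.zero_le _) x hx
        exact h3 ha
      · rw [Ideal.map_iSup, Ideal.map_le_iff_le_comap]
        refine p.K_bot_le fun t => ?_
        rw [Pack.tyS, if_neg (by simp)]
        change Junr (p.S t) ≤ _
        rw [← Ideal.map_le_iff_le_comap, hJunr]
        exact le_iSup (fun t => (Junr (S n t)).map
          (C : A n →+* MvPowerSeries (Fin m × Fin 3) (A n))) t
    obtain ⟨-, h3⟩ := PSys.exists_annihilator_le ((U 0).frame φ hθ)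
      (small_frameIdeal (σ := Fin m × Fin 3) hJ) (fun _ : Unit => p.K ⊥ (Pack.tyS ε 0))
      (fun _ => k1) (fun _ => k3.trans hdim)
      (fun n x hx => PM.act_eq_zero ((U 0).ρ n) (φ n x) (hk0 n x (by
        rwa [Finset.univ_unique, Finset.prod_singleton] at hx))) hd
    exact h3
  -- induction
  have main : ∀ j : Fin (m + 1), Module.annihilator p.R (((U j).frame φ hθ).Lim
      (small_frameIdeal (σ := Fin m × Fin 3) hJ)) ≤ p.K ⊥ (Pack.tyS ε j) := by
    intro j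
    induction j using Fin.induction with
    | zero => exact base
    | succ t₀ ih =>
      -- relations for the ideal `I0`
      have hI0map : ∀ n, (p.I0 t₀).map (φ n) ≤ (⨆ t, if t ≤ t₀ then
          J1 (cA n (q t)) (Φ n t) (S n t) else Junr (S n t)).map
          (C : A n →+* MvPowerSeries (Fin m × Fin 3) (A n)) := by
        intro n
        rw [Pack.I0, Ideal.map_iSup, Ideal.map_iSup]
        refine iSup_mono fun t => ?_
        split_ifs
        · rw [hJ1]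
        · rw [hJunr]
      have hk₀ : ∀ n, ∀ x ∈ p.I0 t₀, ∀ k, (U t₀.castSucc).ρ n (coeff k (φ n x)) = 0 := by
        refine hkill t₀.castSucc _ (fun n => ⟨_, ?_, hI0map n⟩)
        intro a ha
        have h3 : (⨆ t, if t ≤ t₀ then J1 (cA n (q t)) (Φ n t) (S n t) else Junr (S n t)) ≤
            RingHom.ker ((U t₀.castSucc).ρ n) := by
          refine iSup_le fun t => ?_
          split_ifs with h
          · rcases lt_or_eq_of_le h with h' | h'
            · intro x hx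
              exact h1 n t₀.castSucc t (Fin.castSucc_lt_castSucc_iff.2 h') x hx
            · intro x hx
              exact hunr n t₀.castSucc t (by rw [h']) x (J1_le_Junr _ _ _ hx)
          · intro x hx
            exact hunr n t₀.castSucc t (by
              rw [Fin.castSucc_le_castSucc_iff]; exact (not_le.1 h).le) x hx
        exact h3 ha
      have hk₁ : ∀ n, ∀ x ∈ p.I0 t₀, ∀ k, (U t₀.succ).ρ n (coeff k (φ n x)) = 0 := by
        refine hkill t₀.succ _ (fun n => ⟨_, ?_, hI0map n⟩)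
        intro a ha
        have h3 : (⨆ t, if t ≤ t₀ then J1 (cA n (q t)) (Φ n t) (S n t) else Junr (S n t)) ≤
            RingHom.ker ((U t₀.succ).ρ n) := by
          refine iSup_le fun t => ?_
          split_ifs with h
          · intro x hx
            exact h1 n t₀.succ t (Fin.castSucc_lt_succ_iff.2 h) x hx
          · intro x hx
            exact hunr n t₀.succ t (by
              rw [Fin.succ_le_castSucc_iff]; exact not_le.1 h) x hx
        exact h3 ha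
      obtain ⟨kQ, -, -, -⟩ := hp ⊥ (Pack.tyQ ε t₀) (fun t => Pack.ok_tyQ ε htr₀ hε hq1 t₀ t)
      change (p.K ⊥ (Pack.tyQ ε t₀)).IsPrime at kQ
      have htrmem : (p.Φ t₀).trace - p.i (ε t₀) * (p.i (q t₀) + 1) ∈ p.K ⊥ (Pack.tyQ ε t₀) := by
        apply p.J_le_K ⊥ (Pack.tyQ ε t₀) t₀
        rw [Pack.tyQ, if_neg (lt_irrefl _), if_pos rfl]
        exact trace_mem_Jrz _ _
      have htrφ : ∀ n, φ n (p.Φ t₀).trace = C (Φ n t₀).trace := by
        intro n
        rw [← trace_frM _ t₀, ← hφΦ n t₀, Matrix.trace_fin_two, Matrix.trace_fin_two, map_add]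
        rfl
      have hImap : ∀ n, (Jst 1 (p.i (q t₀)) (p.Φ t₀) (p.S t₀) *
          Jst (-1) (p.i (q t₀)) (p.Φ t₀) (p.S t₀)).map (φ n) ≤
          (Jst 1 (cA n (q t₀)) (Φ n t₀) (S n t₀) *
            Jst (-1) (cA n (q t₀)) (Φ n t₀) (S n t₀)).map
            (C : A n →+* MvPowerSeries (Fin m × Fin 3) (A n)) := by
        intro n
        have e1 := hJst n t₀ 1
        have e2 := hJst n t₀ (-1)
        simp only [map_neg, map_one] at e1 e2
        rw [Ideal.map_mul, Ideal.map_mul, e1, e2]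
      have key := UData.raising (U t₀.castSucc) (U t₀.succ) φ hθ hJ (p.I0 t₀) hk₀ hk₁
        (i₁ t₀) (i₂ t₀) (j₁ t₀) (j₂ t₀) (hi t₀) (hj t₀) (hi₁ t₀) (hi₂ t₀) (hj₁ t₀) (hj₂ t₀)
        (p.i (q t₀ + 1)) (p.Φ t₀).trace (p.Φ t₀).trace (p.i (q t₀ + 1))
        (fun n => cA n (q t₀ + 1)) (fun n => (Φ n t₀).trace) (fun n => (Φ n t₀).trace)
        (fun n => cA n (q t₀ + 1)) (fun n => hφi n _) htrφ htrφ (fun n => hφi n _)
        (hD11 t₀) (hD12 t₀) (hD21 t₀) (hD22 t₀)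
        (Jst 1 (p.i (q t₀)) (p.Φ t₀) (p.S t₀) * Jst (-1) (p.i (q t₀)) (p.Φ t₀) (p.S t₀))
        (fun n r hr k x => hnew t₀ n _ (coeff_mem_of_mem_map_C
          (hImap n (Ideal.mem_map_of_mem (φ n) hr)) k) x)
        ((p.dim_I0 hp hqu t₀).trans hdim) (p.K ⊥ (Pack.tyQ ε t₀)) (p.I0_le_Q ε t₀)
        (ih.trans (p.KS_le_Q ε t₀)) ?_
      · obtain ⟨P₀, hP₀, hIP₀, hP₀Q, hann⟩ := key
        exact hann.trans (p.minimal_le ε hp hp' hqu hq1 hq2 htr₀ hε t₀ P₀ hP₀ hIP₀ hP₀Q)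
      · have e : p.i (q t₀ + 1) * p.i (q t₀ + 1) - (p.Φ t₀).trace * (p.Φ t₀).trace =
            -(((p.Φ t₀).trace - p.i (ε t₀) * (p.i (q t₀) + 1)) *
              ((p.Φ t₀).trace + p.i (ε t₀) * (p.i (q t₀) + 1))) := by
          have h6 : (p.i (ε t₀)) ^ 2 = 1 := by rw [← map_pow, hε, map_one]
          rw [map_add, map_one]
          linear_combination (-(p.i (q t₀) + 1) ^ 2) * h6
        rw [e]
        exact (Ideal.neg_mem_iff _).2 (Ideal.mul_mem_right _ _ htrmem)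
  -- conclusion
  refine B.ker_le φ hθ hφs hJ (p.K ⊥ (Pack.tyS ε (Fin.last m))) (main (Fin.last m)) x ?_
  intro n r hr
  have h3 : p.K ⊥ (Pack.tyS ε (Fin.last m)) ≤ ((⨆ t, Jst (cA n (ε t)) (cA n (q t)) (Φ n t)
      (S n t)).map (C : A n →+* MvPowerSeries (Fin m × Fin 3) (A n))).comap (φ n) := by
    refine p.K_bot_le fun t => ?_
    rw [Pack.tyS, if_pos (Fin.castSucc_lt_last t)]
    change Jst (p.i (ε t)) (p.i (q t)) (p.Φ t) (p.S t) ≤ _
    rw [← Ideal.map_le_iff_le_comap, hJst, Ideal.map_iSup]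
    exact le_iSup (fun t => (Jst (cA n (ε t)) (cA n (q t)) (Φ n t)
      (S n t)).map (C : A n →+* MvPowerSeries (Fin m × Fin 3) (A n))) t
  have h4 := coeff_mem_of_mem_map_C (h3 hr) 0
  rw [coeff_zero_eq_constantCoeff_apply] at h4
  have h5 : (⨆ t, Jst (cA n (ε t)) (cA n (q t)) (Φ n t) (S n t)) ≤
      RingHom.ker (x.comp (B.π n)) := iSup_le fun t a ha => hx n t a ha
  exact h5 h4

end Fermat.Agent.TAlg
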