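import Mathlib
import Fermat.Agent.TAlg.Raise0

/-! # Level raising for patching systems with bottom levels. -/

set_option autoImplicit false
set_option linter.unusedSectionVars false

open IsLocalRing Filter

namespace Fermat.Agent.TAlg

section LyingOver

variable {S R M : Type} [CommRing S] [CommRing R] [AddCommGroup M] [Module S M]
  [Module R M] (θ : S →+* R) (hθ : ∀ (s : S) (m : M), θ s • m = s • m)

include hθ in
/-- lying over for minimal primes of the support of a torsion free module. -/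
lemma exists_prime_over [IsDomain S] [Module.Finite S M] [Module.IsTorsionFree S M]
    (P : Ideal R) (hP : P ∈ (Module.annihilator R M).minimalPrimes) (𝔭 : Ideal S) [𝔭.IsPrime] :
    ∃ 𝔔 : Ideal R, 𝔔.IsPrime ∧ P ≤ 𝔔 ∧ 𝔔.comap θ = 𝔭 := by
  have hPp : P.IsPrime := hP.1.1
  have hint := isIntegral_quotient (M := M) θ hθ P hP.1.2
  let _ : Algebra S (R ⧸ P) := ((Ideal.Quotient.mk P).comp θ).toAlgebra
  have : Algebra.IsIntegral S (R ⧸ P) := ⟨hint⟩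
  have hinj : Function.Injective (algebraMap S (R ⧸ P)) := by
    rw [injective_iff_map_eq_zero]
    intro s hs
    have h1 : θ s ∈ P := Ideal.Quotient.eq_zero_iff_mem.1 hs
    rw [← Ideal.mem_comap, comap_eq_bot_of_minimal (M := M) θ hθ P hP] at h1
    exact h1
  have : FaithfulSMul S (R ⧸ P) := (faithfulSMul_iff_algebraMap_injective S (R ⧸ P)).2 hinj
  obtain ⟨Q, hQ1, hQ2⟩ := Ideal.nonempty_primesOver (S := R ⧸ P) 𝔭
  refine ⟨Q.comap (Ideal.Quotient.mk P), Ideal.comap_isPrime _ _, ?_, ?_⟩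
  · intro x hx
    rw [Ideal.mem_comap, Ideal.Quotient.eq_zero_iff_mem.2 hx]
    exact zero_mem _
  · have := hQ2.over
    rw [this]
    rfl

end LyingOver

variable {ι : Type} {F : Ultrafilter ι}
variable {S : Type} [CommRing S] [IsLocalRing S] [IsNoetherianRing S]
  [IsAdicComplete (maximalIdeal S) S] [Finite (ResidueField S)]
variable {J : ι → Ideal S}
variable {R : Type} [CommRing R] [IsLocalRing R] [IsNoetherianRing R]
  [IsAdicComplete (maximalIdeal R) R] [Finite (ResidueField R)] {θ : ι → (S →+* R)}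

namespace PSys

theorem raising₀ [IsDomain S] (P P' : PSys S J R θ) (hJ : Small F J)
    (i₁ i₂ : ∀ n, P.M n →ₗ[S] P'.M n) (j₁ j₂ : ∀ n, P'.M n →ₗ[S] P.M n)
    (hi : ∀ n a b, i₁ n a + i₂ n b ∈ maximalIdeal S • (⊤ : Submodule S (P'.M n)) →
      a ∈ maximalIdeal S • (⊤ : Submodule S (P.M n)) ∧
      b ∈ maximalIdeal S • (⊤ : Submodule S (P.M n)))
    (hj : ∀ n a b, ∃ x, j₁ n x = a ∧ j₂ n x = b)
    (hi₁ : ∀ n r x, i₁ n (P.ρ n r x) = P'.ρ n r (i₁ n x))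
    (hi₂ : ∀ n r x, i₂ n (P.ρ n r x) = P'.ρ n r (i₂ n x))
    (hj₁ : ∀ n r x, j₁ n (P'.ρ n r x) = P.ρ n r (j₁ n x))
    (hj₂ : ∀ n r x, j₂ n (P'.ρ n r x) = P.ρ n r (j₂ n x))
    (D₁₁ D₁₂ D₂₁ D₂₂ : R)
    (hD11 : ∀ n x, j₁ n (i₁ n x) = P.ρ n D₁₁ x) (hD12 : ∀ n x, j₁ n (i₂ n x) = P.ρ n D₁₂ x)
    (hD21 : ∀ n x, j₂ n (i₁ n x) = P.ρ n D₂₁ x) (hD22 : ∀ n x, j₂ n (i₂ n x) = P.ρ n D₂₂ x)
    (hdim : ringKrullDim R ≤ ringKrullDim S)
    (Q : Ideal R) [Q.IsPrime] (hQ : Module.annihilator R (P.Lim hJ) ≤ Q)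
    (hdet : D₁₁ * D₂₂ - D₁₂ * D₂₁ ∈ Q) :
    ∃ P₀ ∈ minimalPrimes R, P₀ ≤ Q ∧ Module.annihilator R (P'.Lim hJ) ≤ P₀ ∧
      ∀ (𝔔 I : Ideal R) [𝔔.IsPrime], P₀ ≤ 𝔔 → I ≤ 𝔔 → ∀ r : R, (∀ m' : P'.Lim hJ,
        ∃ a b : P.Lim hJ, r • m' - (map P P' hJ i₁ a + map P P' hJ i₂ b) ∈
          I • (⊤ : Submodule R (P'.Lim hJ))) → r ∈ 𝔔 := by
  obtain ⟨s, hs⟩ := exists_retraction P P' hJ i₁ i₂ hi
  let f₁ : P.Lim hJ →ₗ[R] P'.Lim hJ :=
    { toFun := map P P' hJ i₁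
      map_add' := _root_.map_add _
      map_smul' := fun r x => map_equivariant P hJ P' i₁ r r (fun n x => hi₁ n r x) x }
  let f₂ : P.Lim hJ →ₗ[R] P'.Lim hJ :=
    { toFun := map P P' hJ i₂
      map_add' := _root_.map_add _
      map_smul' := fun r x => map_equivariant P hJ P' i₂ r r (fun n x => hi₂ n r x) x }
  let g₁ : P'.Lim hJ →ₗ[R] P.Lim hJ :=
    { toFun := map P' P hJ j₁
      map_add' := _root_.map_add _
      map_smul' := fun r x => map_equivariant P' hJ P j₁ r r (fun n x => hj₁ n r x) x }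
  let g₂ : P'.Lim hJ →ₗ[R] P.Lim hJ :=
    { toFun := map P' P hJ j₂
      map_add' := _root_.map_add _
      map_smul' := fun r x => map_equivariant P' hJ P j₂ r r (fun n x => hj₂ n r x) x }
  have hD : ∀ (j : ∀ n, P'.M n →ₗ[S] P.M n) (i : ∀ n, P.M n →ₗ[S] P'.M n) (D : R)
      (_ : ∀ n x, j n (i n x) = P.ρ n D x) (x : P.Lim hJ),
      map P' P hJ j (map P P' hJ i x) = D • x := by
    intro j i D h x
    have h1 : map P' P hJ j ∘ₗ map P P' hJ i = P.act hJ D := by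
      rw [← map_comp, ← map_rho]
      congr 1
      funext n
      exact LinearMap.ext (h n)
    exact congrArg (fun f : P.Lim hJ →ₗ[S] P.Lim hJ => f x) h1
  refine exists_minimalPrime_of_raising₀ (ulimRingHom F θ) (P.theta_smul hJ) (P'.theta_smul hJ)
    f₁ f₂ g₁ g₂ ((LinearMap.fst S _ _ ∘ₗ s).toAddMonoidHom)
    ((LinearMap.snd S _ _ ∘ₗ s).toAddMonoidHom) (fun t m => map_smul (LinearMap.fst S _ _ ∘ₗ s) t m)
    (fun t m => map_smul (LinearMap.snd S _ _ ∘ₗ s) t m) ?_ ?_ ?_ ?_ ?_ D₁₁ D₁₂ D₂₁ D₂₂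
    (hD j₁ i₁ D₁₁ hD11) (hD j₁ i₂ D₁₂ hD12) (hD j₂ i₁ D₂₁ hD21) (hD j₂ i₂ D₂₂ hD22)
    ringKrullDim_lt_top hdim Q hQ hdet
  · intro m
    have h := hs m 0
    rw [_root_.map_zero, add_zero] at h
    exact congrArg Prod.fst h
  · intro m
    have h := hs 0 m
    rw [_root_.map_zero, zero_add] at h
    exact congrArg Prod.fst h
  · intro m
    have h := hs m 0
    rw [_root_.map_zero, add_zero] at h
    exact congrArg Prod.snd h
  · intro m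
    have h := hs 0 m
    rw [_root_.map_zero, zero_add] at h
    exact congrArg Prod.snd h
  · exact map_surjective₂ P P' hJ j₁ j₂ hj

/-- version with a type ideal `I₀` killing both systems. -/
theorem raising₀' [IsDomain S] (P P' : PSys S J R θ) (hJ : Small F J)
    (I₀ : Ideal R) (h₀ : ∀ n, ∀ x ∈ I₀, P.ρ n x = 0) (h₀' : ∀ n, ∀ x ∈ I₀, P'.ρ n x = 0)
    (i₁ i₂ : ∀ n, P.M n →ₗ[S] P'.M n) (j₁ j₂ : ∀ n, P'.M n →ₗ[S] P.M n)
    (hi : ∀ n a b, i₁ n a + i₂ n b ∈ maximalIdeal S • (⊤ : Submodule S (P'.M n)) →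
      a ∈ maximalIdeal S • (⊤ : Submodule S (P.M n)) ∧
      b ∈ maximalIdeal S • (⊤ : Submodule S (P.M n)))
    (hj : ∀ n a b, ∃ x, j₁ n x = a ∧ j₂ n x = b)
    (hi₁ : ∀ n r x, i₁ n (P.ρ n r x) = P'.ρ n r (i₁ n x))
    (hi₂ : ∀ n r x, i₂ n (P.ρ n r x) = P'.ρ n r (i₂ n x))
    (hj₁ : ∀ n r x, j₁ n (P'.ρ n r x) = P.ρ n r (j₁ n x))
    (hj₂ : ∀ n r x, j₂ n (P'.ρ n r x) = P.ρ n r (j₂ n x))
    (D₁₁ D₁₂ D₂₁ D₂₂ : R)
    (hD11 : ∀ n x, j₁ n (i₁ n x) = P.ρ n D₁₁ x) (hD12 : ∀ n x, j₁ n (i₂ n x) = P.ρ n D₁₂ x)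
    (hD21 : ∀ n x, j₂ n (i₁ n x) = P.ρ n D₂₁ x) (hD22 : ∀ n x, j₂ n (i₂ n x) = P.ρ n D₂₂ x)
    (hdim : ringKrullDim (R ⧸ I₀) ≤ ringKrullDim S)
    (Q : Ideal R) [Q.IsPrime] (hQ₀ : I₀ ≤ Q) (hQ : Module.annihilator R (P.Lim hJ) ≤ Q)
    (hdet : D₁₁ * D₂₂ - D₁₂ * D₂₁ ∈ Q) :
    ∃ P₀ ∈ I₀.minimalPrimes, P₀ ≤ Q ∧ Module.annihilator R (P'.Lim hJ) ≤ P₀ ∧
      ∀ (𝔔 I : Ideal R) [𝔔.IsPrime], P₀ ≤ 𝔔 → I ≤ 𝔔 → ∀ r : R, (∀ m' : P'.Lim hJ,
        ∃ a b : P.Lim hJ, r • m' - (map P P' hJ i₁ a + map P P' hJ i₂ b) ∈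
          I • (⊤ : Submodule R (P'.Lim hJ))) → r ∈ 𝔔 := by
  have hne : I₀ ≠ ⊤ := fun h => (Ideal.IsPrime.ne_top ‹Q.IsPrime›) (top_le_iff.1 (h ▸ hQ₀))
  have := isLocalRing_quot I₀ hne
  have := isAdicComplete_of_surjective (Ideal.Quotient.mk I₀) Ideal.Quotient.mk_surjective
  have := finite_residueField_of_surjective (Ideal.Quotient.mk I₀) Ideal.Quotient.mk_surjective
  have hcm : ∀ (Q : Ideal R), I₀ ≤ Q → (Q.map (Ideal.Quotient.mk I₀)).comap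
      (Ideal.Quotient.mk I₀) = Q := by
    intro Q hQ
    rw [Ideal.comap_map_of_surjective _ Ideal.Quotient.mk_surjective, ← RingHom.ker_eq_comap_bot,
      Ideal.mk_ker, sup_eq_left]
    exact hQ
  let Q' : Ideal (R ⧸ I₀) := Q.map (Ideal.Quotient.mk I₀)
  have hQ' : Q'.comap (Ideal.Quotient.mk I₀) = Q := hcm Q hQ₀
  have hprime : Q'.IsPrime := Ideal.map_isPrime_of_surjective Ideal.Quotient.mk_surjective
    (by rw [Ideal.mk_ker]; exact hQ₀)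
  have hann : Module.annihilator (R ⧸ I₀) ((P.quot I₀ h₀).Lim hJ) ≤ Q' := by
    intro x hx
    obtain ⟨x, rfl⟩ := Ideal.Quotient.mk_surjective x
    apply Ideal.mem_map_of_mem
    apply hQ
    rw [← P.comap_annihilator_quot I₀ h₀ hJ]
    exact hx
  obtain ⟨P₀, hP₀, h2, h3, h4⟩ := raising₀ (P.quot I₀ h₀) (P'.quot I₀ h₀') hJ i₁ i₂ j₁ j₂ hi hj
    (by intro n r x; obtain ⟨r, rfl⟩ := Ideal.Quotient.mk_surjective r; exact hi₁ n r x)
    (by intro n r x; obtain ⟨r, rfl⟩ := Ideal.Quotient.mk_surjective r; exact hi₂ n r x)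
    (by intro n r x; obtain ⟨r, rfl⟩ := Ideal.Quotient.mk_surjective r; exact hj₁ n r x)
    (by intro n r x; obtain ⟨r, rfl⟩ := Ideal.Quotient.mk_surjective r; exact hj₂ n r x)
    (Ideal.Quotient.mk I₀ D₁₁) (Ideal.Quotient.mk I₀ D₁₂) (Ideal.Quotient.mk I₀ D₂₁)
    (Ideal.Quotient.mk I₀ D₂₂) hD11 hD12 hD21 hD22 hdim Q' hann
    (by
      rw [← map_mul, ← map_mul, ← _root_.map_sub]
      exact Ideal.mem_map_of_mem _ hdet)
  refine ⟨P₀.comap (Ideal.Quotient.mk I₀), ?_, ?_, ?_, ?_⟩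
  · rw [Ideal.minimalPrimes_eq_comap]
    exact ⟨P₀, hP₀, rfl⟩
  · rw [← hQ']
    exact Ideal.comap_mono h2
  · rw [← P'.comap_annihilator_quot I₀ h₀' hJ]
    exact Ideal.comap_mono h3
  · intro 𝔔 I h𝔔 hle hI r hr
    have hI₀ : I₀ ≤ 𝔔 := by
      refine le_trans ?_ hle
      intro x hx
      rw [Ideal.mem_comap, Ideal.Quotient.eq_zero_iff_mem.2 hx]
      exact zero_mem _
    have hp' : (𝔔.map (Ideal.Quotient.mk I₀)).IsPrime :=
      Ideal.map_isPrime_of_surjective Ideal.Quotient.mk_surjective (by rw [Ideal.mk_ker]; exact hI₀)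
    rw [← hcm 𝔔 hI₀, Ideal.mem_comap]
    refine h4 (𝔔.map (Ideal.Quotient.mk I₀)) (I.map (Ideal.Quotient.mk I₀)) ?_
      (Ideal.map_mono hI) (Ideal.Quotient.mk I₀ r) ?_
    · intro x hx
      obtain ⟨x, rfl⟩ := Ideal.Quotient.mk_surjective x
      exact Ideal.mem_map_of_mem _ (hle hx)
    · intro m'
      obtain ⟨a, b, hab⟩ := hr m'
      have key : ∀ z : P'.Lim hJ, z ∈ I • (⊤ : Submodule R (P'.Lim hJ)) →
          (id z : (P'.quot I₀ h₀').Lim hJ) ∈ I.map (Ideal.Quotient.mk I₀) •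
            (⊤ : Submodule (R ⧸ I₀) ((P'.quot I₀ h₀').Lim hJ)) := by
        intro z hz
        refine Submodule.smul_induction_on hz ?_ ?_
        · intro t ht y _
          exact Submodule.smul_mem_smul (r := Ideal.Quotient.mk I₀ t)
            (n := (id y : (P'.quot I₀ h₀').Lim hJ)) (Ideal.mem_map_of_mem _ ht) trivial
        · intro x y hx hy
          exact add_mem hx hy
      exact ⟨a, b, key _ hab⟩

end PSys

namespace PBase

variable {P P' : PSys S J R θ} {𝔞 : Ideal S} {R₀ : Type} [CommRing R₀] [IsLocalRing R₀]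
  (B : PBase P 𝔞 R₀) (B' : PBase P' 𝔞 R₀)

/-- the ideal of elements mapping the bottom module into the sum of the two images. -/
def Kid (I₁ I₂ : B.N →ₗ[S] B'.N) (h₁ : ∀ a u, I₁ (B.ρ₀ a u) = B'.ρ₀ a (I₁ u))
    (h₂ : ∀ a u, I₂ (B.ρ₀ a u) = B'.ρ₀ a (I₂ u)) : Ideal R₀ where
  carrier := {a | ∀ y, ∃ u v, B'.ρ₀ a y = I₁ u + I₂ v}
  zero_mem' y := ⟨0, 0, by rw [map_zero, map_zero, map_zero, add_zero]; rfl⟩
  add_mem' {a b} ha hb y := by
    obtain ⟨u, v, h⟩ := ha y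
    obtain ⟨u', v', h'⟩ := hb y
    exact ⟨u + u', v + v', by
      rw [map_add, LinearMap.add_apply, h, h', map_add, map_add]; abel⟩
  smul_mem' c a ha y := by
    obtain ⟨u, v, h⟩ := ha y
    exact ⟨B.ρ₀ c u, B.ρ₀ c v, by
      rw [smul_eq_mul, map_mul, Module.End.mul_apply, h, map_add, h₁, h₂]⟩

variable [IsNoetherianRing R₀] [IsAdicComplete (maximalIdeal R₀) R₀] [Finite (ResidueField R₀)]

lemma fLim_map (hJ : Small F J) (i : ∀ n, P.M n →ₗ[S] P'.M n) (I : B.N →ₗ[S] B'.N)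
    (h : ∀ n x, B'.f n (i n x) = I (B.f n x)) (x : P.Lim hJ) :
    B'.fLim hJ (PSys.map P P' hJ i x) = I (B.fLim hJ x) := by
  have h1 := congrArg (fun g => g x) (plimN_comp hJ P.e P'.e i B'.f)
  have h2 : B'.fLim hJ (PSys.map P P' hJ i x) = (plimN F P'.e B'.f ∘ₗ plim P.e P'.e hJ i) x := rfl
  have h3 : (fun n => (B'.f n ∘ₗ i n) (red P.e n x)) = fun n => I (B.f n (red P.e n x)) := by
    funext n
    exact h n _
  refine h2.trans (h1.symm.trans ?_)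
  change nlim F S B'.N (fun n => (B'.f n ∘ₗ i n) (red P.e n x)) = _
  rw [h3]
  exact nlim_map F I _

/-- elements of a prime tested on the bottom level. -/
lemma mem_of_Kid (hJ : Small F J) (i₁ i₂ : ∀ n, P.M n →ₗ[S] P'.M n)
    (I₁ I₂ : B.N →ₗ[S] B'.N) (h₁ : ∀ a u, I₁ (B.ρ₀ a u) = B'.ρ₀ a (I₁ u))
    (h₂ : ∀ a u, I₂ (B.ρ₀ a u) = B'.ρ₀ a (I₂ u))
    (hc₁ : ∀ n x, B'.f n (i₁ n x) = I₁ (B.f n x)) (hc₂ : ∀ n x, B'.f n (i₂ n x) = I₂ (B.f n x))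
    (r : R) (hr : ∀ n, B'.π n r ∈ Kid B B' I₁ I₂ h₁ h₂) (m' : P'.Lim hJ) :
    ∃ a b : P.Lim hJ, r • m' - (PSys.map P P' hJ i₁ a + PSys.map P P' hJ i₂ b) ∈
          𝔞.map (ulimRingHom F θ) • (⊤ : Submodule R (P'.Lim hJ)) := by
  have h3 : B'.πLim F r ∈ Kid B B' I₁ I₂ h₁ h₂ := B'.πLim_mem _ r hr
  obtain ⟨u, v, huv⟩ := h3 (B'.fLim hJ m')
  obtain ⟨a, rfl⟩ := B.fLim_surjective hJ u
  obtain ⟨b, rfl⟩ := B.fLim_surjective hJ v
  refine ⟨a, b, ?_⟩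
  have h4 : r • m' - (PSys.map P P' hJ i₁ a + PSys.map P P' hJ i₂ b) ∈
      LinearMap.ker (B'.fLim hJ) := by
    rw [LinearMap.mem_ker, map_sub, map_add, B'.fLim_smul hJ, huv,
      fLim_map B B' hJ i₁ I₁ hc₁, fLim_map B B' hJ i₂ I₂ hc₂, sub_self]
  rw [B'.ker_fLim hJ] at h4
  refine Submodule.smul_induction_on h4 ?_ ?_
  · intro s hs x _
    rw [← P'.theta_smul hJ]
    exact Submodule.smul_mem_smul (Ideal.mem_map_of_mem _ hs) trivial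
  · intro x y hx hy
    exact add_mem hx hy

end PBase

end Fermat.Agent.TAlg
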