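import Mathlib
import Fermat.Agent.TAlg.Raise1
import Fermat.Agent.TAlg.FrameThm

/-! # Level raising for framed patching systems with bottom levels. -/

set_option autoImplicit false
set_option linter.unusedSectionVars false

open IsLocalRing MvPowerSeries Filter
open Finset.HasAntidiagonal (antidiagonal)

namespace Fermat.Agent.TAlg

lemma mem_minimalPrimes_of_le {R : Type} [CommRing R] {I J P : Ideal R}
    (hP : P ∈ I.minimalPrimes) (h1 : I ≤ J) (h2 : J ≤ P) : P ∈ J.minimalPrimes :=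
  ⟨⟨hP.1.1, h2⟩, fun _ hQ hle => hP.2 ⟨hQ.1, h1.trans hQ.2⟩ hle⟩

lemma isPrime_frameIdeal {σ S : Type} [CommRing S] (𝔞 : Ideal S) [𝔞.IsPrime] :
    (frameIdeal σ 𝔞).IsPrime := by
  have : IsDomain (S ⧸ 𝔞) := inferInstance
  exact RingHom.ker_isPrime _

section Bottom

variable {ι : Type} {F : Ultrafilter ι}
variable {S : Type} [CommRing S] [IsLocalRing S] [IsNoetherianRing S]
  [IsAdicComplete (maximalIdeal S) S] [Finite (ResidueField S)]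
variable {J : ι → Ideal S}
variable {R : Type} [CommRing R] [IsLocalRing R] [IsNoetherianRing R]
  [IsAdicComplete (maximalIdeal R) R] [Finite (ResidueField R)] {θ : ι → (S →+* R)}

theorem PSys.raising_bottom [IsDomain S] (P P' : PSys S J R θ) (hJ : Small F J)
    (I₀ : Ideal R) (h₀ : ∀ n, ∀ x ∈ I₀, P.ρ n x = 0) (h₀' : ∀ n, ∀ x ∈ I₀, P'.ρ n x = 0)
    (i₁ i₂ : ∀ n, P.M n →ₗ[S] P'.M n) (j₁ j₂ : ∀ n, P'.M n →ₗ[S] P.M n)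
    (hi : ∀ n a b, i₁ n a + i₂ n b ∈ maximalIdeal S • (⊤ : Submodule S (P'.M n)) →
      a ∈ maximalIdeal S • (⊤ : Submodule S (P.M n)) ∧
      b ∈ maximalIdeal S • (⊤ : Submodule S (P.M n)))
    (hj : ∀ n a b, ∃ x, j₁ n x = a ∧ j₂ n x = b)
    (hi₁ : ∀ n r x, i₁ n (P.ρ n r x) = P'.ρ n r (i₁ n x))
    (hi₂ : ∀ n r x, i₂ n (P.ρ n r x) = P'.ρ n r (i₂ n x))
    (hj₁ : ∀ n r x, j₁ n (P'.ρ n r x) = P.ρ n r (j₁ n x))
    (hj₂ : ∀ n r x, j₂ n (P'.ρ n r x) = P.ρ n r (j₂ n x))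
    (D₁₁ D₁₂ D₂₁ D₂₂ : R)
    (hD11 : ∀ n x, j₁ n (i₁ n x) = P.ρ n D₁₁ x) (hD12 : ∀ n x, j₁ n (i₂ n x) = P.ρ n D₁₂ x)
    (hD21 : ∀ n x, j₂ n (i₁ n x) = P.ρ n D₂₁ x) (hD22 : ∀ n x, j₂ n (i₂ n x) = P.ρ n D₂₂ x)
    (hdim : ringKrullDim (R ⧸ I₀) ≤ ringKrullDim S)
    (Q : Ideal R) [Q.IsPrime] (hQ₀ : I₀ ≤ Q) (hQ : Module.annihilator R (P.Lim hJ) ≤ Q)
    (hdet : D₁₁ * D₂₂ - D₁₂ * D₂₁ ∈ Q)
    {𝔞 : Ideal S} [𝔞.IsPrime] {R₀ : Type} [CommRing R₀] [IsLocalRing R₀] [IsNoetherianRing R₀]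
    [IsAdicComplete (maximalIdeal R₀) R₀] [Finite (ResidueField R₀)]
    (B : PBase P 𝔞 R₀) (B' : PBase P' 𝔞 R₀)
    (I₁ I₂ : B.N →ₗ[S] B'.N) (h₁ : ∀ a u, I₁ (B.ρ₀ a u) = B'.ρ₀ a (I₁ u))
    (h₂ : ∀ a u, I₂ (B.ρ₀ a u) = B'.ρ₀ a (I₂ u))
    (hc₁ : ∀ n x, B'.f n (i₁ n x) = I₁ (B.f n x)) (hc₂ : ∀ n x, B'.f n (i₂ n x) = I₂ (B.f n x)) :
    ∃ P₀ ∈ I₀.minimalPrimes, P₀ ≤ Q ∧ Module.annihilator R (P'.Lim hJ) ≤ P₀ ∧
      ∃ 𝔔 : Ideal R, 𝔔.IsPrime ∧ P₀ ≤ 𝔔 ∧ 𝔔.comap (ulimRingHom F θ) = 𝔞 ∧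
        ∀ r : R, (∀ n, B'.π n r ∈ PBase.Kid B B' I₁ I₂ h₁ h₂) → r ∈ 𝔔 := by
  obtain ⟨P₀, hP₀, hP₀Q, hann, hKid⟩ := PSys.raising₀' P P' hJ I₀ h₀ h₀' i₁ i₂ j₁ j₂ hi hj
    hi₁ hi₂ hj₁ hj₂ D₁₁ D₁₂ D₂₁ D₂₂ hD11 hD12 hD21 hD22 hdim Q hQ₀ hQ hdet
  have hmin : P₀ ∈ (Module.annihilator R (P'.Lim hJ)).minimalPrimes :=
    mem_minimalPrimes_of_le hP₀ (fun x hx =>
      P'.mem_annihilator_of_rho_eq_zero hJ x (Eventually.of_forall fun n => h₀' n x hx)) hann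
  obtain ⟨𝔔, h𝔔, hle, hcm⟩ := exists_prime_over (ulimRingHom F θ) (P'.theta_smul hJ) P₀ hmin 𝔞
  refine ⟨P₀, hP₀, hP₀Q, hann, 𝔔, h𝔔, hle, hcm, fun r hr => ?_⟩
  refine hKid 𝔔 (𝔞.map (ulimRingHom F θ)) hle (by rw [Ideal.map_le_iff_le_comap, hcm]) r ?_
  exact PBase.mem_of_Kid B B' hJ i₁ i₂ I₁ I₂ h₁ h₂ hc₁ hc₂ r hr

/-- a relation on the bottom module. -/
theorem PBase.mem_of_bottom {P : PSys S J R θ} {𝔞 : Ideal S} {R₀ : Type} [CommRing R₀]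
    [IsLocalRing R₀] [IsNoetherianRing R₀]
    [IsAdicComplete (maximalIdeal R₀) R₀] [Finite (ResidueField R₀)]
    (B : PBase P 𝔞 R₀) (hJ : Small F J) (𝔔 : Ideal R) [𝔔.IsPrime]
    (hann : Module.annihilator R (P.Lim hJ) ≤ 𝔔) (hcm : 𝔔.comap (ulimRingHom F θ) = 𝔞)
    (r d : R) (hd : d ∈ 𝔔) (r₀ d₀ : R₀) (hr : ∀ n, B.π n r = r₀) (hd₀ : ∀ n, B.π n d = d₀)
    (h : ∀ y, ∃ z, B.ρ₀ r₀ y = B.ρ₀ d₀ z) : r ∈ 𝔔 := by
  have := P.finite hJ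
  refine mem_of_smul_le (M := P.Lim hJ) (Ideal.span {d} ⊔ 𝔞.map (ulimRingHom F θ)) 𝔔 hann ?_ r ?_
  · refine sup_le ?_ (by rw [Ideal.map_le_iff_le_comap, hcm])
    rw [Ideal.span_le, Set.singleton_subset_iff]
    exact hd
  · intro m
    obtain ⟨z, hz⟩ := h (B.fLim hJ m)
    obtain ⟨m', rfl⟩ := B.fLim_surjective hJ z
    have hr' : B.πLim F r = r₀ := by
      rw [PBase.πLim, ulimRingHom_apply, show (fun n => B.π n r) = fun _ => r₀ from funext hr,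
        ulim_const]
    have hd' : B.πLim F d = d₀ := by
      rw [PBase.πLim, ulimRingHom_apply, show (fun n => B.π n d) = fun _ => d₀ from funext hd₀,
        ulim_const]
    have h4 : r • m - d • m' ∈ LinearMap.ker (B.fLim hJ) := by
      rw [LinearMap.mem_ker, map_sub, B.fLim_smul hJ, B.fLim_smul hJ, hr', hd', hz, sub_self]
    rw [B.ker_fLim hJ] at h4
    have h5 : r • m - d • m' ∈ (Ideal.span {d} ⊔ 𝔞.map (ulimRingHom F θ)) •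
        (⊤ : Submodule R (P.Lim hJ)) := by
      refine Submodule.smul_induction_on (p := fun x => x ∈
        (Ideal.span {d} ⊔ 𝔞.map (ulimRingHom F θ)) • (⊤ : Submodule R (P.Lim hJ))) h4 ?_ ?_
      · intro s hs x _
        rw [← P.theta_smul hJ]
        exact Submodule.smul_mem_smul (Ideal.mem_sup_right (Ideal.mem_map_of_mem _ hs)) trivial
      · intro x y hx hy
        exact add_mem hx hy
    have h6 : d • m' ∈ (Ideal.span {d} ⊔ 𝔞.map (ulimRingHom F θ)) •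
        (⊤ : Submodule R (P.Lim hJ)) :=
      Submodule.smul_mem_smul (Ideal.mem_sup_left (Ideal.mem_span_singleton_self d)) trivial
    have := add_mem h5 h6
    rwa [sub_add_cancel] at this

end Bottom

section Main

variable {ι : Type} {F : Ultrafilter ι} [Nonempty ι]
variable {σ S : Type} [Finite σ] [CommRing S] [IsLocalRing S] [IsNoetherianRing S]
  [IsAdicComplete (maximalIdeal S) S] [Finite (ResidueField S)]
variable {J : ι → Ideal S} {A : ι → Type} [∀ n, CommRing (A n)]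
variable {R : Type} [CommRing R] [IsLocalRing R] [IsNoetherianRing R]
  [IsAdicComplete (maximalIdeal R) R] [Finite (ResidueField R)]
variable {θA : ∀ n, S →+* A n} {θ : ι → (MvPowerSeries σ S →+* R)}

/-- (A5) LEVEL RAISING for framed systems, with newness tested on the bottom level. -/
theorem UData.raising_bottom [IsDomain S] (U U' : UData S J A θA)
    (φ : ∀ n, R →+* MvPowerSeries σ (A n))
    (hφθ : ∀ n, (φ n).comp (θ n) = MvPowerSeries.map (θA n))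
    (hφ : ∀ n, Function.Surjective (φ n)) (hJ : Small F J)
    (I₀ : Ideal R)
    (h₀ : ∀ n, ∀ x ∈ I₀, ∀ k, U.ρ n (coeff k (φ n x)) = 0)
    (h₀' : ∀ n, ∀ x ∈ I₀, ∀ k, U'.ρ n (coeff k (φ n x)) = 0)
    (i₁ i₂ : ∀ n, U.M n →ₗ[S] U'.M n) (j₁ j₂ : ∀ n, U'.M n →ₗ[S] U.M n)
    (hi : ∀ n a b, i₁ n a + i₂ n b ∈ maximalIdeal S • (⊤ : Submodule S (U'.M n)) →
      a ∈ maximalIdeal S • (⊤ : Submodule S (U.M n)) ∧
      b ∈ maximalIdeal S • (⊤ : Submodule S (U.M n)))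
    (hj : ∀ n a b, ∃ x, j₁ n x = a ∧ j₂ n x = b)
    (hi₁ : ∀ n r x, i₁ n (U.ρ n r x) = U'.ρ n r (i₁ n x))
    (hi₂ : ∀ n r x, i₂ n (U.ρ n r x) = U'.ρ n r (i₂ n x))
    (hj₁ : ∀ n r x, j₁ n (U'.ρ n r x) = U.ρ n r (j₁ n x))
    (hj₂ : ∀ n r x, j₂ n (U'.ρ n r x) = U.ρ n r (j₂ n x))
    (D₁₁ D₁₂ D₂₁ D₂₂ : R) (d₁₁ d₁₂ d₂₁ d₂₂ : ∀ n, A n)
    (hd₁₁ : ∀ n, φ n D₁₁ = C (d₁₁ n)) (hd₁₂ : ∀ n, φ n D₁₂ = C (d₁₂ n))
    (hd₂₁ : ∀ n, φ n D₂₁ = C (d₂₁ n)) (hd₂₂ : ∀ n, φ n D₂₂ = C (d₂₂ n))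
    (hD11 : ∀ n x, j₁ n (i₁ n x) = U.ρ n (d₁₁ n) x) (hD12 : ∀ n x, j₁ n (i₂ n x) = U.ρ n (d₁₂ n) x)
    (hD21 : ∀ n x, j₂ n (i₁ n x) = U.ρ n (d₂₁ n) x) (hD22 : ∀ n x, j₂ n (i₂ n x) = U.ρ n (d₂₂ n) x)
    (hdim : ringKrullDim (R ⧸ I₀) ≤ ringKrullDim (MvPowerSeries σ S))
    (Q : Ideal R) [Q.IsPrime] (hQ₀ : I₀ ≤ Q)
    (hQ : Module.annihilator R ((U.frame φ hφθ).Lim (small_frameIdeal (σ := σ) hJ)) ≤ Q)
    (hdet : D₁₁ * D₂₂ - D₁₂ * D₂₁ ∈ Q)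
    {𝔞 : Ideal S} [𝔞.IsPrime] {A₀ : Type} [CommRing A₀] [IsLocalRing A₀] [IsNoetherianRing A₀]
    [IsAdicComplete (maximalIdeal A₀) A₀] [Finite (ResidueField A₀)]
    (B : UBase U 𝔞 A₀) (B' : UBase U' 𝔞 A₀)
    (I₁ I₂ : B.N →ₗ[S] B'.N) (h₁ : ∀ a u, I₁ (B.ρ₀ a u) = B'.ρ₀ a (I₁ u))
    (h₂ : ∀ a u, I₂ (B.ρ₀ a u) = B'.ρ₀ a (I₂ u))
    (hc₁ : ∀ n x, B'.f n (i₁ n x) = I₁ (B.f n x)) (hc₂ : ∀ n x, B'.f n (i₂ n x) = I₂ (B.f n x)) :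
    ∃ P₀ ∈ I₀.minimalPrimes, P₀ ≤ Q ∧
      Module.annihilator R ((U'.frame φ hφθ).Lim (small_frameIdeal (σ := σ) hJ)) ≤ P₀ ∧
      ∃ 𝔔 : Ideal R, 𝔔.IsPrime ∧ P₀ ≤ 𝔔 ∧ 𝔔.comap (ulimRingHom F θ) = frameIdeal σ 𝔞 ∧
        ∀ r : R, (∀ n k y, ∃ u v, B'.ρ₀ (B'.π n (coeff k (φ n r))) y = I₁ u + I₂ v) → r ∈ 𝔔 := by
  have hact : ∀ (n : ι) (D : R) (d : A n) (_ : φ n D = C d) (m : PM σ (U.M n)) (k : σ →₀ ℕ),
      PM.coef k (PM.act (U.ρ n) (φ n D) m) = U.ρ n d (PM.coef k m) := by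
    intro n D d hd m k
    classical
    rw [PM.coef_act, hd, Finset.sum_eq_single (0, k)]
    · rw [coeff_zero_C]
    · rintro ⟨i, j⟩ hij hne
      rw [Finset.HasAntidiagonal.mem_antidiagonal] at hij
      have h0 : i ≠ 0 := by
        rintro rfl
        apply hne
        simp only [zero_add] at hij
        rw [hij]
      rw [coeff_C, if_neg h0, map_zero, LinearMap.zero_apply]
    · intro h
      exact absurd (Finset.HasAntidiagonal.mem_antidiagonal.2 (zero_add k)) h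
  have hD : ∀ (n : ι) (j : U'.M n →ₗ[S] U.M n) (i : U.M n →ₗ[S] U'.M n) (D : R) (d : A n)
      (_ : φ n D = C d) (_ : ∀ x, j (i x) = U.ρ n d x) (x : PM σ (U.M n)),
      PM.ext' j (PM.ext' i x) = PM.act (U.ρ n) (φ n D) x := by
    intro n j i D d hd h x
    apply PM.ext
    intro k
    rw [PM.coef_ext', PM.coef_ext', hact n D d hd, h]
  have hpr : (frameIdeal σ 𝔞).IsPrime := isPrime_frameIdeal 𝔞
  obtain ⟨P₀, k1, k2, k3, 𝔔, k4, k5, k6, k7⟩ := PSys.raising_bottom (U.frame φ hφθ)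
    (U'.frame φ hφθ) (small_frameIdeal hJ) I₀
    (fun n x hx => PM.act_eq_zero (U.ρ n) (φ n x) (h₀ n x hx))
    (fun n x hx => PM.act_eq_zero (U'.ρ n) (φ n x) (h₀' n x hx))
    (fun n => PM.ext' (i₁ n)) (fun n => PM.ext' (i₂ n)) (fun n => PM.ext' (j₁ n))
    (fun n => PM.ext' (j₂ n))
    (by
      intro n a b hab
      have h1 : i₁ n (PM.coef 0 a) + i₂ n (PM.coef 0 b) ∈
          maximalIdeal S • (⊤ : Submodule S (U'.M n)) := coef_zero_mem hab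
      obtain ⟨h2, h3⟩ := hi n _ _ h1
      exact ⟨mem_maxIdeal_smul_top (U.e n) h2, mem_maxIdeal_smul_top (U.e n) h3⟩)
    (by
      intro n a b
      choose x hx₁ hx₂ using fun k : σ →₀ ℕ => hj n (PM.coef k a) (PM.coef k b)
      exact ⟨PM.mk x, PM.ext hx₁, PM.ext hx₂⟩)
    (fun n r x => PM.ext'_act (U.ρ n) (U'.ρ n) (i₁ n) (φ n r) (φ n r) (fun k y => hi₁ n _ y) x)
    (fun n r x => PM.ext'_act (U.ρ n) (U'.ρ n) (i₂ n) (φ n r) (φ n r) (fun k y => hi₂ n _ y) x)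
    (fun n r x => PM.ext'_act (U'.ρ n) (U.ρ n) (j₁ n) (φ n r) (φ n r) (fun k y => hj₁ n _ y) x)
    (fun n r x => PM.ext'_act (U'.ρ n) (U.ρ n) (j₂ n) (φ n r) (φ n r) (fun k y => hj₂ n _ y) x)
    D₁₁ D₁₂ D₂₁ D₂₂
    (fun n => hD n _ _ D₁₁ (d₁₁ n) (hd₁₁ n) (hD11 n))
    (fun n => hD n _ _ D₁₂ (d₁₂ n) (hd₁₂ n) (hD12 n))
    (fun n => hD n _ _ D₂₁ (d₂₁ n) (hd₂₁ n) (hD21 n))
    (fun n => hD n _ _ D₂₂ (d₂₂ n) (hd₂₂ n) (hD22 n)) hdim Q hQ₀ hQ hdet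
    (B.frame φ hφθ hφ) (B'.frame φ hφθ hφ) (PM.ext' I₁) (PM.ext' I₂)
    (fun a u => PM.ext'_act B.ρ₀ B'.ρ₀ I₁ a a (fun k y => h₁ _ y) u)
    (fun a u => PM.ext'_act B.ρ₀ B'.ρ₀ I₂ a a (fun k y => h₂ _ y) u)
    (fun n x => PM.ext fun k => hc₁ n _) (fun n x => PM.ext fun k => hc₂ n _)
  refine ⟨P₀, k1, k2, k3, 𝔔, k4, k5, k6, fun r hr => k7 r fun n => ?_⟩
  have hgen : ∀ y : PM σ B'.N, ∃ u v : PM σ B.N,
      PM.act B'.ρ₀ (MvPowerSeries.map (B'.π n) (φ n r)) y = PM.ext' I₁ u + PM.ext' I₂ v := by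
    intro y
    classical
    choose a b hab using fun (k : σ →₀ ℕ) (y : B'.N) => hr n k y
    refine ⟨PM.mk (fun k => ∑ p ∈ antidiagonal k, a p.1 (PM.coef p.2 y)),
      PM.mk (fun k => ∑ p ∈ antidiagonal k, b p.1 (PM.coef p.2 y)), ?_⟩
    apply PM.ext
    intro k
    rw [PM.coef_act, PM.coef_add, PM.coef_ext', PM.coef_ext', PM.coef_mk, PM.coef_mk, map_sum,
      map_sum, ← Finset.sum_add_distrib]
    refine Finset.sum_congr rfl (fun p _ => ?_)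
    rw [coeff_map]
    exact hab _ _
  exact hgen

/-- a relation on the bottom module of a framed system -/
theorem UBase.mem_of_bottom {U : UData S J A θA} {𝔞 : Ideal S} {A₀ : Type}
    [CommRing A₀] [IsLocalRing A₀] [IsNoetherianRing A₀] [IsAdicComplete (maximalIdeal A₀) A₀]
    [Finite (ResidueField A₀)]
    (B : UBase U 𝔞 A₀) (φ : ∀ n, R →+* MvPowerSeries σ (A n))
    (hφθ : ∀ n, (φ n).comp (θ n) = MvPowerSeries.map (θA n))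
    (hφ : ∀ n, Function.Surjective (φ n)) (hJ : Small F J) (𝔔 : Ideal R) [𝔔.IsPrime]
    (hann : Module.annihilator R ((U.frame φ hφθ).Lim (small_frameIdeal (σ := σ) hJ)) ≤ 𝔔)
    (hcm : 𝔔.comap (ulimRingHom F θ) = frameIdeal σ 𝔞)
    (r d : R) (hd : d ∈ 𝔔) (r₀ d₀ : A₀) (r' d' : ∀ n, A n) (hr' : ∀ n, φ n r = C (r' n))
    (hd' : ∀ n, φ n d = C (d' n)) (hr : ∀ n, B.π n (r' n) = r₀)
    (hd₀ : ∀ n, B.π n (d' n) = d₀) (h : ∀ y, ∃ z, B.ρ₀ r₀ y = B.ρ₀ d₀ z) : r ∈ 𝔔 := by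
  have hact : ∀ (a : A₀) (m : PM σ B.N) (k : σ →₀ ℕ),
      PM.coef k (PM.act B.ρ₀ (C a) m) = B.ρ₀ a (PM.coef k m) := by
    intro a m k
    classical
    rw [PM.coef_act, Finset.sum_eq_single (0, k)]
    · rw [coeff_zero_C]
    · rintro ⟨i, j⟩ hij hne
      rw [Finset.HasAntidiagonal.mem_antidiagonal] at hij
      have h0 : i ≠ 0 := by
        rintro rfl
        apply hne
        simp only [zero_add] at hij
        rw [hij]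
      rw [coeff_C, if_neg h0, map_zero, LinearMap.zero_apply]
    · intro h
      exact absurd (Finset.HasAntidiagonal.mem_antidiagonal.2 (zero_add k)) h
  refine PBase.mem_of_bottom (B.frame φ hφθ hφ) (small_frameIdeal hJ) 𝔔 hann hcm r d hd
    (C r₀) (C d₀) ?_ ?_ ?_
  · intro n
    change MvPowerSeries.map (B.π n) (φ n r) = _
    rw [hr', map_C, hr]
  · intro n
    change MvPowerSeries.map (B.π n) (φ n d) = _
    rw [hd', map_C, hd₀]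
  · intro y
    choose z hz using h
    refine ⟨PM.mk fun k => z (PM.coef k y), ?_⟩
    apply PM.ext
    intro k
    refine (hact r₀ y k).trans (Eq.trans ?_ (hact d₀ _ k).symm)
    exact hz _

end Main

end Fermat.Agent.TAlg
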