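import Mathlib
import Fermat.Agent.TAlg.ML
import Fermat.Agent.TAlg.Raise2

/-! # Modularity lifting: the black box with hypotheses on the bottom level only. -/

set_option autoImplicit false
set_option linter.unusedSectionVars false

open IsLocalRing MvPowerSeries Filter

namespace Fermat.Agent.TAlg

namespace Pack

variable {O : CLR} [IsDomain O] {r m : ℕ} {q : Fin m → O} {Φ₀ : Fin m → M2 O}
  (p : Pack O r (Fin m) q Φ₀) (ε : Fin m → O)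

/-- the sign of a Steinberg component -/
lemma sign_eq (hp : p.OK (fun t => okML (q t) (Φ₀ t).trace))
    (hq1 : ∀ t, q t ≠ 1) (hq2 : ∀ t, q t + 1 ≠ 0)
    (htr₀ : ∀ t, (Φ₀ t).trace - ε t * (q t + 1) ∈ maximalIdeal O)
    (hε : ∀ t, ε t ^ 2 = 1) (t₀ : Fin m) (P₀ : Ideal p.R)
    (hQ : P₀ ≤ p.K ⊥ (tyQ ε t₀)) (t : Fin m) (ht : t ≤ t₀) (ε' : O)
    (hle : Jst (p.i ε') (p.i (q t)) (p.Φ t) (p.S t) ≤ P₀) : ε' = ε t := by
  have hbot : (⊥ : Ideal O).IsPrime := Ideal.isPrime_bot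
  obtain ⟨-, k2, -, -⟩ := hp ⊥ (tyQ ε t₀) (fun t => ok_tyQ ε htr₀ hε hq1 t₀ t)
  change (p.K ⊥ (tyQ ε t₀)).comap p.i = ⊥ at k2
  have h1 : (p.Φ t).trace - p.i ε' * (p.i (q t) + 1) ∈ p.K ⊥ (tyQ ε t₀) :=
    hQ (hle (trace_mem_Jst _ _))
  have h3 : (p.Φ t).trace - p.i (ε t) * (p.i (q t) + 1) ∈ p.K ⊥ (tyQ ε t₀) := by
    apply p.J_le_K ⊥ (tyQ ε t₀) t
    rcases lt_or_eq_of_le ht with h | h
    · rw [tyQ, if_pos h]
      exact trace_mem_Jst _ _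
    · rw [tyQ, if_neg (by rw [h]; exact lt_irrefl _), if_pos h]
      exact trace_mem_Jrz _ _
  have h4 : (ε t - ε') * (q t + 1) ∈ (p.K ⊥ (tyQ ε t₀)).comap p.i := by
    rw [Ideal.mem_comap]
    have := Ideal.sub_mem _ h1 h3
    convert this using 1
    simp only [map_sub, map_mul, map_add, map_one]
    ring
  rw [k2, Ideal.mem_bot] at h4
  rcases mul_eq_zero.1 h4 with h5 | h5
  · exact (sub_eq_zero.1 h5).symm
  · exact absurd h5 (hq2 t)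

/-- unramified case -/
lemma KS_castSucc_le (hp : p.OK (fun t => okML (q t) (Φ₀ t).trace))
    (hp' : OKst p.i q p.Φ p.S (fun t => okML (q t) (Φ₀ t).trace)) (hqu : ∀ t, IsUnit (q t))
    (hq1 : ∀ t, q t ≠ 1) (hq2 : ∀ t, q t + 1 ≠ 0)
    (htr₀ : ∀ t, (Φ₀ t).trace - ε t * (q t + 1) ∈ maximalIdeal O)
    (hε : ∀ t, ε t ^ 2 = 1) (t₀ : Fin m) (P₀ : Ideal p.R) (hP₀ : P₀ ∈ (p.I0 t₀).minimalPrimes)
    (hQ : P₀ ≤ p.K ⊥ (tyQ ε t₀)) (hu : Junr (p.S t₀) ≤ P₀) :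
    p.K ⊥ (tyS ε t₀.castSucc) ≤ P₀ := by
  have hbot : (⊥ : Ideal O).IsPrime := Ideal.isPrime_bot
  have hP₀p : P₀.IsPrime := hP₀.1.1
  have hI₀P₀ : p.I0 t₀ ≤ P₀ := hP₀.1.2
  have hnst := hp' ⊥ (tyQ ε t₀) (fun t => ok_tyQ ε htr₀ hε hq1 t₀ t)
  refine p.K_bot_le fun t => ?_
  rcases lt_trichotomy t t₀ with h | h | h
  · rw [tyS, if_pos (by rw [Fin.castSucc_lt_castSucc_iff]; exact h)]
    rcases p.exists_type P₀ t (hqu t) ((p.J1_le_I0 h.le).trans hI₀P₀) with h1 | ⟨ε', hε', h1⟩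
    · exact absurd (h1.trans hQ) (hnst t (ε t) (by rw [tyQ, if_pos h]))
    · rw [← p.sign_eq ε hp hq1 hq2 htr₀ hε t₀ P₀ hQ t h.le ε' h1]
      exact h1
  · subst h
    rw [tyS, if_neg (by rw [Fin.castSucc_lt_castSucc_iff]; exact lt_irrefl _)]
    exact hu
  · rw [tyS, if_neg (by rw [Fin.castSucc_lt_castSucc_iff, not_lt]; exact h.le)]
    exact (p.Junr_le_I0 h).trans hI₀P₀

end Pack

set_option maxHeartbeats 1000000 in
/-- SUPPORT OF THE PATCHED MODULES. -/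
theorem ml_support {O : CLR} [IsDomain O] {m : ℕ}
    (q : Fin m → O) (hqu : ∀ t, IsUnit (q t)) (hq1 : ∀ t, q t ≠ 1) (hq2 : ∀ t, q t + 1 ≠ 0)
    (Φ₀ : Fin m → M2 O)
    (ε : Fin m → O) (hε : ∀ t, ε t ^ 2 = 1)
    (htr₀ : ∀ t, (Φ₀ t).trace - ε t * (q t + 1) ∈ maximalIdeal O)
    (r : ℕ) {ι : Type} [Nonempty ι] {F : Ultrafilter ι}
    {J : ι → Ideal (MvPowerSeries (Fin r) O)} (hJ : Small F J)
    {A : ι → Type} [∀ n, CommRing (A n)] [∀ n, IsLocalRing (A n)] [∀ n, IsNoetherianRing (A n)]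
    (cA : ∀ n, O →+* A n)
    {θA : ∀ n, MvPowerSeries (Fin r) O →+* A n}
    (Φ S : ∀ n, Fin m → M2 (A n))
    (U : Fin (m + 1) → UData (MvPowerSeries (Fin r) O) J A θA)
    (j₀ : Fin (m + 1))
    (hunr : ∀ n (j : Fin (m + 1)) (t : Fin m), j₀ ≤ j → j ≤ t.castSucc →
      ∀ x ∈ Junr (S n t), (U j).ρ n x = 0)
    (h1 : ∀ n (j : Fin (m + 1)) (t : Fin m), j₀ ≤ j → t.castSucc < j →
      ∀ x ∈ J1 (cA n (q t)) (Φ n t) (S n t), (U j).ρ n x = 0)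
    (hst : ∀ n (t : Fin m), t.castSucc < j₀ →
      ∀ x ∈ Jst (cA n (ε t)) (cA n (q t)) (Φ n t) (S n t), (U j₀).ρ n x = 0)
    (i₁ i₂ : ∀ (t : Fin m) n,
      (U t.castSucc).M n →ₗ[MvPowerSeries (Fin r) O] (U t.succ).M n)
    (j₁ j₂ : ∀ (t : Fin m) n,
      (U t.succ).M n →ₗ[MvPowerSeries (Fin r) O] (U t.castSucc).M n)
    (hi : ∀ t, j₀ ≤ t.castSucc → ∀ n a b, i₁ t n a + i₂ t n b ∈
        maximalIdeal (MvPowerSeries (Fin r) O) •
          (⊤ : Submodule (MvPowerSeries (Fin r) O) ((U t.succ).M n)) →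
      a ∈ maximalIdeal (MvPowerSeries (Fin r) O) •
          (⊤ : Submodule (MvPowerSeries (Fin r) O) ((U t.castSucc).M n)) ∧
      b ∈ maximalIdeal (MvPowerSeries (Fin r) O) •
          (⊤ : Submodule (MvPowerSeries (Fin r) O) ((U t.castSucc).M n)))
    (hj : ∀ t, j₀ ≤ t.castSucc → ∀ n a b, ∃ x, j₁ t n x = a ∧ j₂ t n x = b)
    (hi₁ : ∀ t, j₀ ≤ t.castSucc → ∀ n a x,
      i₁ t n ((U t.castSucc).ρ n a x) = (U t.succ).ρ n a (i₁ t n x))
    (hi₂ : ∀ t, j₀ ≤ t.castSucc → ∀ n a x,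
      i₂ t n ((U t.castSucc).ρ n a x) = (U t.succ).ρ n a (i₂ t n x))
    (hj₁ : ∀ t, j₀ ≤ t.castSucc → ∀ n a x,
      j₁ t n ((U t.succ).ρ n a x) = (U t.castSucc).ρ n a (j₁ t n x))
    (hj₂ : ∀ t, j₀ ≤ t.castSucc → ∀ n a x,
      j₂ t n ((U t.succ).ρ n a x) = (U t.castSucc).ρ n a (j₂ t n x))
    (hD11 : ∀ t, j₀ ≤ t.castSucc → ∀ n x,
      j₁ t n (i₁ t n x) = (U t.castSucc).ρ n (cA n (q t + 1)) x)
    (hD12 : ∀ t, j₀ ≤ t.castSucc → ∀ n x,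
      j₁ t n (i₂ t n x) = (U t.castSucc).ρ n (Φ n t).trace x)
    (hD21 : ∀ t, j₀ ≤ t.castSucc → ∀ n x,
      j₂ t n (i₁ t n x) = (U t.castSucc).ρ n (Φ n t).trace x)
    (hD22 : ∀ t, j₀ ≤ t.castSucc → ∀ n x,
      j₂ t n (i₂ t n x) = (U t.castSucc).ρ n (cA n (q t + 1)) x)
    (hd : (U j₀).d ≠ 0)
    {𝔞 : Ideal (MvPowerSeries (Fin r) O)} [𝔞.IsPrime] (h𝔞 : ∀ o : O, C o ∈ 𝔞 → o = 0)
    {A₀ : Type}
    [CommRing A₀] [IsLocalRing A₀] [IsNoetherianRing A₀] [IsAdicComplete (maximalIdeal A₀) A₀]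
    [Finite (ResidueField A₀)] (B : ∀ j, UBase (U j) 𝔞 A₀)
    (cA₀ : O →+* A₀) (hcA₀ : ∀ j n o, (B j).π n (cA n o) = cA₀ o)
    (τ : Fin m → A₀) (hτ : ∀ j n t, (B j).π n (Φ n t).trace = τ t)
    (I₁ I₂ : ∀ t : Fin m, (B t.castSucc).N →ₗ[MvPowerSeries (Fin r) O] (B t.succ).N)
    (hI₁ : ∀ t, j₀ ≤ t.castSucc → ∀ a u,
      I₁ t ((B t.castSucc).ρ₀ a u) = (B t.succ).ρ₀ a (I₁ t u))
    (hI₂ : ∀ t, j₀ ≤ t.castSucc → ∀ a u,
      I₂ t ((B t.castSucc).ρ₀ a u) = (B t.succ).ρ₀ a (I₂ t u))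
    (hc₁ : ∀ t, j₀ ≤ t.castSucc → ∀ n x,
      (B t.succ).f n (i₁ t n x) = I₁ t ((B t.castSucc).f n x))
    (hc₂ : ∀ t, j₀ ≤ t.castSucc → ∀ n x,
      (B t.succ).f n (i₂ t n x) = I₂ t ((B t.castSucc).f n x))
    (hnew : ∀ t, j₀ ≤ t.castSucc → ∀ n, ∀ a ∈ Jst 1 (cA n (q t)) (Φ n t) (S n t) *
        Jst (-1) (cA n (q t)) (Φ n t) (S n t),
      ∀ y, ∃ u v, (B t.succ).ρ₀ ((B t.succ).π n a) y = I₁ t u + I₂ t v)
    (hbd : ∀ t, j₀ ≤ t.castSucc → ∃ o : O, o ≠ 0 ∧ ∀ y, ∃ z,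
      (B t.castSucc).ρ₀ (cA₀ o) y =
        (B t.castSucc).ρ₀ (τ t * τ t - cA₀ (q t + 1) * cA₀ (q t + 1)) z)
    (p : Pack O r (Fin m) q Φ₀) (hp : p.OK (fun t => okML (q t) (Φ₀ t).trace))
    (hp' : OKst p.i q p.Φ p.S (fun t => okML (q t) (Φ₀ t).trace))
    (φ : ∀ n, p.R →+* MvPowerSeries (Fin m × Fin 3) (A n))
    (hφs : ∀ n, Function.Surjective (φ n))
    (hφi : ∀ n o, φ n (p.i o) = C (cA n o)) (hφΦ : ∀ n t, (p.Φ t).map (φ n) = frM (Φ n t) t)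
    (hφS : ∀ n t, (p.S t).map (φ n) = frM (S n t) t)
    {θ : ι → (MvPowerSeries (Fin m × Fin 3) (MvPowerSeries (Fin r) O) →+* p.R)}
    (hθ : ∀ n, (φ n).comp (θ n) = MvPowerSeries.map (θA n))
    (hθi : ∀ n o, θ n (C (C o)) = p.i o) (j : Fin (m + 1)) (hj₀ : j₀ ≤ j) :
    Module.annihilator p.R (((U j).frame φ hθ).Lim
      (small_frameIdeal (σ := Fin m × Fin 3) hJ)) ≤ p.K ⊥ (Pack.tyS ε j) := by
  classical
  have := p.loc
  have hbot : (⊥ : Ideal O).IsPrime := Ideal.isPrime_bot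
  have hdim : ringKrullDim (O ⧸ (⊥ : Ideal O)) + ((r + 3 * Nat.card (Fin m) : ℕ) : WithBot ℕ∞) ≤
      ringKrullDim (MvPowerSeries (Fin m × Fin 3) (MvPowerSeries (Fin r) O)) := by
    have h3 := ringKrullDim_add_natCard_le_mvPowerSeries (R := O) (Fin r)
    have h4 := ringKrullDim_add_natCard_le_mvPowerSeries (R := MvPowerSeries (Fin r) O)
      (Fin m × Fin 3)
    refine le_trans ?_ h4
    refine le_trans ?_ (add_le_add_left h3 _)
    rw [ringKrullDim_eq_of_ringEquiv (RingEquiv.quotientBot O), Nat.card_prod, Nat.card_fin,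
      Nat.card_fin, Nat.card_fin, Nat.cast_add, add_assoc, mul_comm 3]
  -- translations of relations
  have hJunr : ∀ n t, (Junr (p.S t)).map (φ n) =
      (Junr (S n t)).map (C : A n →+* MvPowerSeries (Fin m × Fin 3) (A n)) := by
    intro n t
    rw [map_Junr, hφS, Junr_frM]
  have hJ1 : ∀ n t, (J1 (p.i (q t)) (p.Φ t) (p.S t)).map (φ n) =
      (J1 (cA n (q t)) (Φ n t) (S n t)).map
        (C : A n →+* MvPowerSeries (Fin m × Fin 3) (A n)) := by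
    intro n t
    rw [map_J1, hφi, hφΦ, hφS, J1_frM]
  have hJst : ∀ n t (e : O), (Jst (p.i e) (p.i (q t)) (p.Φ t) (p.S t)).map (φ n) =
      (Jst (cA n e) (cA n (q t)) (Φ n t) (S n t)).map
        (C : A n →+* MvPowerSeries (Fin m × Fin 3) (A n)) := by
    intro n t e
    rw [map_Jst, hφi, hφi, hφΦ, hφS, Jst_frM]
  -- killing
  have hkill : ∀ (j : Fin (m + 1)) (I : Ideal p.R),
      (∀ n, ∃ I' : Ideal (A n), (∀ a ∈ I', (U j).ρ n a = 0) ∧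
        I.map (φ n) ≤ I'.map (C : A n →+* MvPowerSeries (Fin m × Fin 3) (A n))) →
      ∀ n, ∀ x ∈ I, ∀ k, (U j).ρ n (coeff k (φ n x)) = 0 := by
    intro j I h n x hx k
    obtain ⟨I', h3, h4⟩ := h n
    exact coeff_act_eq_zero ((U j).ρ n) I' h3 (φ n) I h4 x hx k
  -- bottom of the tower
  have base : Module.annihilator p.R (((U j₀).frame φ hθ).Lim
      (small_frameIdeal (σ := Fin m × Fin 3) hJ)) ≤ p.K ⊥ (Pack.tyS ε j₀) := by
    obtain ⟨k1, -, k3, -⟩ := hp ⊥ (Pack.tyS ε j₀) (fun t => Pack.ok_tyS ε htr₀ hε j₀ t ⊥)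
    have hk0 : ∀ n, ∀ x ∈ p.K ⊥ (Pack.tyS ε j₀), ∀ k, (U j₀).ρ n (coeff k (φ n x)) = 0 := by
      refine hkill j₀ _ (fun n => ⟨⨆ t, if t.castSucc < j₀ then
        Jst (cA n (ε t)) (cA n (q t)) (Φ n t) (S n t) else Junr (S n t), ?_, ?_⟩)
      · intro a ha
        have h3 : (⨆ t, if t.castSucc < j₀ then
            Jst (cA n (ε t)) (cA n (q t)) (Φ n t) (S n t) else Junr (S n t)) ≤
            RingHom.ker ((U j₀).ρ n) := by
          refine iSup_le fun t => ?_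
          split_ifs with h
          · exact fun x hx => hst n t h x hx
          · exact fun x hx => hunr n j₀ t le_rfl (not_lt.1 h) x hx
        exact h3 ha
      · rw [Ideal.map_iSup, Ideal.map_le_iff_le_comap]
        refine p.K_bot_le fun t => ?_
        rw [Pack.tyS]
        by_cases h : t.castSucc < j₀
        · rw [if_pos h]
          change Jst (p.i (ε t)) (p.i (q t)) (p.Φ t) (p.S t) ≤ _
          rw [← Ideal.map_le_iff_le_comap, hJst]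
          refine le_trans (le_of_eq ?_) (le_iSup _ t)
          rw [if_pos h]
        · rw [if_neg h]
          change Junr (p.S t) ≤ _
          rw [← Ideal.map_le_iff_le_comap, hJunr]
          refine le_trans (le_of_eq ?_) (le_iSup _ t)
          rw [if_neg h]
    obtain ⟨-, h3⟩ := PSys.exists_annihilator_le ((U j₀).frame φ hθ)
      (small_frameIdeal (σ := Fin m × Fin 3) hJ) (fun _ : Unit => p.K ⊥ (Pack.tyS ε j₀))
      (fun _ => k1) (fun _ => k3.trans hdim)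
      (fun n x hx => PM.act_eq_zero ((U j₀).ρ n) (φ n x) (hk0 n x (by
        rwa [Finset.univ_unique, Finset.prod_singleton] at hx))) hd
    exact h3
  -- induction
  revert hj₀
  induction j using Fin.induction with
  | zero =>
    intro hj₀
    have h0 : j₀ = 0 := le_antisymm hj₀ (Fin.zero_le _)
    subst h0
    exact base
  | succ t₀ ih =>
    intro hj₀
    by_cases hcase : j₀ ≤ t₀.castSucc
    swap
    · have h0 : j₀ = t₀.succ := le_antisymm hj₀ (by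
        rw [not_le] at hcase
        exact Fin.castSucc_lt_iff_succ_le.1 hcase)
      subst h0
      exact base
    have ih' := ih hcase
    -- relations for the ideal `I0`
    have hI0map : ∀ n, (p.I0 t₀).map (φ n) ≤ (⨆ t, if t ≤ t₀ then
        J1 (cA n (q t)) (Φ n t) (S n t) else Junr (S n t)).map
        (C : A n →+* MvPowerSeries (Fin m × Fin 3) (A n)) := by
      intro n
      rw [Pack.I0, Ideal.map_iSup, Ideal.map_iSup]
      refine iSup_mono fun t => ?_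
      split_ifs
      · rw [hJ1]
      · rw [hJunr]
    have hk₀ : ∀ n, ∀ x ∈ p.I0 t₀, ∀ k, (U t₀.castSucc).ρ n (coeff k (φ n x)) = 0 := by
      refine hkill t₀.castSucc _ (fun n => ⟨_, ?_, hI0map n⟩)
      intro a ha
      have h3 : (⨆ t, if t ≤ t₀ then J1 (cA n (q t)) (Φ n t) (S n t) else Junr (S n t)) ≤
          RingHom.ker ((U t₀.castSucc).ρ n) := by
        refine iSup_le fun t => ?_
        split_ifs with h
        · rcases lt_or_eq_of_le h with h' | h'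
          · intro x hx
            exact h1 n t₀.castSucc t hcase (Fin.castSucc_lt_castSucc_iff.2 h') x hx
          · intro x hx
            exact hunr n t₀.castSucc t hcase (by rw [h']) x (J1_le_Junr _ _ _ hx)
        · intro x hx
          exact hunr n t₀.castSucc t hcase (by
            rw [Fin.castSucc_le_castSucc_iff]; exact (not_le.1 h).le) x hx
      exact h3 ha
    have hk₁ : ∀ n, ∀ x ∈ p.I0 t₀, ∀ k, (U t₀.succ).ρ n (coeff k (φ n x)) = 0 := by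
      refine hkill t₀.succ _ (fun n => ⟨_, ?_, hI0map n⟩)
      intro a ha
      have h3 : (⨆ t, if t ≤ t₀ then J1 (cA n (q t)) (Φ n t) (S n t) else Junr (S n t)) ≤
          RingHom.ker ((U t₀.succ).ρ n) := by
        refine iSup_le fun t => ?_
        split_ifs with h
        · intro x hx
          exact h1 n t₀.succ t hj₀ (Fin.castSucc_lt_succ_iff.2 h) x hx
        · intro x hx
          exact hunr n t₀.succ t hj₀ (by
            rw [Fin.succ_le_castSucc_iff]; exact not_le.1 h) x hx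
      exact h3 ha
    obtain ⟨kQ, -, -, -⟩ := hp ⊥ (Pack.tyQ ε t₀) (fun t => Pack.ok_tyQ ε htr₀ hε hq1 t₀ t)
    change (p.K ⊥ (Pack.tyQ ε t₀)).IsPrime at kQ
    have htrmem : (p.Φ t₀).trace - p.i (ε t₀) * (p.i (q t₀) + 1) ∈ p.K ⊥ (Pack.tyQ ε t₀) := by
      apply p.J_le_K ⊥ (Pack.tyQ ε t₀) t₀
      rw [Pack.tyQ, if_neg (lt_irrefl _), if_pos rfl]
      exact trace_mem_Jrz _ _
    have htrφ : ∀ n, φ n (p.Φ t₀).trace = C (Φ n t₀).trace := by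
      intro n
      rw [← trace_frM _ t₀, ← hφΦ n t₀, Matrix.trace_fin_two, Matrix.trace_fin_two, map_add]
      rfl
    have hImap : ∀ n, (Jst 1 (p.i (q t₀)) (p.Φ t₀) (p.S t₀) *
        Jst (-1) (p.i (q t₀)) (p.Φ t₀) (p.S t₀)).map (φ n) ≤
        (Jst 1 (cA n (q t₀)) (Φ n t₀) (S n t₀) *
          Jst (-1) (cA n (q t₀)) (Φ n t₀) (S n t₀)).map
          (C : A n →+* MvPowerSeries (Fin m × Fin 3) (A n)) := by
      intro n
      have e1 := hJst n t₀ 1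
      have e2 := hJst n t₀ (-1)
      simp only [map_neg, map_one] at e1 e2
      rw [Ideal.map_mul, Ideal.map_mul, e1, e2]
    have hdet : p.i (q t₀ + 1) * p.i (q t₀ + 1) - (p.Φ t₀).trace * (p.Φ t₀).trace ∈
        p.K ⊥ (Pack.tyQ ε t₀) := by
      have e : p.i (q t₀ + 1) * p.i (q t₀ + 1) - (p.Φ t₀).trace * (p.Φ t₀).trace =
          -(((p.Φ t₀).trace - p.i (ε t₀) * (p.i (q t₀) + 1)) *
            ((p.Φ t₀).trace + p.i (ε t₀) * (p.i (q t₀) + 1))) := by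
        have h6 : (p.i (ε t₀)) ^ 2 = 1 := by rw [← map_pow, hε, map_one]
        rw [map_add, map_one]
        linear_combination (-(p.i (q t₀) + 1) ^ 2) * h6
      rw [e]
      exact (Ideal.neg_mem_iff _).2 (Ideal.mul_mem_right _ _ htrmem)
    obtain ⟨P₀, hP₀, hP₀Q, hann, 𝔔, k4, k5, k6, k7⟩ :=
      UData.raising_bottom (U t₀.castSucc) (U t₀.succ) φ hθ hφs hJ (p.I0 t₀) hk₀ hk₁
        (i₁ t₀) (i₂ t₀) (j₁ t₀) (j₂ t₀) (hi t₀ hcase) (hj t₀ hcase) (hi₁ t₀ hcase)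
        (hi₂ t₀ hcase) (hj₁ t₀ hcase) (hj₂ t₀ hcase)
        (p.i (q t₀ + 1)) (p.Φ t₀).trace (p.Φ t₀).trace (p.i (q t₀ + 1))
        (fun n => cA n (q t₀ + 1)) (fun n => (Φ n t₀).trace) (fun n => (Φ n t₀).trace)
        (fun n => cA n (q t₀ + 1)) (fun n => hφi n _) htrφ htrφ (fun n => hφi n _)
        (hD11 t₀ hcase) (hD12 t₀ hcase) (hD21 t₀ hcase) (hD22 t₀ hcase)
        ((p.dim_I0 hp hqu t₀).trans hdim) (p.K ⊥ (Pack.tyQ ε t₀)) (p.I0_le_Q ε t₀)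
        (ih'.trans (p.KS_le_Q ε t₀)) hdet (B t₀.castSucc) (B t₀.succ) (I₁ t₀) (I₂ t₀)
        (hI₁ t₀ hcase) (hI₂ t₀ hcase) (hc₁ t₀ hcase) (hc₂ t₀ hcase)
    have hP₀p : P₀.IsPrime := hP₀.1.1
    rcases p.exists_type P₀ t₀ (hqu t₀) ((p.J1_le_I0 le_rfl).trans hP₀.1.2) with hu | ⟨ε', hε', hs⟩
    · -- the unramified case is impossible
      exfalso
      have hKS := p.KS_castSucc_le ε hp hp' hqu hq1 hq2 htr₀ hε t₀ P₀ hP₀ hP₀Q hu
      have hmem : (p.Φ t₀).trace * (p.Φ t₀).trace - p.i (q t₀ + 1) * p.i (q t₀ + 1) ∈ 𝔔 := by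
        have h8 : ((p.Φ t₀).trace - 1 * (p.i (q t₀) + 1)) *
            ((p.Φ t₀).trace - (-1) * (p.i (q t₀) + 1)) ∈ 𝔔 := by
          refine k7 _ fun n k y => hnew t₀ hcase n _ (coeff_mem_of_mem_map_C
            (hImap n (Ideal.mem_map_of_mem (φ n) ?_)) k) y
          exact Ideal.mul_mem_mul (trace_mem_Jst _ _) (trace_mem_Jst _ _)
        have e : (p.Φ t₀).trace * (p.Φ t₀).trace - p.i (q t₀ + 1) * p.i (q t₀ + 1) =
            ((p.Φ t₀).trace - 1 * (p.i (q t₀) + 1)) *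
              ((p.Φ t₀).trace - (-1) * (p.i (q t₀) + 1)) := by
          rw [map_add, map_one]; ring
        rw [e]
        exact h8
      obtain ⟨o, ho, hbd'⟩ := hbd t₀ hcase
      have h9 : p.i o ∈ 𝔔 := by
        refine (B t₀.castSucc).mem_of_bottom φ hθ hφs hJ 𝔔
          (ih'.trans (hKS.trans k5)) k6 (p.i o) _ hmem (cA₀ o)
          (τ t₀ * τ t₀ - cA₀ (q t₀ + 1) * cA₀ (q t₀ + 1)) (fun n => cA n o)
          (fun n => (Φ n t₀).trace * (Φ n t₀).trace - cA n (q t₀ + 1) * cA n (q t₀ + 1))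
          (fun n => hφi n o) (fun n => ?_) (fun n => hcA₀ _ n o) (fun n => ?_) hbd'
        · rw [map_sub, map_mul, map_mul, htrφ, hφi, map_sub, map_mul, map_mul]
        · rw [map_sub, map_mul, map_mul, hτ, hcA₀]
      have h10 : ulimRingHom F θ (C (C o)) = p.i o := by
        rw [ulimRingHom_apply, show (fun n => θ n (C (C o))) = fun _ => p.i o from
          funext fun n => hθi n o, ulim_const]
      have h11 : (C (C o) : MvPowerSeries (Fin m × Fin 3) (MvPowerSeries (Fin r) O)) ∈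
          frameIdeal (Fin m × Fin 3) 𝔞 := by
        rw [← k6, Ideal.mem_comap, h10]
        exact h9
      have h12 := (mem_frameIdeal _ _).1 h11 0
      rw [coeff_zero_C] at h12
      exact ho (h𝔞 o h12)
    · have hI : Jst 1 (p.i (q t₀)) (p.Φ t₀) (p.S t₀) *
          Jst (-1) (p.i (q t₀)) (p.Φ t₀) (p.S t₀) ≤ P₀ := by
        refine (Ideal.IsPrime.mul_le hP₀p).2 ?_
        rcases hε' with h | h
        · left
          rw [h, map_one] at hs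
          exact hs
        · right
          rw [h, map_neg, map_one] at hs
          exact hs
      exact hann.trans (p.minimal_le ε hp hp' hqu hq1 hq2 htr₀ hε t₀ P₀ hP₀ hI hP₀Q)


/-- MODULARITY LIFTING BLACK BOX, with hypotheses on the bottom level only. -/
theorem modularityLifting₀ {O : CLR} [IsDomain O] (h2 : IsUnit (2 : O)) {m : ℕ}
    (q : Fin m → O) (hqu : ∀ t, IsUnit (q t)) (hq1 : ∀ t, q t ≠ 1) (hq2 : ∀ t, q t + 1 ≠ 0)
    (Φ₀ : Fin m → M2 O) (hdet₀ : ∀ t, (Φ₀ t).det - q t ∈ maximalIdeal O)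
    (ε : Fin m → O) (hε : ∀ t, ε t ^ 2 = 1)
    (htr₀ : ∀ t, (Φ₀ t).trace - ε t * (q t + 1) ∈ maximalIdeal O)
    (r : ℕ) {ι : Type} [Nonempty ι] {F : Ultrafilter ι}
    {J : ι → Ideal (MvPowerSeries (Fin r) O)} (hJ : Small F J)
    {A : ι → Type} [∀ n, CommRing (A n)] [∀ n, IsLocalRing (A n)] [∀ n, IsNoetherianRing (A n)]
    [∀ n, IsAdicComplete (maximalIdeal (A n)) (A n)]
    (cA : ∀ n, O →+* A n) [∀ n, IsLocalHom (cA n)]
    (hres : ∀ n b, ∃ o, b - cA n o ∈ maximalIdeal (A n))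
    {k : Type} [Field k] (π : ∀ n, A n →+* k) (hπ : ∀ n, Function.Surjective (π n))
    {θA : ∀ n, MvPowerSeries (Fin r) O →+* A n} (hθC : ∀ n o, θA n (C o) = cA n o)
    (hθX : ∀ n i, θA n (X i) ∈ maximalIdeal (A n))
    (Φ S : ∀ n, Fin m → M2 (A n)) (detΦ : ∀ n t, (Φ n t).det = cA n (q t))
    (detS : ∀ n t, (S n t).det = 1)
    (hΦ : ∀ n t i j, Φ n t i j - cA n (Φ₀ t i j) ∈ maximalIdeal (A n))
    (hS : ∀ n t i j, S n t i j - (1 : M2 (A n)) i j ∈ maximalIdeal (A n))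
    (htan : ∀ n, Module.finrank k (TanSpace (cA n) (π n) (Φ n) (S n)) ≤ r)
    (U : Fin (m + 1) → UData (MvPowerSeries (Fin r) O) J A θA)
    (j₀ : Fin (m + 1))
    (hunr : ∀ n (j : Fin (m + 1)) (t : Fin m), j₀ ≤ j → j ≤ t.castSucc →
      ∀ x ∈ Junr (S n t), (U j).ρ n x = 0)
    (h1 : ∀ n (j : Fin (m + 1)) (t : Fin m), j₀ ≤ j → t.castSucc < j →
      ∀ x ∈ J1 (cA n (q t)) (Φ n t) (S n t), (U j).ρ n x = 0)
    (hst : ∀ n (t : Fin m), t.castSucc < j₀ →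
      ∀ x ∈ Jst (cA n (ε t)) (cA n (q t)) (Φ n t) (S n t), (U j₀).ρ n x = 0)
    (i₁ i₂ : ∀ (t : Fin m) n,
      (U t.castSucc).M n →ₗ[MvPowerSeries (Fin r) O] (U t.succ).M n)
    (j₁ j₂ : ∀ (t : Fin m) n,
      (U t.succ).M n →ₗ[MvPowerSeries (Fin r) O] (U t.castSucc).M n)
    (hi : ∀ t, j₀ ≤ t.castSucc → ∀ n a b, i₁ t n a + i₂ t n b ∈
        maximalIdeal (MvPowerSeries (Fin r) O) •
          (⊤ : Submodule (MvPowerSeries (Fin r) O) ((U t.succ).M n)) →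
      a ∈ maximalIdeal (MvPowerSeries (Fin r) O) •
          (⊤ : Submodule (MvPowerSeries (Fin r) O) ((U t.castSucc).M n)) ∧
      b ∈ maximalIdeal (MvPowerSeries (Fin r) O) •
          (⊤ : Submodule (MvPowerSeries (Fin r) O) ((U t.castSucc).M n)))
    (hj : ∀ t, j₀ ≤ t.castSucc → ∀ n a b, ∃ x, j₁ t n x = a ∧ j₂ t n x = b)
    (hi₁ : ∀ t, j₀ ≤ t.castSucc → ∀ n a x,
      i₁ t n ((U t.castSucc).ρ n a x) = (U t.succ).ρ n a (i₁ t n x))
    (hi₂ : ∀ t, j₀ ≤ t.castSucc → ∀ n a x,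
      i₂ t n ((U t.castSucc).ρ n a x) = (U t.succ).ρ n a (i₂ t n x))
    (hj₁ : ∀ t, j₀ ≤ t.castSucc → ∀ n a x,
      j₁ t n ((U t.succ).ρ n a x) = (U t.castSucc).ρ n a (j₁ t n x))
    (hj₂ : ∀ t, j₀ ≤ t.castSucc → ∀ n a x,
      j₂ t n ((U t.succ).ρ n a x) = (U t.castSucc).ρ n a (j₂ t n x))
    (hD11 : ∀ t, j₀ ≤ t.castSucc → ∀ n x,
      j₁ t n (i₁ t n x) = (U t.castSucc).ρ n (cA n (q t + 1)) x)
    (hD12 : ∀ t, j₀ ≤ t.castSucc → ∀ n x,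
      j₁ t n (i₂ t n x) = (U t.castSucc).ρ n (Φ n t).trace x)
    (hD21 : ∀ t, j₀ ≤ t.castSucc → ∀ n x,
      j₂ t n (i₁ t n x) = (U t.castSucc).ρ n (Φ n t).trace x)
    (hD22 : ∀ t, j₀ ≤ t.castSucc → ∀ n x,
      j₂ t n (i₂ t n x) = (U t.castSucc).ρ n (cA n (q t + 1)) x)
    (hd : (U j₀).d ≠ 0)
    {𝔞 : Ideal (MvPowerSeries (Fin r) O)} [𝔞.IsPrime] (h𝔞 : ∀ o : O, C o ∈ 𝔞 → o = 0)
    {A₀ : Type}
    [CommRing A₀] [IsLocalRing A₀] [IsNoetherianRing A₀] [IsAdicComplete (maximalIdeal A₀) A₀]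
    [Finite (ResidueField A₀)] (B : ∀ j, UBase (U j) 𝔞 A₀)
    (cA₀ : O →+* A₀) (hcA₀ : ∀ j n o, (B j).π n (cA n o) = cA₀ o)
    (τ : Fin m → A₀) (hτ : ∀ j n t, (B j).π n (Φ n t).trace = τ t)
    (I₁ I₂ : ∀ t : Fin m, (B t.castSucc).N →ₗ[MvPowerSeries (Fin r) O] (B t.succ).N)
    (hI₁ : ∀ t, j₀ ≤ t.castSucc → ∀ a u,
      I₁ t ((B t.castSucc).ρ₀ a u) = (B t.succ).ρ₀ a (I₁ t u))
    (hI₂ : ∀ t, j₀ ≤ t.castSucc → ∀ a u,
      I₂ t ((B t.castSucc).ρ₀ a u) = (B t.succ).ρ₀ a (I₂ t u))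
    (hc₁ : ∀ t, j₀ ≤ t.castSucc → ∀ n x,
      (B t.succ).f n (i₁ t n x) = I₁ t ((B t.castSucc).f n x))
    (hc₂ : ∀ t, j₀ ≤ t.castSucc → ∀ n x,
      (B t.succ).f n (i₂ t n x) = I₂ t ((B t.castSucc).f n x))
    (hnew : ∀ t, j₀ ≤ t.castSucc → ∀ n, ∀ a ∈ Jst 1 (cA n (q t)) (Φ n t) (S n t) *
        Jst (-1) (cA n (q t)) (Φ n t) (S n t),
      ∀ y, ∃ u v, (B t.succ).ρ₀ ((B t.succ).π n a) y = I₁ t u + I₂ t v)
    (hbd : ∀ t, j₀ ≤ t.castSucc → ∃ o : O, o ≠ 0 ∧ ∀ y, ∃ z,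
      (B t.castSucc).ρ₀ (cA₀ o) y =
        (B t.castSucc).ρ₀ (τ t * τ t - cA₀ (q t + 1) * cA₀ (q t + 1)) z)
    {O' : Type} [CommRing O'] [IsDomain O'] (x : A₀ →+* O')
    (hx : ∀ n t, ∀ a ∈ Jst (cA n (ε t)) (cA n (q t)) (Φ n t) (S n t),
      x ((B (Fin.last m)).π n a) = 0) :
    RingHom.ker (B (Fin.last m)).ρ₀ ≤ RingHom.ker x := by
  classical
  obtain ⟨p, hp, hp'⟩ := exists_pack_ML O h2 r (Fin m) q Φ₀ hdet₀ (fun t => ⟨ε t, hε t, htr₀ t⟩)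
  have := p.loc
  choose φ hφs hφi hφΦ hφS using fun n =>
    exists_phi p (cA n) (hres n) (π n) (hπ n) (Φ n) (S n) (detΦ n) (detS n) (hΦ n) (hS n) (htan n)
  choose θ hθ hθi using fun n =>
    exists_theta (σ := Fin m × Fin 3) p.i (cA n) (φ n) (hφs n) (hφi n) (θA n) (hθC n) (hθX n)
  have main := ml_support q hqu hq1 hq2 Φ₀ ε hε htr₀ r hJ cA Φ S U j₀ hunr h1 hst i₁ i₂ j₁ j₂
    hi hj hi₁ hi₂ hj₁ hj₂ hD11 hD12 hD21 hD22 hd h𝔞 B cA₀ hcA₀ τ hτ I₁ I₂ hI₁ hI₂ hc₁ hc₂ hnew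
    hbd p hp hp' φ hφs hφi hφΦ hφS hθ hθi (Fin.last m) (Fin.le_last _)
  have hJst : ∀ n t (e : O), (Jst (p.i e) (p.i (q t)) (p.Φ t) (p.S t)).map (φ n) =
      (Jst (cA n e) (cA n (q t)) (Φ n t) (S n t)).map
        (C : A n →+* MvPowerSeries (Fin m × Fin 3) (A n)) := by
    intro n t e
    rw [map_Jst, hφi, hφi, hφΦ, hφS, Jst_frM]
  refine (B (Fin.last m)).ker_le φ hθ hφs hJ (p.K ⊥ (Pack.tyS ε (Fin.last m))) main x ?_
  intro n r hr
  have h3 : p.K ⊥ (Pack.tyS ε (Fin.last m)) ≤ ((⨆ t, Jst (cA n (ε t)) (cA n (q t)) (Φ n t)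
      (S n t)).map (C : A n →+* MvPowerSeries (Fin m × Fin 3) (A n))).comap (φ n) := by
    refine p.K_bot_le fun t => ?_
    rw [Pack.tyS, if_pos (Fin.castSucc_lt_last t)]
    change Jst (p.i (ε t)) (p.i (q t)) (p.Φ t) (p.S t) ≤ _
    rw [← Ideal.map_le_iff_le_comap, hJst, Ideal.map_iSup]
    exact le_iSup (fun t => (Jst (cA n (ε t)) (cA n (q t)) (Φ n t)
      (S n t)).map (C : A n →+* MvPowerSeries (Fin m × Fin 3) (A n))) t
  have h4 := coeff_mem_of_mem_map_C (h3 hr) 0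
  rw [coeff_zero_eq_constantCoeff_apply] at h4
  have h5 : (⨆ t, Jst (cA n (ε t)) (cA n (q t)) (Φ n t) (S n t)) ≤
      RingHom.ker (x.comp ((B (Fin.last m)).π n)) := iSup_le fun t a ha => hx n t a ha
  exact h5 h4

end Fermat.Agent.TAlg
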