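import Mathlib
import Fermat.Agent.TAlg.Fr

/-! # Framed maps `R → A⟦Y⟧` with a prescribed value at the first variable. -/

set_option autoImplicit false
set_option linter.unusedSectionVars false

open IsLocalRing MvPowerSeries

namespace Fermat.Agent.TAlg

/-- EXISTENCE of the surjection `R → A⟦Y⟧` with a prescribed value at the first variable. -/
theorem exists_phi_y {O : CLR} {r : ℕ} {T : Type} [Finite T] {q : T → O} {Φ₀ : T → M2 O}
    (p : Pack O (r + 1) T q Φ₀) {A : Type} [CommRing A] [IsLocalRing A] [IsNoetherianRing A]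
    [IsAdicComplete (maximalIdeal A) A] (c : O →+* A) [IsLocalHom c]
    (hres : ∀ b, ∃ o, b - c o ∈ maximalIdeal A) {k : Type} [Field k] (π : A →+* k)
    (hπ : Function.Surjective π) (Φ S : T → M2 A) (detΦ : ∀ t, (Φ t).det = c (q t))
    (detS : ∀ t, (S t).det = 1) (hΦ : ∀ t i j, Φ t i j - c (Φ₀ t i j) ∈ maximalIdeal A)
    (hS : ∀ t i j, S t i j - (1 : M2 A) i j ∈ maximalIdeal A)
    (y : A) (hy : y ∈ maximalIdeal A)
    (htan : ∀ N : Submodule k ((A → k) × (T → M2 k)), N ≤ TanSpace c π Φ S →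
      (∀ z ∈ N, z.1 y = 0) → Module.finrank k N ≤ r) :
    ∃ φ : p.R →+* MvPowerSeries (T × Fin 3) A, Function.Surjective φ ∧
      (∀ o, φ (p.i o) = C (c o)) ∧ (∀ t, (p.Φ t).map φ = frM (Φ t) t) ∧
      (∀ t, (p.S t).map φ = frM (S t) t) ∧ φ (p.X 0) = C y := by
  classical
  have hker := ker_eq_maximalIdeal' π hπ
  have := p.loc
  let B := MvPowerSeries (T × Fin 3) A
  let cB : O →+* B := C.comp c
  let πB : B →+* k := π.comp constantCoeff
  have hπB : Function.Surjective πB := hπ.comp constantCoeff_surj'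
  have hcB : ∀ o ∈ maximalIdeal O, cB o ∈ maximalIdeal B := fun o ho =>
    C_mem_maxIdeal (map_mem_maxIdeal c ho)
  have m1 : ∀ t i j, frM (Φ t) t i j - cB (Φ₀ t i j) ∈ maximalIdeal B := by
    intro t i j
    have h1 := frM_sub_mem (Φ t) t i j
    have h2 : (C (Φ t i j - c (Φ₀ t i j)) : B) ∈ maximalIdeal B := C_mem_maxIdeal (hΦ t i j)
    rw [map_sub] at h2
    have h3 := Ideal.add_mem _ h1 h2
    rwa [sub_add_sub_cancel] at h3
  have m2 : ∀ t i j, frM (S t) t i j - (1 : M2 B) i j ∈ maximalIdeal B := by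
    intro t i j
    have h1 := frM_sub_mem (S t) t i j
    have h2 : (C (S t i j - (1 : M2 A) i j) : B) ∈ maximalIdeal B := C_mem_maxIdeal (hS t i j)
    have h4 : (C ((1 : M2 A) i j) : B) = (1 : M2 B) i j := by
      fin_cases i <;> fin_cases j <;> simp
    rw [map_sub, h4] at h2
    have h3 := Ideal.add_mem _ h1 h2
    rwa [sub_add_sub_cancel] at h3
  have hCy : (C y : B) ∈ maximalIdeal B := C_mem_maxIdeal hy
  let 𝔞₀ : Ideal B := (maximalIdeal O).map cB ⊔ ((⨆ t, ent (frM (Φ t) t - (Φ₀ t).map cB)) ⊔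
    ⨆ t, ent (frM (S t) t - 1))
  have h𝔞₀ : 𝔞₀ ≤ maximalIdeal B := by
    refine sup_le ?_ (sup_le (iSup_le fun t => ent_le_iff.2 (m1 t))
      (iSup_le fun t => ent_le_iff.2 (m2 t)))
    rw [Ideal.map_le_iff_le_comap]
    exact hcB
  let 𝔞 : Ideal B := 𝔞₀ ⊔ Ideal.span {(C y : B)}
  have h𝔞 : 𝔞 ≤ maximalIdeal B := sup_le h𝔞₀ (by
    rw [Ideal.span_singleton_le_iff_mem]
    exact hCy)
  have hresB : ∀ b : B, ∃ o, b - cB o ∈ maximalIdeal B := by
    intro b
    obtain ⟨o, ho⟩ := hres (constantCoeff b)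
    refine ⟨o, ?_⟩
    rw [mem_maxIdeal_iff, map_sub]
    change constantCoeff b - constantCoeff (C (c o)) ∈ _
    rw [constantCoeff_C]
    exact ho
  obtain ⟨m, D, x, d1, d2, d3, d4, d5⟩ := exists_derivations' 𝔞 h𝔞 cB
    (fun o ho => Ideal.mem_sup_left (Ideal.mem_sup_left (Ideal.mem_map_of_mem _ ho))) hresB πB hπB
  -- `m ≤ r`
  have hSπ : ∀ t, (S t).map π = 1 := by
    intro t
    ext i j
    have h1 := hS t i j
    rw [← hker, RingHom.mem_ker, map_sub, sub_eq_zero] at h1
    rw [Matrix.map_apply, h1]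
    fin_cases i <;> fin_cases j <;> simp
  have hmem : ∀ i, toTan T A k (D i) ∈ TanSpace c π Φ S := by
    intro i
    refine toTan_mem hSπ (d1 i) ?_ ?_
    · intro t a b
      have h1 : frM (Φ t) t a b - cB (Φ₀ t a b) ∈ 𝔞 := by
        refine Ideal.mem_sup_left (Ideal.mem_sup_right (Ideal.mem_sup_left
          (Ideal.mem_iSup_of_mem t ?_)))
        exact mem_ent (frM (Φ t) t - (Φ₀ t).map cB) a b
      have h2 := d2 i _ h1
      rwa [Der_sub (d1 i), Der_c (d1 i), sub_zero] at h2
    · intro t a b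
      have h1 : frM (S t) t a b - (1 : M2 B) a b ∈ 𝔞 := by
        refine Ideal.mem_sup_left (Ideal.mem_sup_right (Ideal.mem_sup_right
          (Ideal.mem_iSup_of_mem t ?_)))
        exact mem_ent (frM (S t) t - 1) a b
      have h2 := d2 i _ h1
      have h3 : D i ((1 : M2 B) a b) = 0 := by
        fin_cases a <;> fin_cases b <;> simp [Der_one (d1 i), Der_zero (d1 i)]
      rwa [Der_sub (d1 i), h3, sub_zero] at h2
  have hDy : ∀ i, D i (C y) = 0 := fun i =>
    d2 i _ (Ideal.mem_sup_right (Ideal.mem_span_singleton_self _))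
  let N : Submodule k ((A → k) × (T → M2 k)) :=
    Submodule.span k (Set.range fun i => toTan T A k (D i))
  have hN1 : N ≤ TanSpace c π Φ S := by
    rw [Submodule.span_le]
    rintro _ ⟨i, rfl⟩
    exact hmem i
  have hN2 : ∀ z ∈ N, z.1 y = 0 := by
    intro z hz
    induction hz using Submodule.span_induction with
    | mem z hz =>
      obtain ⟨i, rfl⟩ := hz
      exact hDy i
    | zero => rfl
    | add z z' _ _ h h' =>
      change z.1 y + z'.1 y = 0
      rw [h, h', add_zero]
    | smul a z _ h =>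
      change a * z.1 y = 0
      rw [h, mul_zero]
  have hNfin : Module.Finite k N := Module.Finite.span_of_finite k (Set.finite_range _)
  have hmemN : ∀ i, toTan T A k (D i) ∈ N := fun i => Submodule.subset_span ⟨i, rfl⟩
  have hmr : m ≤ r := by
    refine le_trans ?_ (htan N hN1 hN2)
    have hli : LinearIndependent k (fun i => (⟨toTan T A k (D i), hmemN i⟩ : N)) := by
      rw [Fintype.linearIndependent_iff] at d3 ⊢
      intro g hg i
      apply d3 g _ i
      have hE : (∑ i, g i • D i) ∈ DerSpace cB πB :=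
        Submodule.sum_mem _ (fun i _ => Submodule.smul_mem _ _ (d1 i))
      apply eq_zero_of_toTan hE
      rw [map_sum]
      have h1 := congrArg Subtype.val hg
      simp only [Submodule.coe_sum, Submodule.coe_smul, Submodule.coe_zero] at h1
      rw [← h1]
      exact Finset.sum_congr rfl fun i _ => map_smul _ _ _
    have := hli.fintype_card_le_finrank
    rwa [Fintype.card_fin] at this
  let X₁ : Fin r → B := fun j => if h : j.1 < m then x ⟨j, h⟩ else 0
  have hX₁ : ∀ j, X₁ j ∈ maximalIdeal B := by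
    intro j
    by_cases h : j.1 < m
    · simp only [X₁, dif_pos h]; exact d4 _
    · simp only [X₁, dif_neg h]; exact zero_mem _
  let X' : Fin (r + 1) → B := Fin.cons (C y) X₁
  have hX' : ∀ j, X' j ∈ maximalIdeal B := by
    intro j
    refine Fin.cases ?_ (fun j => ?_) j
    · exact hCy
    · exact hX₁ j
  have hloc : IsLocalHom cB := inferInstanceAs (IsLocalHom (C.comp c))
  obtain ⟨φ, f1, f2, f3, f4, f5⟩ := p.univ B cB X' hX' (fun t => frM (Φ t) t)
    (fun t => frM (S t) t) (fun t => by rw [det_frM, detΦ]; rfl)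
    (fun t => by rw [det_frM, detS, map_one]) m1 m2
  have f3' : ∀ j : Fin r, φ (p.X j.succ) = X₁ j := fun j => f3 j.succ
  have f30 : φ (p.X 0) = C y := f3 0
  refine ⟨φ, ?_, ?_, f4, f5, f30⟩
  · apply surjective_of_le φ
    · intro b
      obtain ⟨o, ho⟩ := hresB b
      refine ⟨p.i o, ?_⟩
      rw [← RingHom.comp_apply, f2]
      exact ho
    · refine d5.trans (sup_le (sup_le (sup_le ?_ (sup_le ?_ ?_)) ?_) ?_)
      · rw [← f2, ← Ideal.map_map]
        refine Ideal.map_mono ?_
        rw [Ideal.map_le_iff_le_comap]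
        intro o ho
        exact map_mem_maxIdeal p.i ho
      · refine iSup_le fun t => ent_le_iff.2 fun a b => ?_
        have h1 : (frM (Φ t) t - (Φ₀ t).map cB) a b = φ (p.Φ t a b - p.i (Φ₀ t a b)) := by
          rw [map_sub, ← f4 t, Matrix.sub_apply, Matrix.map_apply, Matrix.map_apply,
            ← RingHom.comp_apply φ, f2]
        rw [h1]
        exact Ideal.mem_map_of_mem _ (p.hΦ t a b)
      · refine iSup_le fun t => ent_le_iff.2 fun a b => ?_
        have h1 : (frM (S t) t - 1) a b = φ (p.S t a b - (1 : M2 p.R) a b) := by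
          rw [map_sub, ← f5 t, Matrix.sub_apply, Matrix.map_apply]
          congr 1
          fin_cases a <;> fin_cases b <;> simp
        rw [h1]
        exact Ideal.mem_map_of_mem _ (p.hS t a b)
      · rw [Ideal.span_singleton_le_iff_mem, ← f30]
        exact Ideal.mem_map_of_mem _ (p.hX _)
      · rw [Ideal.span_le]
        rintro _ ⟨i, rfl⟩
        have h1 : x i = φ (p.X (Fin.succ ⟨i, lt_of_lt_of_le i.2 hmr⟩)) := by
          rw [f3']
          simp only [X₁, dif_pos i.2]
        rw [SetLike.mem_coe, h1]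
        exact Ideal.mem_map_of_mem _ (p.hX _)
  · intro o
    rw [← RingHom.comp_apply, f2]
    rfl

end Fermat.Agent.TAlg
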