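import Mathlib
import Fermat.Agent.TAlg.ML0

/-! # The step at `p` (hard case), abstractly. -/

set_option autoImplicit false
set_option linter.unusedSectionVars false

open IsLocalRing MvPowerSeries Filter

namespace Fermat.Agent.TAlg

/-- the module theoretic core of the step at `p` -/
theorem pstep_alg {R M M' N : Type} [CommRing R] [AddCommGroup M] [Module R M]
    [Module.Finite R M] [AddCommGroup M'] [AddCommGroup N] [Module R N]
    (i₁ i₂ : M →+ M') (j₁ j₂ : M' →+ M) (c : M' →+ N)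
    (hker : ∀ x, c x = 0 → ∃ a b, x = i₁ a + i₂ b)
    (hj : ∀ a b, ∃ x, j₁ x = a ∧ j₂ x = b)
    (P : R) (hP : IsUnit P) (T : M →+ M) (hPT : ∀ a, T (P • a) = P • T a)
    (h11 : ∀ a, j₁ (i₁ a) = P • a) (h12 : ∀ a, j₁ (i₂ a) = T a) (h21 : ∀ a, j₂ (i₁ a) = T a)
    (h22 : ∀ a, j₂ (i₂ a) = P • a)
    (X₀ : R) (hdet : ∀ a, ∃ b, P • P • a - T (T a) = X₀ • b)
    (P₀ : Ideal R) [P₀.IsPrime] (hann : Module.annihilator R M ≤ P₀) (hX : X₀ ∈ P₀)
    (f : R) (F : M' → M') (hF1 : ∀ x, j₁ (F x) = f • j₁ x) (hF2 : ∀ x, j₂ (F x) = f • j₂ x)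
    (hFc : ∀ x, c (F x) = 0) : f ∈ P₀ := by
  have h1 : P * f ∈ P₀ := by
    apply mem_of_smul_le (M := M) (Ideal.span {X₀}) P₀ hann
      ((Ideal.span_singleton_le_iff_mem _).2 hX)
    intro a
    obtain ⟨x, hx1, hx2⟩ := hj a 0
    obtain ⟨u, v, huv⟩ := hker (F x) (hFc x)
    have e1 : f • a = P • u + T v := by
      rw [← hx1, ← hF1, huv, map_add, h11, h12]
    have e2 : T u + P • v = 0 := by
      have := hF2 x
      rw [huv, map_add, h21, h22, hx2, smul_zero] at this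
      exact this
    obtain ⟨b, hb⟩ := hdet u
    have e3 : (P * f) • a = X₀ • b := by
      have h3 : T (T u) + P • T v = 0 := by
        rw [← hPT, ← map_add, e2, map_zero]
      rw [mul_smul, e1, smul_add, ← hb, eq_neg_of_add_eq_zero_right h3]
      abel
    rw [e3]
    exact Submodule.smul_mem_smul (Ideal.mem_span_singleton_self X₀) trivial
  rcases Ideal.IsPrime.mem_or_mem ‹_› h1 with h2 | h2
  · exact absurd (Ideal.eq_top_of_isUnit_mem _ h2 hP) (Ideal.IsPrime.ne_top ‹_›)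
  · exact h2

namespace PSys

section

variable {ι : Type} {F : Ultrafilter ι}
variable {S : Type} [CommRing S] [IsLocalRing S] [IsNoetherianRing S]
  [IsAdicComplete (maximalIdeal S) S] [Finite (ResidueField S)]
variable {J : ι → Ideal S}

/-- forget the action of `R` -/
def triv {R : Type} [CommRing R] {θ : ι → (S →+* R)} (P : PSys S J R θ) :
    PSys S J S (fun _ => RingHom.id S) where
  M := P.M
  d := P.d
  e := P.e
  ρ n := algebraMap S (Module.End S (P.M n))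
  hθ _ _ := rfl

lemma map_surjective₂' {R R' : Type} [CommRing R] [CommRing R'] {θ : ι → (S →+* R)}
    {θ' : ι → (S →+* R')} (P : PSys S J R θ) (P' : PSys S J R' θ') (hJ : Small F J)
    (j₁ j₂ : ∀ n, P'.M n →ₗ[S] P.M n)
    (hj : ∀ n a b, ∃ x, j₁ n x = a ∧ j₂ n x = b) (a b : P.Lim hJ) :
    ∃ x : P'.Lim hJ, map P' P hJ j₁ x = a ∧ map P' P hJ j₂ x = b :=
  map_surjective₂ P.triv P'.triv hJ j₁ j₂ hj a b

lemma map_map_apply {R R' R'' : Type} [CommRing R] [CommRing R'] [CommRing R'']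
    {θ : ι → (S →+* R)}
    {θ' : ι → (S →+* R')} {θ'' : ι → (S →+* R'')} (P : PSys S J R θ) (P' : PSys S J R' θ')
    (P'' : PSys S J R'' θ'') (hJ : Small F J) (f : ∀ n, P.M n →ₗ[S] P'.M n)
    (g : ∀ n, P'.M n →ₗ[S] P''.M n) (h : ∀ n, P.M n →ₗ[S] P''.M n)
    (hfg : ∀ n x, g n (f n x) = h n x) (x : P.Lim hJ) :
    map P' P'' hJ g (map P P' hJ f x) = map P P'' hJ h x := by
  have h1 : h = fun n => g n ∘ₗ f n := by
    funext n
    exact LinearMap.ext fun x => (hfg n x).symm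
  rw [h1, map_comp]
  rfl

lemma map_rho_apply {R : Type} [CommRing R] [IsLocalRing R] {θ : ι → (S →+* R)}
    (P : PSys S J R θ) (hJ : Small F J) (r : R) (x : P.Lim hJ) :
    map P P hJ (fun n => P.ρ n r) x = r • x := rfl

/-- THE STEP AT `p` for patching systems. -/
theorem pstep_mem {R R' : Type} [CommRing R] [IsLocalRing R] [IsNoetherianRing R]
    [IsAdicComplete (maximalIdeal R) R] [Finite (ResidueField R)] [CommRing R']
    {θf θs : ι → (S →+* R)} {θ' : ι → (S →+* R')}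
    (Pf : PSys S J R θf) (Ps : PSys S J R θs) (P' : PSys S J R' θ') (hJ : Small F J)
    (i₁ i₂ : ∀ n, Pf.M n →ₗ[S] P'.M n) (j₁ j₂ : ∀ n, P'.M n →ₗ[S] Pf.M n)
    (c : ∀ n, P'.M n →ₗ[S] Ps.M n) (r₁ r₂ : ∀ n, P'.M n →ₗ[S] Pf.M n)
    (σ : ∀ n, Ps.M n →ₗ[S] P'.M n)
    (hsplit : ∀ n x, x = i₁ n (r₁ n x) + i₂ n (r₂ n x) + σ n (c n x))
    (hj : ∀ n a b, ∃ x, j₁ n x = a ∧ j₂ n x = b)
    (P : R) (hP : IsUnit P) (T e : ∀ n, Pf.M n →ₗ[S] Pf.M n)
    (hPT : ∀ n x, T n (Pf.ρ n P x) = Pf.ρ n P (T n x))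
    (hD11 : ∀ n x, j₁ n (i₁ n x) = Pf.ρ n P x) (hD12 : ∀ n x, j₁ n (i₂ n x) = T n x)
    (hD21 : ∀ n x, j₂ n (i₁ n x) = T n x) (hD22 : ∀ n x, j₂ n (i₂ n x) = Pf.ρ n P x)
    (X₀ : R) (hye : ∀ n x, Pf.ρ n P (Pf.ρ n P x) = T n (T n x) + Pf.ρ n X₀ (e n x))
    (P₀ : Ideal R) [P₀.IsPrime] (hann : Module.annihilator R (Pf.Lim hJ) ≤ P₀) (hX : X₀ ∈ P₀)
    (f : R) (G : ∀ n, P'.M n →ₗ[S] P'.M n)
    (hG1 : ∀ n x, j₁ n (G n x) = Pf.ρ n f (j₁ n x))
    (hG2 : ∀ n x, j₂ n (G n x) = Pf.ρ n f (j₂ n x))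
    (hGc : ∀ n x, c n (G n x) = Ps.ρ n f (c n x))
    (hf : f ∈ Module.annihilator R (Ps.Lim hJ)) : f ∈ P₀ := by
  have := Pf.finite hJ
  refine pstep_alg (M := Pf.Lim hJ) (M' := P'.Lim hJ) (N := Ps.Lim hJ)
    (map Pf P' hJ i₁).toAddMonoidHom (map Pf P' hJ i₂).toAddMonoidHom
    (map P' Pf hJ j₁).toAddMonoidHom (map P' Pf hJ j₂).toAddMonoidHom
    (map P' Ps hJ c).toAddMonoidHom ?_ (map_surjective₂' Pf P' hJ j₁ j₂ hj) P hP
    (map Pf Pf hJ T).toAddMonoidHom ?_ ?_ ?_ ?_ ?_ X₀ ?_ P₀ hann hX f (map P' P' hJ G) ?_ ?_ ?_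
  · intro x hx
    change map P' Ps hJ c x = 0 at hx
    refine ⟨map P' Pf hJ r₁ x, map P' Pf hJ r₂ x, ?_⟩
    change x = map Pf P' hJ i₁ (map P' Pf hJ r₁ x) + map Pf P' hJ i₂ (map P' Pf hJ r₂ x)
    have h1 : map P' P' hJ (fun _ => LinearMap.id) x =
        map Pf P' hJ i₁ (map P' Pf hJ r₁ x) + map Pf P' hJ i₂ (map P' Pf hJ r₂ x) +
          map Ps P' hJ σ (map P' Ps hJ c x) := by
      have h2 : (fun n => (LinearMap.id : P'.M n →ₗ[S] P'.M n)) =
          fun n => (i₁ n ∘ₗ r₁ n + i₂ n ∘ₗ r₂ n) + σ n ∘ₗ c n := by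
        funext n
        exact LinearMap.ext fun x => hsplit n x
      rw [h2, map_add, map_add, map_comp, map_comp, map_comp]
      rfl
    rw [map_id, hx, _root_.map_zero, add_zero] at h1
    exact h1
  · intro a
    change map Pf Pf hJ T (P • a) = P • map Pf Pf hJ T a
    exact map_equivariant Pf hJ Pf T P P hPT a
  · exact fun a => map_map_apply Pf P' Pf hJ i₁ j₁ (fun n => Pf.ρ n P) hD11 a
  · exact fun a => map_map_apply Pf P' Pf hJ i₂ j₁ T hD12 a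
  · exact fun a => map_map_apply Pf P' Pf hJ i₁ j₂ T hD21 a
  · exact fun a => map_map_apply Pf P' Pf hJ i₂ j₂ (fun n => Pf.ρ n P) hD22 a
  · intro a
    refine ⟨map Pf Pf hJ e a, ?_⟩
    have h1 : (fun n => Pf.ρ n P ∘ₗ Pf.ρ n P) =
        fun n => T n ∘ₗ T n + Pf.ρ n X₀ ∘ₗ e n := by
      funext n
      exact LinearMap.ext fun x => hye n x
    have h2 := congrArg (fun g => map Pf Pf hJ g a) h1
    simp only [map_add, map_comp] at h2
    change P • P • a = map Pf Pf hJ T (map Pf Pf hJ T a) + X₀ • map Pf Pf hJ e a at h2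
    exact sub_eq_of_eq_add' h2
  · intro x
    change map P' Pf hJ j₁ (map P' P' hJ G x) = f • map P' Pf hJ j₁ x
    rw [← map_rho_apply Pf hJ, map_map_apply P' P' Pf hJ G j₁ (fun n => j₁ n ∘ₗ G n)
      (fun _ _ => rfl), map_map_apply P' Pf Pf hJ j₁ (fun n => Pf.ρ n f) (fun n => j₁ n ∘ₗ G n)
      (fun n x => (hG1 n x).symm)]
  · intro x
    change map P' Pf hJ j₂ (map P' P' hJ G x) = f • map P' Pf hJ j₂ x
    rw [← map_rho_apply Pf hJ, map_map_apply P' P' Pf hJ G j₂ (fun n => j₂ n ∘ₗ G n)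
      (fun _ _ => rfl), map_map_apply P' Pf Pf hJ j₂ (fun n => Pf.ρ n f) (fun n => j₂ n ∘ₗ G n)
      (fun n x => (hG2 n x).symm)]
  · intro x
    change map P' Ps hJ c (map P' P' hJ G x) = 0
    have h1 : map P' Ps hJ c (map P' P' hJ G x) = f • map P' Ps hJ c x := by
      rw [← map_rho_apply Ps hJ, map_map_apply P' P' Ps hJ G c (fun n => c n ∘ₗ G n)
        (fun _ _ => rfl), map_map_apply P' Ps Ps hJ c (fun n => Ps.ρ n f) (fun n => c n ∘ₗ G n)
        (fun n x => (hGc n x).symm)]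
    rw [h1]
    exact Module.mem_annihilator.1 hf _

end

end PSys

open Finset.HasAntidiagonal (antidiagonal) in
lemma PM.act_C {σ S A M : Type} [CommRing S] [CommRing A] [AddCommGroup M] [Module S M]
    (ρ : A →+* Module.End S M) (d : A) : PM.act (σ := σ) ρ (C d) = PM.ext' (ρ d) := by
  classical
  apply LinearMap.ext
  intro m
  apply PM.ext
  intro k
  rw [PM.coef_act, PM.coef_ext', Finset.sum_eq_single (0, k)]
  · rw [coeff_zero_C]
  · rintro ⟨i, j⟩ hij hne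
    rw [Finset.HasAntidiagonal.mem_antidiagonal] at hij
    have h0 : i ≠ 0 := by
      rintro rfl
      apply hne
      simp only [zero_add] at hij
      rw [hij]
    rw [coeff_C, if_neg h0, map_zero, LinearMap.zero_apply]
  · intro h
    exact absurd (Finset.HasAntidiagonal.mem_antidiagonal.2 (zero_add k)) h

/-- THE STEP AT `p` for framed systems. -/
theorem UData.pstep_mem {ι : Type} {F : Ultrafilter ι} {σ S : Type} [Finite σ] [CommRing S]
    [IsLocalRing S] [IsNoetherianRing S] [IsAdicComplete (maximalIdeal S) S]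
    [Finite (ResidueField S)] {J : ι → Ideal S} (hJ : Small F J)
    {A Af As : ι → Type} [∀ n, CommRing (A n)] [∀ n, CommRing (Af n)] [∀ n, CommRing (As n)]
    {R : Type} [CommRing R] [IsLocalRing R] [IsNoetherianRing R]
    [IsAdicComplete (maximalIdeal R) R] [Finite (ResidueField R)]
    (ψf : ∀ n, A n →+* Af n) (ψs : ∀ n, A n →+* As n) {θA : ∀ n, S →+* A n}
    (U' : UData S J A θA) (Uf : UData S J Af (fun n => (ψf n).comp (θA n)))
    (Us : UData S J As (fun n => (ψs n).comp (θA n)))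
    (i₁ i₂ : ∀ n, Uf.M n →ₗ[S] U'.M n) (j₁ j₂ : ∀ n, U'.M n →ₗ[S] Uf.M n)
    (c : ∀ n, U'.M n →ₗ[S] Us.M n) (r₁ r₂ : ∀ n, U'.M n →ₗ[S] Uf.M n)
    (s : ∀ n, Us.M n →ₗ[S] U'.M n)
    (hsplit : ∀ n x, x = i₁ n (r₁ n x) + i₂ n (r₂ n x) + s n (c n x))
    (hj : ∀ n a b, ∃ x, j₁ n x = a ∧ j₂ n x = b)
    (hj₁ : ∀ n a x, j₁ n (U'.ρ n a x) = Uf.ρ n (ψf n a) (j₁ n x))
    (hj₂ : ∀ n a x, j₂ n (U'.ρ n a x) = Uf.ρ n (ψf n a) (j₂ n x))
    (hc : ∀ n a x, c n (U'.ρ n a x) = Us.ρ n (ψs n a) (c n x))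
    (p T : ∀ n, Af n)
    (hD11 : ∀ n x, j₁ n (i₁ n x) = Uf.ρ n (p n) x) (hD12 : ∀ n x, j₁ n (i₂ n x) = Uf.ρ n (T n) x)
    (hD21 : ∀ n x, j₂ n (i₁ n x) = Uf.ρ n (T n) x) (hD22 : ∀ n x, j₂ n (i₂ n x) = Uf.ρ n (p n) x)
    (y e : ∀ n, Af n) (hye : ∀ n, p n * p n - T n * T n = y n * e n)
    (φf : ∀ n, R →+* MvPowerSeries σ (Af n)) {θf : ι → (MvPowerSeries σ S →+* R)}
    (hθf : ∀ n, (φf n).comp (θf n) = MvPowerSeries.map ((ψf n).comp (θA n)))
    (φs : ∀ n, R →+* MvPowerSeries σ (As n)) {θs : ι → (MvPowerSeries σ S →+* R)}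
    (hθs : ∀ n, (φs n).comp (θs n) = MvPowerSeries.map ((ψs n).comp (θA n)))
    (P X₀ : R) (hP : IsUnit P) (hφP : ∀ n, φf n P = C (p n)) (hφX : ∀ n, φf n X₀ = C (y n))
    (P₀ : Ideal R) [P₀.IsPrime]
    (hann : Module.annihilator R ((Uf.frame φf hθf).Lim (small_frameIdeal (σ := σ) hJ)) ≤ P₀)
    (hX : X₀ ∈ P₀) (f : R) (a : ∀ n, MvPowerSeries σ (A n))
    (haf : ∀ n, φf n f = MvPowerSeries.map (ψf n) (a n))
    (has : ∀ n, φs n f = MvPowerSeries.map (ψs n) (a n))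
    (hf : f ∈ Module.annihilator R ((Us.frame φs hθs).Lim (small_frameIdeal (σ := σ) hJ))) :
    f ∈ P₀ := by
  let PU : PSys (MvPowerSeries σ S) (fun n => frameIdeal σ (J n)) (MvPowerSeries σ S)
      (fun _ => RingHom.id _) :=
    U'.frame (θ := fun _ => RingHom.id _) (fun n => MvPowerSeries.map (θA n)) (fun n => rfl)
  refine PSys.pstep_mem (Uf.frame φf hθf) (Us.frame φs hθs) PU (small_frameIdeal hJ)
    (fun n => PM.ext' (i₁ n)) (fun n => PM.ext' (i₂ n)) (fun n => PM.ext' (j₁ n))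
    (fun n => PM.ext' (j₂ n)) (fun n => PM.ext' (c n)) (fun n => PM.ext' (r₁ n))
    (fun n => PM.ext' (r₂ n)) (fun n => PM.ext' (s n)) ?_ ?_ P hP
    (fun n => PM.ext' (Uf.ρ n (T n))) (fun n => PM.ext' (Uf.ρ n (e n))) ?_ ?_ ?_ ?_ ?_ X₀ ?_
    P₀ hann hX f (fun n => PM.act (U'.ρ n) (a n)) ?_ ?_ ?_ hf
  · exact fun n x => PM.ext fun k => hsplit n _
  · intro n a b
    choose x hx₁ hx₂ using fun k : σ →₀ ℕ => hj n (PM.coef k a) (PM.coef k b)
    exact ⟨PM.mk x, PM.ext hx₁, PM.ext hx₂⟩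
  · intro n x
    have h1 : PM.act (Uf.ρ n) (C (T n)) * PM.act (Uf.ρ n) (φf n P) =
        PM.act (Uf.ρ n) (φf n P) * PM.act (Uf.ρ n) (C (T n)) := by
      rw [← map_mul, ← map_mul, mul_comm]
    rw [PM.act_C] at h1
    exact congrArg (fun g => g x) h1
  · intro n x
    change _ = PM.act (Uf.ρ n) (φf n P) x
    rw [hφP, PM.act_C]
    exact PM.ext fun k => hD11 n _
  · exact fun n x => PM.ext fun k => hD12 n _
  · exact fun n x => PM.ext fun k => hD21 n _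
  · intro n x
    change _ = PM.act (Uf.ρ n) (φf n P) x
    rw [hφP, PM.act_C]
    exact PM.ext fun k => hD22 n _
  · intro n x
    have h1 : PM.act (Uf.ρ n) (φf n P) * PM.act (Uf.ρ n) (φf n P) =
        PM.act (Uf.ρ n) (C (T n)) * PM.act (Uf.ρ n) (C (T n)) +
          PM.act (Uf.ρ n) (φf n X₀) * PM.act (Uf.ρ n) (C (e n)) := by
      rw [hφP, hφX, ← map_mul (PM.act (Uf.ρ n)), ← map_mul (PM.act (Uf.ρ n)),
        ← map_mul (PM.act (Uf.ρ n)), ← map_add (PM.act (Uf.ρ n)), ← map_mul, ← map_mul,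
        ← map_mul, ← map_add, ← hye n]
      congr 2
      ring
    rw [PM.act_C, PM.act_C] at h1
    exact congrArg (fun g => g x) h1
  · intro n x
    change _ = PM.act (Uf.ρ n) (φf n f) _
    rw [haf]
    exact PM.ext'_act (U'.ρ n) (Uf.ρ n) (j₁ n) (a n) (MvPowerSeries.map (ψf n) (a n))
      (fun k y => by rw [coeff_map]; exact hj₁ n _ _) x
  · intro n x
    change _ = PM.act (Uf.ρ n) (φf n f) _
    rw [haf]
    exact PM.ext'_act (U'.ρ n) (Uf.ρ n) (j₂ n) (a n) (MvPowerSeries.map (ψf n) (a n))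
      (fun k y => by rw [coeff_map]; exact hj₂ n _ _) x
  · intro n x
    change _ = PM.act (Us.ρ n) (φs n f) _
    rw [has]
    exact PM.ext'_act (U'.ρ n) (Us.ρ n) (c n) (a n) (MvPowerSeries.map (ψs n) (a n))
      (fun k y => by rw [coeff_map]; exact hc n _ _) x

section FrMap

variable {T A B : Type} [CommRing A] [CommRing B] (ψ : A →+* B)

lemma gmat_map (t : T) : (gmat A t).map (MvPowerSeries.map (σ := T × Fin 3) ψ) = gmat B t := by
  ext1 i j
  fin_cases i <;> fin_cases j <;> simp [gmat, Ymat]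

lemma frM_map (M : M2 A) (t : T) :
    (frM M t).map (MvPowerSeries.map (σ := T × Fin 3) ψ) = frM (M.map ψ) t := by
  have h1 : ((gmat A t)⁻¹).map (MvPowerSeries.map (σ := T × Fin 3) ψ) = (gmat B t)⁻¹ := by
    have h2 : ((gmat A t)⁻¹).map (MvPowerSeries.map (σ := T × Fin 3) ψ) * gmat B t = 1 := by
      rw [← gmat_map ψ, ← Matrix.map_mul, inv_mul_gmat, Matrix.map_one _ (map_zero _) (map_one _)]
    exact left_inv_eq_right_inv h2 (gmat_mul_inv t)
  rw [frM, frM, Matrix.map_mul, Matrix.map_mul, h1, gmat_map]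
  congr 2
  ext1 i j
  simp

end FrMap

section UP

variable (O T : Type) [CommRing O]

/-- the polynomial ring of universal pairs of matrices -/
abbrev UP : Type := MvPolynomial (T × Bool × Fin 2 × Fin 2) O

/-- universal matrix -/
noncomputable def upΦ (t : T) : M2 (UP O T) :=
  Matrix.of fun i j => MvPolynomial.X (t, true, i, j)

/-- universal matrix -/
noncomputable def upS (t : T) : M2 (UP O T) :=
  Matrix.of fun i j => MvPolynomial.X (t, false, i, j)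

variable {O T} {B B' : Type} [CommRing B] [CommRing B'] (c : O →+* B) (Φ S : T → M2 B)

/-- evaluation -/
noncomputable def upEv : UP O T →+* B :=
  MvPolynomial.eval₂Hom c
    (fun x => cond x.2.1 (Φ x.1 x.2.2.1 x.2.2.2) (S x.1 x.2.2.1 x.2.2.2))

lemma upEv_C (o : O) : upEv c Φ S (MvPolynomial.C o) = c o := by simp [upEv]

lemma upΦ_map (t : T) : (upΦ O T t).map (upEv c Φ S) = Φ t := by
  ext1 i j
  simp [upEv, upΦ]

lemma upS_map (t : T) : (upS O T t).map (upEv c Φ S) = S t := by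
  ext1 i j
  simp [upEv, upS]

lemma comp_upEv (g : B →+* B') : g.comp (upEv c Φ S) =
    upEv (g.comp c) (fun t => (Φ t).map g) (fun t => (S t).map g) := by
  apply MvPolynomial.ringHom_ext
  · intro o
    rw [RingHom.comp_apply, upEv_C, upEv_C, RingHom.comp_apply]
  · rintro ⟨t, b, i, j⟩
    cases b <;> simp [upEv]

lemma map_Kid {R : Type} [CommRing R] (i : O →+* R) (q : T → O) (Φ S : T → M2 R) (g : R →+* B)
    (τ : T → Typ O) : (Kid i q Φ S ⊥ τ).map g =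
      Kid (g.comp i) q (fun t => (Φ t).map g) (fun t => (S t).map g) ⊥ τ := by
  rw [Kid, Kid, Ideal.map_sup, Ideal.map_iSup, Ideal.map_map]
  congr 1
  refine iSup_congr fun t => ?_
  rw [Typ.map_J, Typ.map_map]
  rfl

lemma Kid_up (q : T → O) (τ : T → Typ O) :
    (Kid (MvPolynomial.C : O →+* UP O T) q (upΦ O T) (upS O T) ⊥ τ).map (upEv c Φ S) =
      Kid c q Φ S ⊥ τ := by
  have h1 : (upEv c Φ S).comp (MvPolynomial.C : O →+* UP O T) = c :=
    RingHom.ext fun o => upEv_C c Φ S o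
  rw [map_Kid, h1]
  simp only [upΦ_map, upS_map]

end UP

/-- the unramified or Steinberg types -/
def tyU {O : Type} [CommRing O] (s : Fin 3) : Typ O :=
  match s with
  | 0 => .unr
  | 1 => .st 1
  | 2 => .st (-1)

lemma eq_of_le_of_dim {R : Type*} [CommRing R] (P' P : Ideal R) [P.IsPrime] [P'.IsPrime]
    (hle : P' ≤ P) (hfin : ringKrullDim R < ⊤)
    (h : ringKrullDim (R ⧸ P') ≤ ringKrullDim (R ⧸ P)) : P' = P := by
  by_contra heq
  have hlt : P' < P := lt_of_le_of_ne hle heq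
  obtain ⟨x, hx, hx'⟩ := Set.exists_of_ssubset hlt
  have h1 : ringKrullDim (R ⧸ P) + 1 ≤ ringKrullDim (R ⧸ P') := by
    apply ringKrullDim_succ_le_of_surjective (Ideal.Quotient.factor hle)
      (Ideal.Quotient.factor_surjective hle) (r := Ideal.Quotient.mk P' x)
    · rw [mem_nonZeroDivisors_iff_ne_zero]
      exact fun h => hx' (Ideal.Quotient.eq_zero_iff_mem.1 h)
    · rw [Ideal.Quotient.factor_mk]
      exact Ideal.Quotient.eq_zero_iff_mem.2 hx
  have h3 := h1.trans h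
  have : Nontrivial (R ⧸ P) := Ideal.Quotient.nontrivial_iff.2 (Ideal.IsPrime.ne_top ‹_›)
  have h4 : ringKrullDim (R ⧸ P) < ⊤ := lt_of_le_of_lt (ringKrullDim_quotient_le P) hfin
  have h5 := ringKrullDim_nonneg_of_nontrivial (R := R ⧸ P)
  generalize ringKrullDim (R ⧸ P) = x at *
  induction x using WithBot.recBotCoe with
  | bot => simp at h5
  | coe x =>
    induction x using ENat.recTopCoe with
    | top => exact absurd h4 (lt_irrefl _)
    | coe n =>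
      norm_cast at h3
      omega

/-- If the Steinberg component is not in the support then a product of ideals of other components
kills the module. -/
theorem Pack.exists_prod_pow_le {O : CLR} [IsDomain O] {r m : ℕ} {q : Fin m → O}
    {Φ₀ : Fin m → M2 O} (p : Pack O r (Fin m) q Φ₀)
    (hp : p.OK (fun t => okML (q t) (Φ₀ t).trace)) (hqu : ∀ t, IsUnit (q t))
    (ε : Fin m → O) (hε : ∀ t, ε t ^ 2 = 1)
    (htr₀ : ∀ t, (Φ₀ t).trace - ε t * (q t + 1) ∈ maximalIdeal O)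
    {S N : Type} [CommRing S] [IsDomain S] [AddCommGroup N] [Module S N] [Module p.R N]
    [Module.Finite S N] [Module.IsTorsionFree S N] (θ : S →+* p.R)
    (hθ : ∀ (s : S) (x : N), θ s • x = s • x)
    (hdim : ringKrullDim (O ⧸ (⊥ : Ideal O)) + ((r + 3 * Nat.card (Fin m) : ℕ) : WithBot ℕ∞) ≤
      ringKrullDim S)
    (h1 : ∀ t, J1 (p.i (q t)) (p.Φ t) (p.S t) ≤ Module.annihilator p.R N)
    (hN : ¬ Module.annihilator p.R N ≤ p.K ⊥ (fun t => .st (ε t))) :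
    ∃ (s : Finset (Fin m → Fin 3)) (k : ℕ),
      (∀ τ ∈ s, ∃ t, tyU (τ t) ≠ .st (ε t)) ∧
      (∏ τ ∈ s, p.K ⊥ (fun t => tyU (τ t))) ^ k ≤ Module.annihilator p.R N := by
  classical
  have hbot : (⊥ : Ideal O).IsPrime := Ideal.isPrime_bot
  have hok : ∀ t, okML (q t) (Φ₀ t).trace ⊥ (.st (ε t)) := fun t => ⟨hε t, htr₀ t⟩
  obtain ⟨k1, -, k3, -⟩ := hp ⊥ (fun t => .st (ε t)) hok
  change (p.K ⊥ (fun t => .st (ε t))).IsPrime at k1
  change ringKrullDim (p.R ⧸ (p.K ⊥ (fun t => .st (ε t)))) ≤ _ at k3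
  have key : (∏ τ ∈ Finset.univ.filter (fun τ : Fin m → Fin 3 => ∃ t, tyU (τ t) ≠ .st (ε t)),
      p.K ⊥ (fun t => tyU (τ t))) ≤ (Module.annihilator p.R N).radical := by
    rw [← Ideal.sInf_minimalPrimes]
    refine le_sInf fun P₁ hP₁ => ?_
    have hP₁p : P₁.IsPrime := hP₁.1.1
    have h3 : ∀ t, ∃ σ : Fin 3, ((tyU σ : Typ O).map p.i).J (p.i (q t)) (p.Φ t) (p.S t) ≤ P₁ := by
      intro t
      rcases p.exists_type P₁ t (hqu t) ((h1 t).trans hP₁.1.2) with h | ⟨ε', hε', h⟩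
      · exact ⟨0, h⟩
      · rcases hε' with rfl | rfl
        · exact ⟨1, h⟩
        · exact ⟨2, h⟩
    choose σ hσ using h3
    have h4 : p.K ⊥ (fun t => tyU (σ t)) ≤ P₁ := p.K_bot_le hσ
    by_cases h5 : ∃ t, (tyU (σ t) : Typ O) ≠ .st (ε t)
    · refine le_trans ?_ h4
      exact Ideal.prod_le_inf.trans (Finset.inf_le
        (f := fun τ : Fin m → Fin 3 => p.K ⊥ (fun t => tyU (τ t)))
        (Finset.mem_filter.2 ⟨Finset.mem_univ σ, h5⟩))
    · exfalso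
      apply hN
      push Not at h5
      have h6 : (fun t => (tyU (σ t) : Typ O)) = fun t => .st (ε t) := funext h5
      rw [h6] at h4
      have h7 := eq_of_le_of_dim _ P₁ h4 ringKrullDim_lt_top
        ((k3.trans hdim).trans (ringKrullDim_le_quotient (M := N) θ hθ P₁ hP₁))
      rw [h7]
      exact hP₁.1.2
  obtain ⟨k, hk⟩ := Ideal.exists_radical_pow_le_of_fg (Module.annihilator p.R N)
    (IsNoetherian.noetherian _)
  exact ⟨_, k, fun τ hτ => (Finset.mem_filter.1 hτ).2, (Ideal.pow_right_mono key k).trans hk⟩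

lemma tyU_cases {O : Type} [CommRing O] (s : Fin 3) :
    (tyU s : Typ O) = .unr ∨ ∃ ε : O, (ε = 1 ∨ ε = -1) ∧ (tyU s : Typ O) = .st ε := by
  fin_cases s
  · exact Or.inl rfl
  · exact Or.inr ⟨1, Or.inl rfl, rfl⟩
  · exact Or.inr ⟨-1, Or.inr rfl, rfl⟩

/-- a product of ideals of other components is not contained in the Steinberg component -/
theorem Pack.not_prod_pow_le {O : CLR} [IsDomain O] {r m : ℕ} {q : Fin m → O}
    {Φ₀ : Fin m → M2 O} (p : Pack O r (Fin m) q Φ₀)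
    (hp : p.OK (fun t => okML (q t) (Φ₀ t).trace))
    (hp' : OKst p.i q p.Φ p.S (fun t => okML (q t) (Φ₀ t).trace)) (hq2 : ∀ t, q t + 1 ≠ 0)
    (ε : Fin m → O) (hε : ∀ t, ε t ^ 2 = 1)
    (htr₀ : ∀ t, (Φ₀ t).trace - ε t * (q t + 1) ∈ maximalIdeal O)
    (s : Finset (Fin m → Fin 3)) (k : ℕ)
    (hs : ∀ τ ∈ s, ∃ t, tyU (τ t) ≠ .st (ε t)) :
    ¬ (∏ τ ∈ s, p.K ⊥ (fun t => tyU (τ t))) ^ k ≤ p.K ⊥ (fun t => .st (ε t)) := by
  have hbot : (⊥ : Ideal O).IsPrime := Ideal.isPrime_bot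
  have hok : ∀ t, okML (q t) (Φ₀ t).trace ⊥ (.st (ε t)) := fun t => ⟨hε t, htr₀ t⟩
  obtain ⟨k1, k2, -, -⟩ := hp ⊥ (fun t => .st (ε t)) hok
  change (p.K ⊥ (fun t => .st (ε t))).IsPrime at k1
  change (p.K ⊥ (fun t => .st (ε t))).comap p.i = ⊥ at k2
  intro hle
  have h1 : (∏ τ ∈ s, p.K ⊥ (fun t => tyU (τ t))) ≤ p.K ⊥ (fun t => .st (ε t)) := by
    by_cases hk : k = 0
    · subst hk
      rw [pow_zero, Ideal.one_eq_top, top_le_iff] at hle
      exact absurd hle k1.ne_top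
    · exact (k1.pow_le_iff hk).1 hle
  obtain ⟨τ, hτ, h3⟩ := (Ideal.IsPrime.prod_le k1).1 h1
  obtain ⟨t, ht⟩ := hs τ hτ
  have h4 := (p.J_le_K ⊥ (fun t => tyU (τ t)) t).trans h3
  rcases tyU_cases (O := O) (τ t) with h | ⟨ε', hε', h⟩
  · rw [h] at h4
    exact hp' ⊥ (fun t => .st (ε t)) hok t (ε t) rfl h4
  · rw [h] at h4
    apply ht
    rw [h]
    have h5 : (p.Φ t).trace - p.i ε' * (p.i (q t) + 1) ∈ p.K ⊥ (fun t => .st (ε t)) :=
      h4 (trace_mem_Jst _ _)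
    have h6 : (p.Φ t).trace - p.i (ε t) * (p.i (q t) + 1) ∈ p.K ⊥ (fun t => .st (ε t)) :=
      p.J_le_K ⊥ (fun t => .st (ε t)) t (trace_mem_Jst _ _)
    have h7 : (ε t - ε') * (q t + 1) ∈ (p.K ⊥ (fun t => .st (ε t))).comap p.i := by
      rw [Ideal.mem_comap]
      have := Ideal.sub_mem _ h5 h6
      convert this using 1
      simp only [map_sub, map_mul, map_add, map_one]
      ring
    rw [k2, Ideal.mem_bot] at h7
    rcases mul_eq_zero.1 h7 with h8 | h8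
    · rw [sub_eq_zero.1 h8]
    · exact absurd h8 (hq2 t)

lemma coeff_mem_of_mem_map_C' {σ R : Type} [CommRing R] {I : Ideal R} {f : MvPowerSeries σ R}
    (hf : f ∈ I.map (C : R →+* MvPowerSeries σ R)) (k : σ →₀ ℕ) : coeff k f ∈ I := by
  have h1 : I.map (C : R →+* MvPowerSeries σ R) ≤
      RingHom.ker (MvPowerSeries.map (σ := σ) (Ideal.Quotient.mk I)) := by
    rw [Ideal.map_le_iff_le_comap]
    intro x hx
    rw [Ideal.mem_comap, RingHom.mem_ker, map_C, Ideal.Quotient.eq_zero_iff_mem.2 hx, map_zero]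
  have h2 := RingHom.mem_ker.1 (h1 hf)
  have h3 := congrArg (coeff k) h2
  rw [coeff_map, map_zero] at h3
  exact Ideal.Quotient.eq_zero_iff_mem.1 h3

/-- THE STEP AT `p`: if the full Steinberg component is in the support of the patched flat module
`Uf`, and `y = X 0` divides the determinant of the raising matrix, then it is in the support of the
patched cokernel `Us`. -/
theorem pstep {O : CLR} [IsDomain O] (h2 : IsUnit (2 : O)) {m : ℕ}
    (q : Fin m → O) (hqu : ∀ t, IsUnit (q t)) (hq2 : ∀ t, q t + 1 ≠ 0)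
    (Φ₀ : Fin m → M2 O) (hdet₀ : ∀ t, (Φ₀ t).det - q t ∈ maximalIdeal O)
    (ε : Fin m → O) (hε : ∀ t, ε t ^ 2 = 1)
    (htr₀ : ∀ t, (Φ₀ t).trace - ε t * (q t + 1) ∈ maximalIdeal O)
    (r : ℕ) {ι : Type} [Nonempty ι] {F : Ultrafilter ι}
    {J : ι → Ideal (MvPowerSeries (Fin (r + 1)) O)} (hJ : Small F J)
    {A Af As : ι → Type} [∀ n, CommRing (A n)] [∀ n, CommRing (Af n)] [∀ n, CommRing (As n)]
    (cA : ∀ n, O →+* A n) (ψf : ∀ n, A n →+* Af n) (ψs : ∀ n, A n →+* As n)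
    {θA : ∀ n, MvPowerSeries (Fin (r + 1)) O →+* A n}
    (Φ S : ∀ n, Fin m → M2 (A n))
    (U' : UData (MvPowerSeries (Fin (r + 1)) O) J A θA)
    (Uf : UData (MvPowerSeries (Fin (r + 1)) O) J Af (fun n => (ψf n).comp (θA n)))
    (Us : UData (MvPowerSeries (Fin (r + 1)) O) J As (fun n => (ψs n).comp (θA n)))
    (hkill : ∀ n t, ∀ x ∈ J1 (cA n (q t)) (Φ n t) (S n t), Us.ρ n (ψs n x) = 0)
    (i₁ i₂ : ∀ n, Uf.M n →ₗ[MvPowerSeries (Fin (r + 1)) O] U'.M n)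
    (j₁ j₂ : ∀ n, U'.M n →ₗ[MvPowerSeries (Fin (r + 1)) O] Uf.M n)
    (c : ∀ n, U'.M n →ₗ[MvPowerSeries (Fin (r + 1)) O] Us.M n)
    (r₁ r₂ : ∀ n, U'.M n →ₗ[MvPowerSeries (Fin (r + 1)) O] Uf.M n)
    (σ : ∀ n, Us.M n →ₗ[MvPowerSeries (Fin (r + 1)) O] U'.M n)
    (hsplit : ∀ n x, x = i₁ n (r₁ n x) + i₂ n (r₂ n x) + σ n (c n x))
    (hj : ∀ n a b, ∃ x, j₁ n x = a ∧ j₂ n x = b)
    (hj₁ : ∀ n a x, j₁ n (U'.ρ n a x) = Uf.ρ n (ψf n a) (j₁ n x))
    (hj₂ : ∀ n a x, j₂ n (U'.ρ n a x) = Uf.ρ n (ψf n a) (j₂ n x))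
    (hc : ∀ n a x, c n (U'.ρ n a x) = Us.ρ n (ψs n a) (c n x))
    (P : O) (hP : IsUnit P) (T : ∀ n, Af n)
    (hD11 : ∀ n x, j₁ n (i₁ n x) = Uf.ρ n (ψf n (cA n P)) x)
    (hD12 : ∀ n x, j₁ n (i₂ n x) = Uf.ρ n (T n) x)
    (hD21 : ∀ n x, j₂ n (i₁ n x) = Uf.ρ n (T n) x)
    (hD22 : ∀ n x, j₂ n (i₂ n x) = Uf.ρ n (ψf n (cA n P)) x)
    (y e : ∀ n, Af n)
    (hye : ∀ n, ψf n (cA n P) * ψf n (cA n P) - T n * T n = y n * e n)
    (p : Pack O (r + 1) (Fin m) q Φ₀) (hp : p.OK (fun t => okML (q t) (Φ₀ t).trace))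
    (hp' : OKst p.i q p.Φ p.S (fun t => okML (q t) (Φ₀ t).trace))
    (φf : ∀ n, p.R →+* MvPowerSeries (Fin m × Fin 3) (Af n))
    (hφfi : ∀ n o, φf n (p.i o) = C (ψf n (cA n o)))
    (hφfΦ : ∀ n t, (p.Φ t).map (φf n) = frM ((Φ n t).map (ψf n)) t)
    (hφfS : ∀ n t, (p.S t).map (φf n) = frM ((S n t).map (ψf n)) t)
    (hφfX : ∀ n, φf n (p.X 0) = C (y n))
    {θf : ι → (MvPowerSeries (Fin m × Fin 3) (MvPowerSeries (Fin (r + 1)) O) →+* p.R)}
    (hθf : ∀ n, (φf n).comp (θf n) = MvPowerSeries.map ((ψf n).comp (θA n)))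
    (φs : ∀ n, p.R →+* MvPowerSeries (Fin m × Fin 3) (As n))
    (hφsi : ∀ n o, φs n (p.i o) = C (ψs n (cA n o)))
    (hφsΦ : ∀ n t, (p.Φ t).map (φs n) = frM ((Φ n t).map (ψs n)) t)
    (hφsS : ∀ n t, (p.S t).map (φs n) = frM ((S n t).map (ψs n)) t)
    {θs : ι → (MvPowerSeries (Fin m × Fin 3) (MvPowerSeries (Fin (r + 1)) O) →+* p.R)}
    (hθs : ∀ n, (φs n).comp (θs n) = MvPowerSeries.map ((ψs n).comp (θA n)))
    (hM : Module.annihilator p.R ((Uf.frame φf hθf).Lim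
      (small_frameIdeal (σ := Fin m × Fin 3) hJ)) ≤ p.K ⊥ (fun t => .st (ε t))) :
    Module.annihilator p.R ((Us.frame φs hθs).Lim
      (small_frameIdeal (σ := Fin m × Fin 3) hJ)) ≤ p.K ⊥ (fun t => .st (ε t)) := by
  classical
  by_contra hcon
  have := p.loc
  have hbot : (⊥ : Ideal O).IsPrime := Ideal.isPrime_bot
  have hok : ∀ t, okML (q t) (Φ₀ t).trace ⊥ (.st (ε t)) := fun t => ⟨hε t, htr₀ t⟩
  have hdim : ringKrullDim (O ⧸ (⊥ : Ideal O)) +
      ((r + 1 + 3 * Nat.card (Fin m) : ℕ) : WithBot ℕ∞) ≤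
      ringKrullDim (MvPowerSeries (Fin m × Fin 3) (MvPowerSeries (Fin (r + 1)) O)) := by
    have h3 := ringKrullDim_add_natCard_le_mvPowerSeries (R := O) (Fin (r + 1))
    have h4 := ringKrullDim_add_natCard_le_mvPowerSeries (R := MvPowerSeries (Fin (r + 1)) O)
      (Fin m × Fin 3)
    refine le_trans ?_ h4
    refine le_trans ?_ (add_le_add_left h3 _)
    rw [ringKrullDim_eq_of_ringEquiv (RingEquiv.quotientBot O), Nat.card_prod, Nat.card_fin,
      Nat.card_fin, Nat.card_fin, Nat.cast_add, add_assoc, mul_comm 3]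
  -- the product of the other components
  obtain ⟨s, k, hs, hsk⟩ := p.exists_prod_pow_le hp hqu ε hε htr₀
    (N := (Us.frame φs hθs).Lim (small_frameIdeal (σ := Fin m × Fin 3) hJ))
    (ulimRingHom F θs) ((Us.frame φs hθs).theta_smul _) hdim (by
      intro t x hx
      apply PSys.mem_annihilator_of_rho_eq_zero
      refine Eventually.of_forall fun n => ?_
      refine PM.act_eq_zero (Us.ρ n) (φs n x) fun k => ?_
      have h4 : φs n x ∈ ((J1 (cA n (q t)) (Φ n t) (S n t)).map (ψs n)).map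
          (C : As n →+* MvPowerSeries (Fin m × Fin 3) (As n)) := by
        have h5 : (J1 (p.i (q t)) (p.Φ t) (p.S t)).map (φs n) =
            ((J1 (cA n (q t)) (Φ n t) (S n t)).map (ψs n)).map
              (C : As n →+* MvPowerSeries (Fin m × Fin 3) (As n)) := by
          rw [map_J1 (φs n), hφsi, hφsΦ, hφsS, J1_frM, map_J1 (ψs n)]
        rw [← h5]
        exact Ideal.mem_map_of_mem _ hx
      have h6 := coeff_mem_of_mem_map_C' h4 k
      have h3 : (J1 (cA n (q t)) (Φ n t) (S n t)).map (ψs n) ≤ RingHom.ker (Us.ρ n) := by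
        rw [Ideal.map_le_iff_le_comap]
        exact fun x hx => hkill n t x hx
      exact h3 h6) hcon
  -- the package with one variable less
  obtain ⟨p', hp1, hp1'⟩ := exists_pack_ML O h2 r (Fin m) q Φ₀ hdet₀
    (fun t => ⟨ε t, hε t, htr₀ t⟩)
  have := p'.loc
  obtain ⟨g, -, gi, gX, gΦ, gS⟩ := p.univ p'.R p'.i (Fin.cons 0 p'.X)
    (fun j => by
      refine Fin.cases ?_ (fun j => ?_) j
      · exact zero_mem _
      · exact p'.hX j) p'.Φ p'.S p'.detΦ p'.detS p'.hΦ p'.hS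
  obtain ⟨l1, -, -, -⟩ := hp1 ⊥ (fun t => .st (ε t)) hok
  change (p'.K ⊥ (fun t => .st (ε t))).IsPrime at l1
  refine p'.not_prod_pow_le hp1 hp1' hq2 ε hε htr₀ s k hs ?_
  have hP₀ : ((p'.K ⊥ (fun t => .st (ε t))).comap g).IsPrime := Ideal.comap_isPrime _ _
  have hX0 : p.X 0 ∈ (p'.K ⊥ (fun t => .st (ε t))).comap g := by
    rw [Ideal.mem_comap, gX]
    exact zero_mem _
  have hann : Module.annihilator p.R ((Uf.frame φf hθf).Lim
      (small_frameIdeal (σ := Fin m × Fin 3) hJ)) ≤ (p'.K ⊥ (fun t => .st (ε t))).comap g := by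
    refine hM.trans ?_
    rw [← Ideal.map_le_iff_le_comap, Pack.K, map_Kid, gi]
    simp only [gΦ, gS]
    exact le_rfl
  -- universal polynomials
  have hK : ∀ {R : Type} [CommRing R] (i : O →+* R) (Φ S : Fin m → M2 R),
      ((∏ τ ∈ s, Kid (MvPolynomial.C : O →+* UP O (Fin m)) q (upΦ O (Fin m)) (upS O (Fin m)) ⊥
        (fun t => tyU (τ t))) ^ k).map (upEv i Φ S) =
      (∏ τ ∈ s, Kid i q Φ S ⊥ (fun t => tyU (τ t))) ^ k := by
    intro R _ i Φ S
    rw [Ideal.map_pow]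
    congr 1
    refine (map_prod (Ideal.mapHom (upEv i Φ S)) _ s).trans ?_
    exact Finset.prod_congr rfl fun τ _ => Kid_up i Φ S q _
  have hg : g.comp (upEv p.i p.Φ p.S) = upEv p'.i p'.Φ p'.S := by
    rw [comp_upEv, gi]
    simp only [gΦ, gS]
  rw [show (∏ τ ∈ s, p'.K ⊥ (fun t => tyU (τ t))) = ∏ τ ∈ s, Kid p'.i q p'.Φ p'.S ⊥
    (fun t => tyU (τ t)) from rfl, ← hK p'.i p'.Φ p'.S, Ideal.map_le_iff_le_comap, ← hg,
    ← Ideal.comap_comap]
  intro f hf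
  rw [Ideal.mem_comap]
  have hf' : upEv p.i p.Φ p.S f ∈ (∏ τ ∈ s, p.K ⊥ (fun t => tyU (τ t))) ^ k := by
    rw [show (∏ τ ∈ s, p.K ⊥ (fun t => tyU (τ t))) = ∏ τ ∈ s, Kid p.i q p.Φ p.S ⊥
      (fun t => tyU (τ t)) from rfl, ← hK p.i p.Φ p.S]
    exact Ideal.mem_map_of_mem _ hf
  refine UData.pstep_mem hJ ψf ψs U' Uf Us i₁ i₂ j₁ j₂ c r₁ r₂ σ hsplit hj hj₁ hj₂ hc
    (fun n => ψf n (cA n P)) T hD11 hD12 hD21 hD22 y e hye φf hθf φs hθs (p.i P) (p.X 0)
    (hP.map p.i) (fun n => hφfi n P) hφfX _ hann hX0 (upEv p.i p.Φ p.S f)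
    (fun n => upEv ((C : A n →+* MvPowerSeries (Fin m × Fin 3) (A n)).comp (cA n))
      (fun t => frM (Φ n t) t) (fun t => frM (S n t) t) f) ?_ ?_ (hsk hf')
  · intro n
    rw [← RingHom.comp_apply, ← RingHom.comp_apply, comp_upEv, comp_upEv]
    have e1 : (φf n).comp p.i = (MvPowerSeries.map (ψf n)).comp
        ((C : A n →+* MvPowerSeries (Fin m × Fin 3) (A n)).comp (cA n)) := by
      refine RingHom.ext fun o => ?_
      rw [RingHom.comp_apply, hφfi, RingHom.comp_apply, RingHom.comp_apply, map_C]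
    rw [e1]
    simp only [hφfΦ, hφfS, frM_map]
  · intro n
    rw [← RingHom.comp_apply, ← RingHom.comp_apply, comp_upEv, comp_upEv]
    have e1 : (φs n).comp p.i = (MvPowerSeries.map (ψs n)).comp
        ((C : A n →+* MvPowerSeries (Fin m × Fin 3) (A n)).comp (cA n)) := by
      refine RingHom.ext fun o => ?_
      rw [RingHom.comp_apply, hφsi, RingHom.comp_apply, RingHom.comp_apply, map_C]
    rw [e1]
    simp only [hφsΦ, hφsS, frM_map]

end Fermat.Agent.TAlg
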